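import Fermat.Agent.PT.SUnits

/-!
# The consequences of the two inequalities used by the duality theory

The structure `GlobalInputs p` lists what Poitou–Tate duality needs from class field theory:
full sets of places, the Herbrand ratio of `T`-units, the Hasse norm theorem for symbols, classes
with two prescribed bad places and unramified symbols.  It is
proved in `CFT/Bridge/GlobalInputs`.
-/

noncomputable section

namespace Fermat.Agent.PT

open Lv

variable (p : ℕ) [Fact p.Prime]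

local notation "Qb" => AlgebraicClosure ℚ

/-- The global inputs from the theory of `S`-units and the two inequalities. -/
structure GlobalInputs : Prop where
  exists_sFull : ∀ {H : Subgroup Gam}, H ∈ LG → ∀ S₀ : Finset Nat.Primes,
    ∃ S, S₀ ⊆ S ∧ H ∈ LS S ∧ SFull H (placesOver H S)
  hq_eT : ∀ {H : Subgroup Gam}, H ∈ LG → (cyc p).MuFix H → ∀ {T : Set (Plc H)}, T.Finite →
    FinHq (mulHom p (Additive (eT H T))) ∧
      hq (mulHom p (Additive (eT H T))) = (p : ℚ) ^ ((H.index / 2 + T.ncard : ℤ) - 1)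
  sym_eq_zero_of_local : ∀ {H : Subgroup Gam}, H ∈ LG → ∀ (hμ : (cyc p).MuFix H)
    (a b : ↥(Cyc.rootU p H)), (∀ v : Plc H, LocZero v (Cyc.sym H hμ a b)) →
      Cyc.sym H hμ a b = 0
  exists_pair : ∀ {H : Subgroup Gam}, H ∈ LG → ∀ (hμ : (cyc p).MuFix H) (b : ↥(Cyc.rootU p H))
    (v w : Plc H), v ≠ w → (∃ a, ¬ LocZero v (Cyc.sym H hμ a b)) →
      (∃ a, ¬ LocZero w (Cyc.sym H hμ a b)) →
      ∃ a, (∀ u, u ≠ v → u ≠ w → LocZero u (Cyc.sym H hμ a b)) ∧
        ¬ (LocZero v (Cyc.sym H hμ a b) ∧ LocZero w (Cyc.sym H hμ a b))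
  locZero_units : ∀ {H : Subgroup Gam}, H ∈ LG → ∀ (hμ : (cyc p).MuFix H) {v : Plc H},
    (v.1 : ℕ) ≠ p → ∀ a b : ↥(Cyc.rootU p H), nP v (((a : Qbˣ) ^ p : Qbˣ) : Qb) = 1 →
      nP v (((b : Qbˣ) ^ p : Qbˣ) : Qb) = 1 → LocZero v (Cyc.sym H hμ a b)

end Fermat.Agent.PT
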