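import Mathlib.Algebra.Module.LinearMap.End
import Mathlib.Data.Complex.Basic
import Mathlib.FieldTheory.Minpoly.IsIntegrallyClosed
import Mathlib.GroupTheory.Index
import Mathlib.RingTheory.Polynomial.Cyclotomic.Roots
import Mathlib.RingTheory.RootsOfUnity.Complex
import Mathlib.RingTheory.RootsOfUnity.Lemmas

/-!
# The Herbrand identity for an automorphism of prime order

For an abelian group `A` with an endomorphism `f` we put `hq f = [A : f A] / #ker f`.  If `σ` has
prime order `p` and `ker N = (1 - σ) A`, then `[A^σ : N A]^(p-1) * hq_A(p) = hq_{A^σ}(p)^p`.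
-/

noncomputable section

namespace Fermat.Agent.PT

open Polynomial

section Hq

variable {A C : Type*} [AddCommGroup A] [AddCommGroup C]

/-- `[A : f A] / #ker f`. -/
def hq (f : A →+ A) : ℚ := (f.range.index : ℚ) / Nat.card f.ker

/-- `f` has finite kernel and cokernel. -/
def FinHq (f : A →+ A) : Prop := f.range.index ≠ 0 ∧ Nat.card f.ker ≠ 0

theorem card_comap (g : A →+ C) (K : AddSubgroup C) :
    Nat.card (K.comap g) = Nat.card g.ker * Nat.card ↥(g.range ⊓ K) := by
  have h : g.ker ≤ K.comap g := fun x hx => by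
    simp [AddSubgroup.mem_comap, show g x = 0 from hx]
  rw [← AddSubgroup.relIndex_bot_left (K.comap g), ← AddSubgroup.relIndex_mul_relIndex ⊥ g.ker _
    bot_le h, AddSubgroup.relIndex_bot_left, AddSubgroup.relIndex_ker, AddSubgroup.map_comap_eq]

theorem card_eq_inf_mul_relIndex (H K : AddSubgroup A) :
    Nat.card K = Nat.card ↥(H ⊓ K) * H.relIndex K := by
  rw [← AddSubgroup.inf_relIndex_right H K, ← AddSubgroup.relIndex_bot_left (H ⊓ K),
    AddSubgroup.relIndex_mul_relIndex ⊥ _ _ bot_le inf_le_right, AddSubgroup.relIndex_bot_left]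

theorem range_comp_index (f g : A →+ A) :
    (f.comp g).range.index = (g.range ⊔ f.ker).index * f.range.index := by
  rw [AddMonoidHom.range_eq_map, ← AddSubgroup.map_map, ← AddMonoidHom.range_eq_map,
    AddSubgroup.index_map]

theorem ker_comp_card (f g : A →+ A) :
    Nat.card (f.comp g).ker = Nat.card g.ker * Nat.card ↥(g.range ⊓ f.ker) := by
  rw [← AddMonoidHom.comap_ker]
  exact card_comap g f.ker

theorem sup_index_mul (H K : AddSubgroup A) :
    H.relIndex K * (H ⊔ K).index = H.index := by
  rw [← AddSubgroup.relIndex_sup_left (H := K) (K := H)]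
  exact AddSubgroup.relIndex_mul_index le_sup_left

theorem FinHq.comp {f g : A →+ A} (hf : FinHq f) (hg : FinHq g) : FinHq (f.comp g) := by
  refine ⟨?_, ?_⟩
  · rw [range_comp_index]
    exact mul_ne_zero (fun h => hg.1 (by rw [← sup_index_mul g.range f.ker, h, mul_zero])) hf.1
  · rw [ker_comp_card]
    refine mul_ne_zero hg.2 fun h => hf.2 ?_
    rw [card_eq_inf_mul_relIndex g.range f.ker, h, zero_mul]

theorem hq_comp {f g : A →+ A} (hf : FinHq f) : hq (f.comp g) = hq f * hq g := by
  have h1 := card_eq_inf_mul_relIndex g.range f.ker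
  have h2 := sup_index_mul g.range f.ker
  have h3 : g.range.relIndex f.ker ≠ 0 := fun h => hf.2 (by rw [h1, h, mul_zero])
  rw [hq, hq, hq, range_comp_index, ker_comp_card, h1, ← h2]
  push_cast
  have h3' : (g.range.relIndex f.ker : ℚ) ≠ 0 := by exact_mod_cast h3
  field_simp

theorem hq_eq_one_of_finite [Finite A] (f : A →+ A) : hq f = 1 := by
  have h := f.range.card_mul_index
  rw [← f.ker.card_mul_index, AddSubgroup.index_ker, mul_comm (Nat.card f.ker)] at h
  have := Nat.eq_of_mul_eq_mul_left Nat.card_pos h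
  rw [hq, this, div_self]
  exact_mod_cast Nat.card_pos.ne'

theorem hq_of_bijective {f : A →+ A} (hf : Function.Bijective f) : hq f = 1 := by
  rw [hq, AddMonoidHom.range_eq_top.2 hf.2, AddSubgroup.index_top,
    (AddMonoidHom.ker_eq_bot_iff f).2 hf.1]
  simp

theorem finHq_of_bijective {f : A →+ A} (hf : Function.Bijective f) : FinHq f := by
  refine ⟨?_, ?_⟩
  · rw [AddMonoidHom.range_eq_top.2 hf.2, AddSubgroup.index_top]; exact one_ne_zero
  · rw [(AddMonoidHom.ker_eq_bot_iff f).2 hf.1]; simp

/-- Multiplication by `n`. -/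
def mulHom (n : ℕ) (A : Type*) [AddCommGroup A] : A →+ A := n • AddMonoidHom.id A

@[simp] theorem mulHom_apply (n : ℕ) (a : A) : mulHom n A a = n • a := rfl

theorem map_mulHom_range (n : ℕ) (q : A →+ C) :
    (mulHom n A).range.map q = q.range.map (mulHom n C) := by
  rw [AddMonoidHom.range_eq_map, AddMonoidHom.range_eq_map, AddSubgroup.map_map,
    AddSubgroup.map_map]
  congr 1
  ext a
  simp

theorem ker_mulHom_comap (n : ℕ) (q : A →+ C) :
    (mulHom n C).ker.comap q = q.ker.comap (mulHom n A) := by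
  ext a
  simp [AddMonoidHom.mem_ker]

/-- Multiplicativity of `hq` for multiplication by `n` along a surjection. -/
theorem hq_mulHom_exact (n : ℕ) (q : A →+ C) (hq' : Function.Surjective q) :
    ((mulHom n A).range.index : ℚ) * Nat.card (mulHom n q.ker).ker * Nat.card (mulHom n C).ker =
      (mulHom n C).range.index * (mulHom n q.ker).range.index * Nat.card (mulHom n A).ker := by
  set m := mulHom n A with hm
  set K := q.ker with hK
  -- the image of multiplication on `K` inside `A`
  have e1 : (mulHom n K).range.index = (K.map m).relIndex K := by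
    rw [← AddSubgroup.relIndex_top_right, ← AddSubgroup.relIndex_map_map_of_injective
      (f := K.subtype) _ _ K.subtype_injective, ← AddMonoidHom.range_eq_map K.subtype,
      AddSubgroup.range_subtype, map_mulHom_range n K.subtype, AddSubgroup.range_subtype]
  have e2 : Nat.card (mulHom n K).ker = Nat.card ↥(K ⊓ m.ker) := by
    have h := card_comap K.subtype m.ker
    rw [AddSubgroup.range_subtype, AddSubgroup.ker_subtype, AddSubgroup.card_bot, one_mul] at h
    rw [← h]
    congr 2
    ext a
    simp [hm, AddMonoidHom.mem_ker, AddSubgroup.mem_addSubgroupOf, Subtype.ext_iff]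
  have e3 : m.range.index = (mulHom n C).range.index * m.range.relIndex K := by
    have h := AddSubgroup.index_map (H := m.range) q
    rw [AddMonoidHom.range_eq_top.2 hq', AddSubgroup.index_top, mul_one, map_mulHom_range,
      AddMonoidHom.range_eq_top.2 hq', ← AddMonoidHom.range_eq_map] at h
    rw [h, mul_comm, hK, sup_index_mul]
  have e4 : (K.map m).relIndex K = (K ⊔ m.ker).relIndex (K.comap m) * m.range.relIndex K := by
    have hKK : K.map m ≤ K := fun x hx => by
      obtain ⟨y, hy, rfl⟩ := AddSubgroup.mem_map.1 hx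
      exact K.nsmul_mem hy n
    have hKm : K.map m ≤ m.range ⊓ K := le_inf (AddSubgroup.map_le_range m K) hKK
    have hker : m.ker ≤ K.comap m := fun x hx => by
      simp [AddSubgroup.mem_comap, show m x = 0 from hx]
    rw [← AddSubgroup.inf_relIndex_right m.range K,
      ← AddSubgroup.relIndex_mul_relIndex _ _ _ hKm inf_le_right, ← AddSubgroup.map_comap_eq,
      AddSubgroup.relIndex_map_map, sup_eq_left.2 hker]
  have e5 : Nat.card (mulHom n C).ker = K.relIndex (K.comap m) := by
    have h : Nat.card ((mulHom n C).ker.comap q |>.map q) = K.relIndex ((mulHom n C).ker.comap q) :=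
      (AddSubgroup.relIndex_ker (f := q) _).symm
    rw [AddSubgroup.map_comap_eq, AddMonoidHom.range_eq_top.2 hq', top_inf_eq,
      ker_mulHom_comap] at h
    exact h
  have e6 : K.relIndex (K.comap m) = K.relIndex m.ker * (K ⊔ m.ker).relIndex (K.comap m) := by
    have hK1 : K ≤ K.comap m := fun x hx => K.nsmul_mem hx n
    have hker : m.ker ≤ K.comap m := fun x hx => by
      simp [AddSubgroup.mem_comap, show m x = 0 from hx]
    rw [← AddSubgroup.relIndex_sup_left (H := m.ker) (K := K)]
    exact (AddSubgroup.relIndex_mul_relIndex _ _ _ le_sup_left (sup_le hK1 hker)).symm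
  have e7 := card_eq_inf_mul_relIndex K m.ker
  rw [e1, e2, e5, e3, e4, e6, e7]
  push_cast
  ring

theorem hq_mulHom_mul (n : ℕ) (q : A →+ C) (hq' : Function.Surjective q)
    (hA : FinHq (mulHom n A)) (hK : FinHq (mulHom n q.ker)) (hC : FinHq (mulHom n C)) :
    hq (mulHom n A) = hq (mulHom n q.ker) * hq (mulHom n C) := by
  have h := hq_mulHom_exact n q hq'
  have : (Nat.card (mulHom n A).ker : ℚ) ≠ 0 := by exact_mod_cast hA.2
  have : (Nat.card (mulHom n q.ker).ker : ℚ) ≠ 0 := by exact_mod_cast hK.2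
  have : (Nat.card (mulHom n C).ker : ℚ) ≠ 0 := by exact_mod_cast hC.2
  rw [hq, hq, hq]
  field_simp
  linear_combination h

theorem hq_mulHom_congr (n : ℕ) (e : A ≃+ C) :
    (FinHq (mulHom n A) → FinHq (mulHom n C)) ∧ hq (mulHom n A) = hq (mulHom n C) := by
  have hk : Nat.card (mulHom n A).ker = Nat.card (mulHom n C).ker :=
    Nat.card_congr (e.toEquiv.subtypeEquiv fun a => by
      simp [AddMonoidHom.mem_ker, ← map_nsmul])
  have hr : (mulHom n A).range.index = (mulHom n C).range.index := by
    rw [← AddSubgroup.index_map_of_bijective (f := e.toAddMonoidHom) e.bijective,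
      map_mulHom_range, AddMonoidHom.range_eq_top.2 (show Function.Surjective e.toAddMonoidHom from
        e.surjective), ← AddMonoidHom.range_eq_map]
  rw [hq, hq, FinHq, FinHq, hk, hr]
  exact ⟨id, rfl⟩

theorem card_ker_mulHom_subgroup (n : ℕ) (H : AddSubgroup A) (h : Nat.card (mulHom n A).ker ≠ 0) :
    Nat.card (mulHom n H).ker ≠ 0 := by
  have : Finite (mulHom n A).ker := Nat.finite_of_card_ne_zero h
  have : Finite (mulHom n H).ker := Finite.of_injective
    (fun a => (⟨((a : H) : A), by
      have h' := congrArg (fun x : H => (x : A)) (show mulHom n H (a : H) = 0 from a.2)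
      exact AddMonoidHom.mem_ker.2 h'⟩ : (mulHom n A).ker))
    fun a b h => by simpa using h
  exact Nat.card_pos.ne'

theorem FinHq.ker_of_finite (n : ℕ) (q : A →+ C) (hq' : Function.Surjective q) [Finite C]
    (hA : FinHq (mulHom n A)) : FinHq (mulHom n q.ker) := by
  refine ⟨fun h => ?_, card_ker_mulHom_subgroup n _ hA.2⟩
  have := hq_mulHom_exact n q hq'
  rw [h, Nat.cast_zero, mul_zero, zero_mul, mul_eq_zero, mul_eq_zero, Nat.cast_eq_zero,
    Nat.cast_eq_zero, Nat.cast_eq_zero] at this
  rcases this with (h' | h') | h'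
  · exact hA.1 h'
  · exact card_ker_mulHom_subgroup n _ hA.2 h'
  · exact Nat.card_pos.ne' h'

end Hq

section Identity

/-- An additive endomorphism, as a homomorphism. -/
def endHom {A : Type*} [AddCommGroup A] (f : AddMonoid.End A) : A →+ A :=
  AddMonoidHom.mk' f (map_add f)

@[simp] theorem endHom_apply {A : Type*} [AddCommGroup A] (f : AddMonoid.End A) (a : A) :
    endHom f a = f a := rfl

theorem endHom_mul {A : Type*} [AddCommGroup A] (f g : AddMonoid.End A) :
    endHom (f * g) = (endHom f).comp (endHom g) := rfl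

theorem prod_one_sub_pow_sub_dvd (p : ℕ) [Fact p.Prime] :
    (∑ i ∈ Finset.range p, (X : ℤ[X]) ^ i) ∣
      (∏ i ∈ Finset.range (p - 1), (1 - (X : ℤ[X]) ^ (i + 1))) - (p : ℤ[X]) := by
  have hp : p.Prime := Fact.out
  have hμ := Complex.isPrimitiveRoot_exp p hp.ne_zero
  rw [← Polynomial.cyclotomic_prime ℤ p, Polynomial.cyclotomic_eq_minpoly hμ hp.pos]
  refine minpoly.isIntegrallyClosed_dvd (hμ.isIntegral hp.pos) ?_
  have hp1 : p - 1 + 1 = p := Nat.sub_add_cancel hp.one_le
  rw [← hp1] at hμ
  have := hμ.prod_one_sub_pow_eq_order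
  rw [hp1] at this
  simp only [map_sub, map_prod, map_pow, map_one, map_natCast, Polynomial.aeval_X]
  rw [this]
  push_cast [hp.one_le]
  ring

variable {A : Type*} [AddCommGroup A] {p : ℕ} [Fact p.Prime] (σ : AddMonoid.End A)

theorem geom_inverse {R : Type*} [CommRing R] (x : R) (hx : ∑ l ∈ Finset.range p, x ^ l = 0)
    (i : ℕ) (hi : ¬ p ∣ i) :
    ∃ j, (∑ l ∈ Finset.range i, x ^ l) * (∑ l ∈ Finset.range j, (x ^ i) ^ l) = 1 := by
  have hp : p.Prime := Fact.out
  obtain ⟨j, -, hj⟩ : ∃ j < p, i * j % p = 1 := by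
    have := Nat.exists_mul_mod_eq_one_of_coprime
      ((Nat.coprime_comm.1 ((hp.coprime_iff_not_dvd).2 hi))) hp.one_lt
    obtain ⟨j, hj, hj'⟩ := this
    exact ⟨j, hj, hj'⟩
  refine ⟨j, ?_⟩
  have key : (∑ l ∈ Finset.range i, x ^ l) * (∑ l ∈ Finset.range j, (x ^ i) ^ l) =
      ∑ l ∈ Finset.range (i * j), x ^ l := by
    clear hj
    induction j with
    | zero => simp
    | succ j ih =>
      rw [Finset.sum_range_succ, mul_add, ih, Nat.mul_succ, Finset.sum_range_add, Finset.sum_mul]
      congr 1
      refine Finset.sum_congr rfl fun l _ => ?_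
      rw [← pow_mul, ← pow_add, add_comm (i * j)]
  rw [key, ← Nat.div_add_mod (i * j) p, hj, Finset.sum_range_add, Finset.sum_range_one, add_zero]
  have hxp : x ^ p = 1 := by
    have := geom_sum_mul x p
    rw [hx, zero_mul] at this
    exact sub_eq_zero.1 this.symm
  have : ∑ l ∈ Finset.range (p * (i * j / p)), x ^ l = 0 := by
    induction i * j / p with
    | zero => simp
    | succ m ih =>
      rw [Nat.mul_succ, Finset.sum_range_add, ih, zero_add]
      simp only [pow_add, pow_mul, hxp, one_pow, one_mul, hx]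
  rw [this, zero_add, pow_mul, hxp, one_pow]

theorem aeval_eq_zero_of_dvd {R : Type*} [Ring R] (x : R) {a b : ℤ[X]} (h : a ∣ b)
    (ha : aeval x a = 0) : aeval x b = 0 := by
  obtain ⟨c, rfl⟩ := h
  rw [map_mul, ha, zero_mul]

theorem geom_unit {R : Type*} [Ring R] (x : R) (hx : ∑ l ∈ Finset.range p, x ^ l = 0) (i : ℕ)
    (hi : ¬ p ∣ i) : IsUnit (∑ l ∈ Finset.range i, x ^ l) := by
  let S := Subring.closure ({x} : Set R)
  have hS : IsMulCommutative S := Subring.isMulCommutative_closure (by
    intro a ha b hb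
    rw [Set.mem_singleton_iff] at ha hb
    rw [ha, hb])
  let : CommRing S := { (inferInstance : Ring S) with mul_comm := mul_comm' }
  let y : S := ⟨x, Subring.subset_closure rfl⟩
  have hy : ∑ l ∈ Finset.range p, y ^ l = 0 := Subtype.ext (by simpa [y] using hx)
  obtain ⟨j, hj⟩ := geom_inverse y hy i hi
  exact (IsUnit.of_mul_eq_one _ hj).map (S.subtype) |> fun h => by simpa [y] using h

theorem End.bijective_of_isUnit {u : AddMonoid.End A} (h : IsUnit u) : Function.Bijective u := by
  obtain ⟨⟨u, v, huv, hvu⟩, rfl⟩ := h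
  exact ⟨Function.LeftInverse.injective fun a => DFunLike.congr_fun hvu a,
    Function.RightInverse.surjective fun a => DFunLike.congr_fun huv a⟩

/-- On a group killed by the norm, multiplication by `p` has `hq` equal to that of `1 - σ` to the
power `p - 1`. -/
theorem hq_mulHom_of_norm_eq_zero (hσ : ∑ l ∈ Finset.range p, σ ^ l = 0)
    (hfin : FinHq (endHom (1 - σ))) :
    FinHq (mulHom p A) ∧ hq (mulHom p A) = hq (endHom (1 - σ)) ^ (p - 1) := by
  have hp : p.Prime := Fact.out
  have h1 : ∏ i ∈ Finset.range (p - 1), (1 - (X : ℤ[X]) ^ (i + 1)) =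
      (1 - X) ^ (p - 1) *
        ∏ i ∈ Finset.range (p - 1), ∑ l ∈ Finset.range (i + 1), (X : ℤ[X]) ^ l := by
    rw [Finset.pow_eq_prod_const, ← Finset.prod_mul_distrib]
    exact Finset.prod_congr rfl fun i _ => by rw [mul_comm, geom_sum_mul_neg]
  have h2 := aeval_eq_zero_of_dvd σ (prod_one_sub_pow_sub_dvd p) (by simp [map_sum, hσ])
  rw [h1, map_sub, sub_eq_zero, map_mul, map_natCast, map_pow, map_sub, map_one,
    Polynomial.aeval_X] at h2
  set u := aeval σ (∏ i ∈ Finset.range (p - 1), ∑ l ∈ Finset.range (i + 1), (X : ℤ[X]) ^ l) with hu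
  have huu : IsUnit u := by
    rw [hu]
    clear h1 h2 hu u
    suffices ∀ k ≤ p - 1,
        IsUnit (aeval σ (∏ i ∈ Finset.range k, ∑ l ∈ Finset.range (i + 1), (X : ℤ[X]) ^ l)) from
      this _ le_rfl
    intro k hk
    induction k with
    | zero => simp
    | succ k ih =>
      rw [Finset.prod_range_succ, map_mul]
      refine (ih (by omega)).mul ?_
      simp only [map_sum, map_pow, Polynomial.aeval_X]
      exact geom_unit σ hσ _ fun h => by have := Nat.le_of_dvd k.succ_pos h; omega
  have hub := End.bijective_of_isUnit huu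
  have hpow : ∀ k, FinHq (endHom ((1 - σ) ^ k)) ∧
      hq (endHom ((1 - σ) ^ k)) =
        hq (endHom (1 - σ)) ^ k := by
    intro k
    induction k with
    | zero => exact ⟨finHq_of_bijective Function.bijective_id,
        by rw [pow_zero, pow_zero]; exact hq_of_bijective Function.bijective_id⟩
    | succ k ih =>
      rw [pow_succ, endHom_mul]
      exact ⟨ih.1.comp hfin, by rw [hq_comp ih.1, ih.2, pow_succ]⟩
  obtain ⟨hf, hv⟩ := hpow (p - 1)
  have e : mulHom p A = (endHom ((1 - σ) ^ (p - 1))).comp (endHom u) := by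
    rw [← endHom_mul, h2]
    ext a
    simp
  rw [e]
  exact ⟨hf.comp (finHq_of_bijective hub), by
    rw [hq_comp hf, hv, hq_of_bijective (f := endHom u) hub, mul_one]⟩

variable {σ}

/-- The Herbrand identity. -/
theorem herbrand (hσ : σ ^ p = 1) (G₀ : AddSubgroup A) (hG₀ : ∀ a, a ∈ G₀ ↔ σ a = a)
    (N : A →+ A) (hN : ∀ a, N a = ∑ i ∈ Finset.range p, (σ ^ i) a)
    (h90 : ∀ a, N a = 0 → ∃ b, a = b - σ b)
    (hA : FinHq (mulHom p A)) (hG : FinHq (mulHom p G₀)) :
    N.range.relIndex G₀ ≠ 0 ∧
      (N.range.relIndex G₀ : ℚ) ^ (p - 1) * hq (mulHom p A) = hq (mulHom p G₀) ^ p := by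
  have hp : p.Prime := Fact.out
  have hσN : ∀ a, σ (N a) = N a := fun a => by
    rw [hN, map_sum]
    have h1 := Finset.sum_range_succ' (fun i => (σ ^ i) a) p
    rw [Finset.sum_range_succ, hσ] at h1
    have e : ∀ i, σ ((σ ^ i) a) = (σ ^ (i + 1)) a := fun i => by rw [pow_succ']; rfl
    rw [Finset.sum_congr rfl fun i _ => e i]
    exact (add_right_cancel h1).symm
  have hNσ : ∀ a, N (σ a) = N a := fun a => by
    rw [← hσN a, hN, hN, map_sum]
    exact Finset.sum_congr rfl fun i _ => by
      show (σ ^ i * σ) a = (σ * σ ^ i) a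
      rw [← pow_succ, ← pow_succ']
  have hfix : ∀ a ∈ G₀, N a = p • a := fun a ha => by
    rw [hG₀] at ha
    rw [hN, Finset.sum_eq_card_nsmul (b := a), Finset.card_range]
    intro i hi
    clear hi
    induction i with
    | zero => rfl
    | succ i ih => rw [pow_succ]; show (σ ^ i) (σ a) = a; rw [ha, ih]
  have hle : N.range ≤ G₀ := by rintro _ ⟨a, rfl⟩; exact (hG₀ _).2 (hσN a)
  have hpG : (mulHom p G₀).range.index = (G₀.map (mulHom p A)).relIndex G₀ := by
    rw [← AddSubgroup.relIndex_top_right, ← AddSubgroup.relIndex_map_map_of_injective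
      (f := G₀.subtype) _ _ G₀.subtype_injective, ← AddMonoidHom.range_eq_map G₀.subtype,
      AddSubgroup.range_subtype, map_mulHom_range p G₀.subtype, AddSubgroup.range_subtype]
  have hNG : G₀.map N = G₀.map (mulHom p A) := by
    ext x
    simp only [AddSubgroup.mem_map]
    constructor <;> rintro ⟨a, ha, rfl⟩ <;> exact ⟨a, ha, by simp [hfix a ha]⟩
  have hsplit : (G₀.map N).relIndex N.range * N.range.relIndex G₀ = (mulHom p G₀).range.index := by
    rw [hpG, ← hNG, AddSubgroup.relIndex_mul_relIndex _ _ _ (AddSubgroup.map_le_range N G₀) hle]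
  set i := N.range.relIndex G₀ with hi
  have hi0 : i ≠ 0 := fun h => hG.1 (by rw [← hsplit, h, mul_zero])
  refine ⟨hi0, ?_⟩
  -- the norm kernel, with the endomorphism `1 - σ`
  let K := N.ker
  let σK : AddMonoid.End K :=
    AddMonoidHom.mk' (fun a => ⟨σ a, show N (σ a) = 0 by rw [hNσ]; exact a.2⟩)
      (fun a b => Subtype.ext (map_add σ _ _))
  have hσKpow : ∀ (l : ℕ) (a : K), ((σK ^ l) a : A) = (σ ^ l) a := fun l => by
    induction l with
    | zero => intro a; rfl
    | succ l ih => intro a; rw [pow_succ, pow_succ]; exact ih (σK a)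
  have hσK : ∑ l ∈ Finset.range p, σK ^ l = 0 := by
    ext a
    have : N a = 0 := a.2
    rw [hN] at this
    let ev : AddMonoid.End K →+ A := AddMonoidHom.mk' (fun f => (f a : A)) fun f g => rfl
    show ev (∑ l ∈ Finset.range p, σK ^ l) = ev 0
    rw [map_sum, map_zero]
    exact (Finset.sum_congr rfl fun l _ => hσKpow l a).trans this
  set π : K →+ K := endHom (1 - σK) with hπ
  let π' : A →+ A := AddMonoidHom.id A - endHom σ
  have hπ' : ∀ a, π' a = a - σ a := fun a => rfl
  have hπc : K.subtype.comp π = π'.comp K.subtype := by ext a; rfl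
  have hπG : π'.ker = G₀ := by
    ext a
    rw [AddMonoidHom.mem_ker, hπ', sub_eq_zero, hG₀]
    exact eq_comm
  have hπK : π'.range = K := by
    ext a
    constructor
    · rintro ⟨b, rfl⟩
      show N (π' b) = 0
      rw [hπ', map_sub, hNσ, sub_self]
    · exact fun ha => (h90 a ha).imp fun b hb => hb.symm
  have hπi : π.range.index = (G₀.map N).relIndex N.range := by
    have e : π.range.map K.subtype = K.map π' := by
      rw [AddMonoidHom.range_eq_map, AddSubgroup.map_map, hπc, ← AddSubgroup.map_map,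
        ← AddMonoidHom.range_eq_map, AddSubgroup.range_subtype]
    rw [← AddSubgroup.relIndex_top_right, ← AddSubgroup.relIndex_map_map_of_injective
      (f := K.subtype) _ _ K.subtype_injective, ← AddMonoidHom.range_eq_map K.subtype,
      AddSubgroup.range_subtype, e]
    conv_lhs => rw [← hπK, AddMonoidHom.range_eq_map π', AddSubgroup.relIndex_map_map, hπG,
      top_sup_eq, AddSubgroup.relIndex_top_right]
    rw [AddMonoidHom.range_eq_map N, AddSubgroup.relIndex_map_map, top_sup_eq,
      AddSubgroup.relIndex_top_right, sup_comm, ← AddMonoidHom.range_eq_map, hπK]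
  have hπk : Nat.card π.ker = Nat.card (mulHom p G₀).ker := by
    have h1 : π.ker = π'.ker.comap K.subtype := by
      rw [AddMonoidHom.comap_ker, ← hπc, ← AddMonoidHom.comap_ker]
      ext a
      simp [AddMonoidHom.mem_ker]
    rw [h1, card_comap, AddSubgroup.ker_subtype, AddSubgroup.card_bot, one_mul,
      AddSubgroup.range_subtype, hπG]
    have h2 := card_comap G₀.subtype (mulHom p A).ker
    rw [AddSubgroup.range_subtype, AddSubgroup.ker_subtype, AddSubgroup.card_bot, one_mul] at h2
    rw [show (mulHom p G₀).ker = (mulHom p A).ker.comap G₀.subtype by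
      ext a; simp [AddMonoidHom.mem_ker, AddSubgroup.mem_addSubgroupOf, Subtype.ext_iff], h2,
      inf_comm]
    congr 2
    ext a
    constructor <;> rintro ⟨ha, h⟩ <;> refine ⟨ha, ?_⟩
    · show p • a = 0
      rw [← hfix a ha]; exact h
    · show N a = 0
      rw [hfix a ha]; exact h
  have hπfin : FinHq π := ⟨fun h => hG.1 (by rw [← hsplit, ← hπi, h, zero_mul]), hπk ▸ hG.2⟩
  obtain ⟨hKfin, hKval⟩ := hq_mulHom_of_norm_eq_zero σK hσK hπfin
  have hval : hq π * i = hq (mulHom p G₀) := by
    rw [hq, hq, hπi, hπk, ← hsplit]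
    push_cast
    ring
  -- the image of the norm
  let q := N.rangeRestrict
  have hqs : Function.Surjective q := N.rangeRestrict_surjective
  let r := QuotientAddGroup.mk' (N.range.addSubgroupOf G₀)
  have : Finite (G₀ ⧸ N.range.addSubgroupOf G₀) := Nat.finite_of_card_ne_zero hi0
  have hrfin : FinHq (mulHom p (G₀ ⧸ N.range.addSubgroupOf G₀)) :=
    ⟨AddSubgroup.FiniteIndex.index_ne_zero, Nat.card_pos.ne'⟩
  let e : r.ker ≃+ N.range :=
    (AddEquiv.addSubgroupCongr (QuotientAddGroup.ker_mk' _)).trans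
      (AddSubgroup.addSubgroupOfEquivOfLe hle)
  have hrker : FinHq (mulHom p r.ker) :=
    FinHq.ker_of_finite p r (QuotientAddGroup.mk'_surjective _) hG
  have hC : FinHq (mulHom p N.range) ∧ hq (mulHom p N.range) = hq (mulHom p r.ker) :=
    ⟨(hq_mulHom_congr p e).1 hrker, (hq_mulHom_congr p e).2.symm⟩
  have hG' := hq_mulHom_mul p r (QuotientAddGroup.mk'_surjective _) hG hrker hrfin
  rw [hq_eq_one_of_finite (mulHom p (G₀ ⧸ N.range.addSubgroupOf G₀)), mul_one, ← hC.2] at hG'
  have hker : q.ker = K := N.ker_rangeRestrict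
  have hA' := hq_mulHom_mul p q hqs hA (by rw [hker]; exact hKfin) hC.1
  rw [hker, hKval, ← hπ, ← hG'] at hA'
  rw [hA', ← hval]
  obtain ⟨m, hm⟩ : ∃ m, p = m + 1 := ⟨p - 1, (Nat.sub_add_cancel hp.one_le).symm⟩
  subst hm
  rw [Nat.add_sub_cancel]
  ring

end Identity

end Fermat.Agent.PT
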