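import Mathlib.Algebra.BigOperators.Intervals
import Mathlib.Algebra.Ring.GeomSum
import Mathlib.Analysis.Normed.Field.Lemmas
import Mathlib.Analysis.Normed.Group.Ultra
import Mathlib.Analysis.Normed.Ring.Ultra
import Mathlib.Tactic.FieldSimp
import Mathlib.Tactic.Linarith
import Mathlib.Tactic.LinearCombination
import Mathlib.Tactic.Positivity
import Mathlib.Topology.MetricSpace.Contracting

/-!
# The `p`-th power map on `1 + cO` in a complete ultrametric field

For odd `p` and `‖c‖ ≤ ‖p‖`, `‖c‖ < 1`, the normalised `p`-th power map differs from the identity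
by a contraction, hence is bijective on the unit ball: the `p`-th powers of `1 + cO` fill `1 + pcO`.
Used to count local units modulo `p`-th powers.
-/

noncomputable section

namespace Fermat.Agent.PT

open Finset NNReal

variable {K : Type*} [NormedField K] [IsUltrametricDist K] (p : ℕ) (c : K)

theorem norm_add₃_le {x y z : K} {a : ℝ} (hx : ‖x‖ ≤ a) (hy : ‖y‖ ≤ a) (hz : ‖z‖ ≤ a) :
    ‖x + y + z‖ ≤ a :=
  (IsUltrametricDist.norm_add_le_max _ _).trans
    (max_le ((IsUltrametricDist.norm_add_le_max _ _).trans (max_le hx hy)) hz)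

theorem norm_sub_le_max' (x y : K) : ‖x - y‖ ≤ max ‖x‖ ‖y‖ := by
  simpa [sub_eq_add_neg] using IsUltrametricDist.norm_add_le_max x (-y)

/-- An element closer to `a` than `‖a‖` has the same norm as `a`. -/
theorem norm_eq_of_norm_sub_lt {x a : K} (h : ‖x - a‖ < ‖a‖) : ‖x‖ = ‖a‖ := by
  rw [← sub_add_cancel x a, IsUltrametricDist.norm_add_eq_max_of_norm_ne_norm h.ne,
    max_eq_right h.le]

theorem exists_expansion {y : K} (hy : ‖y‖ ≤ 1) (hc : ‖c‖ ≤ 1) (n : ℕ) :
    ∃ t : K, ‖t‖ ≤ ‖c‖ ^ 2 ∧ (1 + c * y) ^ n = 1 + c * (n * y) + t := by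
  induction n with
  | zero => exact ⟨0, by simp, by simp⟩
  | succ n ih =>
    obtain ⟨t, ht, e⟩ := ih
    refine ⟨c ^ 2 * (n * y * y) + t + t * (c * y), ?_, by rw [pow_succ, e]; push_cast; ring⟩
    have h1 : ‖c ^ 2 * (n * y * y)‖ ≤ ‖c‖ ^ 2 := by
      rw [norm_mul, norm_pow, norm_mul, norm_mul]
      exact mul_le_of_le_one_right (sq_nonneg _) (mul_le_one₀ (mul_le_one₀
        (IsUltrametricDist.norm_natCast_le_one K n) (norm_nonneg _) hy) (norm_nonneg _) hy)
    have h2 : ‖t * (c * y)‖ ≤ ‖c‖ ^ 2 := by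
      rw [norm_mul, norm_mul]
      exact le_trans (mul_le_of_le_one_right (norm_nonneg _)
        (mul_le_one₀ hc (norm_nonneg _) hy)) ht
    exact norm_add₃_le (a := ‖c‖ ^ 2) h1 ht h2

/-- The normalised power map. -/
def powFun (y : K) : K := ((1 + c * y) ^ p - 1) / (p * c)

variable {p c}

/-- The normalised power map differs from the identity by a contraction. -/
theorem norm_powFun_sub (hp : Odd p) (hc0 : c ≠ 0) (hpK : (p : K) ≠ 0) (hcp : ‖c‖ ≤ ‖(p : K)‖)
    {y y' : K} (hy : ‖y‖ ≤ 1) (hy' : ‖y'‖ ≤ 1) :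
    ‖powFun p c y - powFun p c y' - (y - y')‖ ≤ ‖c‖ * ‖y - y'‖ := by
  obtain ⟨m, hm⟩ := hp
  have hc1 : ‖c‖ ≤ 1 := hcp.trans (IsUltrametricDist.norm_natCast_le_one K p)
  have hG := geom_sum₂_mul (1 + c * y) (1 + c * y') p
  set S := ∑ i ∈ range p, (1 + c * y) ^ i * (1 + c * y') ^ (p - 1 - i) with hS
  have hdiv : powFun p c y - powFun p c y' - (y - y') = (S - p) / p * (y - y') := by
    rw [powFun, powFun]
    field_simp
    linear_combination -hG
  rw [hdiv, norm_mul, norm_div]
  refine mul_le_mul_of_nonneg_right ((div_le_iff₀ (norm_pos_iff.2 hpK)).2 ?_) (norm_nonneg _)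
  choose t ht et using fun i => exists_expansion c hy hc1 i
  choose t' ht' et' using fun i => exists_expansion c hy' hc1 i
  have hterm : ∀ i, ∃ T : K, ‖T‖ ≤ ‖c‖ * ‖(p : K)‖ ∧
      (1 + c * y) ^ i * (1 + c * y') ^ (p - 1 - i) =
        1 + c * ((i : K) * y + ((p - 1 - i : ℕ) : K) * y') + T := by
    intro i
    set j := p - 1 - i
    refine ⟨c ^ 2 * ((i : K) * y * ((j : K) * y')) + t i * (1 + c * y') ^ j +
      t' j * (1 + c * ((i : K) * y)), ?_, ?_⟩
    · have hle : ‖c‖ ^ 2 ≤ ‖c‖ * ‖(p : K)‖ := by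
        rw [sq]; exact mul_le_mul_of_nonneg_left hcp (norm_nonneg _)
      have hu : ∀ z : K, ‖z‖ ≤ 1 → ‖1 + c * z‖ ≤ 1 := fun z hz =>
        (IsUltrametricDist.norm_add_le_max _ _).trans (max_le (le_of_eq norm_one) (by
          rw [norm_mul]; exact mul_le_one₀ hc1 (norm_nonneg _) hz))
      have hn : ∀ (n : ℕ) (z : K), ‖z‖ ≤ 1 → ‖(n : K) * z‖ ≤ 1 := fun n z hz => by
        rw [norm_mul]
        exact mul_le_one₀ (IsUltrametricDist.norm_natCast_le_one K n) (norm_nonneg _) hz
      refine le_trans (norm_add₃_le (a := ‖c‖ ^ 2) ?_ ?_ ?_) hle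
      · rw [norm_mul, norm_pow, norm_mul]
        exact mul_le_of_le_one_right (sq_nonneg _)
          (mul_le_one₀ (hn i y hy) (norm_nonneg _) (hn j y' hy'))
      · rw [norm_mul, norm_pow]
        exact (mul_le_of_le_one_right (norm_nonneg _)
          (pow_le_one₀ (norm_nonneg _) (hu y' hy'))).trans (ht i)
      · rw [norm_mul]
        exact (mul_le_of_le_one_right (norm_nonneg _) (hu _ (hn i y hy))).trans (ht' j)
    · rw [et i, et' j]; ring
  choose T hT eT using hterm
  have hsum : ∑ i ∈ range p, ((i : K) * y + ((p - 1 - i : ℕ) : K) * y') =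
      (p : K) * m * (y + y') := by
    have h1 : ∑ i ∈ range p, (i : ℕ) = p * m := by
      have := Finset.sum_range_id_mul_two p
      rw [show p - 1 = 2 * m by omega] at this
      linarith [this]
    have h2 : ∑ i ∈ range p, (p - 1 - i) = p * m := by
      rw [Finset.sum_range_reflect (fun i => i) p, h1]
    rw [sum_add_distrib, ← sum_mul, ← sum_mul, ← Nat.cast_sum, ← Nat.cast_sum, h1, h2]
    push_cast; ring
  have hSp : S - p = c * ((p : K) * m * (y + y')) + ∑ i ∈ range p, T i := by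
    rw [hS, sum_congr rfl fun i _ => eT i, sum_add_distrib, sum_add_distrib, ← mul_sum, hsum]
    simp only [sum_const, card_range, nsmul_eq_mul, mul_one]
    ring
  rw [hSp]
  refine (IsUltrametricDist.norm_add_le_max _ _).trans (max_le ?_ ?_)
  · rw [norm_mul, norm_mul, norm_mul]
    refine mul_le_mul_of_nonneg_left (mul_le_of_le_one_right (by positivity) ?_) (norm_nonneg _)
      |>.trans (mul_le_mul_of_nonneg_left (mul_le_of_le_one_right (norm_nonneg _)
        (IsUltrametricDist.norm_natCast_le_one K m)) (norm_nonneg _))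
    exact (IsUltrametricDist.norm_add_le_max _ _).trans (max_le hy hy')
  · exact IsUltrametricDist.norm_sum_le_of_forall_le_of_nonneg (by positivity) fun i _ => hT i

variable (hp : Odd p) (hc0 : c ≠ 0) (hpK : (p : K) ≠ 0) (hcp : ‖c‖ ≤ ‖(p : K)‖) (hc : ‖c‖ < 1)
include hp hc0 hpK hcp hc

theorem norm_powFun {y : K} (hy : ‖y‖ ≤ 1) : ‖powFun p c y‖ = ‖y‖ := by
  have h := norm_powFun_sub hp hc0 hpK hcp hy (y' := 0) (by simp)
  rw [show powFun p c 0 = (0 : K) by simp [powFun]] at h
  simp only [sub_zero] at h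
  rcases eq_or_ne y 0 with rfl | hy0
  · simp [powFun]
  · have hlt : ‖powFun p c y - y‖ < ‖y‖ :=
      h.trans_lt (mul_lt_of_lt_one_left (norm_pos_iff.2 hy0) hc)
    exact norm_eq_of_norm_sub_lt hlt

theorem powFun_injective {y y' : K} (hy : ‖y‖ ≤ 1) (hy' : ‖y'‖ ≤ 1)
    (h : powFun p c y = powFun p c y') : y = y' := by
  have h' := norm_powFun_sub hp hc0 hpK hcp hy hy'
  rw [h, sub_self, zero_sub, norm_neg] at h'
  by_contra hne
  exact absurd h' (not_le.2 (mul_lt_of_lt_one_left (norm_pos_iff.2 (sub_ne_zero.2 hne)) hc))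

theorem powFun_surjective [CompleteSpace K] {z : K} (hz : ‖z‖ ≤ 1) :
    ∃ y : K, ‖y‖ ≤ 1 ∧ powFun p c y = z := by
  let B : Set K := Metric.closedBall 0 1
  have hB : IsComplete B := Metric.isClosed_closedBall.isComplete
  have hmaps : Set.MapsTo (fun y => z - (powFun p c y - y)) B B := by
    intro y hy
    have hy' : ‖y‖ ≤ 1 := by simpa [B] using hy
    simp only [B, Metric.mem_closedBall, dist_zero_right]
    refine (norm_sub_le_max' _ _).trans (max_le hz ?_)
    refine (norm_sub_le_max' _ _).trans (max_le ?_ hy')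
    rw [norm_powFun hp hc0 hpK hcp hc hy']; exact hy'
  have hcon : ContractingWith ‖c‖₊ (hmaps.restrict (fun y => z - (powFun p c y - y)) B B) := by
    refine ⟨by exact_mod_cast hc, LipschitzWith.of_dist_le_mul fun a b => ?_⟩
    have ha : ‖(a : K)‖ ≤ 1 := mem_closedBall_zero_iff.1 a.2
    have hb : ‖(b : K)‖ ≤ 1 := mem_closedBall_zero_iff.1 b.2
    rw [Subtype.dist_eq, Subtype.dist_eq, dist_eq_norm, dist_eq_norm, coe_nnnorm]
    have h := norm_powFun_sub hp hc0 hpK hcp ha hb
    rw [← norm_neg] at h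
    refine le_of_eq_of_le (congrArg norm ?_) h
    rw [Set.MapsTo.val_restrict_apply, Set.MapsTo.val_restrict_apply]
    ring
  obtain ⟨y, hyB, hy, -⟩ := hcon.exists_fixedPoint' hB hmaps (show (0 : K) ∈ B by simp [B])
    (edist_ne_top _ _)
  refine ⟨y, by simpa [B] using hyB, ?_⟩
  have : z - (powFun p c y - y) = y := hy
  linear_combination -this

omit [IsUltrametricDist K] hp hcp hc in
theorem one_add_pow_eq (y : K) : (1 + c * y) ^ p = 1 + p * c * powFun p c y := by
  rw [powFun, mul_div_cancel₀ _ (mul_ne_zero hpK hc0)]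
  ring

end Fermat.Agent.PT
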