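import Mathlib.Analysis.Normed.Module.FiniteDimension
import Mathlib.Data.ZMod.QuotientGroup
import Mathlib.FieldTheory.IntermediateField.Adjoin.Basic
import Mathlib.GroupTheory.Archimedean
import Mathlib.NumberTheory.Padics.Complex
import Mathlib.NumberTheory.Padics.ProperSpace
import Mathlib.NumberTheory.Padics.RingHoms
import Mathlib.RingTheory.RootsOfUnity.Basic
import Fermat.Agent.PT.Herbrand
import Fermat.Agent.PT.PowMap

/-!
# `p`-th powers in the multiplicative group of a finite extension of `ℚ_q`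

For a finite extension `K` of `ℚ_q` and an odd prime `p`, the Herbrand ratio of `x ↦ x ^ p` on
`Kˣ` is `p` times the degree factor (`hq_localUnits`).  This is the count behind the local norm
index in `LocalField`.
-/

noncomputable section

namespace Fermat.Agent.PT

open Metric

/-- `FinHq` for multiplication by `n` passes from the kernel and the target of a surjection to its
source, given a finite kernel there. -/
theorem finHq_of_exact {A C : Type*} [AddCommGroup A] [AddCommGroup C] (n : ℕ) (f : A →+ C)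
    (hf : Function.Surjective f) (hA : Nat.card (mulHom n A).ker ≠ 0)
    (hK : FinHq (mulHom n f.ker)) (hC : FinHq (mulHom n C)) : FinHq (mulHom n A) := by
  refine ⟨fun h => ?_, hA⟩
  have := hq_mulHom_exact n f hf
  rw [h, Nat.cast_zero, zero_mul, zero_mul, eq_comm, mul_eq_zero, mul_eq_zero, Nat.cast_eq_zero,
    Nat.cast_eq_zero, Nat.cast_eq_zero] at this
  rcases this with (h' | h') | h'
  · exact hC.1 h'
  · exact hK.1 h'
  · exact hA h'

/-- Multiplication by `n` has trivial kernel on a group without `n`-torsion. -/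
theorem card_ker_mulHom_eq_one {A : Type*} [AddCommGroup A] (n : ℕ)
    (h : ∀ a : A, n • a = 0 → a = 0) : Nat.card (mulHom n A).ker = 1 := by
  rw [(AddMonoidHom.ker_eq_bot_iff _).2 ((injective_iff_map_eq_zero _).2 fun a ha =>
    h a (by simpa using ha)), AddSubgroup.card_bot]

/-- `hq` does not change on passing to a subgroup of finite index. -/
theorem hq_of_finiteIndex_subgroup {U : Type*} [AddCommGroup U] (n : ℕ) (V : AddSubgroup U)
    [V.FiniteIndex] (hV : FinHq (mulHom n V)) (hk : Nat.card (mulHom n U).ker ≠ 0) :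
    FinHq (mulHom n U) ∧ hq (mulHom n U) = hq (mulHom n V) := by
  let r := QuotientAddGroup.mk' V
  let e : V ≃+ r.ker := AddEquiv.addSubgroupCongr (QuotientAddGroup.ker_mk' V).symm
  have hker := (hq_mulHom_congr n e).1 hV
  have hquot : FinHq (mulHom n (U ⧸ V)) :=
    ⟨AddSubgroup.FiniteIndex.index_ne_zero, Nat.card_pos.ne'⟩
  have hU := finHq_of_exact n r (QuotientAddGroup.mk'_surjective V) hk hker hquot
  refine ⟨hU, ?_⟩
  rw [hq_mulHom_mul n r (QuotientAddGroup.mk'_surjective V) hU hker hquot,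
    hq_eq_one_of_finite (mulHom n (U ⧸ V)), mul_one, ← (hq_mulHom_congr n e).2]

/-- A subgroup has finite index when it contains every `-x + y` with close images in a totally
bounded set. -/
theorem finiteIndex_of_totallyBounded {E X : Type*} [AddGroup E] [PseudoMetricSpace X]
    (H : AddSubgroup E) (f : E → X) {T : Set X} (htb : TotallyBounded T) (hf : ∀ x, f x ∈ T)
    {ε : ℝ} (hε : 0 < ε) (h : ∀ x y : E, dist (f x) (f y) < ε → -x + y ∈ H) : H.FiniteIndex := by
  obtain ⟨t, ht, hcov⟩ := Metric.totallyBounded_iff.1 htb (ε / 2) (by positivity)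
  classical
  have : Finite t := ht.to_subtype
  have hmem : ∀ x : E, ∃ y : t, dist (f x) y < ε / 2 := fun x => by
    obtain ⟨y, hy, hxy⟩ := Set.mem_iUnion₂.1 (hcov (hf x))
    exact ⟨⟨y, hy⟩, hxy⟩
  choose c hc using hmem
  have : Finite (E ⧸ H) := by
    refine Finite.of_injective (fun q : E ⧸ H => c q.out) fun a b hab => ?_
    simp only at hab
    rw [← a.out_eq, ← b.out_eq]
    refine QuotientAddGroup.eq.2 (h _ _ ?_)
    have h1 := hc a.out
    have h2 := hc b.out
    rw [hab] at h1
    calc dist (f a.out) (f b.out) ≤ dist (f a.out) (c b.out : X) + dist (f b.out) (c b.out : X) :=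
          dist_triangle_right _ _ _
      _ < ε := by linarith
  exact AddSubgroup.finiteIndex_of_finite_quotient

variable {q p : ℕ} [Fact q.Prime] [Fact p.Prime]
variable (K : IntermediateField ℚ_[q] (PadicAlgCl q))

/-- The ring of integers `‖x‖ ≤ 1`, as an additive group. -/
def intBall : AddSubgroup K where
  carrier := {x | ‖x‖ ≤ 1}
  zero_mem' := by simp
  add_mem' := fun {a b} ha hb => (IsUltrametricDist.norm_add_le_max a b).trans (max_le ha hb)
  neg_mem' := fun {a} ha => by simpa using ha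

theorem mem_intBall {x : K} : x ∈ intBall K ↔ ‖x‖ ≤ 1 := Iff.rfl

theorem eq_zero_of_nsmul_eq_zero {x : K} (h : p • x = 0) : x = 0 := by
  rw [nsmul_eq_mul] at h
  exact (mul_eq_zero.1 h).resolve_left (Nat.cast_ne_zero.2 (Fact.out : p.Prime).ne_zero)

theorem natCast_norm (n : ℕ) : ‖(n : K)‖ = ‖(n : ℚ_[q])‖ := by
  rw [show (n : K) = algebraMap ℚ_[q] K n from (map_natCast _ n).symm, norm_algebraMap']

/-- The scaling constant `q`; its norm is at most that of `p` (`norm_cst_le`). -/
def cst : K := (q : K)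

theorem cst_ne_zero : cst K ≠ 0 := Nat.cast_ne_zero.2 (Fact.out : q.Prime).ne_zero

theorem norm_cst_lt_one : ‖cst K‖ < 1 := by
  rw [cst, natCast_norm, Padic.norm_p]
  exact inv_lt_one_of_one_lt₀ (by exact_mod_cast (Fact.out : q.Prime).one_lt)

theorem norm_cst_le : ‖cst K‖ ≤ ‖(p : K)‖ := by
  rw [cst, natCast_norm, natCast_norm]
  by_cases h : q = p
  · subst h; rfl
  · rw [Padic.norm_natCast_eq_one_iff.2 ((Nat.coprime_primes Fact.out Fact.out).2 h)]
    exact Padic.norm_p_lt_one.le

/-- The principal units `1 + qO`. -/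
def unitBall : AddSubgroup (Additive Kˣ) where
  carrier := {x | ‖(x.toMul : K) - 1‖ ≤ ‖cst K‖}
  zero_mem' := by simp
  add_mem' := fun {a b} ha hb => by
    simp only [Set.mem_ofPred, toMul_add, Units.val_mul] at *
    rw [show (a.toMul : K) * b.toMul - 1 =
        ((a.toMul : K) - 1) * b.toMul + ((b.toMul : K) - 1) by ring]
    refine (IsUltrametricDist.norm_add_le_max _ _).trans (max_le ?_ hb)
    rw [norm_mul]
    refine le_trans (mul_le_of_le_one_right (norm_nonneg _) ?_) ha
    calc ‖(b.toMul : K)‖ = ‖1 + ((b.toMul : K) - 1)‖ := by rw [add_sub_cancel]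
      _ ≤ max ‖(1 : K)‖ ‖(b.toMul : K) - 1‖ := IsUltrametricDist.norm_add_le_max _ _
      _ ≤ 1 := max_le norm_one.le (hb.trans (norm_cst_lt_one K).le)
  neg_mem' := fun {a} ha => by
    simp only [Set.mem_ofPred, toMul_neg] at *
    have ha1 : ‖(a.toMul : K)‖ = 1 := (norm_eq_of_norm_sub_lt (a := (1 : K)) (by
      rw [norm_one]; exact ha.trans_lt (norm_cst_lt_one K))).trans norm_one
    rw [show ((a.toMul⁻¹ : Kˣ) : K) - 1 = -(((a.toMul⁻¹ : Kˣ) : K)) * ((a.toMul : K) - 1) by
      rw [mul_sub, neg_mul, Units.inv_mul]; ring, norm_mul, norm_neg, Units.val_inv_eq_inv_val,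
      norm_inv, ha1, inv_one, one_mul]
    exact ha

theorem mem_unitBall {x : Additive Kˣ} : x ∈ unitBall K ↔ ‖(x.toMul : K) - 1‖ ≤ ‖cst K‖ := Iff.rfl

theorem finite_ker_mulHom_units : Nat.card (mulHom p (Additive Kˣ)).ker ≠ 0 := by
  have : NeZero p := ⟨(Fact.out : p.Prime).ne_zero⟩
  have : Finite (mulHom p (Additive Kˣ)).ker := Finite.of_injective
    (fun x => (⟨Additive.toMul (x : Additive Kˣ), by
      rw [mem_rootsOfUnity]; exact congrArg Additive.toMul x.2⟩ : rootsOfUnity p K))
    fun a b h => Subtype.ext (congrArg (fun z : rootsOfUnity p K => Additive.ofMul (z : Kˣ)) h)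
  exact Nat.card_pos.ne'

variable [FiniteDimensional ℚ_[q] K]

instance completeSpace_local : CompleteSpace K := FiniteDimensional.complete ℚ_[q] K

instance properSpace_local : ProperSpace K := FiniteDimensional.proper ℚ_[q] K

variable (q p) in
/-- `p ^ n` if `q = p` and `1` otherwise; for `n` the degree of a local field over `ℚ_q` this is
the index of `pO` in the ring of integers `O`. -/
def degreeFactor (n : ℕ) : ℚ := if q = p then (p : ℚ) ^ n else 1

omit [Fact q.Prime] in
theorem one_le_degreeFactor (n : ℕ) : 1 ≤ degreeFactor q p n := by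
  rw [degreeFactor]
  split_ifs
  · exact one_le_pow₀ (by exact_mod_cast (Fact.out : p.Prime).one_le)
  · exact le_rfl

/-- The Herbrand ratio of multiplication by `p` on `ℤ_q ^ n`. -/
theorem hq_padicInt_pow (n : ℕ) :
    FinHq (mulHom p (Fin n → ℤ_[q])) ∧
      hq (mulHom p (Fin n → ℤ_[q])) = if q = p then (p : ℚ) ^ n else 1 := by
  have hk : Nat.card (mulHom p (Fin n → ℤ_[q])).ker = 1 := card_ker_mulHom_eq_one p fun a h =>
    funext fun i => (mul_eq_zero.1 ((nsmul_eq_mul _ _).symm.trans (congrFun h i))).resolve_left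
      (Nat.cast_ne_zero.2 (Fact.out : p.Prime).ne_zero)
  have hi : (mulHom p (Fin n → ℤ_[q])).range.index = if q = p then p ^ n else 1 := by
    split_ifs with hqp
    · subst hqp
      let φ : (Fin n → ℤ_[q]) →+ (Fin n → ZMod q) :=
        AddMonoidHom.mk' (fun z i => PadicInt.toZMod (z i)) fun a b => funext fun i => map_add _ _ _
      have hφ : φ.ker = (mulHom q (Fin n → ℤ_[q])).range := by
        ext z
        constructor
        · intro hz
          have : ∀ i, z i ∈ RingHom.ker (PadicInt.toZMod (p := q)) := fun i => congrFun hz i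
          simp only [PadicInt.ker_toZMod, PadicInt.maximalIdeal_eq_span_p,
            Ideal.mem_span_singleton] at this
          choose w hw using this
          exact ⟨w, funext fun i => by simp [hw i]⟩
        · rintro ⟨w, rfl⟩
          refine funext fun i => ?_
          simp [φ]
      have hsurj : Function.Surjective φ := fun z =>
        ⟨fun i => ((z i).val : ℤ_[q]), funext fun i => by simp [φ]⟩
      rw [← hφ, AddSubgroup.index_ker, AddMonoidHom.range_eq_top.2 hsurj, AddSubgroup.card_top]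
      simp [Nat.card_eq_fintype_card]
    · rw [AddMonoidHom.range_eq_top.2, AddSubgroup.index_top]
      intro z
      have hu : IsUnit ((p : ℕ) : ℤ_[q]) := by
        rw [PadicInt.isUnit_iff, PadicInt.norm_def, PadicInt.coe_natCast,
          Padic.norm_natCast_eq_one_iff]
        exact (Nat.coprime_primes Fact.out Fact.out).2 hqp
      refine ⟨fun i => hu.unit⁻¹.val * z i, funext fun i => ?_⟩
      simp only [mulHom_apply, Pi.smul_apply, nsmul_eq_mul, ← mul_assoc]
      rw [IsUnit.mul_val_inv, one_mul]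
  refine ⟨⟨?_, by rw [hk]; exact one_ne_zero⟩, ?_⟩
  · rw [hi]; split_ifs
    · exact pow_ne_zero _ (Fact.out : p.Prime).ne_zero
    · exact one_ne_zero
  · rw [hq, hk, hi]; split_ifs <;> simp

/-- The Herbrand ratio of multiplication by `p` on the ring of integers. -/
theorem hq_intBall : FinHq (mulHom p (intBall K)) ∧ hq (mulHom p (intBall K)) =
    degreeFactor q p (Module.finrank ℚ_[q] K) := by
  set n := Module.finrank ℚ_[q] K
  let b₀ := Module.finBasis ℚ_[q] K
  have hq1 : 1 < (q : ℝ) := by exact_mod_cast (Fact.out : q.Prime).one_lt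
  obtain ⟨m, hm⟩ : ∃ m : ℕ, ∀ i, ‖b₀ i‖ ≤ (q : ℝ) ^ m := by
    obtain ⟨m, hm⟩ := pow_unbounded_of_one_lt (∑ i, ‖b₀ i‖) hq1
    exact ⟨m, fun i => le_trans (Finset.single_le_sum (fun j _ => norm_nonneg (b₀ j))
      (Finset.mem_univ i)) hm.le⟩
  let s : ℚ_[q] := (q : ℚ_[q]) ^ m
  have hs : s ≠ 0 := pow_ne_zero _ (Nat.cast_ne_zero.2 (Fact.out : q.Prime).ne_zero)
  have hbs : ∀ i, ‖s • b₀ i‖ ≤ 1 := fun i => by
    rw [norm_smul, norm_pow, Padic.norm_p, inv_pow, inv_mul_le_iff₀ (by positivity), mul_one]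
    exact hm i
  let Φ : (Fin n → ℤ_[q]) →+ K := AddMonoidHom.mk' (fun z => ∑ i, (z i : ℚ_[q]) • (s • b₀ i))
    fun z w => by simp [add_smul, Finset.sum_add_distrib]
  have hΦ : Function.Injective Φ := by
    rw [injective_iff_map_eq_zero]
    intro z hz
    have := Fintype.linearIndependent_iff.1 b₀.linearIndependent (fun i => (z i : ℚ_[q]) * s) (by
      simpa [Φ, mul_smul] using hz)
    exact funext fun i => Subtype.ext ((mul_eq_zero.1 (this i)).resolve_right hs)
  have hle : Φ.range ≤ intBall K := by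
    rintro _ ⟨z, rfl⟩
    refine sum_mem fun i _ => mem_intBall K |>.2 ?_
    rw [norm_smul]
    exact mul_le_one₀ (z i).2 (norm_nonneg _) (hbs i)
  have hcont : Continuous (b₀.equivFun.toLinearMap : K →ₗ[ℚ_[q]] Fin n → ℚ_[q]) :=
    LinearMap.continuous_of_finiteDimensional _
  obtain ⟨δ, hδ, hδ'⟩ := Metric.continuous_iff.1 hcont 0 ‖s‖ (norm_pos_iff.2 hs)
  have hball : ∀ x : K, ‖x‖ < δ → x ∈ Φ.range := by
    intro x hx
    have hx' := hδ' x (by simpa using hx)
    simp only [LinearEquiv.coe_coe, map_zero, dist_zero_right] at hx'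
    refine ⟨fun i => ⟨b₀.equivFun x i / s, ?_⟩, ?_⟩
    · rw [norm_div, div_le_one (norm_pos_iff.2 hs)]
      exact (norm_le_pi_norm (b₀.equivFun x) i).trans hx'.le
    · simp only [Φ, AddMonoidHom.mk'_apply, ← mul_smul, div_mul_cancel₀ _ hs]
      exact b₀.sum_equivFun x
  let Λ := Φ.range.addSubgroupOf (intBall K)
  have : Λ.FiniteIndex := finiteIndex_of_totallyBounded Λ (fun x : intBall K => (x : K))
    (isCompact_closedBall (0 : K) 1).totallyBounded
    (fun x => mem_closedBall_zero_iff.2 x.2) hδ fun x y hxy => by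
    refine hball _ ?_
    rw [dist_eq_norm] at hxy
    simp only [map_add, map_neg, AddSubgroup.subtype_apply]
    rwa [← norm_neg, neg_add, neg_neg, ← sub_eq_add_neg]
  let r := QuotientAddGroup.mk' Λ
  let e : (Fin n → ℤ_[q]) ≃+ r.ker :=
    ((AddMonoidHom.ofInjective hΦ).trans (AddSubgroup.addSubgroupOfEquivOfLe hle).symm).trans
      (AddEquiv.addSubgroupCongr (QuotientAddGroup.ker_mk' Λ).symm)
  obtain ⟨hf, hv⟩ := hq_padicInt_pow (q := q) (p := p) n
  have hker := (hq_mulHom_congr p e).1 hf
  have hquot : FinHq (mulHom p (intBall K ⧸ Λ)) :=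
    ⟨AddSubgroup.FiniteIndex.index_ne_zero, Nat.card_pos.ne'⟩
  have hO := finHq_of_exact p r (QuotientAddGroup.mk'_surjective Λ)
    (by rw [card_ker_mulHom_eq_one p fun a h =>
      Subtype.ext (eq_zero_of_nsmul_eq_zero K (congrArg Subtype.val h))]; exact one_ne_zero)
    hker hquot
  refine ⟨hO, ?_⟩
  rw [hq_mulHom_mul p r (QuotientAddGroup.mk'_surjective Λ) hO hker hquot,
    hq_eq_one_of_finite (mulHom p (intBall K ⧸ Λ)), mul_one, ← (hq_mulHom_congr p e).2, hv]
  rfl

theorem index_mulHom_intBall : ((mulHom p (intBall K)).range.index : ℚ) =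
    degreeFactor q p (Module.finrank ℚ_[q] K) := by
  obtain ⟨-, h⟩ := hq_intBall (p := p) K
  have hk : Nat.card (mulHom p (intBall K)).ker = 1 := card_ker_mulHom_eq_one p fun a h =>
    Subtype.ext (eq_zero_of_nsmul_eq_zero K (congrArg Subtype.val h))
  rwa [hq, hk, Nat.cast_one, div_one] at h

/-! ### The normalised valuation -/

theorem exists_ord (x : Kˣ) :
    ∃ e : ℤ, ‖(x : K)‖ ^ Module.finrank ℚ_[q] K = (q : ℝ) ^ (-e) := by
  have hint : IsIntegral ℚ_[q] (x : K) := IsIntegral.of_finite _ _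
  set f := minpoly ℚ_[q] (x : K)
  obtain ⟨k, hk⟩ := minpoly.degree_dvd hint
  have hc : f.coeff 0 ≠ 0 := minpoly.coeff_zero_ne_zero hint x.ne_zero
  refine ⟨(f.coeff 0).valuation * k, ?_⟩
  have hx : ‖(x : K)‖ = spectralNorm ℚ_[q] K (x : K) := NormedAlgebra.norm_eq_spectralNorm ℚ_[q] _
  rw [hk, pow_mul, hx, spectralNorm.spectralNorm_eq_norm_coeff_zero_rpow,
    ← Real.rpow_natCast (_ ^ (1 / (f.natDegree : ℝ))) f.natDegree, ← Real.rpow_mul (norm_nonneg _),
    one_div_mul_cancel (by exact_mod_cast (minpoly.natDegree_pos hint).ne'), Real.rpow_one,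
    Padic.norm_eq_zpow_neg_valuation hc, ← zpow_natCast, ← zpow_mul]
  congr 1
  ring

/-- The valuation normalised by the degree: `‖x‖ ^ [K : ℚ_q] = q ^ (-ordK x)`. -/
def ordK : Additive Kˣ →+ ℤ :=
  AddMonoidHom.mk' (fun x => (exists_ord K x.toMul).choose) fun a b => by
    have hq1 : (1 : ℝ) < q := by exact_mod_cast (Fact.out : q.Prime).one_lt
    refine neg_injective ?_
    apply (zpow_right_strictMono₀ hq1).injective
    simp only [neg_add, zpow_add₀ (zero_lt_one.trans hq1).ne']
    rw [← (exists_ord K (a + b).toMul).choose_spec, ← (exists_ord K a.toMul).choose_spec,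
      ← (exists_ord K b.toMul).choose_spec, toMul_add, Units.val_mul, norm_mul, mul_pow]

theorem ordK_spec (x : Kˣ) :
    ‖(x : K)‖ ^ Module.finrank ℚ_[q] K = (q : ℝ) ^ (-ordK K (Additive.ofMul x)) :=
  (exists_ord K x).choose_spec

theorem ordK_eq_zero {x : Additive Kˣ} : ordK K x = 0 ↔ ‖(x.toMul : K)‖ = 1 := by
  have h := ordK_spec K x.toMul
  have hq1 : (1 : ℝ) < q := by exact_mod_cast (Fact.out : q.Prime).one_lt
  constructor
  · intro h0
    rw [ofMul_toMul, h0, neg_zero, zpow_zero] at h
    exact (pow_eq_one_iff_of_nonneg (norm_nonneg _) Module.finrank_pos.ne').1 h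
  · intro h0
    rw [h0, one_pow, ofMul_toMul] at h
    have := (zpow_right_strictMono₀ hq1).injective (h.symm.trans (zpow_zero _).symm)
    omega

/-! ### The unit groups -/

theorem unitBall_le : unitBall K ≤ (ordK K).ker := fun x hx => by
  rw [AddMonoidHom.mem_ker, ordK_eq_zero]
  exact (norm_eq_of_norm_sub_lt (a := (1 : K)) (by
    rw [norm_one]; exact ((mem_unitBall K).1 hx).trans_lt (norm_cst_lt_one K))).trans norm_one

theorem finiteIndex_unitBall : ((unitBall K).addSubgroupOf (ordK K).ker).FiniteIndex := by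
  refine finiteIndex_of_totallyBounded _ (fun x : (ordK K).ker => ((x : Additive Kˣ).toMul : K))
    (isCompact_sphere (0 : K) 1).totallyBounded
    (fun x => mem_sphere_zero_iff_norm.2 ((ordK_eq_zero K).1 x.2))
    (norm_pos_iff.2 (cst_ne_zero K)) fun a b hab => ?_
  have ha : ‖((a : Additive Kˣ).toMul : K)‖ = 1 := (ordK_eq_zero K).1 a.2
  rw [AddSubgroup.mem_addSubgroupOf, mem_unitBall]
  simp only [AddSubgroup.coe_add, NegMemClass.coe_neg, toMul_add, toMul_neg, Units.val_mul,
    Units.val_inv_eq_inv_val]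
  rw [← inv_mul_cancel₀ (Units.ne_zero (a : Additive Kˣ).toMul), ← mul_sub, norm_mul, norm_inv, ha,
    inv_one, one_mul, ← dist_eq_norm, dist_comm]
  exact hab.le

/-- The Herbrand ratio of multiplication by `p` on `ℤ`. -/
theorem finHq_int : FinHq (mulHom p ℤ) ∧ hq (mulHom p ℤ) = p := by
  have hk : Nat.card (mulHom p ℤ).ker = 1 := card_ker_mulHom_eq_one p fun m h =>
    (mul_eq_zero.1 ((nsmul_eq_mul _ _).symm.trans h)).resolve_left
      (Nat.cast_ne_zero.2 (Fact.out : p.Prime).ne_zero)
  have hi : (mulHom p ℤ).range.index = p := by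
    rw [show (mulHom p ℤ).range = AddSubgroup.zmultiples (p : ℤ) by
      ext z
      simp [AddSubgroup.mem_zmultiples_iff, mul_comm, eq_comm], Int.index_zmultiples,
      Int.natAbs_natCast]
  refine ⟨⟨?_, ?_⟩, ?_⟩
  · rw [hi]; exact (Fact.out : p.Prime).ne_zero
  · rw [hk]; exact one_ne_zero
  · rw [hq, hk, hi, Nat.cast_one, div_one]

omit [FiniteDimensional ℚ_[q] K] in
theorem norm_cst_mul_lt_one (y : intBall K) : ‖cst K * (y : K)‖ < 1 := by
  rw [norm_mul]
  exact (mul_le_of_le_one_right (norm_nonneg _) y.2).trans_lt (norm_cst_lt_one K)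

/-- The map `y ↦ 1 + qy` from `O` to `1 + qO`. -/
def oneAddMul (y : intBall K) : unitBall K :=
  ⟨Additive.ofMul (Units.mk0 (1 + cst K * (y : K)) fun h => by
      have h1 := norm_cst_mul_lt_one K y
      rw [eq_neg_of_add_eq_zero_right h, norm_neg, norm_one] at h1
      exact lt_irrefl _ h1),
    (mem_unitBall K).2 (by
      simp only [toMul_ofMul, Units.val_mk0, add_sub_cancel_left, norm_mul]
      exact mul_le_of_le_one_right (norm_nonneg _) y.2)⟩

omit [FiniteDimensional ℚ_[q] K] in
theorem coe_oneAddMul (y : intBall K) :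
    ((oneAddMul K y : Additive Kˣ).toMul : K) = 1 + cst K * (y : K) := rfl

variable (hodd : p ≠ 2)
include hodd

/-- The Herbrand ratio of the `p`-th power on `1 + qO`. -/
theorem hq_unitBall :
    FinHq (mulHom p (unitBall K)) ∧ hq (mulHom p (unitBall K)) =
          degreeFactor q p (Module.finrank ℚ_[q] K) := by
  have hpK : (p : K) ≠ 0 := Nat.cast_ne_zero.2 (Fact.out : p.Prime).ne_zero
  have hp : Odd p := (Fact.out : p.Prime).odd_of_ne_two hodd
  have hc0 := cst_ne_zero K
  have hc1 := norm_cst_lt_one K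
  have hcp := norm_cst_le (p := p) K
  let w : unitBall K → intBall K := fun x =>
    ⟨(((x : Additive Kˣ).toMul : K) - 1) / cst K, by
      rw [mem_intBall, norm_div, div_le_one (norm_pos_iff.2 hc0)]
      exact (mem_unitBall K).1 x.2⟩
  have hw : ∀ x : unitBall K, ((x : Additive Kˣ).toMul : K) = 1 + cst K * (w x : K) := fun x => by
    simp only [w]; rw [mul_div_cancel₀ _ hc0]; ring
  clear_value w
  let Q := intBall K ⧸ (mulHom p (intBall K)).range
  let φ : unitBall K →+ Q := AddMonoidHom.mk' (fun x => (w x : Q)) fun a b => by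
    rw [← QuotientAddGroup.mk_add, QuotientAddGroup.eq]
    refine ⟨⟨-(cst K / p) * ((w a : K) * (w b : K)), ?_⟩, ?_⟩
    · rw [mem_intBall, norm_mul, norm_neg, norm_div, norm_mul]
      exact mul_le_one₀ ((div_le_one (norm_pos_iff.2 hpK)).2 hcp) (by positivity)
        (mul_le_one₀ (w a).2 (norm_nonneg _) (w b).2)
    · apply Subtype.ext
      apply mul_left_cancel₀ hc0
      have h := hw (a + b)
      rw [AddSubgroup.coe_add, toMul_add, Units.val_mul, hw a, hw b] at h
      push_cast [mulHom_apply, nsmul_eq_mul]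
      rw [show (p : K) * (-(cst K / p) * ((w a : K) * (w b : K))) =
          -(cst K * ((w a : K) * (w b : K))) by
        field_simp]
      linear_combination -h
  have hsurj : Function.Surjective φ := by
    intro z
    obtain ⟨y, rfl⟩ := QuotientAddGroup.mk_surjective z
    exact ⟨oneAddMul K y, congrArg (QuotientAddGroup.mk' _) (Subtype.ext
      (mul_left_cancel₀ hc0 (add_left_cancel ((hw _).symm.trans (coe_oneAddMul K y)))))⟩
  have hker : φ.ker = (mulHom p (unitBall K)).range := by
    ext x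
    rw [AddMonoidHom.mem_ker]
    constructor
    · intro hx
      obtain ⟨v, hv⟩ := (QuotientAddGroup.eq_zero_iff (w x)).1 hx
      obtain ⟨y, hy, hy'⟩ := powFun_surjective hp hc0 hpK hcp hc1 (show ‖(v : K)‖ ≤ 1 from v.2)
      refine ⟨oneAddMul K ⟨y, hy⟩, Subtype.ext ?_⟩
      apply Additive.toMul.injective
      apply Units.ext
      have hv' : (p : K) * v = (w x : K) := by
        have := congrArg Subtype.val hv
        simpa [nsmul_eq_mul] using this
      rw [hw x, ← hv']
      simp only [mulHom_apply, AddSubgroup.coe_nsmul, toMul_nsmul, Units.val_pow_eq_pow_val,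
        coe_oneAddMul]
      rw [one_add_pow_eq hc0 hpK, hy']
      ring
    · rintro ⟨z, rfl⟩
      rw [mulHom_apply, map_nsmul]
      obtain ⟨u, hu⟩ := QuotientAddGroup.mk_surjective (φ z)
      rw [← hu, ← QuotientAddGroup.mk_nsmul, QuotientAddGroup.eq_zero_iff]
      exact ⟨u, rfl⟩
  have hk : Nat.card (mulHom p (unitBall K)).ker = 1 := by
    rw [(AddMonoidHom.ker_eq_bot_iff _).2, AddSubgroup.card_bot]
    intro a b h
    have h' := congrArg (fun z : unitBall K => ((z : Additive Kˣ).toMul : K)) h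
    simp only [mulHom_apply, AddSubgroup.coe_nsmul, toMul_nsmul, Units.val_pow_eq_pow_val, hw] at h'
    rw [one_add_pow_eq hc0 hpK, one_add_pow_eq hc0 hpK] at h'
    have e := powFun_injective hp hc0 hpK hcp hc1 (w a).2 (w b).2
      (mul_left_cancel₀ (mul_ne_zero hpK hc0) (add_left_cancel h'))
    apply Subtype.ext
    apply Additive.toMul.injective
    apply Units.ext
    rw [hw a, hw b, e]
  have hi : ((mulHom p (unitBall K)).range.index : ℚ) =
    degreeFactor q p (Module.finrank ℚ_[q] K) := by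
    rw [← hker, AddSubgroup.index_ker, AddMonoidHom.range_eq_top.2 hsurj, AddSubgroup.card_top,
      show Nat.card Q = (mulHom p (intBall K)).range.index from rfl, index_mulHom_intBall]
  refine ⟨⟨fun h => ?_, by rw [hk]; exact one_ne_zero⟩, by rw [hq, hk, Nat.cast_one, div_one, hi]⟩
  rw [h, Nat.cast_zero] at hi
  have := one_le_degreeFactor (q := q) (p := p) (Module.finrank ℚ_[q] K)
  linarith

/-- The Herbrand ratio of the `p`-th power on the units of norm `1`. -/
theorem hq_unitGroup :
    FinHq (mulHom p (ordK K).ker) ∧ hq (mulHom p (ordK K).ker) =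
          degreeFactor q p (Module.finrank ℚ_[q] K) := by
  have hV := hq_unitBall (p := p) K hodd
  have := finiteIndex_unitBall K
  have e : unitBall K ≃+ (unitBall K).addSubgroupOf (ordK K).ker :=
    (AddSubgroup.addSubgroupOfEquivOfLe (unitBall_le K)).symm
  have h := hq_of_finiteIndex_subgroup p ((unitBall K).addSubgroupOf (ordK K).ker)
    ((hq_mulHom_congr p e).1 hV.1) (card_ker_mulHom_subgroup p _ (finite_ker_mulHom_units K))
  exact ⟨h.1, h.2.trans ((hq_mulHom_congr p e).2.symm.trans hV.2)⟩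

omit hodd in
/-- The Herbrand ratio of multiplication by `p` on the value group. -/
theorem hq_ordRange :
    FinHq (mulHom p (ordK K).range) ∧ hq (mulHom p (ordK K).range) = p := by
  obtain ⟨a, ha⟩ := Int.subgroup_cyclic (ordK K).range
  have ha0 : a ≠ 0 := by
    rintro rfl
    have hmem : ordK K (Additive.ofMul (Units.mk0 _ (cst_ne_zero K))) ∈ (ordK K).range := ⟨_, rfl⟩
    rw [ha, ← AddSubgroup.zmultiples_eq_closure, AddSubgroup.zmultiples_zero_eq_bot,
      AddSubgroup.mem_bot, ordK_eq_zero] at hmem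
    exact (norm_cst_lt_one K).ne hmem
  let ψ : ℤ →+ (ordK K).range := AddMonoidHom.mk' (fun m => ⟨m • a, by
    rw [ha, ← AddSubgroup.zmultiples_eq_closure]; exact ⟨m, rfl⟩⟩)
    fun m n => Subtype.ext (add_smul m n a)
  have hψ : Function.Bijective ψ := by
    refine ⟨fun m n h => mul_right_cancel₀ ha0 (congrArg Subtype.val h), fun z => ?_⟩
    obtain ⟨m, hm⟩ : (z : ℤ) ∈ AddSubgroup.zmultiples a := by
      rw [AddSubgroup.zmultiples_eq_closure, ← ha]; exact z.2
    exact ⟨m, Subtype.ext hm⟩
  obtain ⟨h1, h2⟩ := hq_mulHom_congr p (AddEquiv.ofBijective ψ hψ)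
  exact ⟨h1 (finHq_int (p := p)).1, h2.symm.trans (finHq_int (p := p)).2⟩

/-- The count of `p`-th power classes: the Herbrand ratio of the `p`-th power on `Kˣ`. -/
theorem hq_localUnits :
    FinHq (mulHom p (Additive Kˣ)) ∧ hq (mulHom p (Additive Kˣ)) =
      p * degreeFactor q p (Module.finrank ℚ_[q] K) := by
  obtain ⟨hUf, hUv⟩ := hq_unitGroup (p := p) K hodd
  obtain ⟨hCf, hCv⟩ := hq_ordRange (p := p) K
  have hsur := (ordK K).rangeRestrict_surjective
  have hK' : FinHq (mulHom p (ordK K).rangeRestrict.ker) := by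
    rw [AddMonoidHom.ker_rangeRestrict]; exact hUf
  have hA := finHq_of_exact p _ hsur (finite_ker_mulHom_units K) hK' hCf
  refine ⟨hA, ?_⟩
  rw [hq_mulHom_mul p _ hsur hA hK' hCf, AddMonoidHom.ker_rangeRestrict, hUv, hCv, mul_comm]

end Fermat.Agent.PT
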