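import Fermat.Agent.PT.LocalLine

/-!
# Local facts at an unramified prime

At a prime `q ≠ p`: units close to `1` are `p`-th powers, local units are approximated globally,
values in unramified levels are powers of `q`, and classes inflated from an unramified layer die in
a larger unramified one.
-/

noncomputable section

namespace Fermat.Agent.PT

open Lv

open scoped Pointwise

local notation "Qb" => AlgebraicClosure ℚ

variable {p q : ℕ} [Fact p.Prime] [Fact q.Prime]

/-- Units close to `1` are `p`-th powers. -/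
theorem exists_root_of_close (hodd : p ≠ 2) {V : Subgroup (GamQ q)} (hV : V ∈ LQ q)
    {u : (PadicAlgCl q)ˣ} (hu : u ∈ fixU V)
    (hclose : ‖(u : PadicAlgCl q) - 1‖ ≤ ‖(p : ℚ_[q])‖ * (q : ℝ)⁻¹) :
    ∃ w ∈ fixU V, w ^ p = u := by
  have := finiteDimensional_fixedField hV
  set K := IntermediateField.fixedField V
  have : CompleteSpace K := FiniteDimensional.complete ℚ_[q] K
  set u' : K := ⟨(u : PadicAlgCl q), fun g => congrArg Units.val (hu g)⟩
  have hpK : (p : K) ≠ 0 := Nat.cast_ne_zero.2 (Fact.out : p.Prime).ne_zero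
  have hp : Odd p := (Fact.out : p.Prime).odd_of_ne_two hodd
  have hc0 := cst_ne_zero (q := q) K
  have hn : ‖(p : K) * cst K‖ = ‖(p : ℚ_[q])‖ * (q : ℝ)⁻¹ := by
    rw [norm_mul, cst, natCast_norm, natCast_norm, Padic.norm_p]
  have hz : ‖(u' - 1) / ((p : K) * cst K)‖ ≤ 1 := by
    rw [norm_div, div_le_one (norm_pos_iff.2 (mul_ne_zero hpK hc0)), hn]
    exact hclose
  obtain ⟨y, hy, hy'⟩ := powFun_surjective hp hc0 hpK (norm_cst_le K) (norm_cst_lt_one K) hz
  set w : K := 1 + cst K * y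
  have hw : w ^ p = u' := by
    rw [one_add_pow_eq hc0 hpK, hy',
      mul_div_cancel₀ _ (mul_ne_zero hpK hc0)]
    ring
  have hw0 : (w : PadicAlgCl q) ≠ 0 := fun h => u.ne_zero (by
    have h2 := congrArg Subtype.val hw
    have h3 : (w : PadicAlgCl q) ^ p = (u : PadicAlgCl q) := by simpa [u'] using h2
    rw [← h3, h, zero_pow (Fact.out : p.Prime).ne_zero])
  refine ⟨Units.mk0 (w : PadicAlgCl q) hw0, fun g => Units.ext (w.2 g), Units.ext ?_⟩
  have h2 := congrArg Subtype.val hw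
  simpa [u'] using h2

/-- Global approximation of a local unit, up to `p`-th powers. -/
theorem exists_global_approx (hodd : p ≠ 2) {H : Subgroup Gam} (hH : H ∈ LG) (g : Gam)
    {a : (PadicAlgCl q)ˣ} (ha : a ∈ fixU (stab q H g)) :
    ∃ z ∈ fixU H, ∃ w ∈ fixU (stab q H g), a = embU q (g • z) * w ^ p ∧
      ‖(a : PadicAlgCl q)‖ = nq q g (z : Qb) := by
  set δ : ℝ := ‖(p : ℚ_[q])‖ * (q : ℝ)⁻¹ with hδdef
  have hq1 : (q : ℝ)⁻¹ < 1 :=
    inv_lt_one_of_one_lt₀ (by exact_mod_cast (Fact.out : q.Prime).one_lt)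
  have hδ0 : 0 < δ := mul_pos (norm_pos_iff.2 (Nat.cast_ne_zero.2 (Fact.out : p.Prime).ne_zero))
    (inv_pos.2 (by exact_mod_cast (Fact.out : q.Prime).pos))
  have hδ1 : δ < 1 := by
    refine lt_of_le_of_lt ?_ hq1
    exact mul_le_of_le_one_left (by positivity) (IsUltrametricDist.norm_natCast_le_one _ p)
  have ha0 : 0 < ‖(a : PadicAlgCl q)‖ := norm_pos_iff.2 a.ne_zero
  obtain ⟨z, hz, hze⟩ := dense_local hH g (a := (a : PadicAlgCl q))
    (fun τ hτ => congrArg Units.val (ha ⟨τ, hτ⟩)) (mul_pos hδ0 ha0)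
  have hlt : ‖padicEmbedding q (g z) - (a : PadicAlgCl q)‖ < ‖(a : PadicAlgCl q)‖ :=
    hze.trans_le (mul_le_of_le_one_left ha0.le hδ1.le)
  have hzn : ‖padicEmbedding q (g z)‖ = ‖(a : PadicAlgCl q)‖ := norm_eq_of_norm_sub_lt hlt
  have hz0 : z ≠ 0 := fun h => by
    rw [h, map_zero, map_zero, norm_zero] at hzn
    linarith
  set zu : Qbˣ := Units.mk0 z hz0
  have hzu : zu ∈ fixU H := fun h => Units.ext (hz h h.2)
  have he : embU q (g • zu) ∈ fixU (stab q H g) := embU_mem_fixU q g hzu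
  obtain ⟨w, hw, hwu⟩ := exists_root_of_close (p := p) hodd (stab_mem q g hH)
    (u := a * (embU q (g • zu))⁻¹) (mul_mem ha (inv_mem he)) (by
      have e : ((a * (embU q (g • zu))⁻¹ : (PadicAlgCl q)ˣ) : PadicAlgCl q) - 1 =
          ((a : PadicAlgCl q) - padicEmbedding q (g z)) * (padicEmbedding q (g z))⁻¹ := by
        rw [sub_mul, mul_inv_cancel₀ (fun h0 => by rw [h0, norm_zero] at hzn; linarith)]
        simp [embU, zu]
      rw [e, norm_mul, norm_inv, hzn, norm_sub_rev, ← div_eq_mul_inv, div_le_iff₀ ha0]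
      exact hze.le)
  exact ⟨zu, hzu, w, hw, by rw [hwu, mul_comm, inv_mul_cancel_right], hzn.symm⟩

/-- Values of unramified levels, not necessarily normal. -/
theorem exists_nq_zpow_of_le {N H : Subgroup Gam} (hN : N ∈ LG) [N.Normal] (hI : InN q N)
    (hNH : N ≤ H) {x : Qbˣ} (hx : x ∈ fixU H) (g : Gam) :
    ∃ k : ℤ, nq q g (x : Qb) = (q : ℝ) ^ k :=
  exists_nq_eq_zpow hN hI (fun n hn => congrArg Units.val (hx ⟨n, hNH hn⟩)) x.ne_zero g

/-- Inertia fixes a `p`-th root whose value is a power of `q`. -/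
theorem inertia_fixes_root' (hqp : q ≠ p) {σ : Gam}
    (hσ : σ ∈ (padicPlace q).inertiaSubgroupIn ℚ) {r : Qbˣ} (hfix : σ • r ^ p = r ^ p) {j : ℤ}
    (hj : nq q 1 (r : Qb) = (q : ℝ) ^ j) : σ • r = r := by
  have hq0 : ((q : ℚ) : Qb) ≠ 0 := by exact_mod_cast (Fact.out : q.Prime).ne_zero
  set c : Qbˣ := Units.mk0 _ hq0 ^ j
  have hc : σ • c = c := fixU_of_ratCast (H := ⊤) (r := (q : ℚ) ^ j) (by
    simp [c, Units.val_zpow_eq_zpow_val]) ⟨σ, Subgroup.mem_top σ⟩
  have hcn : nq q 1 (c : Qb) = (q : ℝ) ^ (-j) := by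
    simp only [c, Units.val_zpow_eq_zpow_val, Units.val_mk0]
    rw [← Rat.cast_zpow, nq_ratCast, Rat.cast_zpow, Rat.cast_natCast, norm_zpow, Padic.norm_p,
      inv_zpow, zpow_neg]
  have h1 : nq q 1 ((r * c : Qbˣ) : Qb) = 1 := by
    rw [Units.val_mul, nq_mul, hj, hcn, ← zpow_add₀ (by
      exact_mod_cast (Fact.out : q.Prime).ne_zero), add_neg_cancel, zpow_zero]
  have hA : ((r * c : Qbˣ) : Qb) ∈ padicPlace q := by
    rw [mem_padicPlace_iff, ← NNReal.coe_le_coe, coe_nnnorm, NNReal.coe_one]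
    exact h1.le
  have hA' : ((r * c : Qbˣ) : Qb)⁻¹ ∈ padicPlace q := by
    rw [mem_padicPlace_iff, ← NNReal.coe_le_coe, coe_nnnorm, NNReal.coe_one, map_inv₀, norm_inv]
    exact inv_le_one_of_one_le₀ h1.ge
  have h2 := inertia_fixes_root (p := p) hqp padicPlace_liesOverPrime hσ hA hA' (by
    have h : σ • (r * c) ^ p = (r * c) ^ p := by rw [mul_pow, smul_mul', hfix, smul_pow', hc]
    rw [← Units.val_pow_eq_pow_val]
    exact congrArg Units.val h)
  have h3 : σ • (r * c) = r * c := Units.ext h2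
  rwa [smul_mul', hc, mul_left_inj] at h3

/-- A `2`-cocycle of a group mapping onto a cyclic group generated by the image of `γ`, which
factors through this group and is periodic in the first variable with period `d`, is a coboundary
of a cochain factoring through it when `p * d` divides the order of the generator. -/
theorem exists_split_of_periodic {G Q : Type*} [Group G] [Group Q] (π : G →* Q)
    (γ : G) (hgen : ∀ x, ∃ i : ℕ, π x = π γ ^ i) (a : G → G → ZMod p)
    (hcoc : ∀ x y z, a (x * y) z + a x y = a y z + a x (y * z))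
    (hfac : ∀ x x' y y', π x = π x' → π y = π y' → a x y = a x' y') {d : ℕ}
    (hper₀ : ∀ j, a (γ ^ (j + d)) γ = a (γ ^ j) γ) (hD : p * d ∣ orderOf (π γ)) :
    ∃ ζ : G → ZMod p, (∀ x s, π s = 1 → ζ (x * s) = ζ x) ∧
      ∀ x y, ζ y - ζ (x * y) + ζ x = a x y := by
  let b : ℕ → ZMod p := fun j => a (γ ^ j) γ
  have hb : ∀ j, b (j + d) = b j := hper₀
  set D := orderOf (π γ)
  let z : ℕ → ZMod p := fun i => a 1 1 - ∑ j ∈ Finset.range i, b j
  have hzper : ∀ i, z (i + D) = z i := by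
    obtain ⟨l, hl⟩ := hD
    have hper : ∀ (m i : ℕ), ∑ j ∈ Finset.range (d * m), b (i + j) =
        (m : ZMod p) * ∑ j ∈ Finset.range d, b j := by
      have hb' : ∀ m j, b (j + d * m) = b j := by
        intro m
        induction m with
        | zero => simp
        | succ m ih => intro j; rw [Nat.mul_succ, ← add_assoc, hb, ih]
      have hshift : ∀ i, ∑ j ∈ Finset.range d, b (i + j) = ∑ j ∈ Finset.range d, b j := by
        intro i
        induction i with
        | zero => simp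
        | succ i ih =>
          refine Eq.trans ?_ ih
          have h1 := Finset.sum_range_succ (fun j => b (i + j)) d
          rw [Finset.sum_range_succ', add_zero, hb] at h1
          have h2 := add_right_cancel h1
          exact (Finset.sum_congr rfl fun j _ => by ring_nf).trans h2
      intro m i
      induction m with
      | zero => simp
      | succ m ih =>
        rw [Nat.mul_succ, Finset.sum_range_add, ih, Nat.cast_succ, add_mul, one_mul,
          ← hshift (i + d * m)]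
        simp only [add_assoc]
    intro i
    simp only [z]
    rw [Finset.sum_range_add, hl, show p * d * l = d * (p * l) by ring, hper, Nat.cast_mul,
      ZMod.natCast_self, zero_mul, zero_mul, add_zero]
  have hzmod : ∀ i i', π γ ^ i = π γ ^ i' → z i = z i' := by
    have hzm : ∀ i l, z (i + D * l) = z i := fun i l => by
      induction l with
      | zero => simp
      | succ l ih => rw [Nat.mul_succ, ← add_assoc, hzper, ih]
    intro i i' h
    have h1 := (pow_eq_pow_iff_modEq).1 h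
    rw [← Nat.mod_add_div i D, ← Nat.mod_add_div i' D, hzm, hzm,
      show i % D = i' % D from h1]
  choose ex hex' using hgen
  have hrel : ∀ i k, z k - z (i + k) + z i = a (γ ^ i) (γ ^ k) := by
    intro i k
    induction k with
    | zero =>
      have h := hcoc (γ ^ i) 1 1
      rw [mul_one, mul_one] at h
      simp only [z, Finset.range_zero, Finset.sum_empty, sub_zero, add_zero, pow_zero]
      linear_combination -h
    | succ k ih =>
      have h := hcoc (γ ^ i) (γ ^ k) γ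
      rw [← pow_add, ← pow_succ] at h
      simp only [z, ← add_assoc, Finset.sum_range_succ, b] at ih ⊢
      linear_combination ih + h
  refine ⟨fun x => z (ex x), fun x s hs => hzmod _ _ ?_, fun x y => ?_⟩
  · rw [← hex', ← hex', map_mul, hs, mul_one]
  · beta_reduce
    rw [show z (ex (x * y)) = z (ex x + ex y) from hzmod _ _ (by
      rw [pow_add, ← hex', ← hex', ← hex', map_mul]), hrel]
    exact (hfac _ _ _ _ (by rw [map_pow, ← hex']) (by rw [map_pow, ← hex'])).symm

/-- Below an unramified normal level there is another one with a local element generating the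
image of the local group, of order divisible by any given positive number. -/
theorem exists_unram_level_frob {N : Subgroup Gam} (hN : N ∈ LG) (hI : InN q N) {m : ℕ}
    (hm : 0 < m) :
    ∃ (N' : Subgroup Gam) (_ : N'.Normal) (τ₀ : GamQ q), N' ∈ LG ∧ InN q N' ∧ N' ≤ N ∧
      (∀ x : GamQ q, ∃ i : ℕ, (localGaloisToGlobal q x : Gam ⧸ N') =
        (localGaloisToGlobal q τ₀ : Gam ⧸ N') ^ i) ∧
      ∀ i : ℕ, (localGaloisToGlobal q τ₀ : Gam ⧸ N') ^ i = 1 → m ∣ i := by
  have hq : q.Prime := Fact.out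
  -- an auxiliary root of unity
  set n := q ^ m - 1 with hndef
  have h1q : 1 < q ^ m := Nat.one_lt_pow hm.ne' hq.one_lt
  have hn0 : 0 < n := by omega
  have hqn : ¬ q ∣ n := fun h => by
    have h2 : q ∣ n + 1 := by
      rw [hndef, Nat.sub_add_cancel h1q.le]
      exact dvd_pow_self q hm.ne'
    exact hq.not_dvd_one ((Nat.dvd_add_right h).1 h2)
  have : NeZero n := ⟨hn0.ne'⟩
  obtain ⟨ζn, hζn⟩ := HasEnoughRootsOfUnity.exists_primitiveRoot Qb n
  obtain ⟨U, hU, hUfix⟩ := exists_level_fixing (F := ℚ) ζn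
  let W : Subgroup Gam := N ⊓ MulAction.stabilizer Gam ζn
  have hW : W ∈ LG := LG.mem_of_le (LG.inf_mem hN hU) (inf_le_inf_left _ fun s hs => hUfix s hs)
  set N' := W.normalCore
  have hN'n : N'.Normal := Subgroup.normalCore_normal W
  have hN' : N' ∈ LG := by
    obtain ⟨V, hV, hVW, hVn⟩ := LG.exists_normal hW
    exact LG.mem_of_le hV (Subgroup.normal_le_normalCore.2 hVW)
  have hIN' : InN q N' := fun A hA σ hσ τ =>
    ⟨hI (τ • A) (Gal.liesOverPrime_smul τ hA) (Gal.conj_mem_inertia hσ τ),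
      Gal.inertia_rootOfUnity hq (Gal.liesOverPrime_smul τ hA) (Gal.conj_mem_inertia hσ τ) hqn
        hζn.pow_eq_one⟩
  have hN'N : N' ≤ N := W.normalCore_le.trans inf_le_left
  obtain ⟨σ, hσ⟩ := Gal.exists_isFrobeniusAt (A := padicPlace q) hq padicPlace_liesOverPrime
  obtain ⟨hσD, -⟩ := Gal.isFrobeniusAt_iff.1 hσ
  obtain ⟨τ₀, hτ₀⟩ := exists_local_of_decomposition hN' hσD
  obtain ⟨-, hpow, -⟩ := exists_residue_count hN' hIN' hσ
  refine ⟨N', hN'n, τ₀, hN', hIN', hN'N, fun x => ?_, fun i hi => ?_⟩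
  · obtain ⟨i, hi⟩ := hpow x
    refine ⟨i, ?_⟩
    show ((localGaloisToGlobal q x : Gam) : Gam ⧸ N') =
      ((localGaloisToGlobal q τ₀ : Gam) : Gam ⧸ N') ^ i
    rw [← QuotientGroup.eq.2 hi, show ((localGaloisToGlobal q τ₀ : Gam) : Gam ⧸ N') = (σ : Gam ⧸ N')
      from QuotientGroup.eq.2 hτ₀]
    rfl
  · have h1 : ((σ : Gam) : Gam ⧸ N') ^ i = 1 := by
      rw [← show ((localGaloisToGlobal q τ₀ : Gam) : Gam ⧸ N') = (σ : Gam ⧸ N')
        from QuotientGroup.eq.2 hτ₀]
      exact hi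
    rw [← QuotientGroup.mk_pow, QuotientGroup.eq_one_iff] at h1
    have h2 : (σ ^ i) ζn = ζn := (W.normalCore_le h1).2
    have h3 : ∀ j, (σ ^ j) ζn = ζn ^ q ^ j := by
      intro j
      induction j with
      | zero => simp
      | succ j ih =>
        rw [pow_succ', AlgEquiv.mul_apply, ih, map_pow,
          Gal.isFrobeniusAt_rootOfUnity hq padicPlace_liesOverPrime hσ hqn hζn.pow_eq_one,
          ← pow_mul, pow_succ']
    rw [h3] at h2
    have h4 : n ∣ q ^ i - 1 := by
      rw [hζn.eq_orderOf]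
      refine orderOf_dvd_of_pow_eq_one ?_
      refine mul_left_cancel₀ (hζn.ne_zero hn0.ne') ?_
      rw [← pow_succ', Nat.sub_add_cancel (Nat.one_le_pow _ _ hq.pos), h2, mul_one]
    have h5 := Nat.dvd_gcd h4 (dvd_refl n)
    rw [hndef, Nat.pow_sub_one_gcd_pow_sub_one] at h5
    have h6 : m ≤ Nat.gcd i m := by
      by_contra! hlt
      have hgpos : 0 < Nat.gcd i m := Nat.gcd_pos_of_pos_right _ hm
      have h7 := Nat.le_of_dvd
        (Nat.sub_pos_of_lt (Nat.one_lt_pow hgpos.ne' hq.one_lt)) h5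
      have h8 := Nat.pow_lt_pow_right hq.one_lt hlt
      have h9 := Nat.one_lt_pow hgpos.ne' hq.one_lt
      omega
    have h7 : Nat.gcd i m = m :=
      le_antisymm (Nat.le_of_dvd hm (Nat.gcd_dvd_right _ _)) h6
    rw [← h7]
    exact Nat.gcd_dvd_left _ _

/-- Classes of `H²` that are inflated from an unramified layer split in a larger one. -/
theorem exists_unram_cochain {N H : Subgroup Gam} (hN : N ∈ LG) [hn : N.Normal] (hI : InN q N)
    (hNH : N ≤ H) (g : Gam) (a : ↥(stab q H g) → ↥(stab q H g) → ZMod p)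
    (hcoc : ∀ x y z, a (x * y) z + a x y = a y z + a x (y * z))
    (ha : ∀ x y (s t : ↥(stab q H g)), (s : GamQ q) ∈ stab q N g → (t : GamQ q) ∈ stab q N g →
      a (x * s) (y * t) = a x y) :
    ∃ N' : Subgroup Gam, N' ∈ LG ∧ N'.Normal ∧ InN q N' ∧ N' ≤ N ∧ ∃ ζ : ↥(stab q H g) → ZMod p,
      (∀ x (s : ↥(stab q H g)), (s : GamQ q) ∈ stab q N' g → ζ (x * s) = ζ x) ∧
      ∀ x y, ζ y - ζ (x * y) + ζ x = a x y := by
  classical
  have hq : q.Prime := Fact.out
  set J := (N.comap (localGaloisToGlobal q)).index with hJdef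
  have hJ : 0 < J :=
    Nat.pos_of_ne_zero ((LQ q).finiteIndex (compat_local q N hN)).index_ne_zero
  obtain ⟨N', hN'n, τ₀, hN', hIN', hN'N, hgen, hord⟩ :=
    exists_unram_level_frob hN hI (Nat.mul_pos (Fact.out : p.Prime).pos hJ)
  let π : GamQ q →* Gam ⧸ N' := (QuotientGroup.mk' N').comp (localGaloisToGlobal q)
  have hπker : ∀ x, π x = 1 ↔ x ∈ stab q N' g := fun x => by
    rw [mem_stab_iff_of_normal q N' g]
    exact QuotientGroup.eq_one_iff _
  -- the image of the subgroup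
  set P := (π.comp (stab q H g).subtype).range
  have hJmem : π τ₀ ^ J ∈ P := by
    have hcn : (N.comap (localGaloisToGlobal q)).Normal := hn.comap _
    have h0 : τ₀ ^ J ∈ N.comap (localGaloisToGlobal q) := Subgroup.pow_index_mem _ τ₀
    have h1 : τ₀ ^ J ∈ stab q N g := (mem_stab_iff_of_normal q N g).2 h0
    exact ⟨⟨τ₀ ^ J, stab_mono q g hNH h1⟩, map_pow π τ₀ J⟩
  have hex : ∃ f, 0 < f ∧ π τ₀ ^ f ∈ P := ⟨J, hJ, hJmem⟩
  set f := Nat.find hex
  obtain ⟨hf0, hfP⟩ : 0 < f ∧ π τ₀ ^ f ∈ P := Nat.find_spec hex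
  have hfdvd : ∀ i, π τ₀ ^ i ∈ P → f ∣ i := fun i hi => by
    have h1 : π τ₀ ^ (i % f) ∈ P := by
      rw [← Nat.mod_add_div i f, pow_add, pow_mul] at hi
      exact (Subgroup.mul_mem_cancel_right P (pow_mem hfP _)).1 hi
    by_contra hnd
    have hpos : 0 < i % f := Nat.pos_of_ne_zero fun h => hnd (Nat.dvd_of_mod_eq_zero h)
    exact Nat.find_min hex (Nat.mod_lt i hf0) ⟨hpos, h1⟩
  obtain ⟨γ, hγ⟩ := hfP
  obtain ⟨Pd, hPd⟩ := hfdvd J hJmem
  have hγP : ((γ ^ Pd : ↥(stab q H g)) : GamQ q) ∈ stab q N g := by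
    have h1 : π ((γ ^ Pd : ↥(stab q H g)) : GamQ q) = π (τ₀ ^ J) := by
      rw [SubgroupClass.coe_pow, map_pow, map_pow, show π (γ : GamQ q) = π τ₀ ^ f from hγ,
        ← pow_mul, ← hPd]
    have h2 := QuotientGroup.eq.1 h1.symm
    have h3 : localGaloisToGlobal q (τ₀ ^ J) ∈ N := by
      have hcn : (N.comap (localGaloisToGlobal q)).Normal := hn.comap _
      exact Subgroup.pow_index_mem (N.comap (localGaloisToGlobal q)) τ₀
    rw [mem_stab_iff_of_normal q N g]
    have := N.mul_mem h3 (hN'N h2)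
    rwa [mul_inv_cancel_left] at this
  set D := orderOf (π (γ : GamQ q))
  have hD : p * Pd ∣ D := by
    have h1 : π τ₀ ^ (f * D) = 1 := by
      rw [pow_mul, ← show π (γ : GamQ q) = π τ₀ ^ f from hγ, pow_orderOf_eq_one]
    have h2 := hord _ h1
    rw [hPd, mul_left_comm] at h2
    exact Nat.dvd_of_mul_dvd_mul_left hf0 h2
  have hb : ∀ j, a (γ ^ (j + Pd)) γ = a (γ ^ j) γ := fun j => by
    rw [pow_add]
    have := ha (γ ^ j) γ (γ ^ Pd) 1 hγP (stab q N g).one_mem
    rwa [mul_one] at this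
  have hxexp : ∀ x : ↥(stab q H g), ∃ i, π (x : GamQ q) = π (γ : GamQ q) ^ i := fun x => by
    obtain ⟨i, hi⟩ : ∃ i : ℕ, π (x : GamQ q) = π τ₀ ^ i := hgen x
    obtain ⟨l, hl⟩ := hfdvd i (hi ▸ ⟨x, rfl⟩)
    exact ⟨l, by rw [hi, show π (γ : GamQ q) = π τ₀ ^ f from hγ, ← pow_mul, ← hl]⟩
  have hfac : ∀ x x' y y' : ↥(stab q H g), π (x : GamQ q) = π (x' : GamQ q) →
      π (y : GamQ q) = π (y' : GamQ q) → a x y = a x' y' := fun x x' y y' hx hy => by
    have hm : ∀ u v : ↥(stab q H g), π (u : GamQ q) = π (v : GamQ q) →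
        ((u⁻¹ * v : ↥(stab q H g)) : GamQ q) ∈ stab q N g := fun u v huv => by
      refine stab_mono q g hN'N ((hπker _).1 ?_)
      rw [Subgroup.coe_mul, Subgroup.coe_inv, map_mul, map_inv, huv, inv_mul_cancel]
    have := ha x y _ _ (hm x x' hx) (hm y y' hy)
    rwa [mul_inv_cancel_left, mul_inv_cancel_left, eq_comm] at this
  obtain ⟨ζ, hζ, hζa⟩ :=
    exists_split_of_periodic (π.comp (stab q H g).subtype) γ hxexp a hcoc hfac hb hD
  exact ⟨N', hN', hN'n, hIN', hN'N, ζ, fun x s hs => hζ x s ((hπker _).2 hs), hζa⟩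

end Fermat.Agent.PT
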