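import Mathlib.NumberTheory.NumberField.ClassNumber
import Mathlib.RingTheory.ClassGroup.Basic
import Fermat.Agent.PT.UnramLocal

/-!
# Divisors outside `S`, and levels of `G_S` cut out by radicals

The exponent `lv` at a place, radicals cutting out levels of `G_S` (`exists_level_root`), and
elements with divisor outside `S` supported at a single place, from finiteness of the class
group.
-/

noncomputable section

namespace Fermat.Agent.PT

open Lv

open scoped Pointwise nonZeroDivisors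

local notation "Qb" => AlgebraicClosure ℚ

variable {q p : ℕ} [Fact q.Prime] [Fact p.Prime]

open scoped Classical in
variable (q) in
/-- The exponent of an absolute value which is an integral power of `q`. -/
def lv (g : Gam) (x : Qbˣ) : ℤ :=
  if h : ∃ k : ℤ, nq q g (x : Qb) = (q : ℝ) ^ k then h.choose else 0

theorem lv_eq {g : Gam} {x : Qbˣ} {k : ℤ} (h : nq q g (x : Qb) = (q : ℝ) ^ k) : lv q g x = k := by
  have hex : ∃ k : ℤ, nq q g (x : Qb) = (q : ℝ) ^ k := ⟨k, h⟩
  rw [lv, dif_pos hex]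
  exact (zpow_right_strictMono₀ (by exact_mod_cast (Fact.out : q.Prime).one_lt :
    (1 : ℝ) < q)).injective
    (hex.choose_spec.symm.trans h)

theorem lv_one (g : Gam) : lv q g 1 = 0 := lv_eq (by rw [Units.val_one, nq_one, zpow_zero])

variable {S : Finset Nat.Primes} {H : Subgroup Gam}

theorem nq_eq_zpow_lv (hH : H ∈ LS S) {r : Nat.Primes} (hr : r ∉ S) {x : Qbˣ} (hx : x ∈ fixU H)
    (g : Gam) : nq (r : ℕ) g (x : Qb) = ((r : ℕ) : ℝ) ^ lv (r : ℕ) g x := by
  obtain ⟨N, hN, hn, hNH, hI⟩ := mem_LS.1 hH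
  obtain ⟨k, hk⟩ := exists_nq_zpow_of_le hN (hI r hr) hNH hx g
  rwa [lv_eq hk]

theorem lv_mul (hH : H ∈ LS S) {r : Nat.Primes} (hr : r ∉ S) {x y : Qbˣ} (hx : x ∈ fixU H)
    (hy : y ∈ fixU H) (g : Gam) :
    lv (r : ℕ) g (x * y) = lv (r : ℕ) g x + lv (r : ℕ) g y := by
  refine lv_eq ?_
  rw [Units.val_mul, nq_mul, nq_eq_zpow_lv hH hr hx, nq_eq_zpow_lv hH hr hy, zpow_add₀]
  exact_mod_cast r.2.ne_zero

theorem lv_pow (hH : H ∈ LS S) {r : Nat.Primes} (hr : r ∉ S) {x : Qbˣ} (hx : x ∈ fixU H)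
    (n : ℕ) (g : Gam) : lv (r : ℕ) g (x ^ n) = n * lv (r : ℕ) g x := by
  refine lv_eq ?_
  rw [Units.val_pow_eq_pow_val, nq_pow, nq_eq_zpow_lv hH hr hx, ← zpow_natCast, ← zpow_mul,
    mul_comm]

theorem lv_inv (hH : H ∈ LS S) {r : Nat.Primes} (hr : r ∉ S) {x : Qbˣ} (hx : x ∈ fixU H)
    (g : Gam) : lv (r : ℕ) g x⁻¹ = -lv (r : ℕ) g x := by
  refine lv_eq ?_
  rw [Units.val_inv_eq_inv_val, nq_inv, nq_eq_zpow_lv hH hr hx, zpow_neg]

theorem lv_samePlace {g g' : Gam} (h : SamePlace q H g g') {x : Qbˣ} (hx : x ∈ fixU H) :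
    lv q g' x = lv q g x := by
  have e := nq_samePlace h fun k hk => congrArg Units.val (hx ⟨k, hk⟩)
  by_cases he : ∃ k : ℤ, nq q g (x : Qb) = (q : ℝ) ^ k
  · obtain ⟨k, hk⟩ := he
    rw [lv_eq hk, lv_eq (e.trans hk)]
  · rw [lv, dif_neg (by rwa [e]), lv, dif_neg he]

/-- Inertia at `γ • padicPlace r'` fixes a root of an element of a level of `G_S` whose exponent at
`γ⁻¹` is divisible by `p`. -/
theorem inertia_fixes_of_dvd_lv (hH : H ∈ LS S) {r' : Nat.Primes} (hr' : r' ∉ S)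
    (hrp : (r' : ℕ) ≠ p) {A : ValuationSubring Qb} {σ γ : Gam}
    (hσ : σ ∈ A.inertiaSubgroupIn ℚ) (hγ : γ • padicPlace (r' : ℕ) = A) {r : Qbˣ}
    (hr : r ^ p ∈ fixU H) (hord : (p : ℤ) ∣ lv (r' : ℕ) γ⁻¹ (r ^ p)) : σ • r = r := by
  have hσH : σ ∈ H := InN_of_mem_LS hH hr' A
    (hγ ▸ Gal.liesOverPrime_smul γ padicPlace_liesOverPrime) hσ
  set σ' := γ⁻¹ * σ * γ with hσ'def
  have hσ' : σ' ∈ (padicPlace (r' : ℕ)).inertiaSubgroupIn ℚ := by
    have := Gal.conj_mem_inertia (A := A) hσ γ⁻¹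
    rw [← hγ, inv_smul_smul] at this
    simpa [hσ'def] using this
  have hfix : σ' • (γ⁻¹ • r) ^ p = (γ⁻¹ • r) ^ p := by
    rw [← smul_pow', ← mul_smul, show σ' * γ⁻¹ = γ⁻¹ * σ by rw [hσ'def]; group, mul_smul]
    exact congrArg (γ⁻¹ • ·) (hr ⟨σ, hσH⟩)
  obtain ⟨k, hk⟩ := hord
  have h1 : nq (r' : ℕ) 1 ((γ⁻¹ • r : Qbˣ) : Qb) ^ p = (((r' : ℕ) : ℝ) ^ k) ^ p := by
    rw [nq_smul, one_mul, ← nq_pow, ← Units.val_pow_eq_pow_val, nq_eq_zpow_lv hH hr' hr, hk,
      mul_comm, zpow_mul, zpow_natCast]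
  have h2 := inertia_fixes_root' (p := p) hrp hσ' hfix
    ((pow_left_inj₀ (nq_nonneg _ _) (zpow_nonneg (by positivity) _)
      (Fact.out : p.Prime).ne_zero).1 h1)
  rw [← mul_smul, show σ' * γ⁻¹ = γ⁻¹ * σ by rw [hσ'def]; group, mul_smul] at h2
  exact MulAction.injective γ⁻¹ h2

/-- A root of integral exponent at every prime outside `S` has a level of `G_S` fixing it. -/
theorem exists_level_root (hH : H ∈ LS S) (hpS : (⟨p, Fact.out⟩ : Nat.Primes) ∈ S) {r : Qbˣ}
    (hr : r ^ p ∈ fixU H)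
    (hord : ∀ r' : Nat.Primes, r' ∉ S → ∀ g, (p : ℤ) ∣ lv (r' : ℕ) g (r ^ p)) :
    ∃ U ∈ LS S, U ≤ H ∧ ∀ u ∈ U, u • r = r := by
  refine ⟨H ⊓ MulAction.stabilizer Gam r, mem_LS_of_inertia ?_ ?_, inf_le_left, fun u hu => hu.2⟩
  · obtain ⟨U, hU, hfix⟩ := exists_level_fixing_units (F := ℚ) r
    exact LG.mem_of_le (LG.inf_mem (LS_le_LG hH) hU) (inf_le_inf_left _ fun s hs => hfix s hs)
  intro r' hr' A hA σ hσ
  have hqp : (r' : ℕ) ≠ p := fun h => hr' (by
    rwa [show r' = (⟨p, Fact.out⟩ : Nat.Primes) from Subtype.ext h])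
  have hσH : σ ∈ H := InN_of_mem_LS hH hr' A hA hσ
  refine ⟨hσH, ?_⟩
  obtain ⟨γ, hγ⟩ := Gal.exists_smul_eq (A := padicPlace (r' : ℕ)) (B := A) r'.2
    padicPlace_liesOverPrime hA
  exact inertia_fixes_of_dvd_lv hH hr' hqp hσ hγ hr (hord r' hr' γ⁻¹)

section PlaceIdeal

theorem isIntegral_coe_ringOfIntegers {k : IntermediateField ℚ Qb}
    (x : NumberField.RingOfIntegers k) : IsIntegral ℤ ((x : k) : Qb) :=
  x.2.map k.val.toRingHom.toIntAlgHom

variable (H) in
/-- The prime of the fixed field of `H` at a place, as an ideal of its integers. -/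
def placeIdeal (r : Nat.Primes) (g : Gam) :
    Ideal (NumberField.RingOfIntegers (IntermediateField.fixedField H)) where
  carrier := {x | nq (r : ℕ) g ((x : IntermediateField.fixedField H) : Qb) < 1}
  add_mem' {a b} ha hb :=
    (nq_add_le (q := (r : ℕ)) g ((a : IntermediateField.fixedField H) : Qb)
      ((b : IntermediateField.fixedField H) : Qb)).trans_lt (max_lt ha hb)
  zero_mem' := by
    show nq (r : ℕ) g ((((0 : NumberField.RingOfIntegers (IntermediateField.fixedField H))) :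
      IntermediateField.fixedField H) : Qb) < 1
    simp [nq_zero]
  smul_mem' c x hx := by
    show nq (r : ℕ) g (((c • x : NumberField.RingOfIntegers (IntermediateField.fixedField H)) :
      IntermediateField.fixedField H) : Qb) < 1
    simp only [smul_eq_mul, map_mul, MulMemClass.coe_mul, nq_mul]
    exact mul_lt_one_of_nonneg_of_lt_one_right
      (nq_le_one_of_isIntegral g (isIntegral_coe_ringOfIntegers c)) (nq_nonneg _ _) hx

theorem mem_placeIdeal {r : Nat.Primes} {g : Gam}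
    {x : NumberField.RingOfIntegers (IntermediateField.fixedField H)} :
    x ∈ placeIdeal H r g ↔ nq (r : ℕ) g ((x : IntermediateField.fixedField H) : Qb) < 1 := Iff.rfl

theorem natCast_mem_placeIdeal {r : Nat.Primes} {g : Gam} {n : ℕ} :
    (n : NumberField.RingOfIntegers (IntermediateField.fixedField H)) ∈ placeIdeal H r g ↔
      (r : ℕ) ∣ n := by
  rw [mem_placeIdeal,
    show (((n : NumberField.RingOfIntegers (IntermediateField.fixedField H)) :
      IntermediateField.fixedField H) : Qb) = ((n : ℚ) : Qb) by simp,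
    nq_ratCast, Rat.cast_natCast, Padic.norm_natCast_lt_one_iff]

theorem placeIdeal_ne_bot (r : Nat.Primes) (g : Gam) : placeIdeal H r g ≠ ⊥ := fun h => by
  have h1 := (natCast_mem_placeIdeal (H := H) (r := r) (g := g) (n := (r : ℕ))).2 dvd_rfl
  rw [h, Ideal.mem_bot, Nat.cast_eq_zero] at h1
  exact r.2.ne_zero h1

theorem isMaximal_placeIdeal (hH : H ∈ LG) (r : Nat.Primes) (g : Gam) :
    (placeIdeal H r g).IsMaximal := by
  have := finiteDimensional_fixedField hH
  have : NumberField (IntermediateField.fixedField H) := { }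
  refine Ideal.IsPrime.isMaximal ⟨fun h => ?_, fun {x y} hxy => ?_⟩ (placeIdeal_ne_bot r g)
  · have h1 : (1 : NumberField.RingOfIntegers (IntermediateField.fixedField H)) ∈
        placeIdeal H r g := h ▸ Submodule.mem_top
    rw [← Nat.cast_one, natCast_mem_placeIdeal] at h1
    exact r.2.not_dvd_one h1
  · by_contra! hc
    rw [mem_placeIdeal, mem_placeIdeal, not_lt, not_lt] at hc
    rw [mem_placeIdeal] at hxy
    simp only [map_mul, MulMemClass.coe_mul, nq_mul] at hxy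
    exact absurd hxy (not_lt.2 (one_le_mul_of_one_le_of_one_le hc.1 hc.2))

/-- The prime ideal determines the place. -/
theorem plc_mk_eq_of_placeIdeal_eq (hH : H ∈ LG) {r r' : Nat.Primes} {g g' : Gam}
    (hIJ : placeIdeal H r g = placeIdeal H r' g') :
    (Plc.mk r' g' : Plc H) = Plc.mk r g := by
  have hrr : r' = r := by
    refine Subtype.ext ((Nat.prime_dvd_prime_iff_eq r'.2 r.2).1 ?_)
    rw [← natCast_mem_placeIdeal (H := H) (g := g'), ← hIJ]
    exact natCast_mem_placeIdeal.2 dvd_rfl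
  subst hrr
  refine congrArg (Sigma.mk r') (Pl.mk_eq.2 ?_)
  -- the two embeddings give the same place
  obtain ⟨N, hN, hNH, hNn⟩ := LG.exists_normal hH
  obtain ⟨σ, hσ, hσe⟩ := Gal.exists_mem_smul_eq (A := g⁻¹ • padicPlace (r' : ℕ))
    (B := g'⁻¹ • padicPlace (r' : ℕ)) (H := H) (isClosed_of_mem hH) r'.2
    (Gal.liesOverPrime_smul _ padicPlace_liesOverPrime)
    (Gal.liesOverPrime_smul _ padicPlace_liesOverPrime) fun x hx hfix => by
      rw [Gal.mem_nonunits_smul_iff, Gal.mem_nonunits_smul_iff, inv_inv, inv_inv,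
        padicPlace_mem_nonunits, padicPlace_mem_nonunits]
      let k := IntermediateField.fixedField H
      let xo : NumberField.RingOfIntegers k := ⟨⟨x, mem_fixedField_iff.2 hfix⟩,
        (isIntegral_algHom_iff k.val.toRingHom.toIntAlgHom k.val.injective).1 hx⟩
      exact SetLike.ext_iff.1 hIJ xo
  have hD : g' * σ * g⁻¹ ∈ (padicPlace (r' : ℕ)).decompositionSubgroup ℚ := by
    show _ • padicPlace (r' : ℕ) = padicPlace (r' : ℕ)
    rw [mul_smul, mul_smul, hσe, smul_inv_smul]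
  obtain ⟨τ, hτ⟩ := exists_local_of_decomposition hN hD
  refine SamePlace.symm ⟨τ, g⁻¹ * ((localGaloisToGlobal (r' : ℕ) τ)⁻¹ * (g' * σ * g⁻¹)) * g * σ⁻¹,
    H.mul_mem (hNH (by simpa using hNn.conj_mem _ hτ g⁻¹)) (H.inv_mem hσ), by group⟩

/-- Some element is small at a given place and a unit at all others, by finiteness of the class
group. -/
theorem exists_supported_at_place (hH : H ∈ LG) (r : Nat.Primes) (g : Gam) :
    ∃ x ∈ fixU H, nq (r : ℕ) g (x : Qb) < 1 ∧
      ∀ (r' : Nat.Primes) (g' : Gam), (Plc.mk r' g' : Plc H) ≠ Plc.mk r g →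
        nq (r' : ℕ) g' (x : Qb) = 1 := by
  have := finiteDimensional_fixedField hH
  let k := IntermediateField.fixedField H
  have : NumberField k := { }
  set I := placeIdeal H r g
  have hI0 : I ≠ ⊥ := placeIdeal_ne_bot r g
  set hc := Fintype.card (ClassGroup (NumberField.RingOfIntegers k))
  let I₀ : (Ideal (NumberField.RingOfIntegers k))⁰ := ⟨I, mem_nonZeroDivisors_iff_ne_zero.2 hI0⟩
  have h1 : ClassGroup.mk0 (I₀ ^ hc) = 1 := by rw [map_pow, pow_card_eq_one]
  rw [ClassGroup.mk0_eq_one_iff] at h1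
  obtain ⟨a, ha⟩ := h1.principal
  have ha' : I ^ hc = Ideal.span {a} := ha
  have haI : a ∈ I := Ideal.pow_le_self Fintype.card_ne_zero
    (ha'.symm ▸ Ideal.mem_span_singleton_self a)
  have ha0 : ((a : k) : Qb) ≠ 0 := fun h => by
    have : a = 0 := Subtype.ext (Subtype.ext h)
    rw [this, Ideal.span_singleton_eq_bot.2 rfl] at ha'
    exact pow_ne_zero _ hI0 ha'
  refine ⟨Units.mk0 _ ha0, fun h => Units.ext ((a : k).2 h), haI, fun r' g' hne => ?_⟩
  refine le_antisymm (nq_le_one_of_isIntegral g' (isIntegral_coe_ringOfIntegers a))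
    (not_lt.1 fun hlt => hne (plc_mk_eq_of_placeIdeal_eq hH ?_))
  exact (isMaximal_placeIdeal hH r g).eq_of_le (isMaximal_placeIdeal hH r' g').ne_top
    ((isMaximal_placeIdeal hH r' g').isPrime.le_of_pow_le
      (ha'.symm ▸ (Ideal.span_singleton_le_iff_mem _).2 hlt))

end PlaceIdeal

end Fermat.Agent.PT
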