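import Mathlib.GroupTheory.Index
import Mathlib.LinearAlgebra.Quotient.Basic
import Mathlib.RepresentationTheory.Basic
import Mathlib.Tactic.Abel
import Mathlib.Tactic.Group

/-!
# Cochains of low degree that are constant modulo a family of level subgroups

`Lv G` is a directed family of finite-index subgroups of `G` (the "levels"); it plays the role of a
profinite topology.  We develop `H¹`, `H²` of level-constant cochains with coefficients in a
representation.
-/

noncomputable section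

namespace Fermat.Agent.PT

/-- A family of levels on a group. -/
structure Lv (G : Type*) [Group G] where
  /-- The levels: finite-index subgroups, closed upwards and under intersection. -/
  sets : Set (Subgroup G)
  top_mem : ⊤ ∈ sets
  inf_mem : ∀ {U V : Subgroup G}, U ∈ sets → V ∈ sets → U ⊓ V ∈ sets
  mem_of_le : ∀ {U V : Subgroup G}, U ∈ sets → U ≤ V → V ∈ sets
  exists_normal : ∀ {U : Subgroup G}, U ∈ sets → ∃ V ∈ sets, V ≤ U ∧ V.Normal
  finiteIndex : ∀ {U : Subgroup G}, U ∈ sets → U.FiniteIndex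

namespace Lv

variable {G G' : Type*} [Group G] [Group G']

instance : SetLike (Lv G) (Subgroup G) where
  coe := Lv.sets
  coe_injective := fun L L' h => by cases L; cases L'; simp_all

/-- Levels pulled back along a homomorphism. -/
def comap (L : Lv G) (f : G' →* G) : Lv G' where
  sets := {U | ∃ V ∈ L, V.comap f ≤ U}
  top_mem := ⟨⊤, L.top_mem, le_top⟩
  inf_mem := fun ⟨V, hV, hVU⟩ ⟨V', hV', hV'U⟩ =>
    ⟨V ⊓ V', L.inf_mem hV hV', by rw [Subgroup.comap_inf]; exact inf_le_inf hVU hV'U⟩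
  mem_of_le := fun ⟨V, hV, hVU⟩ h => ⟨V, hV, hVU.trans h⟩
  exists_normal := fun {U} ⟨V, hV, hVU⟩ => by
    obtain ⟨W, hW, hWV, hn⟩ := L.exists_normal hV
    exact ⟨W.comap f, ⟨W, hW, le_rfl⟩, (Subgroup.comap_mono hWV).trans hVU, hn.comap f⟩
  finiteIndex := fun {U} ⟨V, hV, hVU⟩ => by
    have := L.finiteIndex hV
    have : (V.comap f).FiniteIndex :=
      ⟨by rw [Subgroup.index_comap]
          exact Subgroup.isFiniteRelIndex_of_finiteIndex.relIndex_ne_zero⟩
    exact Subgroup.finiteIndex_of_le hVU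

theorem mem_comap {L : Lv G} {f : G' →* G} {U : Subgroup G'} :
    U ∈ L.comap f ↔ ∃ V ∈ L, V.comap f ≤ U := Iff.rfl

theorem comap_mem_comap {L : Lv G} (f : G' →* G) {V : Subgroup G} (hV : V ∈ L) :
    V.comap f ∈ L.comap f := ⟨V, hV, le_rfl⟩

/-- Compatibility of a homomorphism with two families of levels. -/
def Compat (L : Lv G) (L' : Lv G') (f : G' →* G) : Prop := ∀ U ∈ L, U.comap f ∈ L'

theorem compat_comap (L : Lv G) (f : G' →* G) : Compat L (L.comap f) f :=
  fun _ hU => comap_mem_comap f hU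

theorem compat_id {L L' : Lv G} (h : ∀ U ∈ L, U ∈ L') : Compat L L' (MonoidHom.id G) :=
  fun U hU => by simpa using h U hU

theorem Compat.comp {G'' : Type*} [Group G''] {L : Lv G} {L' : Lv G'} {L'' : Lv G''}
    {f : G' →* G} {g : G'' →* G'} (hf : Compat L L' f) (hg : Compat L' L'' g) :
    Compat L L'' (f.comp g) := fun U hU => by
  rw [← Subgroup.comap_comap]; exact hg _ (hf U hU)

/-! ### Level-constant functions -/

variable {X Y : Type*} (L : Lv G)

/-- A function of one variable is level-constant. -/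
def Con1 (f : G → X) : Prop := ∃ U ∈ L, ∀ g, ∀ s ∈ U, f (g * s) = f g

/-- A function of two variables is level-constant. -/
def Con2 (f : G × G → X) : Prop :=
  ∃ U ∈ L, ∀ g g', ∀ s ∈ U, ∀ s' ∈ U, f (g * s, g' * s') = f (g, g')

variable {L}

theorem con1_const (x : X) : Con1 L (fun _ : G => x) := ⟨⊤, L.top_mem, fun _ _ _ => rfl⟩

theorem con2_const (x : X) : Con2 L (fun _ : G × G => x) :=
  ⟨⊤, L.top_mem, fun _ _ _ _ _ _ => rfl⟩

theorem Con1.comp {f : G → X} (hf : Con1 L f) (φ : X → Y) : Con1 L (fun g => φ (f g)) :=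
  let ⟨U, hU, h⟩ := hf; ⟨U, hU, fun g s hs => congrArg φ (h g s hs)⟩

theorem Con2.comp {f : G × G → X} (hf : Con2 L f) (φ : X → Y) : Con2 L (fun g => φ (f g)) :=
  let ⟨U, hU, h⟩ := hf; ⟨U, hU, fun g g' s hs s' hs' => congrArg φ (h g g' s hs s' hs')⟩

theorem Con1.map₂ {Z : Type*} {f : G → X} {f' : G → Y} (hf : Con1 L f) (hf' : Con1 L f')
    (φ : X → Y → Z) : Con1 L (fun g => φ (f g) (f' g)) :=
  let ⟨U, hU, h⟩ := hf
  let ⟨U', hU', h'⟩ := hf'
  ⟨U ⊓ U', L.inf_mem hU hU', fun g s hs => by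
    beta_reduce; rw [h g s hs.1, h' g s hs.2]⟩

theorem Con2.map₂ {Z : Type*} {f : G × G → X} {f' : G × G → Y} (hf : Con2 L f) (hf' : Con2 L f')
    (φ : X → Y → Z) : Con2 L (fun g => φ (f g) (f' g)) :=
  let ⟨U, hU, h⟩ := hf
  let ⟨U', hU', h'⟩ := hf'
  ⟨U ⊓ U', L.inf_mem hU hU', fun g g' s hs s' hs' => by
    beta_reduce; rw [h g g' s hs.1 s' hs'.1, h' g g' s hs.2 s' hs'.2]⟩

theorem Con1.precomp {L' : Lv G'} {f : G' →* G} (hf : Compat L L' f) {x : G → X} (hx : Con1 L x) :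
    Con1 L' (fun g => x (f g)) :=
  let ⟨U, hU, h⟩ := hx
  ⟨U.comap f, hf U hU, fun g s hs => by beta_reduce; rw [map_mul]; exact h _ _ hs⟩

theorem Con2.precomp {L' : Lv G'} {f : G' →* G} (hf : Compat L L' f) {x : G × G → X}
    (hx : Con2 L x) : Con2 L' (fun g => x (f g.1, f g.2)) :=
  let ⟨U, hU, h⟩ := hx
  ⟨U.comap f, hf U hU, fun g g' s hs s' hs' => by
    simp only [map_mul]; exact h _ _ _ hs _ hs'⟩

theorem Con1.exists_normal {f : G → X} (hf : Con1 L f) :
    ∃ U ∈ L, U.Normal ∧ ∀ g, ∀ s ∈ U, f (g * s) = f g ∧ f (s * g) = f g := by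
  obtain ⟨U, hU, h⟩ := hf
  obtain ⟨V, hV, hVU, hn⟩ := L.exists_normal hU
  refine ⟨V, hV, hn, fun g s hs => ⟨h g s (hVU hs), ?_⟩⟩
  have : s * g = g * (g⁻¹ * s * g) := by simp [mul_assoc]
  rw [this]; exact h g _ (hVU (by simpa using hn.conj_mem s hs g⁻¹))

theorem Con2.exists_normal {f : G × G → X} (hf : Con2 L f) :
    ∃ U ∈ L, U.Normal ∧ ∀ g g', ∀ s ∈ U, ∀ s' ∈ U, ∀ t ∈ U, ∀ t' ∈ U,
      f (t * g * s, t' * g' * s') = f (g, g') := by
  obtain ⟨U, hU, h⟩ := hf
  obtain ⟨V, hV, hVU, hn⟩ := L.exists_normal hU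
  refine ⟨V, hV, hn, fun g g' s hs s' hs' t ht t' ht' => ?_⟩
  have e : ∀ a b c : G, b * a * c = a * (a⁻¹ * b * a * c) := fun a b c => by simp [mul_assoc]
  rw [e g, e g']
  exact h g g' _ (hVU (mul_mem (by simpa using hn.conj_mem t ht g⁻¹) hs)) _
    (hVU (mul_mem (by simpa using hn.conj_mem t' ht' g'⁻¹) hs'))

end Lv

open Lv

variable {k : Type*} [CommRing k] {G : Type*} [Group G] (L : Lv G)
variable {M : Type*} [AddCommGroup M] [Module k M] (ρ : Representation k G M)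

/-- Every element is fixed by some level. -/
def Smooth : Prop := ∀ m : M, ∃ U ∈ L, ∀ s ∈ U, ρ s m = m

variable {L ρ}

theorem smooth_of_le {U : Subgroup G} (hU : U ∈ L) (h : ∀ s ∈ U, ρ s = 1) : Smooth L ρ :=
  fun m => ⟨U, hU, fun s hs => by rw [h s hs]; rfl⟩

variable (L ρ)

/-- The differential on `0`-cochains. -/
def d0 : M →ₗ[k] (G → M) where
  toFun m g := ρ g m - m
  map_add' a b := by ext g; simp; abel
  map_smul' c a := by ext g; simp [smul_sub]

/-- The differential on `1`-cochains. -/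
def d1 : (G → M) →ₗ[k] (G × G → M) where
  toFun f gh := ρ gh.1 (f gh.2) - f (gh.1 * gh.2) + f gh.1
  map_add' a b := by ext g; simp; abel
  map_smul' c a := by ext g; simp [smul_sub]

/-- The differential on `2`-cochains. -/
def d2 : (G × G → M) →ₗ[k] (G × G × G → M) where
  toFun f ghj := ρ ghj.1 (f (ghj.2.1, ghj.2.2)) - f (ghj.1 * ghj.2.1, ghj.2.2)
    + f (ghj.1, ghj.2.1 * ghj.2.2) - f (ghj.1, ghj.2.1)
  map_add' a b := by ext g; simp; abel
  map_smul' c a := by ext g; simp [smul_sub, smul_add]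

theorem d1_apply (f : G → M) (g h : G) : d1 ρ f (g, h) = ρ g (f h) - f (g * h) + f g := rfl

theorem d2_apply (f : G × G → M) (g h j : G) :
    d2 ρ f (g, h, j) = ρ g (f (h, j)) - f (g * h, j) + f (g, h * j) - f (g, h) := rfl

theorem d0_apply (m : M) (g : G) : d0 ρ m g = ρ g m - m := rfl

theorem d2_d1 (f : G → M) : d2 ρ (d1 ρ f) = 0 := by
  ext ⟨g, h, j⟩
  simp only [d2_apply, d1_apply, map_add, map_sub, mul_assoc, Pi.zero_apply]
  rw [← LinearMap.comp_apply, ← Module.End.mul_eq_comp, ← map_mul]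
  abel

/-- The level-constant `1`-cochains. -/
def C1 : Submodule k (G → M) where
  carrier := {f | Con1 L f}
  add_mem' hf hf' := hf.map₂ hf' (· + ·)
  zero_mem' := con1_const 0
  smul_mem' c _ hf := hf.comp (c • ·)

/-- The level-constant `2`-cochains. -/
def C2 : Submodule k (G × G → M) where
  carrier := {f | Con2 L f}
  add_mem' hf hf' := hf.map₂ hf' (· + ·)
  zero_mem' := con2_const 0
  smul_mem' c _ hf := hf.comp (c • ·)

/-- Level-constant `1`-cocycles. -/
def Z1 : Submodule k (G → M) := C1 L ⊓ LinearMap.ker (d1 ρ)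

/-- Level-constant `2`-cocycles. -/
def Z2 : Submodule k (G × G → M) := C2 L ⊓ LinearMap.ker (d2 ρ)

/-- Coboundaries of level-constant `1`-cochains. -/
def B2 : Submodule k (G × G → M) := (C1 L).map (d1 ρ)

variable {L ρ}

theorem mem_Z1 {f : G → M} :
    f ∈ Z1 L ρ ↔ Con1 L f ∧ ∀ g h, f (g * h) = ρ g (f h) + f g := by
  refine and_congr Iff.rfl ⟨fun h g g' => ?_, fun h => ?_⟩
  · have := congrFun (LinearMap.mem_ker.1 h) (g, g')
    rw [d1_apply, Pi.zero_apply, sub_add_eq_add_sub, sub_eq_zero] at this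
    exact this.symm
  · refine LinearMap.mem_ker.2 (funext fun ⟨g, g'⟩ => ?_)
    simp [d1_apply, h g g']

theorem mem_Z2 {f : G × G → M} :
    f ∈ Z2 L ρ ↔ Con2 L f ∧ ∀ g h j, f (g * h, j) + f (g, h) = ρ g (f (h, j)) + f (g, h * j) := by
  refine and_congr Iff.rfl ⟨fun h g g' j => ?_, fun h => ?_⟩
  · have := congrFun (LinearMap.mem_ker.1 h) (g, g', j)
    rw [d2_apply, Pi.zero_apply] at this
    rw [← sub_eq_zero, ← neg_eq_zero, ← this]
    abel
  · refine LinearMap.mem_ker.2 (funext fun ⟨g, g', j⟩ => ?_)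
    rw [d2_apply, Pi.zero_apply]
    have := h g g' j
    rw [← sub_eq_zero, ← neg_eq_zero] at this
    rw [← this]
    abel

theorem mem_B2 {f : G × G → M} : f ∈ B2 L ρ ↔ ∃ y, Con1 L y ∧ d1 ρ y = f := Iff.rfl

theorem Z1_apply_one {f : G → M} (hf : f ∈ Z1 L ρ) : f 1 = 0 := by
  have := (mem_Z1.1 hf).2 1 1
  simpa using this

/-- The differential of a level-constant cochain is level-constant for smooth representations. -/
theorem con2_d1 (hρ : Smooth L ρ) {f : G → M} (hf : Con1 L f) : Con2 L (d1 ρ f) := by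
  obtain ⟨U, hU, hn, h⟩ := hf.exists_normal
  have := L.finiteIndex hU
  have : Fintype (G ⧸ U) := Fintype.ofFinite _
  choose V hV hVfix using hρ
  let W : Subgroup G := (Finset.univ : Finset (G ⧸ U)).inf (fun x => V (f x.out))
  have hW : W ∈ L := Finset.inf_induction L.top_mem (fun a ha b hb => L.inf_mem ha hb)
    (fun x _ => hV _)
  refine ⟨U ⊓ W, L.inf_mem hU hW, fun g g' s hs s' hs' => ?_⟩
  have e1 : f (g' * s') = f g' := (h g' s' hs'.1).1
  obtain ⟨u, hu, hgu⟩ : ∃ u ∈ U, g' = (QuotientGroup.mk g' : G ⧸ U).out * u :=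
    ⟨_, QuotientGroup.eq.1 ((QuotientGroup.mk g' : G ⧸ U).out_eq), by simp⟩
  have hfix : ρ s (f g') = f g' := by
    have hs2 : s ∈ V (f (QuotientGroup.mk g' : G ⧸ U).out) :=
      (Finset.inf_le (s := (Finset.univ : Finset (G ⧸ U)))
        (f := fun x => V (f x.out)) (Finset.mem_univ _)) hs.2
    rw [hgu, (h _ u hu).1]
    exact hVfix _ s hs2
  have e2 : f (g * s * (g' * s')) = f (g * g') := by
    have : g * s * (g' * s') = g * g' * (g'⁻¹ * s * g' * s') := by simp [mul_assoc]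
    rw [this]
    exact (h _ _ (mul_mem (by simpa using hn.conj_mem s hs.1 g'⁻¹) hs'.1)).1
  rw [d1_apply, d1_apply, e1, e2, (h g s hs.1).1, map_mul, Module.End.mul_apply, hfix]

theorem d1_mem_Z2 (hρ : Smooth L ρ) {f : G → M} (hf : Con1 L f) : d1 ρ f ∈ Z2 L ρ :=
  ⟨con2_d1 hρ hf, LinearMap.mem_ker.2 (d2_d1 ρ f)⟩

variable (L ρ)

/-- Continuous `H²`. -/
abbrev H2 : Type _ := ↥(Z2 L ρ) ⧸ (B2 L ρ).comap (Z2 L ρ).subtype

/-- The class of a cocycle. -/
abbrev mk2 : ↥(Z2 L ρ) →ₗ[k] H2 L ρ := Submodule.mkQ _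

variable {L ρ}

theorem mk2_eq_zero {f : ↥(Z2 L ρ)} : mk2 L ρ f = 0 ↔ ∃ y, Con1 L y ∧ d1 ρ y = (f : G × G → M) := by
  rw [Submodule.mkQ_apply, Submodule.Quotient.mk_eq_zero, Submodule.mem_comap]
  exact mem_B2

theorem mk2_eq_mk2 {f f' : ↥(Z2 L ρ)} :
    mk2 L ρ f = mk2 L ρ f' ↔
      ∃ y, Con1 L y ∧ d1 ρ y = (f : G × G → M) - (f' : G × G → M) := by
  rw [← sub_eq_zero, ← map_sub, mk2_eq_zero]; rfl

theorem mk2_surjective : Function.Surjective (mk2 L ρ) := Submodule.mkQ_surjective _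

/-! ### Functoriality -/

section Map

variable {G' : Type*} [Group G'] {L' : Lv G'} {f : G' →* G}
variable {M' : Type*} [AddCommGroup M'] [Module k M'] {ρ' : Representation k G' M'}

/-- Pull back along `f` and push along `φ`, on `1`-cochains. -/
def pp1 (f : G' →* G) (φ : M →ₗ[k] M') : (G → M) →ₗ[k] (G' → M') where
  toFun x g := φ (x (f g))
  map_add' a b := by ext; simp
  map_smul' c a := by ext; simp

/-- Pull back along `f` and push along `φ`, on `2`-cochains. -/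
def pp2 (f : G' →* G) (φ : M →ₗ[k] M') : (G × G → M) →ₗ[k] (G' × G' → M') where
  toFun x g := φ (x (f g.1, f g.2))
  map_add' a b := by ext; simp
  map_smul' c a := by ext; simp

theorem pp1_apply (φ : M →ₗ[k] M') (x : G → M) (g : G') : pp1 f φ x g = φ (x (f g)) := rfl

theorem pp2_apply (φ : M →ₗ[k] M') (x : G × G → M) (g h : G') :
    pp2 f φ x (g, h) = φ (x (f g, f h)) := rfl

/-- Equivariance of a linear map along a group homomorphism. -/
def Equiv' (f : G' →* G) (ρ : Representation k G M) (ρ' : Representation k G' M')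
    (φ : M →ₗ[k] M') : Prop := ∀ g m, φ (ρ (f g) m) = ρ' g (φ m)

variable {φ : M →ₗ[k] M'}

theorem pp2_d1 (hφ : Equiv' f ρ ρ' φ) (x : G → M) : pp2 f φ (d1 ρ x) = d1 ρ' (pp1 f φ x) := by
  ext ⟨g, h⟩
  simp only [pp2_apply, d1_apply, pp1_apply, map_add, map_sub, map_mul f]
  rw [hφ]

theorem pp1_mem_Z1 (hf : Compat L L' f) (hφ : Equiv' f ρ ρ' φ) {x : G → M} (hx : x ∈ Z1 L ρ) :
    pp1 f φ x ∈ Z1 L' ρ' := by
  rw [mem_Z1] at hx ⊢
  refine ⟨(hx.1.precomp hf).comp φ, fun g h => ?_⟩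
  simp only [pp1_apply, map_mul f, hx.2, map_add, hφ g]

theorem pp2_mem_Z2 (hf : Compat L L' f) (hφ : Equiv' f ρ ρ' φ) {x : G × G → M}
    (hx : x ∈ Z2 L ρ) : pp2 f φ x ∈ Z2 L' ρ' := by
  rw [mem_Z2] at hx ⊢
  refine ⟨(hx.1.precomp hf).comp φ, fun g h j => ?_⟩
  simp only [pp2_apply, map_mul f, ← map_add, hx.2]
  simp only [map_add, hφ g]

/-- The map on `H²`. -/
def H2map (hf : Compat L L' f) (hφ : Equiv' f ρ ρ' φ) : H2 L ρ →ₗ[k] H2 L' ρ' :=
  Submodule.mapQ _ _ ((pp2 f φ).restrict fun _ hx => pp2_mem_Z2 hf hφ hx) <| by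
    intro x hx
    obtain ⟨y, hy, hyx⟩ := mem_B2.1 (Submodule.mem_comap.1 hx)
    refine Submodule.mem_comap.2 (Submodule.mem_comap.2 (mem_B2.2
      ⟨pp1 f φ y, (hy.precomp hf).comp φ, ?_⟩))
    rw [← pp2_d1 hφ]
    exact congrArg (pp2 f φ) hyx

theorem H2map_mk2 (hf : Compat L L' f) (hφ : Equiv' f ρ ρ' φ) (x : ↥(Z2 L ρ)) :
    H2map hf hφ (mk2 L ρ x) = mk2 L' ρ' ⟨pp2 f φ x, pp2_mem_Z2 hf hφ x.2⟩ := rfl

end Map

variable (L ρ) in
/-- An equivariant map between representations of the same group induces a map on `H²`. -/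
def H2push {M' : Type*} [AddCommGroup M'] [Module k M'] (ρ' : Representation k G M')
    (φ : M →ₗ[k] M') (hφ : ∀ g m, φ (ρ g m) = ρ' g (φ m)) : H2 L ρ →ₗ[k] H2 L ρ' :=
  H2map (f := MonoidHom.id G) (compat_id fun _ h => h) (φ := φ) hφ

theorem H2push_mk2 {M' : Type*} [AddCommGroup M'] [Module k M'] {ρ' : Representation k G M'}
    (φ : M →ₗ[k] M') (hφ : ∀ g m, φ (ρ g m) = ρ' g (φ m)) (x : ↥(Z2 L ρ)) :
    H2push L ρ ρ' φ hφ (mk2 L ρ x) =
      mk2 L ρ' ⟨fun g => φ ((x : G × G → M) g),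
        pp2_mem_Z2 (f := MonoidHom.id G) (compat_id fun _ h => h) (φ := φ) hφ x.2⟩ := rfl

section Conjugation

variable {k : Type*} [CommRing k] {G : Type*} [Group G] {L : Lv G}
variable {M : Type*} [AddCommGroup M] [Module k M] {ρ : Representation k G M}

/-- Inner automorphisms act trivially on `H²`, for any coefficients. -/
theorem conjR_sub_mem_B2 {f : G × G → M} (hf : f ∈ Z2 L ρ) (c : G) :
    (fun gh : G × G => ρ c (f (c⁻¹ * gh.1 * c, c⁻¹ * gh.2 * c))) - f ∈ B2 L ρ := by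
  obtain ⟨U, hU, hn, hfU⟩ := (mem_Z2.1 hf).1.exists_normal
  have hc := (mem_Z2.1 hf).2
  refine mem_B2.2 ⟨fun g => f (c, c⁻¹ * g * c) - f (g, c), ⟨U, hU, fun g s hs => ?_⟩, ?_⟩
  · have h1 : f (c, c⁻¹ * (g * s) * c) = f (c, c⁻¹ * g * c) := by
      have hs' : c⁻¹ * s * c ∈ U := by simpa using hn.conj_mem s hs c⁻¹
      have := hfU c (c⁻¹ * g * c) 1 U.one_mem _ hs' 1 U.one_mem 1 U.one_mem
      simp only [one_mul, mul_one] at this
      rw [← this]
      congr 2
      group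
    have h2 : f (g * s, c) = f (g, c) := by
      have := hfU g c s hs 1 U.one_mem 1 U.one_mem 1 U.one_mem
      simpa using this
    simp only [h1, h2]
  · ext ⟨g, h⟩
    set a := c⁻¹ * g * c with ha
    set b := c⁻¹ * h * c with hb
    have eab : c⁻¹ * (g * h) * c = a * b := by rw [ha, hb]; group
    have ega : g * c = c * a := by rw [ha]; group
    have ehb : h * c = c * b := by rw [hb]; group
    have c1 := hc g h c
    have c2 := hc g c b
    have c3 := hc c a b
    rw [ehb] at c1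
    rw [ega] at c2
    rw [← eq_sub_iff_add_eq] at c1 c2 c3
    simp only [d1_apply, Pi.sub_apply, eab, map_sub, ← ha, ← hb]
    rw [c1, c2] at *
    rw [eq_sub_iff_add_eq] at c3
    rw [← sub_eq_zero] at c3 ⊢
    rw [← c3]
    abel

end Conjugation

end Fermat.Agent.PT
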