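import Mathlib.FieldTheory.Galois.Infinite
import Mathlib.FieldTheory.IsAlgClosed.Basic
import Mathlib.FieldTheory.Minpoly.Field
import Mathlib.RingTheory.RootsOfUnity.PrimitiveRoots
import Fermat.Agent.PT.Coh

/-!
# Finite-level subgroups of a Galois group; Hilbert 90 for level-constant cocycles

`krull F Ω` is the family of finite-index subgroups of `Gal(Ω/F)` that are open for the Krull
topology.  We record the basic facts about fixed elements and prove Hilbert 90 for level-constant
`1`-cocycles on a subgroup; Kummer theory (`Kummer`) rests on it.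
-/

noncomputable section

namespace Fermat.Agent.PT

open Lv

variable (F Ω : Type*) [Field F] [Field Ω] [Algebra F Ω] [IsGalois F Ω]

local notation "𝒢" => (Ω ≃ₐ[F] Ω)

omit [IsGalois F Ω] in
theorem finiteIndex_fixingSubgroup (E : IntermediateField F Ω) [FiniteDimensional F E] :
    E.fixingSubgroup.FiniteIndex := by
  have : Finite (𝒢 ⧸ E.fixingSubgroup) := by
    refine Finite.of_injective (fun x : 𝒢 ⧸ E.fixingSubgroup =>
      (x.out : Ω →ₐ[F] Ω).comp E.val) fun x y h => ?_
    rw [← x.out_eq, ← y.out_eq]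
    refine QuotientGroup.eq.2 ((IntermediateField.mem_fixingSubgroup_iff _ _).2 fun e he => ?_)
    have := DFunLike.congr_fun h (⟨e, he⟩ : E)
    simp only [AlgHom.coe_comp, Function.comp_apply, IntermediateField.coe_val,
      AlgEquiv.coe_toAlgHom] at this
    rw [AlgEquiv.mul_apply, ← this]
    exact AlgEquiv.symm_apply_apply _ _
  exact Subgroup.finiteIndex_of_finite_quotient

/-- The levels of the Krull topology. -/
def krull : Lv 𝒢 where
  sets := {U | ∃ E : IntermediateField F Ω, FiniteDimensional F E ∧ E.fixingSubgroup ≤ U}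
  top_mem := ⟨⊥, inferInstance, le_top⟩
  inf_mem := fun ⟨E, hE, hU⟩ ⟨E', hE', hV⟩ => by
    refine ⟨E ⊔ E', IntermediateField.finiteDimensional_sup E E', ?_⟩
    rw [IntermediateField.fixingSubgroup_sup]
    exact inf_le_inf hU hV
  mem_of_le := fun ⟨E, hE, hU⟩ h => ⟨E, hE, hU.trans h⟩
  exists_normal := fun {U} ⟨E, hE, hU⟩ => by
    refine ⟨(IntermediateField.normalClosure F E Ω).fixingSubgroup,
      ⟨_, normalClosure.is_finiteDimensional F E Ω, le_rfl⟩,
      (IntermediateField.fixingSubgroup_antitone (IntermediateField.le_normalClosure E)).trans hU,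
      (InfiniteGalois.normal_iff_isGalois _).2 (IsGalois.normalClosure F E Ω)⟩
  finiteIndex := fun {U} ⟨E, hE, hU⟩ => by
    have := finiteIndex_fixingSubgroup F Ω E
    exact Subgroup.finiteIndex_of_le hU

variable {F Ω}

theorem mem_krull {U : Subgroup 𝒢} :
    U ∈ krull F Ω ↔ ∃ E : IntermediateField F Ω, FiniteDimensional F E ∧ E.fixingSubgroup ≤ U :=
  Iff.rfl

theorem fixingSubgroup_mem_krull (E : IntermediateField F Ω) [FiniteDimensional F E] :
    E.fixingSubgroup ∈ krull F Ω := ⟨E, inferInstance, le_rfl⟩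

/-- The stabiliser of an element. -/
theorem exists_level_fixing (x : Ω) : ∃ U ∈ krull F Ω, ∀ s ∈ U, s x = x := by
  have := IntermediateField.adjoin.finiteDimensional (K := F) (L := Ω)
    (Algebra.IsAlgebraic.isAlgebraic x).isIntegral
  exact ⟨_, fixingSubgroup_mem_krull (IntermediateField.adjoin F {x}),
    fun s hs => (IntermediateField.mem_fixingSubgroup_iff _ _).1 hs x
      (IntermediateField.subset_adjoin F _ rfl)⟩

theorem exists_level_fixing_finset (s : Finset Ω) :
    ∃ U ∈ krull F Ω, ∀ g ∈ U, ∀ x ∈ s, g x = x := by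
  choose U hU h using fun x : Ω => exists_level_fixing (F := F) x
  exact ⟨s.inf U, Finset.inf_induction (krull F Ω).top_mem
    (fun a ha b hb => (krull F Ω).inf_mem ha hb) (fun x _ => hU x),
    fun g hg x hx => h x g ((Finset.inf_le hx : s.inf U ≤ U x) hg)⟩

theorem exists_level_fixing_units (x : Ωˣ) : ∃ U ∈ krull F Ω, ∀ s ∈ U, s • x = x := by
  obtain ⟨U, hU, h⟩ := exists_level_fixing (F := F) (x : Ω)
  exact ⟨U, hU, fun s hs => Units.ext (h s hs)⟩

/-- Hilbert 90 for a level-constant cocycle on a subgroup. -/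
theorem hilbert90 (H : Subgroup 𝒢) (f : ↥H → Ωˣ) (hc : Con1 ((krull F Ω).comap H.subtype) f)
    (hf : ∀ g h : ↥H, f (g * h) = (g : 𝒢) • f h * f g) :
    ∃ y : Ωˣ, ∀ h : ↥H, f h = (h : 𝒢) • y / y := by
  classical
  obtain ⟨V, ⟨W, ⟨E₀, hE₀, hEW⟩, hWV⟩, hV⟩ := hc
  -- replace the level by a normal one
  set E : IntermediateField F Ω := IntermediateField.normalClosure F E₀ Ω with hEdef
  have : FiniteDimensional F E := normalClosure.is_finiteDimensional F E₀ Ω
  have hn : E.fixingSubgroup.Normal :=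
    (InfiniteGalois.normal_iff_isGalois _).2 (IsGalois.normalClosure F E₀ Ω)
  set U : Subgroup ↥H := E.fixingSubgroup.subgroupOf H with hUdef
  have hUV : ∀ g, ∀ s ∈ U, f (g * s) = f g := fun g s hs => hV g s <| hWV <| hEW <|
    IntermediateField.fixingSubgroup_antitone (IntermediateField.le_normalClosure E₀) hs
  have := finiteIndex_fixingSubgroup F Ω E
  have : U.FiniteIndex := Subgroup.instFiniteIndex_subgroupOf _ _
  have : Fintype (↥H ⧸ U) := Fintype.ofFinite _
  let e : (↥H ⧸ U) → E →* Ω := fun q => (((q.out : ↥H) : 𝒢) : Ω →ₐ[F] Ω).toMonoidHom.comp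
    (E.val : E →ₐ[F] Ω).toMonoidHom
  have he : Function.Injective e := fun a b h => by
    rw [← a.out_eq, ← b.out_eq]
    refine QuotientGroup.eq.2 ((IntermediateField.mem_fixingSubgroup_iff _ _).2 fun x hx => ?_)
    have h' : ((a.out : ↥H) : 𝒢) x = ((b.out : ↥H) : 𝒢) x := DFunLike.congr_fun h (⟨x, hx⟩ : E)
    simp only [Subgroup.coe_subtype, Subgroup.coe_mul, Subgroup.coe_inv, AlgEquiv.mul_apply, ← h']
    exact AlgEquiv.symm_apply_apply _ _
  have hli := (linearIndependent_monoidHom E Ω).comp e he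
  obtain ⟨z, hz⟩ : ∃ z : E, ∑ q : ↥H ⧸ U, (f q.out : Ω) * ((q.out : ↥H) : 𝒢) (z : Ω) ≠ 0 := by
    by_contra! h0
    have h1 := (Fintype.linearIndependent_iff.1 hli) (fun q => (f q.out : Ω))
      (funext fun z => by simpa [Finset.sum_apply, e] using h0 z) ((1 : ↥H) : ↥H ⧸ U)
    exact Units.ne_zero _ h1
  set s := Units.mk0 _ hz with hs
  refine ⟨s⁻¹, fun g => ?_⟩
  have hfix : ∀ u ∈ U, ((u : ↥H) : 𝒢) (z : Ω) = z := fun u hu =>
    (IntermediateField.mem_fixingSubgroup_iff _ _).1 hu z z.2
  have key : (g : 𝒢) • s * f g = s := by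
    ext
    simp only [hs, Units.val_mul, AlgEquiv.smul_units_def, Units.coe_map, Units.val_mk0,
      MonoidHom.coe_coe, map_sum, map_mul, Finset.sum_mul]
    refine Fintype.sum_bijective (g • ·) (MulAction.bijective g) _ _ fun q => ?_
    obtain ⟨u, hu, hq⟩ : ∃ u ∈ U, (g • q).out = g * q.out * u := by
      refine ⟨(g * q.out)⁻¹ * (g • q).out, ?_, by group⟩
      rw [← QuotientGroup.eq]
      calc ((g * q.out : ↥H) : ↥H ⧸ U) = g • ((q.out : ↥H) : ↥H ⧸ U) := rfl
        _ = g • q := by rw [QuotientGroup.out_eq']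
        _ = (((g • q).out : ↥H) : ↥H ⧸ U) := (QuotientGroup.out_eq' _).symm
    rw [hq, hUV _ u hu, hf]
    simp only [Units.val_mul, AlgEquiv.smul_units_def, Units.coe_map, MonoidHom.coe_coe,
      Subgroup.coe_mul, AlgEquiv.mul_apply, hfix u hu]
    ring
  rw [smul_inv', div_inv_eq_mul, eq_inv_mul_iff_mul_eq]
  exact key

end Fermat.Agent.PT
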