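import Fermat.Agent.PT.GlobalSurj

/-!
# Right exactness of `H²` for `G_S`

Corestriction on `H²` between levels of `G_S` fixing `μ_p` is surjective, hence `H²(G_S, ·)` is
right exact on representations trivial on such a level (`rightExactS`).
-/

noncomputable section

namespace Fermat.Agent.PT

open Lv

variable {p : ℕ} [Fact p.Prime] {S : Finset Nat.Primes}

section Fibre

variable {G : Type*} [Group G] {V H : Subgroup G} (hVH : V ≤ H)

/-- The fibre of `G ⧸ V → G ⧸ H` over the base point. -/
def subPt : ↥H ⧸ V.subgroupOf H → G ⧸ V :=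
  Quotient.lift (fun h => ((h : G) : G ⧸ V)) fun a b hab => by
    have h := QuotientGroup.leftRel_apply.1 hab
    rw [Subgroup.mem_subgroupOf] at h
    exact QuotientGroup.eq.2 (by simpa using h)

theorem subPt_mk (h : ↥H) : subPt (V := V) (h : ↥H ⧸ V.subgroupOf H) = ((h : G) : G ⧸ V) := rfl

theorem subPt_injective : Function.Injective (subPt (V := V) (H := H)) := by
  intro x y
  induction x using QuotientGroup.induction_on with | _ a => ?_
  induction y using QuotientGroup.induction_on with | _ b => ?_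
  intro h
  have h' := QuotientGroup.eq.1 h
  exact QuotientGroup.eq.2 (by rw [Subgroup.mem_subgroupOf]; simpa using h')

theorem subPt_smul (h : ↥H) (x : ↥H ⧸ V.subgroupOf H) :
    subPt (V := V) (h • x) = (h : G) • subPt (V := V) x := by
  induction x using QuotientGroup.induction_on with | _ a => ?_
  rfl

/-- The base fibre of the fibre sum. -/
theorem fibSum_one {k M : Type*} [CommRing k] [AddCommGroup M] [Module k M] [Fintype (G ⧸ V)]
    [Fintype (↥H ⧸ V.subgroupOf H)] (F : G ⧸ V → M) :
    fibSum (k := k) hVH F ((1 : G) : G ⧸ H) = ∑ x, F (subPt (V := V) (H := H) x) := by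
  classical
  simp only [fibSum, LinearMap.coe_mk, AddHom.coe_mk]
  refine (Fintype.sum_of_injective _ subPt_injective _ _ (fun z hz => ?_) fun x => ?_).symm
  · rw [if_neg fun h => hz ?_]
    induction z using QuotientGroup.induction_on with | _ g => ?_
    have hg : g ∈ H := by simpa using QuotientGroup.eq.1 h
    exact ⟨((⟨g, hg⟩ : ↥H) : ↥H ⧸ V.subgroupOf H), rfl⟩
  · induction x using QuotientGroup.induction_on with | _ a => ?_
    rw [subPt_mk, if_pos]
    exact QuotientGroup.eq.2 (by simp)

end Fibre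

variable (GI : GlobalInputs p) (hodd : p ≠ 2)
  (lam : ∀ q : Nat.Primes, H2 (LQ (q : ℕ)) (muQ p (q : ℕ)) →ₗ[ZMod p] ZMod p)
  (hlam : ∀ q, Function.Bijective (lam q))
  (hrec : ∀ (S : Finset Nat.Primes) (z : H2 LG (muG p)),
    (∀ q, q ∉ S → locQ p (q : ℕ) z = 0) → ∑ q ∈ S, lam q (locQ p (q : ℕ) z) = 0)
  (hpS : pP p ∈ S)
include GI hodd hlam hrec hpS

/-- Corestriction between levels fixing the roots of unity is surjective. -/
theorem cores_surjective_LS {V H : Subgroup Gam} (hV : V ∈ LS S) (hVH : V ≤ H)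
    (hμ : (cyc p).MuFix H) [Fintype (↥H ⧸ V.subgroupOf H)] :
    Function.Surjective (cores (ρ := triv (ZMod p) ↥H)
      (subgroupOf_mem (L := LS S) (H := H) hV) (smooth_trivial (LSH S H) (ZMod p))) := by
  have hH : H ∈ LS S := (LS S).mem_of_le hV hVH
  obtain ⟨U, hD, hUV, hUH, -, hsurj⟩ := indH_facts GI hodd lam hlam hrec hpS hH hμ hV
  have := hD.normal
  have := (LS S).finiteIndex hD.mem
  have := (LS S).finiteIndex hV
  have := (LS S).finiteIndex hH
  let _ : Fintype (Gam ⧸ U) := Fintype.ofFinite _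
  let _ : Fintype (Gam ⧸ V) := Fintype.ofFinite _
  let _ : Fintype (Gam ⧸ H) := Fintype.ofFinite _
  intro a
  obtain ⟨A, hA⟩ := sh_surjective (L := LS S) (ρ := muG p) hH
    ((H2eq (LSH S H) (muG_comp hμ)).symm a)
  obtain ⟨B, hB⟩ := hsurj.1 A
  let b := H2push (LS S) (indRep U (indRep H (muG p))) (indRep V (muG p))
    (layerMap (k := ZMod p) (U := U) (V := V) (H := H)) (layerMap_equivariant (muG p) hUV hVH) B
  have hb : H2push (LS S) (indRep V (muG p)) (indRep H (muG p)) (fibSum (k := ZMod p) hVH)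
      (fibSum_equivariant (muG p) hVH) b = A := by
    rw [H2push_comp, ← hB]
    exact H2push_eq_of_eq _ _ (fibSum_layerMap hVH) B
  let res1 : (Gam ⧸ V → ZMod p) →ₗ[ZMod p] (↥H ⧸ V.subgroupOf H → ZMod p) :=
    { toFun := fun F x => F (subPt x)
      map_add' := fun _ _ => rfl
      map_smul' := fun _ _ => rfl }
  have hres : Equiv' H.subtype (indRep V (muG p)) (indRep (V.subgroupOf H) (triv (ZMod p) ↥H))
      res1 := fun h F => funext fun x => by
    show muG p (h : Gam) (F ((h : Gam)⁻¹ • subPt x)) = F (subPt (h⁻¹ • x))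
    rw [muG_eq_one hμ _ h.2, subPt_smul]
    rfl
  refine ⟨sh (V.subgroupOf H) (triv (ZMod p) ↥H) (LSH S H)
    (H2map (compat_comap (LS S) H.subtype) hres b), ?_⟩
  rw [cores_sh]
  have h2 : a = H2eq (LSH S H) (muG_comp hμ) (sh H (muG p) (LS S) A) := by
    rw [hA, LinearEquiv.apply_symm_apply]
  rw [h2, ← hb]
  obtain ⟨⟨x, hx⟩, hxb⟩ := mk2_surjective b
  rw [← hxb]
  simp only [H2map_mk2, H2push_mk2, sh, H2eq_mk2]
  refine mk2_congr (funext fun st => ?_)
  show indSum (k := ZMod p) (V.subgroupOf H) (res1 (x _)) =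
    fibSum (k := ZMod p) hVH (x _) ((1 : Gam) : Gam ⧸ H)
  rw [fibSum_one, indSum_apply]
  rfl

/-- The input for right exactness. -/
theorem coresSurjS {K : Subgroup Gam} (hK : K ∈ LS S) (hKμ : (cyc p).MuFix K) :
    CoresSurj p (LS S) K := by
  refine coresSurj_of_subgroups hK fun H V hV _ hVH _ _ hm => ?_
  intro _
  exact cores_surjective_LS GI hodd lam hlam hrec hpS hV hVH
    (Cyc.muFix_of_relIndex_pow (fun g hg => hKμ g hg) hm)

/-- Right exactness for representations trivial on a level fixing the roots of unity. -/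
theorem rightExactS {K : Subgroup Gam} [hKn : K.Normal] (hK : K ∈ LS S)
    (hKμ : (cyc p).MuFix K) : RightExact p (LS S) K :=
  rightExact (LS S) K hKn hK (coresSurjS GI hodd lam hlam hrec hpS hK hKμ)

/-- The sum map from the module induced from a small normal level is surjective on `H²`. -/
theorem push_indSum_surjective {M : Type} [AddCommGroup M] [Module (ZMod p) M] [Finite M]
    {ρ : Representation (ZMod p) Gam M} {U : Subgroup Gam} [U.Normal] [Fintype (Gam ⧸ U)]
    (hU : U ∈ LS S) (hρ : ∀ u ∈ U, ρ u = 1) (hUμ : (cyc p).MuFix U) :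
    Function.Surjective (H2push (LS S) (indRep U ρ) ρ (indSum (k := ZMod p) U)
      (indSum_equivariant U ρ)) :=
  (rightExactS GI hodd lam hlam hrec hpS hU hUμ).push_indSum_surjective le_rfl hρ

end Fermat.Agent.PT
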