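import Fermat.Agent.CFT.Bridge.GlobalInputs
import Fermat.Agent.PT.GlobalCoresSurj

/-!
# The duality inputs, without hypotheses

Combining the global inputs from `CFT` with the development here: local invariants satisfying
reciprocity, and right exactness of `H²(G_S, ·)`, for every odd prime `p`.
-/

noncomputable section

namespace Fermat.Agent.PT

open Lv

variable (p : ℕ) [Fact p.Prime] (hodd : p ≠ 2)
include hodd

/-- Local invariants satisfying reciprocity. -/
theorem exists_invariants :
    ∃ lam : ∀ q : Nat.Primes, H2 (LQ (q : ℕ)) (muQ p (q : ℕ)) →ₗ[ZMod p] ZMod p,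
      (∀ q, Function.Bijective (lam q)) ∧
        ∀ (S : Finset Nat.Primes) (z : H2 LG (muG p)),
          (∀ q, q ∉ S → locQ p (q : ℕ) z = 0) → ∑ q ∈ S, lam q (locQ p (q : ℕ) z) = 0 :=
  exists_lam (CFT.Bridge.globalInputs p hodd) hodd

variable {p}

/-- Right exactness of `H²(G_S, ·)`. -/
theorem rightExact_LS {S : Finset Nat.Primes} (hpS : pP p ∈ S) {K : Subgroup Gam} [K.Normal]
    (hK : K ∈ LS S) (hKμ : (cyc p).MuFix K) : RightExact p (LS S) K := by
  obtain ⟨lam, hlam, hrec⟩ := exists_invariants p hodd
  exact rightExactS (CFT.Bridge.globalInputs p hodd) hodd lam hlam hrec hpS hK hKμ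

end Fermat.Agent.PT
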