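import Fermat.Agent.PT.GlobalCores

/-!
# The reciprocity law for `H²(ℚ, μ_p)`

For odd `p` there are isomorphisms `H²(ℚ_q, μ_p) ≅ ZMod p` whose sum over all places vanishes on
every global class (`exists_lam`).  The proof reduces to cyclotomic symbols.
-/

noncomputable section

namespace Fermat.Agent.PT

open Lv

local notation "Qb" => AlgebraicClosure ℚ

variable {p : ℕ} [Fact p.Prime]

variable (p) in
/-- The prime `p`. -/
abbrev pP : Nat.Primes := ⟨p, Fact.out⟩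

theorem plc_mk_eq {H : Subgroup Gam} {r r' : Nat.Primes} {g g' : Gam}
    (h : (Plc.mk r g : Plc H) = Plc.mk r' g') : r = r' ∧ SamePlace (r : ℕ) H g g' := by
  obtain rfl : r = r' := congrArg Sigma.fst h
  exact ⟨rfl, Pl.mk_eq.1 (eq_of_heq (Sigma.mk.inj h).2)⟩

theorem not_le_stab_ker (g : Gam) :
    ¬ stab p (Hm p 0) g ≤ stab p (cyX p 0).ker g := by
  intro hle
  obtain ⟨g₀, hg₀, hg₀'⟩ := exists_mem_Hm_notMem_succ (p := p) 0
  obtain ⟨τ, hτ⟩ := exists_local_p (p := p) (0 + 1) g₀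
  have h0 : cyK p (0 + 1) (localGaloisToGlobal p τ) = 1 := by
    have h1 : cyK p (0 + 1) ((localGaloisToGlobal p τ)⁻¹ * g₀) = 1 := Hm_succ_le 0 hτ
    rw [map_mul, map_inv, inv_mul_eq_one, show cyK p (0 + 1) g₀ = 1 from hg₀] at h1
    exact h1
  have hmem : τ ∈ stab p (Hm p 0) g := by
    show cyK p (0 + 1) (cj p g τ) = 1
    rw [cj_apply, map_mul, map_mul, h0, mul_one, ← map_mul, inv_mul_cancel, map_one]
  obtain ⟨hcH, hc⟩ : ∃ h : cj p g τ ∈ Hm p 0, (cyX p 0).χ ⟨cj p g τ, h⟩ = 0 :=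
    ⟨hmem, (cyX p 0).mem_ker.1 (hle hmem)⟩
  rw [cyX_chi, kum_cyU_eq_zero_iff] at hc
  refine hg₀' ?_
  have h2 : cyK p (0 + 1 + 1) (cj p g τ) = 1 := hc
  rw [cj_apply, map_mul, map_mul, map_inv, mul_comm _⁻¹, mul_assoc, inv_mul_cancel, mul_one] at h2
  show cyK p (0 + 1 + 1) g₀ = 1
  have h3 : cyK p (0 + 1 + 1) ((localGaloisToGlobal p τ)⁻¹ * g₀) = 1 := hτ
  rw [map_mul, map_inv, h2, inv_one, one_mul] at h3
  exact h3

variable (GI : GlobalInputs p) (hodd : p ≠ 2)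
include GI hodd

/-- For every prime `q ≠ p` some global class is bad exactly at `q` and `p`. -/
theorem exists_pair_class (q : Nat.Primes) (hqp : (q : ℕ) ≠ p) :
    ∃ Z : H2 LG (muG p), locQ p (q : ℕ) Z ≠ 0 ∧ locQ p p Z ≠ 0 ∧
      ∀ r : Nat.Primes, r ≠ q → (r : ℕ) ≠ p → locQ p (r : ℕ) Z = 0 := by
  obtain ⟨m, hq1, hq2⟩ := exists_inert_exponent (p := p) hqp
  set H := Hm p m with hHdef
  have hH : H ∈ LG := Hm_mem m
  have hμ : (cyc p).MuFix H := Hm_muFix m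
  let v : Plc H := Plc.mk q 1
  let w : Plc H := Plc.mk (pP p) 1
  have hvw : v ≠ w := fun h => hqp (congrArg (fun x : Plc H => (x.1 : ℕ)) h)
  have hv : ∃ a, ¬ LocZero v (Cyc.sym H hμ a (cyU p m)) := by
    obtain ⟨r, hr, hx⟩ := exists_ratRoot (p := p) (q : ℕ) q.2.ne_zero
    exact ⟨⟨r, fun g => hr g⟩, fun h => self_bad hqp hq1 hq2 (r := ⟨r, fun g => hr g⟩) hx
      (LocZero.at_mk h)⟩
  have hw : ∃ a, ¬ LocZero w (Cyc.sym H hμ a (cyU p m)) := by
    obtain ⟨r₀, h₀⟩ := exists_one_add_root (p := p) m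
    exact ⟨r₀, fun h => one_add_bad hodd h₀ (LocZero.at_mk (r := pP p) h)⟩
  obtain ⟨a, hother, hbad⟩ := GI.exists_pair hH hμ (cyU p m) v w hvw hv hw
  have hother' : ∀ (r : Nat.Primes) (g : Gam), (Plc.mk r g : Plc H) ≠ v →
      (Plc.mk r g : Plc H) ≠ w → locH2 (r : ℕ) p H g (cyS m a) = 0 := fun r g h1 h2 =>
    LocZero.at_mk (hother _ h1 h2)
  have hq_other : ∀ g, ¬ SamePlace (q : ℕ) H 1 g → locH2 (q : ℕ) p H g (cyS m a) = 0 :=
    fun g hg => hother' q g (fun h => hg (plc_mk_eq h).2.symm)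
      (fun h => hqp (congrArg (fun r : Nat.Primes => (r : ℕ)) (plc_mk_eq h).1))
  have hrest : ∀ r' : Nat.Primes, (r' : ℕ) ≠ p → (r' : ℕ) ≠ (q : ℕ) → ∀ g,
      locH2 (r' : ℕ) p H g (cyS m a) = 0 := fun r' h1 h2 g => hother' r' g
    (fun h => h2 (congrArg (fun r : Nat.Primes => (r : ℕ)) (plc_mk_eq h).1))
    (fun h => h1 (congrArg (fun r : Nat.Primes => (r : ℕ)) (plc_mk_eq h).1))
  have hqbad : locH2 (q : ℕ) p H 1 (cyS m a) ≠ 0 := by
    intro h0
    refine hbad ⟨LocZero.of_at h0, LocZero.of_at (r := pP p) ?_⟩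
    refine good_at_p_of_away hodd a (fun r' hr' g => ?_) 1
    by_cases hrq : r' = q
    · subst hrq
      by_cases hs : SamePlace (r' : ℕ) H 1 g
      · obtain ⟨τ, c, hc, e⟩ := hs
        exact locH2_eq_zero_of_samePlace τ hc e h0
      · exact hq_other g hs
    · exact hrest r' hr' (fun h => hrq (Subtype.ext h)) g
  have hpbad : locH2 p p H 1 (cyS m a) ≠ 0 := fun h0 =>
    hqbad (good_at_q GI hodd hqp hq1 hq2 a hq_other hrest h0)
  have hfi := LG.finiteIndex hH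
  let _ : Fintype (Gam ⧸ H) := Fintype.ofFinite _
  refine ⟨glCores hH hμ (cyS m a), locQ_glCores_ne_zero hodd hH hμ _ 1 hqbad hq_other,
    locQ_glCores_ne_zero hodd hH hμ _ 1 hpbad fun g hg => absurd (samePlace_p m g) hg,
    fun r hr1 hr2 => locQ_glCores_eq_zero hH hμ _ fun g =>
      hrest r hr2 (fun h => hr1 (Subtype.ext h)) g⟩

/-- A class good away from `p` is good at `p`. -/
theorem locQ_p_eq_zero (z : H2 LG (muG p))
    (h : ∀ r : Nat.Primes, (r : ℕ) ≠ p → locQ p (r : ℕ) z = 0) : locQ p p z = 0 := by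
  have hH : Hm p 0 ∈ LG := Hm_mem 0
  have hμ : (cyc p).MuFix (Hm p 0) := Hm_muFix 0
  set a := glRes hμ z
  have hloc : ∀ (r : Nat.Primes), (r : ℕ) ≠ p → ∀ g, locH2 (r : ℕ) p (Hm p 0) g a = 0 :=
    fun r hr g => by rw [locH2_glRes, h r hr, map_zero]
  set X := cyX p 0
  have hXL : X.ker ∈ LG := X.ker_mem_krull hH
  have hres : resI LG (ZMod p) X.ker_le a = 0 := by
    refine eq_zero_of_local GI hXL (hμ.anti X.ker_le) _ ?_
    rintro ⟨r, w⟩
    show locH2 (r : ℕ) p X.ker w.rep (resI LG (ZMod p) X.ker_le a) = 0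
    by_cases hr : (r : ℕ) = p
    · obtain rfl : r = pP p := Subtype.ext hr
      exact locH2_resI_eq_zero hodd hH hμ X w.rep (not_le_stab_ker w.rep) a
    · rw [locH2_resI, hloc r hr, map_zero]
  obtain ⟨r, e⟩ : ∃ r, a + cyS 0 r = 0 :=
    Cyc.exists_sym_add_eq_zero hμ X (s := cyU p 0) (fun _ => rfl) hres
  have h0 : locH2 p p (Hm p 0) 1 (cyS 0 r) = 0 := by
    refine good_at_p_of_away hodd _ (fun r' hr' g => ?_) 1
    have h1 := congrArg (locH2 (r' : ℕ) p (Hm p 0) g) e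
    rwa [map_add, map_zero, hloc r' hr', zero_add] at h1
  have h1 := congrArg (locH2 p p (Hm p 0) 1) e
  rw [map_add, map_zero, h0, add_zero, locH2_glRes] at h1
  exact resZero_injective (h1.trans (map_zero _).symm)

omit GI in
theorem exists_lineFunctional {q : ℕ} [Fact q.Prime] {c : H2 (LQ q) (muQ p q)} (hc : c ≠ 0) :
    ∃ e : H2 (LQ q) (muQ p q) →ₗ[ZMod p] ZMod p, Function.Bijective e ∧ e c = 1 := by
  obtain ⟨η, -, hgen⟩ := exists_muQ_generator (p := p) (q := q) hodd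
  have hbij : Function.Bijective (LinearMap.toSpanSingleton (ZMod p) _ c) := by
    refine ⟨(injective_iff_map_eq_zero _).2 fun z hz => (smul_eq_zero.1 hz).resolve_right hc,
      fun a => ?_⟩
    obtain ⟨z₀, h₀⟩ := hgen c
    obtain ⟨z, hz⟩ := hgen a
    have hz₀ : z₀ ≠ 0 := fun h => hc (by rw [h₀, h, zero_smul])
    exact ⟨z * z₀⁻¹, by rw [LinearMap.toSpanSingleton_apply, h₀, smul_smul,
      inv_mul_cancel_right₀ hz₀, hz]⟩
  let e := LinearEquiv.ofBijective _ hbij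
  refine ⟨e.symm.toLinearMap, e.symm.bijective, ?_⟩
  show e.symm c = 1
  rw [LinearEquiv.symm_apply_eq]
  exact (one_smul (ZMod p) c).symm

/-- The reciprocity law: local invariants whose sum over all places vanishes on global classes. -/
theorem exists_lam : ∃ lam : ∀ q : Nat.Primes, H2 (LQ (q : ℕ)) (muQ p (q : ℕ)) →ₗ[ZMod p] ZMod p,
    (∀ q, Function.Bijective (lam q)) ∧
      ∀ (S : Finset Nat.Primes) (z : H2 LG (muG p)),
        (∀ q, q ∉ S → locQ p (q : ℕ) z = 0) → ∑ q ∈ S, lam q (locQ p (q : ℕ) z) = 0 := by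
  classical
  choose Z hZq hZp hZr using exists_pair_class GI hodd
  obtain ⟨c₀, hc₀, -⟩ := exists_muQ_generator (p := p) (q := p) hodd
  obtain ⟨lp, hlp, -⟩ := exists_lineFunctional hodd hc₀
  have hex : ∀ q : Nat.Primes, ∃ f : H2 (LQ (q : ℕ)) (muQ p (q : ℕ)) →ₗ[ZMod p] ZMod p,
      Function.Bijective f ∧ (∀ h : q = pP p, f = h ▸ lp) ∧
        ∀ h : (q : ℕ) ≠ p, f (locQ p (q : ℕ) (Z q h)) + lp (locQ p p (Z q h)) = 0 := by
    intro q
    by_cases hq : q = pP p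
    · subst hq
      exact ⟨lp, hlp, fun _ => rfl, fun h => absurd rfl h⟩
    · have hqp : (q : ℕ) ≠ p := fun h => hq (Subtype.ext h)
      obtain ⟨e, he, hec⟩ := exists_lineFunctional hodd (hZq q hqp)
      set s := -lp (locQ p p (Z q hqp))
      have hs : s ≠ 0 := neg_ne_zero.2 fun h => hZp q hqp (hlp.1 (h.trans (map_zero lp).symm))
      refine ⟨s • e, ⟨fun a b hab => he.1 ?_, fun z => ?_⟩, fun h => absurd h hq, fun h => ?_⟩
      · exact mul_left_cancel₀ hs hab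
      · obtain ⟨a, ha⟩ := he.2 (s⁻¹ * z)
        exact ⟨a, by rw [LinearMap.smul_apply, ha, smul_eq_mul, mul_inv_cancel_left₀ hs]⟩
      · rw [LinearMap.smul_apply, hec, smul_eq_mul, mul_one, neg_add_cancel]
  choose lam hbij hlamp hlamq using hex
  refine ⟨lam, hbij, fun S z hz => ?_⟩
  have hlam_p : lam (pP p) = lp := hlamp (pP p) rfl
  set T := S.erase (pP p)
  have hT : ∀ q ∈ T, (q : ℕ) ≠ p := fun q hq h =>
    (Finset.mem_erase.1 hq).1 (Subtype.ext h)
  let co : ↥T → ZMod p := fun q => lam q.1 (locQ p (q.1 : ℕ) z) *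
    (lam q.1 (locQ p (q.1 : ℕ) (Z q.1 (hT q.1 q.2))))⁻¹
  set z' := z - ∑ q : ↥T, co q • Z q.1 (hT q.1 q.2) with hz'
  have hsum : ∀ r : Nat.Primes, (r : ℕ) ≠ p → locQ p (r : ℕ) z' = 0 := by
    intro r hr
    rw [hz', map_sub, map_sum, sub_eq_zero]
    simp only [map_smul]
    by_cases hrT : r ∈ T
    · rw [Finset.sum_eq_single (⟨r, hrT⟩ : ↥T) (fun q _ hq => ?_)
        (fun h => absurd (Finset.mem_univ _) h)]
      · refine (hbij r).1 ?_
        rw [map_smul, smul_eq_mul]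
        have hne : lam r (locQ p (r : ℕ) (Z r (hT r hrT))) ≠ 0 := fun h =>
          hZq r (hT r hrT) ((hbij r).1 (h.trans (map_zero _).symm))
        simp only [co]
        rw [inv_mul_cancel_right₀ hne]
      · rw [hZr q.1 (hT q.1 q.2) r (fun h => hq (Subtype.ext h.symm)) hr, smul_zero]
    · have hrS : r ∉ S := fun h => hrT (Finset.mem_erase.2 ⟨fun e => hr (by rw [e]), h⟩)
      rw [hz r hrS]
      refine (Finset.sum_eq_zero fun q _ => ?_).symm
      rw [hZr q.1 (hT q.1 q.2) r (fun (h : r = q.1) => hrT (h ▸ q.2)) hr, smul_zero]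
  have hp0 := congrArg (lam (pP p)) (locQ_p_eq_zero GI hodd z' hsum)
  have hterm : ∀ q : ↥T, co q * lp (locQ p p (Z q.1 (hT q.1 q.2))) =
      -lam q.1 (locQ p (q.1 : ℕ) z) := fun q => by
    have hne : lam q.1 (locQ p (q.1 : ℕ) (Z q.1 (hT q.1 q.2))) ≠ 0 := fun h =>
      hZq q.1 (hT q.1 q.2) ((hbij q.1).1 (h.trans (map_zero _).symm))
    rw [eq_neg_of_add_eq_zero_right (hlamq q.1 (hT q.1 q.2))]
    simp only [co]
    rw [mul_neg, inv_mul_cancel_right₀ hne]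
  rw [hz', map_sub, map_sum, map_zero] at hp0
  simp only [map_smul, map_sub, map_sum, smul_eq_mul, hlam_p] at hp0
  simp only [hterm, Finset.sum_neg_distrib, sub_neg_eq_add] at hp0
  rw [Finset.sum_coe_sort T fun q => lam q (locQ p (q : ℕ) z)] at hp0
  by_cases hpS : pP p ∈ S
  · rw [← Finset.add_sum_erase _ _ hpS, hlam_p]
    exact hp0
  · rw [show S = T from (Finset.erase_eq_of_notMem hpS).symm]
    rwa [show locQ p p z = 0 from hz (pP p) hpS, map_zero, zero_add] at hp0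

end Fermat.Agent.PT
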