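import Fermat.Agent.PT.GSPlaces
import Fermat.Agent.PT.Recip

/-!
# Invariants at the places of a number field, and classes of `G_S`

For a level fixing `μ_p`, the invariants `invP` of a class at the places; those of a class of `G_S`
vanish outside `S`, and those of a class good outside `S` sum to zero.
-/

noncomputable section

namespace Fermat.Agent.PT

open Lv

local notation "Qb" => AlgebraicClosure ℚ

section Cup

variable {k : Type*} [CommRing k] {G : Type*} [Group G] {L : Lv G}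

theorem mem_Z1_triv {f : G → k} :
    f ∈ Z1 L (triv k G) ↔ Con1 L f ∧ ∀ g h, f (g * h) = f h + f g := by
  rw [mem_Z1]
  simp

theorem cup_mem_Z2 {f f' : G → k} (hf : f ∈ Z1 L (triv k G)) (hf' : f' ∈ Z1 L (triv k G)) :
    (fun gh : G × G => f gh.1 * f' gh.2) ∈ Z2 L (triv k G) := by
  obtain ⟨⟨U, hU, h1⟩, hf⟩ := mem_Z1_triv.1 hf
  obtain ⟨⟨U', hU', h1'⟩, hf'⟩ := mem_Z1_triv.1 hf'
  refine mem_Z2.2 ⟨⟨U ⊓ U', L.inf_mem hU hU', fun g g' u hu u' hu' => by
    simp only [h1 g u hu.1, h1' g' u' hu'.2]⟩, fun g h j => ?_⟩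
  simp only [Representation.trivial_apply, hf, hf']
  ring

variable (L)

/-- The cup product of two homomorphisms. -/
def cup11 (f f' : ↥(Z1 L (triv k G))) : H2 L (triv k G) :=
  mk2 L (triv k G) ⟨_, cup_mem_Z2 f.2 f'.2⟩

theorem cup11_add_left (f f₁ f' : ↥(Z1 L (triv k G))) :
    cup11 L (f + f₁) f' = cup11 L f f' + cup11 L f₁ f' := by
  rw [cup11, cup11, cup11, ← map_add]
  exact congrArg _ (Subtype.ext (funext fun gh => add_mul _ _ _))

theorem cup11_add_right (f f' f₁ : ↥(Z1 L (triv k G))) :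
    cup11 L f (f' + f₁) = cup11 L f f' + cup11 L f f₁ := by
  rw [cup11, cup11, cup11, ← map_add]
  exact congrArg _ (Subtype.ext (funext fun gh => mul_add _ _ _))

theorem cup11_smul_left (c : k) (f f' : ↥(Z1 L (triv k G))) :
    cup11 L (c • f) f' = c • cup11 L f f' := by
  rw [cup11, cup11, ← map_smul]
  exact congrArg _ (Subtype.ext (funext fun gh => mul_assoc _ _ _))

theorem cup11_smul_right (c : k) (f f' : ↥(Z1 L (triv k G))) :
    cup11 L f (c • f') = c • cup11 L f f' := by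
  rw [cup11, cup11, ← map_smul]
  exact congrArg _ (Subtype.ext (funext fun gh => mul_left_comm _ _ _))

end Cup

/-- The levels of `G_S` inside a subgroup. -/
abbrev LSH (S : Finset Nat.Primes) (H : Subgroup Gam) : Lv ↥H := (LS S).comap H.subtype

/-- The levels of a subgroup. -/
abbrev LGH (H : Subgroup Gam) : Lv ↥H := LG.comap H.subtype

variable {p : ℕ} [Fact p.Prime] {S : Finset Nat.Primes} {H : Subgroup Gam}

theorem compat_LSH : Compat (LSH S H) (LGH H) (MonoidHom.id ↥H) :=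
  compat_id fun _ ⟨W, hW, hWU⟩ => ⟨W, LS_le_LG hW, hWU⟩

theorem con1_LG_of_LS {X : Type*} {f : ↥H → X} (hf : Con1 (LSH S H) f) : Con1 (LGH H) f := by
  obtain ⟨U, ⟨W, hW, hWU⟩, h⟩ := hf
  exact ⟨U, ⟨W, LS_le_LG hW, hWU⟩, h⟩

variable (p S H) in
/-- A class of `G_S` as a class of the absolute group. -/
def infS : H2 (LSH S H) (triv (ZMod p) ↥H) →ₗ[ZMod p] H2 (LGH H) (triv (ZMod p) ↥H) :=
  H2map compat_LSH (φ := LinearMap.id) (fun _ _ => rfl)

theorem infS_mk2 (f : ↥(Z2 (LSH S H) (triv (ZMod p) ↥H))) :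
    infS p S H (mk2 (LSH S H) (triv (ZMod p) ↥H) f) = mk2 (LGH H) (triv (ZMod p) ↥H)
      ⟨pp2 (MonoidHom.id ↥H) LinearMap.id (f : ↥H × ↥H → ZMod p),
        pp2_mem_Z2 compat_LSH (φ := LinearMap.id) (fun _ _ => rfl) f.2⟩ := rfl

/-- A class of `G_S` vanishes at the places outside `S`. -/
theorem locH2_infS_eq_zero (hH : H ∈ LS S) {r : Nat.Primes} (hr : r ∉ S) (g : Gam)
    (a : H2 (LSH S H) (triv (ZMod p) ↥H)) : locH2 (r : ℕ) p H g (infS p S H a) = 0 := by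
  obtain ⟨⟨f, hf⟩, rfl⟩ := mk2_surjective a
  obtain ⟨⟨U, ⟨W, hW, hWU⟩, hc⟩, hd⟩ := mem_Z2.1 hf
  obtain ⟨N, hN, hn, hNW, hI⟩ := mem_LS.1 ((LS S).inf_mem hW hH)
  have hNH : N ≤ H := hNW.trans inf_le_right
  simp only [Representation.trivial_apply] at hd
  let l := locHom (r : ℕ) H g
  obtain ⟨N', hN', -, -, -, ζ, hζc, hζ⟩ := exists_unram_cochain (p := p) hN (hI r hr) hNH g
    (fun x y => twist p g (f (l x, l y)))
    (fun x y z => by
      rw [map_mul, map_mul, ← map_add, hd, map_add])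
    (fun x y s t hs ht => by
      rw [map_mul, map_mul, hc _ _ _ (hWU (hNW (show (l s : Gam) ∈ N from hs)).1) _
        (hWU (hNW (show (l t : Gam) ∈ N from ht)).1)])
  rw [infS_mk2, locH2_mk2_eq_zero]
  refine ⟨ζ, ⟨(stab (r : ℕ) N' g).subgroupOf (stab (r : ℕ) H g),
    subgroupOf_mem (stab_mem _ _ hN'), fun x s hs => hζc x s hs⟩, ?_⟩
  ext ⟨x, y⟩
  simp only [d1_apply, Representation.trivial_apply, pp2_apply, MonoidHom.id_apply,
    LinearMap.id_apply]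
  exact hζ x y

/-! ### The invariants -/

section Inv

variable (lam : ∀ q : Nat.Primes, H2 (LQ (q : ℕ)) (muQ p (q : ℕ)) →ₗ[ZMod p] ZMod p)

/-- The invariant of a class at an embedding. -/
def invP (hH : H ∈ LG) (hμ : (cyc p).MuFix H) (r : Nat.Primes) (g : Gam) :
    H2 (LGH H) (triv (ZMod p) ↥H) →ₗ[ZMod p] ZMod p :=
  haveI := (LQ (r : ℕ)).finiteIndex (stab_mem (r : ℕ) g hH)
  letI : Fintype (GamQ (r : ℕ) ⧸ stab (r : ℕ) H g) := Fintype.ofFinite _
  lam r ∘ₗ coresTriv (stab_mem (r : ℕ) g hH) (muFix_stab (r : ℕ) p g hμ) ∘ₗ locH2 (r : ℕ) p H g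

/-- The invariant vanishes exactly for locally trivial classes. -/
theorem invP_eq_zero (hodd : p ≠ 2) (hlam : ∀ q, Function.Bijective (lam q)) (hH : H ∈ LG)
    (hμ : (cyc p).MuFix H) (r : Nat.Primes) (g : Gam) (a : H2 (LGH H) (triv (ZMod p) ↥H)) :
    invP lam hH hμ r g a = 0 ↔ locH2 (r : ℕ) p H g a = 0 := by
  have := (LQ (r : ℕ)).finiteIndex (stab_mem (r : ℕ) g hH)
  let _ : Fintype (GamQ (r : ℕ) ⧸ stab (r : ℕ) H g) := Fintype.ofFinite _
  constructor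
  · intro h
    have h1 := (hlam r).1 (h.trans (map_zero (lam r)).symm)
    exact (coresTriv_bijective hodd (stab_mem (r : ℕ) g hH) (muFix_stab (r : ℕ) p g hμ)).1
      (h1.trans (map_zero (coresTriv (stab_mem (r : ℕ) g hH) (muFix_stab (r : ℕ) p g hμ))).symm)
  · intro h
    show lam r (coresTriv (stab_mem (r : ℕ) g hH) (muFix_stab (r : ℕ) p g hμ)
      (locH2 (r : ℕ) p H g a)) = 0
    rw [h, map_zero, map_zero]

/-- The invariants of a class good outside `S` sum to zero. -/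
theorem sum_invP (hrec : ∀ (S : Finset Nat.Primes) (z : H2 LG (muG p)),
      (∀ q, q ∉ S → locQ p (q : ℕ) z = 0) → ∑ q ∈ S, lam q (locQ p (q : ℕ) z) = 0)
    (hH : H ∈ LG) (hμ : (cyc p).MuFix H) [∀ r : Nat.Primes, Fintype (Pl (r : ℕ) H)]
    (a : H2 (LGH H) (triv (ZMod p) ↥H))
    (h : ∀ r : Nat.Primes, r ∉ S → ∀ g, locH2 (r : ℕ) p H g a = 0) :
    ∑ r ∈ S, ∑ v : Pl (r : ℕ) H, invP lam hH hμ r v.rep a = 0 := by
  have hfi := LG.finiteIndex hH
  let _ : Fintype (Gam ⧸ H) := Fintype.ofFinite _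
  have h1 := hrec S (glCores hH hμ a) fun r hr => locQ_glCores_eq_zero hH hμ a (h r hr)
  rw [← h1]
  refine Finset.sum_congr rfl fun r _ => ?_
  have hfi' : ∀ v : Pl (r : ℕ) H, (stab (r : ℕ) H v.rep).FiniteIndex := fun v =>
    (LQ (r : ℕ)).finiteIndex (stab_mem (r : ℕ) v.rep hH)
  let _ : ∀ v : Pl (r : ℕ) H, Fintype (GamQ (r : ℕ) ⧸ stab (r : ℕ) H v.rep) := fun v =>
    Fintype.ofFinite _
  rw [locQ_glCores hH hμ, map_sum]
  rfl

end Inv

/-! ### Kummer theory with trivial coefficients -/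

theorem exists_root_hom {F Ω : Type*} [Field F] [Field Ω] [Algebra F Ω] [IsGalois F Ω]
    {C : Cyc F Ω p} {V : Subgroup (Ω ≃ₐ[F] Ω)} (hμ : C.MuFix V)
    {f : ↥V → ZMod p} (hf : f ∈ Z1 ((krull F Ω).comap V.subtype) (triv (ZMod p) ↥V)) :
    ∃ r : ↥(Cyc.rootU p V), ∀ g, f g = C.kum V r g := by
  rw [← Cyc.rep_comp_eq_triv hμ] at hf
  obtain ⟨r, hr, h⟩ := Cyc.exists_kum hf
  exact ⟨⟨r, fun g => hr g⟩, h⟩

theorem kum_mem_Z1_triv {F Ω : Type*} [Field F] [Field Ω] [Algebra F Ω] [IsGalois F Ω]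
    {C : Cyc F Ω p} {V : Subgroup (Ω ≃ₐ[F] Ω)} (hμ : C.MuFix V)
    (r : ↥(Cyc.rootU p V)) :
    C.kum V r ∈ Z1 ((krull F Ω).comap V.subtype) (triv (ZMod p) ↥V) := by
  rw [← Cyc.rep_comp_eq_triv hμ]
  exact Cyc.kum_mem_Z1 r.2

end Fermat.Agent.PT
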