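import Mathlib.Algebra.Module.ZMod
import Mathlib.FieldTheory.Finiteness
import Mathlib.LinearAlgebra.Dimension.Constructions
import Fermat.Agent.PT.PlaceInv

/-!
# Homomorphisms as Kummer cochains, and their number

Local homomorphisms `H → ZMod p` are Kummer cochains; their number, and the nondegeneracy of
their cup product pairing.
-/

noncomputable section

namespace Fermat.Agent.PT

open Lv

variable {p : ℕ} [Fact p.Prime]

section Generic

variable {F Ω : Type*} [Field F] [Field Ω] [Algebra F Ω]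
variable {C : Cyc F Ω p} {V : Subgroup (Ω ≃ₐ[F] Ω)}

theorem kum_congr (hμ : C.MuFix V) {r r' : Ωˣ} (hr : r ∈ Cyc.rootU p V) (hr' : r' ∈ Cyc.rootU p V)
    (h : r ^ p = r' ^ p) : C.kum V r = C.kum V r' := by
  funext g
  have hq : r / r' ∈ Cyc.rootU p V := div_mem hr hr'
  have he : (r / r') ^ p = 1 := by rw [div_pow, h, div_self']
  have h1 := Cyc.kum_mul (C := C) hq hr' g
  rwa [div_mul_cancel, ← C.mu_lg he, Cyc.kum_mu hμ, zero_add] at h1

theorem kum_eq_zero_of_fixU {r : Ωˣ} (hr : r ∈ fixU V) : C.kum V r = 0 := by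
  funext g
  exact (Cyc.kum_eq_zero_iff (fun h => by rw [smul_pow', hr h]) g).2 (hr g)

theorem exists_rootU_fixU [IsAlgClosed Ω] (a : Additive ↥(fixU V)) :
    ∃ r : ↥(Cyc.rootU p V), (r : Ωˣ) ^ p = (a.toMul : Ωˣ) :=
  exists_rootU_of_fixU a.toMul.2

variable [IsGalois F Ω] [IsAlgClosed Ω] (hμ : C.MuFix V)
include hμ

/-- The root of a fixed unit, as a homomorphism. -/
def kumAdd : Additive ↥(fixU V) →+ ↥(Z1 ((krull F Ω).comap V.subtype) (triv (ZMod p) ↥V)) :=
  AddMonoidHom.mk'
    (fun a => ⟨C.kum V (exists_rootU_fixU (p := p) a).choose,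
      kum_mem_Z1_triv hμ (exists_rootU_fixU (p := p) a).choose⟩)
    fun a b => by
      have hs := fun a : Additive ↥(fixU V) => (exists_rootU_fixU (p := p) a).choose_spec
      refine Subtype.ext ?_
      rw [Submodule.coe_add]
      show C.kum V _ = C.kum V _ + C.kum V _
      rw [kum_congr hμ (exists_rootU_fixU (p := p) (a + b)).choose.2
        (mul_mem (exists_rootU_fixU (p := p) a).choose.2 (exists_rootU_fixU (p := p) b).choose.2)
        (by rw [mul_pow, hs, hs, hs]; rfl)]
      funext g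
      exact Cyc.kum_mul (exists_rootU_fixU (p := p) a).choose.2
        (exists_rootU_fixU (p := p) b).choose.2 g

theorem kumAdd_apply (a : Additive ↥(fixU V)) (r : ↥(Cyc.rootU p V))
    (h : (r : Ωˣ) ^ p = (a.toMul : Ωˣ)) :
    ((kumAdd hμ a : ↥(Z1 ((krull F Ω).comap V.subtype) (triv (ZMod p) ↥V))) : ↥V → ZMod p) =
      C.kum V r :=
  kum_congr hμ (exists_rootU_fixU (p := p) a).choose.2 r.2
    ((exists_rootU_fixU (p := p) a).choose_spec.trans h.symm)

theorem kumAdd_surjective : Function.Surjective (kumAdd (C := C) (V := V) hμ) := fun f => by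
  obtain ⟨r, hr⟩ := exists_root_hom hμ f.2
  refine ⟨Additive.ofMul ⟨(r : Ωˣ) ^ p, fun g => r.2 g⟩, Subtype.ext ?_⟩
  rw [kumAdd_apply hμ _ r rfl]
  exact funext fun g => (hr g).symm

omit [IsGalois F Ω] [IsAlgClosed Ω] hμ in
theorem mem_range_of_kum_eq_zero {A : Subgroup Ωˣ} {a : A} {r : Ωˣ} (hr : r ^ p = (a : Ωˣ))
    (hrA : (∀ g, C.kum V r g = 0) → r ∈ A) (h : ∀ g, C.kum V r g = 0) :
    Additive.ofMul a ∈ (mulHom p (Additive A)).range :=
  ⟨Additive.ofMul ⟨r, hrA h⟩, Additive.toMul.injective (Subtype.ext hr)⟩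

theorem kumAdd_ker : (kumAdd (C := C) (V := V) hμ).ker = (mulHom p (Additive ↥(fixU V))).range := by
  ext a
  rw [AddMonoidHom.mem_ker]
  constructor
  · intro h
    obtain ⟨⟨r, hrm⟩, hr⟩ := exists_rootU_fixU (p := p) a
    have h0 := kumAdd_apply hμ a ⟨r, hrm⟩ hr
    rw [h, Submodule.coe_zero] at h0
    exact mem_range_of_kum_eq_zero (a := a.toMul) hr
      (fun h g => (Cyc.kum_eq_zero_iff hrm g).1 (congrFun h0.symm g)) (congrFun h0.symm)
  · rintro ⟨b, rfl⟩
    refine Subtype.ext ?_
    rw [kumAdd_apply hμ _ ⟨(b.toMul : Ωˣ), fun g => by rw [smul_pow', b.toMul.2 g]⟩ rfl]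
    exact kum_eq_zero_of_fixU b.toMul.2

omit [IsGalois F Ω] [IsAlgClosed Ω] hμ in
/-- The kernel of multiplication by `p` on a group of units containing the roots of unity. -/
theorem card_ker_mulHom {A : Subgroup Ωˣ} (hA : ∀ z, C.mu z ∈ A) :
    Nat.card (mulHom p (Additive A)).ker = p := by
  have hpow : ∀ a : (mulHom p (Additive A)).ker,
      (((a : Additive A).toMul : A) : Ωˣ) ^ p = 1 := fun a => by
    have h1 := congrArg (fun z : Additive A => ((z.toMul : A) : Ωˣ))
        (a.2 : mulHom p (Additive A) a = 0)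
    simp only [mulHom_apply, toMul_nsmul, toMul_zero, SubgroupClass.coe_pow,
      OneMemClass.coe_one] at h1
    exact h1
  let e : (mulHom p (Additive A)).ker ≃ ZMod p :=
    { toFun := fun a => C.lg (((a : Additive A).toMul : A) : Ωˣ)
      invFun := fun z => ⟨Additive.ofMul ⟨C.mu z, hA z⟩, by
        rw [AddMonoidHom.mem_ker, mulHom_apply, ← ofMul_pow]
        exact congrArg Additive.ofMul (Subtype.ext (C.mu_pow z))⟩
      left_inv := fun a => Subtype.ext (Additive.toMul.injective (Subtype.ext (C.mu_lg (hpow a))))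
      right_inv := fun z => C.lg_mu z }
  rw [Nat.card_congr e, Nat.card_zmod]

end Generic

/-- The dimension of a finite vector space from its order. -/
theorem finrank_of_card {M : Type*} [AddCommGroup M] [Module (ZMod p) M] {n : ℕ}
    (h : Nat.card M = p ^ n) : Module.Finite (ZMod p) M ∧ Module.finrank (ZMod p) M = n := by
  have hfin : Finite M :=
    Nat.finite_of_card_ne_zero (h ▸ pow_ne_zero _ (Fact.out : p.Prime).ne_zero)
  refine ⟨Module.Finite.of_finite, ?_⟩
  have h2 := Module.natCard_eq_pow_finrank (K := ZMod p) (V := M)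
  rw [h, Nat.card_zmod] at h2
  exact (Nat.pow_right_injective (Fact.out : p.Prime).two_le h2).symm

section Local

variable {q : ℕ} [Fact q.Prime] {V : Subgroup (GamQ q)}

/-- The dimension of the group of local homomorphisms. -/
theorem finrank_homLocal (hodd : p ≠ 2) (hV : V ∈ LQ q) (hμ : (cycLoc q p).MuFix V) :
    Module.Finite (ZMod p) ↥(Z1 ((LQ q).comap V.subtype) (triv (ZMod p) ↥V)) ∧
      Module.finrank (ZMod p) ↥(Z1 ((LQ q).comap V.subtype) (triv (ZMod p) ↥V)) =
        2 + if q = p then V.index else 0 := by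
  obtain ⟨-, hv⟩ := hq_fixU (p := p) hodd hV
  refine finrank_of_card ?_
  have hc : Nat.card ↥(Z1 ((LQ q).comap V.subtype) (triv (ZMod p) ↥V)) =
      (mulHom p (Additive ↥(fixU V))).range.index := by
    rw [← kumAdd_ker (C := cycLoc q p) hμ, AddSubgroup.index_ker,
      AddMonoidHom.range_eq_top.2 (kumAdd_surjective hμ), AddSubgroup.card_top]
  have hk : Nat.card (mulHom p (Additive ↥(fixU V))).ker = p :=
    card_ker_mulHom (C := cycLoc q p) fun z g => Cyc.smul_mu_of_muFix hμ g z
  rw [hq, hk, div_eq_iff (by exact_mod_cast (Fact.out : p.Prime).ne_zero), degreeFactor] at hv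
  have h2 : ((mulHom p (Additive ↥(fixU V))).range.index : ℚ) =
      ((p ^ (2 + if q = p then V.index else 0) : ℕ) : ℚ) := by
    rw [hv]
    split_ifs <;> push_cast <;> ring
  rw [hc]
  exact_mod_cast h2

/-- The cup product pairing of local homomorphisms is nondegenerate. -/
theorem exists_cup11_ne_zero (hodd : p ≠ 2) (hV : V ∈ LQ q) (hμ : (cycLoc q p).MuFix V)
    (f : ↥(Z1 ((LQ q).comap V.subtype) (triv (ZMod p) ↥V))) (hf : f ≠ 0) :
    ∃ f', cup11 ((LQ q).comap V.subtype) f f' ≠ 0 := by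
  obtain ⟨r, hr⟩ := exists_root_hom hμ f.2
  obtain ⟨s, hs⟩ := Local.exists_sym_ne_zero_right hodd hV hμ r (by
    by_contra! h
    exact hf (Subtype.ext (funext fun g => (hr g).trans (h g))))
  refine ⟨⟨_, kum_mem_Z1_triv hμ s⟩, fun h => hs ?_⟩
  rw [← h, cup11, Cyc.sym]
  refine mk2_congr (funext fun gh => ?_)
  simp only [Cyc.symC, hr]

end Local

end Fermat.Agent.PT
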