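import Fermat.Agent.PT.Kummer

/-!
# Cup products with a character of order `p`: the norm criterion

For a character `X` of order `p` of `H` with kernel field `E` and an element `a` fixed by `H`, the
cup product of the Kummer class of `a` with `X` vanishes in `H²(H, μ_p)` exactly when `a` is a norm
from `E`.  The symbols of `Symbol` are defined this way.
-/

noncomputable section

namespace Fermat.Agent.PT

open Lv

variable {F Ω : Type*} [Field F] [Field Ω] [Algebra F Ω] [IsGalois F Ω]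

/-- A continuous character of order `p` on a subgroup, with a chosen element of value `1`. -/
structure Chi (p : ℕ) (H : Subgroup (Ω ≃ₐ[F] Ω)) where
  /-- The character, constant modulo a level. -/
  χ : ↥H → ZMod p
  map_mul : ∀ g h, χ (g * h) = χ g + χ h
  con : Con1 ((krull F Ω).comap H.subtype) χ
  /-- The element of value `1`. -/
  σ : ↥H
  χ_σ : χ σ = 1

namespace Chi

variable {p : ℕ} [Fact p.Prime] {H : Subgroup (Ω ≃ₐ[F] Ω)} (X : Chi p H)

theorem map_one : X.χ 1 = 0 := by simpa using X.map_mul 1 1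

theorem map_inv (g : ↥H) : X.χ g⁻¹ = -X.χ g :=
  eq_neg_of_add_eq_zero_left (by rw [← X.map_mul, inv_mul_cancel, X.map_one])

theorem χ_pow (n : ℕ) : X.χ (X.σ ^ n) = n := by
  induction n with
  | zero => simpa using X.map_one
  | succ n ih => rw [pow_succ, X.map_mul, ih, X.χ_σ]; push_cast; rfl

/-- The kernel, as a subgroup of the Galois group. -/
def ker : Subgroup (Ω ≃ₐ[F] Ω) where
  carrier := {g | ∃ hg : g ∈ H, X.χ ⟨g, hg⟩ = 0}
  one_mem' := ⟨H.one_mem, X.map_one⟩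
  mul_mem' := fun {a b} ⟨ha, e⟩ ⟨hb, e'⟩ => ⟨H.mul_mem ha hb, by
    rw [show (⟨a * b, H.mul_mem ha hb⟩ : ↥H) = ⟨a, ha⟩ * ⟨b, hb⟩ from rfl, X.map_mul, e, e',
      add_zero]⟩
  inv_mem' := fun {a} ⟨ha, e⟩ => ⟨H.inv_mem ha, by
    rw [show (⟨a⁻¹, H.inv_mem ha⟩ : ↥H) = ⟨a, ha⟩⁻¹ from rfl, X.map_inv, e, neg_zero]⟩

theorem ker_le : X.ker ≤ H := fun _ h => h.1

theorem mem_ker {g : ↥H} : (g : Ω ≃ₐ[F] Ω) ∈ X.ker ↔ X.χ g = 0 :=
  ⟨fun ⟨_, h⟩ => h, fun h => ⟨g.2, h⟩⟩

/-- An element is fixed by the kernel. -/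
def Fixed (y : Ωˣ) : Prop := ∀ u : ↥H, X.χ u = 0 → (u : Ω ≃ₐ[F] Ω) • y = y

variable {X}

theorem Fixed.smul_eq {y : Ωˣ} (hy : X.Fixed y) {g g' : ↥H} (h : X.χ g = X.χ g') :
    (g : Ω ≃ₐ[F] Ω) • y = (g' : Ω ≃ₐ[F] Ω) • y := by
  have := hy (g'⁻¹ * g) (by rw [X.map_mul, X.map_inv, h, neg_add_cancel])
  rwa [Subgroup.coe_mul, Subgroup.coe_inv, mul_smul, inv_smul_eq_iff] at this

variable (X)

/-- The norm from the kernel field. -/
def nrm (y : Ωˣ) : Ωˣ := ∏ i ∈ Finset.range p, ((X.σ ^ i : ↥H) : Ω ≃ₐ[F] Ω) • y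

omit [Fact p.Prime] in
theorem nrm_mul (y z : Ωˣ) : X.nrm (y * z) = X.nrm y * X.nrm z := by
  simp only [nrm, smul_mul', Finset.prod_mul_distrib]

theorem smul_nrm {y : Ωˣ} (hy : X.Fixed y) (g : ↥H) : (g : Ω ≃ₐ[F] Ω) • X.nrm y = X.nrm y := by
  simp only [nrm, Finset.smul_prod']
  have hp : p.Prime := Fact.out
  refine Finset.prod_bij (fun i _ => (X.χ g + (i : ZMod p)).val)
    (fun i _ => Finset.mem_range.2 (ZMod.val_lt _)) (fun i hi j hj h => ?_) (fun j hj => ?_)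
    (fun i hi => ?_)
  · have h' := congrArg (ZMod.val) (add_left_cancel (ZMod.val_injective p h))
    rwa [ZMod.val_cast_of_lt (Finset.mem_range.1 hi),
      ZMod.val_cast_of_lt (Finset.mem_range.1 hj)] at h'
  · refine ⟨((j : ZMod p) - X.χ g).val, Finset.mem_range.2 (ZMod.val_lt _), ?_⟩
    rw [ZMod.natCast_zmod_val, add_sub_cancel, ZMod.val_cast_of_lt (Finset.mem_range.1 hj)]
  · rw [← mul_smul, ← Subgroup.coe_mul]
    refine hy.smul_eq ?_
    rw [X.map_mul, X.χ_pow, X.χ_pow, ZMod.natCast_zmod_val]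

/-- The carry cochain of an element. -/
def carry (x : Ωˣ) (gh : ↥H × ↥H) : Ωˣ := if p ≤ (X.χ gh.1).val + (X.χ gh.2).val then x else 1

variable (C : Cyc F Ω p)

/-- The cup product of a `μ_p`-valued cocycle with the character. -/
def cup (κ : ↥H → ZMod p) (gh : ↥H × ↥H) : ZMod p := κ gh.1 * X.χ gh.2

omit [Fact p.Prime] in
theorem con_root (r : Ωˣ) :
    Con1 ((krull F Ω).comap H.subtype) fun g : ↥H => r ^ (X.χ g).val :=
  X.con.comp fun z => r ^ z.val

variable {C}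

/-- The cup product differs from the carry cochain by a coboundary. -/
theorem mu_cup {r : Ωˣ} (hr : ∀ h : ↥H, (h : Ω ≃ₐ[F] Ω) • r ^ p = r ^ p) (g h : ↥H) :
    C.mu (X.cup (C.kum H r) (g, h)) * X.carry (r ^ p) (g, h) =
      (g : Ω ≃ₐ[F] Ω) • r ^ (X.χ h).val * r ^ (X.χ g).val / r ^ (X.χ (g * h)).val := by
  have hc : r ^ (X.χ (g * h)).val * X.carry (r ^ p) (g, h) =
      r ^ (X.χ h).val * r ^ (X.χ g).val := by
    rw [X.map_mul g h, carry]
    simp only
    split_ifs with hc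
    · have := ZMod.val_add_val_of_le hc
      rw [← pow_add, ← pow_add]
      congr 1
      omega
    · simp only [not_le] at hc
      rw [mul_one, ← pow_add]
      congr 1
      rw [ZMod.val_add_of_lt hc, add_comm]
  rw [show X.cup (C.kum H r) (g, h) = X.χ h * C.kum H r g by simp [cup, mul_comm], C.mu_mul,
    Cyc.mu_kum hr, div_pow, ← smul_pow', eq_div_iff_mul_eq', mul_assoc, mul_comm (X.carry _ _), hc]
  apply Additive.ofMul.injective
  simp only [div_eq_mul_inv, ofMul_mul, ofMul_inv]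
  abel

theorem isCobU_mu_cup_iff {r : Ωˣ} (hr : ∀ h : ↥H, (h : Ω ≃ₐ[F] Ω) • r ^ p = r ^ p) :
    Cyc.IsCobU H (fun x => C.mu (X.cup (C.kum H r) x)) ↔ Cyc.IsCobU H (X.carry (r ^ p)) := by
  have hd := Cyc.isCobU_d (H := H) (fun g : ↥H => r ^ (X.χ g).val) (X.con_root r)
  constructor <;> intro h <;> refine Cyc.isCobU_congr ?_ (hd.mul h.inv) <;> rintro ⟨g, g'⟩ <;>
    rw [← X.mu_cup hr g g', mul_inv_eq_iff_eq_mul]
  rw [mul_comm]

/-- Norms give trivial cup products. -/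
theorem cup_mem_B2_of_nrm [IsAlgClosed Ω] {r y : Ωˣ} (hy : X.Fixed y) (hr : r ^ p = X.nrm y) :
    X.cup (C.kum H r) ∈ B2 ((krull F Ω).comap H.subtype) (C.rep.comp H.subtype) := by
  have hp : p.Prime := Fact.out
  have hrH : ∀ h : ↥H, (h : Ω ≃ₐ[F] Ω) • r ^ p = r ^ p := fun h => by rw [hr]; exact X.smul_nrm hy h
  refine Cyc.mem_B2_of_isCobU ((X.isCobU_mu_cup_iff hrH).2 ?_)
  let P : ℕ → Ωˣ := fun n => ∏ i ∈ Finset.range n, ((X.σ ^ i : ↥H) : Ω ≃ₐ[F] Ω) • y
  refine ⟨fun g => P (X.χ g).val, X.con.comp (fun z => P z.val), fun g h => ?_⟩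
  have hshift : (g : Ω ≃ₐ[F] Ω) • P (X.χ h).val * P (X.χ g).val =
      P ((X.χ g).val + (X.χ h).val) := by
    simp only [P]
    rw [Finset.prod_range_add, mul_comm, Finset.smul_prod']
    congr 1
    refine Finset.prod_congr rfl fun i _ => ?_
    rw [← mul_smul, ← Subgroup.coe_mul]
    refine hy.smul_eq ?_
    rw [X.map_mul, X.χ_pow, X.χ_pow, Nat.cast_add, ZMod.natCast_zmod_val]
  rw [hshift, carry]
  simp only [X.map_mul g h]
  rw [eq_div_iff_mul_eq']
  split_ifs with hc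
  · simp only [ZMod.val_add_of_le hc]
    obtain ⟨m, hm⟩ := Nat.exists_eq_add_of_le hc
    rw [show (X.χ g).val + (X.χ h).val - p = m by omega, hm, hr]
    simp only [P, nrm]
    rw [Finset.prod_range_add]
    congr 1
    refine Finset.prod_congr rfl fun i _ => hy.smul_eq ?_
    rw [X.χ_pow, X.χ_pow, Nat.cast_add, ZMod.natCast_self, zero_add]
  · rw [one_mul]
    simp only [not_le] at hc
    rw [ZMod.val_add_of_lt hc]

theorem compat_ker :
    Compat ((krull F Ω).comap H.subtype) ((krull F Ω).comap X.ker.subtype)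
      (Subgroup.inclusion X.ker_le) :=
  fun _U ⟨W, hW, hWU⟩ => ⟨W, hW, fun _g hg => hWU hg⟩

/-- Trivial cup products come from norms. -/
theorem exists_nrm_of_cup_mem_B2 {r : Ωˣ} (hr : ∀ h : ↥H, (h : Ω ≃ₐ[F] Ω) • r ^ p = r ^ p)
    (hb : X.cup (C.kum H r) ∈ B2 ((krull F Ω).comap H.subtype) (C.rep.comp H.subtype)) :
    ∃ y : Ωˣ, X.Fixed y ∧ X.nrm y = r ^ p := by
  have hp : p.Prime := Fact.out
  obtain ⟨Y, hY, e⟩ := (X.isCobU_mu_cup_iff hr).1 (Cyc.isCobU_of_mem_B2 hb)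
  have carry_left : ∀ u h : ↥H, X.χ u = 0 → X.carry (r ^ p) (u, h) = 1 := fun u h hu => by
    rw [carry, if_neg]; simp [hu, (ZMod.val_lt (X.χ h))]
  have carry_right : ∀ u h : ↥H, X.χ u = 0 → X.carry (r ^ p) (h, u) = 1 := fun u h hu => by
    rw [carry, if_neg]; simp [hu, (ZMod.val_lt (X.χ h))]
  obtain ⟨w, hw⟩ := hilbert90 X.ker (fun u => Y (Subgroup.inclusion X.ker_le u))
    (hY.precomp X.compat_ker) fun g h => by
      have := e (Subgroup.inclusion X.ker_le g) (Subgroup.inclusion X.ker_le h)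
      rw [carry_left _ _ (X.mem_ker.1 g.2), eq_comm, div_eq_one] at this
      exact this.symm
  let Y' : ↥H → Ωˣ := fun g => Y g / ((g : Ω ≃ₐ[F] Ω) • w / w)
  have e' : ∀ g h, X.carry (r ^ p) (g, h) = (g : Ω ≃ₐ[F] Ω) • Y' h * Y' g / Y' (g * h) := by
    intro g h
    rw [e g h]
    simp only [Y', smul_div', Subgroup.coe_mul, mul_smul]
    apply Additive.ofMul.injective
    simp only [div_eq_mul_inv, ofMul_mul, ofMul_inv]
    abel
  have hu1 : ∀ u : ↥H, X.χ u = 0 → Y' u = 1 := fun u hu => by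
    have := hw ⟨u, X.mem_ker.2 hu⟩
    simp only [Y', Subgroup.inclusion] at this ⊢
    rw [div_eq_one]
    exact this
  have hr1 : ∀ u h : ↥H, X.χ u = 0 → Y' (h * u) = Y' h := fun u h hu => by
    have := e' h u
    rw [carry_right u h hu, hu1 u hu, smul_one, one_mul, eq_comm, div_eq_one] at this
    exact this.symm
  have hl1 : ∀ u h : ↥H, X.χ u = 0 → Y' (u * h) = (u : Ω ≃ₐ[F] Ω) • Y' h := fun u h hu => by
    have := e' u h
    rw [carry_left u h hu, hu1 u hu, mul_one, eq_comm, div_eq_one] at this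
    exact this.symm
  have hfix : X.Fixed (Y' X.σ) := fun u hu => by
    rw [← hl1 u _ hu, show u * X.σ = X.σ * (X.σ⁻¹ * u * X.σ) by group,
      hr1 _ _ (by simp [X.map_mul, X.map_inv, hu])]
  have key : ∀ i < p, Y' (X.σ ^ i) =
      ∏ l ∈ Finset.range i, ((X.σ ^ l : ↥H) : Ω ≃ₐ[F] Ω) • Y' X.σ := by
    intro i hi
    induction i with
    | zero => simpa using hu1 1 X.map_one
    | succ i ih =>
      have := e' (X.σ ^ i) X.σ
      rw [carry, if_neg (by simp [X.χ_pow, X.χ_σ, ZMod.val_one,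
          ZMod.val_cast_of_lt (Nat.lt_of_succ_lt hi)] ; omega), eq_comm, div_eq_one,
        ← pow_succ, mul_comm, ih (Nat.lt_of_succ_lt hi)] at this
      rw [← this, Finset.prod_range_succ]
  refine ⟨Y' X.σ, hfix, ?_⟩
  obtain ⟨m, hm⟩ : ∃ m, p = m + 1 := ⟨p - 1, (Nat.sub_add_cancel hp.one_le).symm⟩
  have := e' (X.σ ^ m) X.σ
  rw [carry, if_pos (by simp [X.χ_pow, X.χ_σ, ZMod.val_one,
      ZMod.val_cast_of_lt (show m < p by omega)] ; omega), ← pow_succ,
    hu1 (X.σ ^ (m + 1)) (by rw [X.χ_pow, ← hm, ZMod.natCast_self]), div_one,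
    mul_comm, key m (by omega)] at this
  rw [this, nrm, congrArg Finset.range hm, Finset.prod_range_succ]

end Chi

end Fermat.Agent.PT
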