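import Mathlib.Tactic.LinearCombination
import Fermat.Agent.PT.Cyclic

/-!
# A class split by the kernel of a character of order `p` is a cup product with it

A class of `H²(H, μ_p)` that dies on the kernel of a character of order `p` is, up to sign, the
cup product of a Kummer class with that character.  This is the inductive step showing that local
classes are symbols.
-/

noncomputable section

namespace Fermat.Agent.PT

open Lv

variable {F Ω : Type*} [Field F] [Field Ω] [Algebra F Ω] [IsGalois F Ω]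
variable {p : ℕ} [Fact p.Prime] {H : Subgroup (Ω ≃ₐ[F] Ω)} (X : Chi p H) {C : Cyc F Ω p}

namespace Chi

local notation "LH" => Lv.comap (krull F Ω) (Subgroup.subtype H)
local notation "LK" => Lv.comap (krull F Ω) (Subgroup.subtype (Chi.ker X))

theorem χ_sub (g : ↥H) : X.χ ((X.σ ^ (X.χ g).val)⁻¹ * g) = 0 := by
  rw [X.map_mul, X.map_inv, X.χ_pow, ZMod.natCast_zmod_val, neg_add_cancel]

theorem σ_pow_zero {g : ↥H} (hg : X.χ g = 0) : (X.σ ^ (X.χ g).val) = 1 := by simp [hg]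

/-- Elements of the kernel can be moved past any element. -/
theorem exists_swap_ker (h u : ↥H) (hu : X.χ u = 0) : ∃ u', X.χ u' = 0 ∧ u * h = h * u' :=
  ⟨h⁻¹ * u * h, by simp [X.map_mul, X.map_inv, hu], by group⟩

/-- A cocycle split by the kernel can be changed by a coboundary so as to vanish whenever its
second argument lies in the kernel. -/
theorem exists_normalised {β : ↥H × ↥H → ZMod p}
    (hβ : β ∈ Z2 LH (C.rep.comp H.subtype))
    (hres : pp2 (Subgroup.inclusion X.ker_le) (LinearMap.id : ZMod p →ₗ[ZMod p] ZMod p) β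
      ∈ B2 LK (C.rep.comp X.ker.subtype)) :
    ∃ β₂ ∈ Z2 LH (C.rep.comp H.subtype), β - β₂ ∈ B2 LH (C.rep.comp H.subtype) ∧
      ∀ g u : ↥H, X.χ u = 0 → β₂ (g, u) = 0 := by
  obtain ⟨y, hy, ey⟩ := mem_B2.1 hres
  -- Step 1: make `β` vanish on the kernel
  let q : ↥H → ↥X.ker := fun g =>
    ⟨(((X.σ ^ (X.χ g).val)⁻¹ * g : ↥H) : Ω ≃ₐ[F] Ω), X.mem_ker.2 (X.χ_sub g)⟩
  let yt : ↥H → ZMod p := fun g => y (q g)
  have hyt : Con1 LH yt := by
    obtain ⟨V, ⟨W, hW, hWV⟩, hV⟩ := hy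
    obtain ⟨V', ⟨W', hW', hW'V⟩, hV'⟩ := X.con
    refine ⟨(W ⊓ W').comap H.subtype, comap_mem_comap _ ((krull F Ω).inf_mem hW hW'),
      fun g s hs => ?_⟩
    have e1 : X.χ (g * s) = X.χ g := hV' g s (hW'V hs.2)
    have hs0 : X.χ s = 0 := by
      rw [X.map_mul] at e1; exact add_eq_left.1 e1
    simp only [yt]
    rw [show q (g * s) = q g * ⟨(s : Ω ≃ₐ[F] Ω), X.mem_ker.2 hs0⟩ from Subtype.ext (by
      simp [q, e1, mul_assoc])]
    exact hV _ _ (hWV hs.1)
  set β₁ := β - d1 (C.rep.comp H.subtype) yt with hβ₁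
  have hsm : Smooth LH (C.rep.comp H.subtype) := fun z => by
    obtain ⟨U, hU, hfix⟩ := exists_level_fixing_units (F := F) (C.mu z)
    refine ⟨U.comap H.subtype, comap_mem_comap _ hU, fun s hs => C.mu_injective ?_⟩
    simp only [MonoidHom.coe_comp, Function.comp_apply, Subgroup.coe_subtype, Cyc.rep_apply,
      ← C.smul_mu]
    exact hfix _ hs
  have h₁ : β₁ ∈ Z2 LH (C.rep.comp H.subtype) := sub_mem hβ (d1_mem_Z2 hsm hyt)
  have h₁0 : ∀ u v : ↥H, X.χ u = 0 → X.χ v = 0 → β₁ (u, v) = 0 := by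
    intro u v hu hv
    have hq : ∀ w (hw : X.χ w = 0), q w = ⟨(w : Ω ≃ₐ[F] Ω), X.mem_ker.2 hw⟩ := fun w hw =>
      Subtype.ext (by simp [q, X.σ_pow_zero hw])
    have huv : X.χ (u * v) = 0 := by rw [X.map_mul, hu, hv, add_zero]
    have := congrFun ey (⟨(u : Ω ≃ₐ[F] Ω), X.mem_ker.2 hu⟩, ⟨(v : Ω ≃ₐ[F] Ω), X.mem_ker.2 hv⟩)
    simp only [hβ₁, Pi.sub_apply, d1_apply, yt, hq u hu, hq v hv, hq _ huv, sub_eq_zero]
    rw [d1_apply] at this
    exact this.symm
  -- Step 2: make it vanish when the second argument is in the kernel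
  let z : ↥H → ZMod p := fun g => β₁ (X.σ ^ (X.χ g).val, (X.σ ^ (X.χ g).val)⁻¹ * g)
  have hz : Con1 LH z := by
    obtain ⟨V, hV, h⟩ := (mem_Z2.1 h₁).1
    obtain ⟨V', hV', h'⟩ := X.con
    refine ⟨V ⊓ V', Lv.inf_mem _ hV hV', fun g s hs => ?_⟩
    simp only [z, h' g s hs.2, ← mul_assoc]
    have := h (X.σ ^ (X.χ g).val) ((X.σ ^ (X.χ g).val)⁻¹ * g) 1 V.one_mem s hs.1
    rwa [mul_one] at this
  set β₂ := β₁ + d1 (C.rep.comp H.subtype) z with hβ₂
  have h₂ : β₂ ∈ Z2 LH (C.rep.comp H.subtype) := add_mem h₁ (d1_mem_Z2 hsm hz)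
  have c₁ := (mem_Z2.1 h₁).2
  have h₂0 : ∀ g u : ↥H, X.χ u = 0 → β₂ (g, u) = 0 := by
    intro g u hu
    have e1 : X.χ (g * u) = X.χ g := by rw [X.map_mul, hu, add_zero]
    have hz0 : z u = 0 := by
      simp only [z, X.σ_pow_zero hu]
      exact h₁0 _ _ X.map_one (by simpa using hu)
    have := c₁ (X.σ ^ (X.χ g).val) ((X.σ ^ (X.χ g).val)⁻¹ * g) u
    rw [h₁0 _ _ (X.χ_sub g) hu, map_zero, zero_add, mul_inv_cancel_left] at this
    simp only [hβ₂, Pi.add_apply, d1_apply, hz0, map_zero, zero_sub, z, e1, ← mul_assoc]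
    rw [← this]
    abel
  refine ⟨β₂, h₂, ?_, h₂0⟩
  rw [show β - β₂ = d1 (C.rep.comp H.subtype) yt - d1 (C.rep.comp H.subtype) z by
    rw [hβ₂, hβ₁]; abel]
  exact sub_mem (mem_B2.2 ⟨yt, hyt, rfl⟩) (mem_B2.2 ⟨z, hz, rfl⟩)

/-- By Hilbert 90 a normalised cocycle differs by a coboundary in `Ωˣ` from one which is trivial
whenever either argument lies in the kernel. -/
theorem exists_units_cocycle {β₂ : ↥H × ↥H → ZMod p} (h₂ : β₂ ∈ Z2 LH (C.rep.comp H.subtype))
    (h₂0 : ∀ g u : ↥H, X.χ u = 0 → β₂ (g, u) = 0) :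
    ∃ (W : ↥H → Ωˣ) (B : ↥H → ↥H → Ωˣ), Con1 LH W ∧
      (∀ g h, C.mu (β₂ (g, h)) = B g h * ((g : Ω ≃ₐ[F] Ω) • W h * W g / W (g * h))) ∧
      (∀ g h j, B (g * h) j * B g h = (g : Ω ≃ₐ[F] Ω) • B h j * B g (h * j)) ∧
      (∀ g u, X.χ u = 0 → B g u = 1) ∧ ∀ u h, X.χ u = 0 → B u h = 1 := by
  have c₂ := (mem_Z2.1 h₂).2
  have h₂r : ∀ g h u : ↥H, X.χ u = 0 → β₂ (g, h * u) = β₂ (g, h) := fun g h u hu => by
    have := c₂ g h u
    rwa [h₂0 _ u hu, h₂0 h u hu, map_zero, zero_add, zero_add, eq_comm] at this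
  have h₂swap : ∀ g h u : ↥H, X.χ u = 0 → β₂ (g, u * h) = β₂ (g, h) := fun g h u hu => by
    obtain ⟨u', hu', e⟩ := X.exists_swap_ker h u hu
    rw [e, h₂r g h u' hu']
  have h90 : ∀ i : ℕ, ∃ w : Ωˣ, (i = 0 → w = 1) ∧
      ∀ u : ↥H, X.χ u = 0 → C.mu (β₂ (u, X.σ ^ i)) = (u : Ω ≃ₐ[F] Ω) • w / w := by
    intro i
    by_cases hi : i = 0
    · refine ⟨1, fun _ => rfl, fun u hu => ?_⟩
      rw [hi, pow_zero, h₂0 _ _ X.map_one, C.mu_zero, smul_one, div_one]
    · have hc : Con1 LK (fun u => C.mu (β₂ (Subgroup.inclusion X.ker_le u, X.σ ^ i))) := by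
        obtain ⟨V, hV, hc⟩ := (mem_Z2.1 h₂).1
        exact ⟨_, X.compat_ker V hV, fun g s hs => by
          have := hc (Subgroup.inclusion X.ker_le g) (X.σ ^ i) _ hs 1 V.one_mem
          rw [mul_one] at this
          beta_reduce
          rw [_root_.map_mul, this]⟩
      have hf : ∀ g h : ↥X.ker, C.mu (β₂ (Subgroup.inclusion X.ker_le (g * h), X.σ ^ i)) =
          (g : Ω ≃ₐ[F] Ω) • C.mu (β₂ (Subgroup.inclusion X.ker_le h, X.σ ^ i)) *
            C.mu (β₂ (Subgroup.inclusion X.ker_le g, X.σ ^ i)) := by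
        intro g h
        have := c₂ (Subgroup.inclusion X.ker_le g) (Subgroup.inclusion X.ker_le h) (X.σ ^ i)
        have hh : X.χ (Subgroup.inclusion X.ker_le h) = 0 := X.mem_ker.1 h.2
        rw [h₂0 _ (Subgroup.inclusion X.ker_le h) hh, add_zero,
          h₂swap _ _ (Subgroup.inclusion X.ker_le h) hh] at this
        rw [_root_.map_mul, this, C.mu_add, C.smul_mu, MonoidHom.coe_comp, Function.comp_apply,
          Cyc.rep_apply]
        rfl
      obtain ⟨w, hw⟩ := hilbert90 X.ker _ hc hf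
      exact ⟨w, fun h => absurd h hi, fun u hu => hw ⟨(u : Ω ≃ₐ[F] Ω), X.mem_ker.2 hu⟩⟩
  choose w hw0 hw using h90
  let W : ↥H → Ωˣ := fun g => w (X.χ g).val
  have hW : Con1 LH W := X.con.comp fun a => w a.val
  have hW0 : ∀ u, X.χ u = 0 → W u = 1 := fun u hu => hw0 _ (by simp [hu])
  let B : ↥H → ↥H → Ωˣ := fun g h =>
    C.mu (β₂ (g, h)) / ((g : Ω ≃ₐ[F] Ω) • W h * W g / W (g * h))
  have cB : ∀ g h j, B (g * h) j * B g h = (g : Ω ≃ₐ[F] Ω) • B h j * B g (h * j) := by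
    intro g h j
    have := congrArg C.mu (c₂ g h j)
    rw [C.mu_add, C.mu_add, MonoidHom.coe_comp, Function.comp_apply, Subgroup.coe_subtype,
      Cyc.rep_apply, ← C.smul_mu] at this
    simp only [B, smul_div', smul_mul', Subgroup.coe_mul, mul_smul, mul_assoc g h j]
    rw [div_mul_div_comm, this]
    apply Additive.ofMul.injective
    simp only [div_eq_mul_inv, ofMul_mul, ofMul_inv]
    abel
  have hBu : ∀ g u, X.χ u = 0 → B g u = 1 := fun g u hu => by
    simp only [B, h₂0 g u hu, C.mu_zero, hW0 u hu, smul_one, one_mul]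
    rw [show W (g * u) = W g by simp [W, X.map_mul, hu]]
    simp
  have huB : ∀ u h, X.χ u = 0 → B u h = 1 := fun u h hu => by
    have e2 : X.χ (u * h) = X.χ h := by rw [X.map_mul, hu, zero_add]
    have e1 : β₂ (u, h) = β₂ (u, X.σ ^ (X.χ h).val) := by
      conv_lhs => rw [show h = X.σ ^ (X.χ h).val * ((X.σ ^ (X.χ h).val)⁻¹ * h) by group]
      rw [h₂r _ _ _ (X.χ_sub h)]
    simp only [B, hW0 u hu, mul_one, e1, hw _ u hu, W, e2]
    simp
  exact ⟨W, B, hW, fun g h => (div_mul_cancel _ _).symm, cB, hBu, huB⟩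

/-- The carry cochain of an element fixed by `H` is a cocycle. -/
theorem carry_cocycle {x : Ωˣ} (hx : ∀ h : ↥H, (h : Ω ≃ₐ[F] Ω) • x = x) (g h j : ↥H) :
    X.carry x (g * h, j) * X.carry x (g, h) =
      (g : Ω ≃ₐ[F] Ω) • X.carry x (h, j) * X.carry x (g, h * j) := by
  have hv : ∀ a b : ℕ, a < p → b < p → (a + b) % p = if p ≤ a + b then a + b - p else a + b := by
    intro a b ha hb
    split_ifs with hab
    · rw [Nat.mod_eq_sub_mod hab, Nat.mod_eq_of_lt (by omega)]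
    · exact Nat.mod_eq_of_lt (by omega)
  simp only [carry, X.map_mul, ZMod.val_add, apply_ite ((g : Ω ≃ₐ[F] Ω) • ·), hx, smul_one]
  have ha := ZMod.val_lt (X.χ g)
  have hb := ZMod.val_lt (X.χ h)
  have hc := ZMod.val_lt (X.χ j)
  rw [hv _ _ ha hb, hv _ _ hb hc]
  split_ifs <;> first | (simp; done) | (exfalso; omega)

/-- A cocycle trivial on the kernel and at the generator in the second argument is trivial. -/
theorem eq_one_of_cocycle {D : ↥H → ↥H → Ωˣ}
    (cD : ∀ g h j, D (g * h) j * D g h = (g : Ω ≃ₐ[F] Ω) • D h j * D g (h * j))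
    (hDu : ∀ g u, X.χ u = 0 → D g u = 1) (hDσ : ∀ g, D g X.σ = 1) (g h : ↥H) : D g h = 1 := by
  have hDn : ∀ g (i : ℕ), D g (X.σ ^ i) = 1 := by
    intro g i
    induction i generalizing g with
    | zero => exact hDu g _ (by simp [X.map_one])
    | succ i ih =>
      have := cD g (X.σ ^ i) X.σ
      rwa [hDσ, hDσ, ih, smul_one, one_mul, one_mul, ← pow_succ, eq_comm] at this
  have := cD g (X.σ ^ (X.χ h).val) ((X.σ ^ (X.χ h).val)⁻¹ * h)
  rwa [hDu _ _ (X.χ_sub h), hDu _ _ (X.χ_sub h), hDn, smul_one, one_mul, one_mul,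
    mul_inv_cancel_left, eq_comm] at this

/-- A cocycle with values in `Ωˣ` which is trivial on the kernel in both arguments differs by a
coboundary from the carry cochain of an element fixed by `H`. -/
theorem exists_carry {B : ↥H → ↥H → Ωˣ}
    (cB : ∀ g h j, B (g * h) j * B g h = (g : Ω ≃ₐ[F] Ω) • B h j * B g (h * j))
    (hBu : ∀ g u, X.χ u = 0 → B g u = 1) (huB : ∀ u h, X.χ u = 0 → B u h = 1) :
    ∃ (x : Ωˣ) (P : ↥H → Ωˣ), Con1 LH P ∧ (∀ h : ↥H, (h : Ω ≃ₐ[F] Ω) • x = x) ∧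
      ∀ g h, B g h = (g : Ω ≃ₐ[F] Ω) • P h * P g / P (g * h) * X.carry x (g, h) := by
  have hp : p.Prime := Fact.out
  have hBr : ∀ g h u, X.χ u = 0 → B g (h * u) = B g h := fun g h u hu => by
    have := cB g h u
    rwa [hBu _ u hu, hBu h u hu, smul_one, one_mul, one_mul, eq_comm] at this
  have hBl : ∀ g g' h, X.χ g = X.χ g' → B g h = B g' h := fun g g' h e => by
    have hu : X.χ (g'⁻¹ * g) = 0 := by rw [X.map_mul, X.map_inv, e, neg_add_cancel]
    obtain ⟨u', hu', e'⟩ := X.exists_swap_ker h _ hu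
    have := cB g' (g'⁻¹ * g) h
    rwa [huB _ _ hu, hBu _ _ hu, mul_inv_cancel_left, e', hBr _ _ _ hu', smul_one, one_mul,
      mul_one] at this
  have hBfix : ∀ g h, X.Fixed (B g h) := fun g h u hu => by
    have := cB u g h
    rwa [huB u g hu, huB u (g * h) hu, mul_one, mul_one,
      hBl (u * g) g h (by rw [X.map_mul, hu, zero_add]), eq_comm] at this
  let b : ℕ → Ωˣ := fun l => B (X.σ ^ l) X.σ
  set x : Ωˣ := ∏ l ∈ Finset.range p, b l with hx
  let P : ↥H → Ωˣ := fun g => (∏ l ∈ Finset.range (X.χ g).val, b l)⁻¹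
  have hσp : X.χ (X.σ ^ p) = X.χ (X.σ ^ 0) := by simp [X.χ_pow, X.map_one]
  have hxfix : ∀ h : ↥H, (h : Ω ≃ₐ[F] Ω) • x = x := by
    have hker : X.Fixed x := fun u hu => by
      rw [hx, Finset.smul_prod']
      exact Finset.prod_congr rfl fun l _ => hBfix _ _ u hu
    have hσ : (X.σ : Ω ≃ₐ[F] Ω) • x = x := by
      rw [hx, Finset.smul_prod']
      have e : ∀ l, (X.σ : Ω ≃ₐ[F] Ω) • b l =
          b (l + 1) * B X.σ (X.σ ^ l) / B X.σ (X.σ ^ (l + 1)) := fun l => by
        have := cB X.σ (X.σ ^ l) X.σ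
        rw [← pow_succ' X.σ l, ← pow_succ X.σ l] at this
        rw [eq_div_iff_mul_eq']
        exact this.symm
      have e0 : b p = b 0 := hBl _ _ _ hσp
      have e1 : B X.σ (X.σ ^ p) = B X.σ (X.σ ^ 0) := by
        rw [pow_zero]
        conv_lhs => rw [show X.σ ^ p = 1 * X.σ ^ p by group]
        rw [hBr _ _ _ (by simp [X.χ_pow])]
      have s : ∀ f : ℕ → Ωˣ, f p = f 0 →
          ∏ l ∈ Finset.range p, f (l + 1) = ∏ l ∈ Finset.range p, f l := fun f hf => by
        have h := Finset.prod_range_succ' f p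
        rw [Finset.prod_range_succ, hf] at h
        exact (mul_right_cancel h).symm
      simp only [e, Finset.prod_div_distrib, Finset.prod_mul_distrib]
      rw [s b e0, s (fun l => B X.σ (X.σ ^ l)) e1, mul_div_cancel_right]
    intro h
    have hn : ∀ n : ℕ, ((X.σ ^ n : ↥H) : Ω ≃ₐ[F] Ω) • x = x := by
      intro n
      induction n with
      | zero => simp
      | succ n ih => rw [pow_succ, Subgroup.coe_mul, mul_smul, hσ, ih]
    rw [hker.smul_eq (g' := X.σ ^ (X.χ h).val) (by rw [X.χ_pow, ZMod.natCast_zmod_val]), hn]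
  have hP : ∀ g h, B g h =
      (g : Ω ≃ₐ[F] Ω) • P h * P g / P (g * h) * X.carry x (g, h) := by
    have hc := X.carry_cocycle hxfix
    let D : ↥H → ↥H → Ωˣ := fun g h =>
      B g h / ((g : Ω ≃ₐ[F] Ω) • P h * P g / P (g * h) * X.carry x (g, h))
    suffices ∀ g h, D g h = 1 from fun g h => div_eq_one.1 (this g h)
    have cD : ∀ g h j, D (g * h) j * D g h = (g : Ω ≃ₐ[F] Ω) • D h j * D g (h * j) := by
      intro g h j
      simp only [D, smul_div', smul_mul', Subgroup.coe_mul, mul_smul, mul_assoc g h j]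
      rw [div_mul_div_comm, cB g h j]
      have := hc g h j
      apply Additive.ofMul.injective
      have := congrArg Additive.ofMul this
      simp only [div_eq_mul_inv, ofMul_mul, ofMul_inv, mul_inv_rev] at this ⊢
      linear_combination (norm := abel) -this
    have hP0 : ∀ u, X.χ u = 0 → P u = 1 := fun u hu => by simp [P, hu]
    have hPσ : P X.σ = 1 := by
      simp [P, X.χ_σ, ZMod.val_one, b, huB _ _ X.map_one]
    have hDu : ∀ g u, X.χ u = 0 → D g u = 1 := fun g u hu => by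
      have : P (g * u) = P g := by simp [P, X.map_mul, hu]
      simp only [D, hBu g u hu, hP0 u hu, this, carry, hu, ZMod.val_zero, add_zero,
        if_neg (not_le.2 (ZMod.val_lt _))]
      simp
    have hDσ : ∀ g, D g X.σ = 1 := fun g => by
      have e : B g X.σ = b (X.χ g).val :=
        hBl _ _ _ (by rw [X.χ_pow, ZMod.natCast_zmod_val])
      simp only [D, hPσ, smul_one, one_mul, carry, X.χ_σ, ZMod.val_one, e, div_eq_one]
      split_ifs with hc
      · have hv : (X.χ g).val + 1 = p := le_antisymm (ZMod.val_lt (X.χ g)) hc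
        have : X.χ (g * X.σ) = 0 := by
          rw [X.map_mul, X.χ_σ, ← ZMod.natCast_zmod_val (X.χ g), ← Nat.cast_one, ← Nat.cast_add,
            hv, ZMod.natCast_self]
        rw [hP0 _ this, div_one, hx]
        conv_rhs => arg 2; rw [show Finset.range p = Finset.range ((X.χ g).val + 1) by rw [hv]]
        rw [Finset.prod_range_succ]
        simp [P]
      · simp only [not_le] at hc
        have : (X.χ (g * X.σ)).val = (X.χ g).val + 1 := by
          rw [X.map_mul, X.χ_σ, ZMod.val_add_of_lt (by rwa [ZMod.val_one]), ZMod.val_one]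
        simp only [P, this, Finset.prod_range_succ, mul_one]
        simp
    exact X.eq_one_of_cocycle cD hDu hDσ
  exact ⟨x, P, X.con.comp fun a => (∏ l ∈ Finset.range a.val, b l)⁻¹, hxfix, hP⟩

variable [IsAlgClosed Ω]

/-- A class split by the kernel is the negative of a cup product. -/
theorem exists_cup_of_res_mem_B2 {β : ↥H × ↥H → ZMod p}
    (hβ : β ∈ Z2 LH (C.rep.comp H.subtype))
    (hres : pp2 (Subgroup.inclusion X.ker_le) (LinearMap.id : ZMod p →ₗ[ZMod p] ZMod p) β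
      ∈ B2 LK (C.rep.comp X.ker.subtype)) :
    ∃ r : Ωˣ, (∀ h : ↥H, (h : Ω ≃ₐ[F] Ω) • r ^ p = r ^ p) ∧
      β + X.cup (C.kum H r) ∈ B2 LH (C.rep.comp H.subtype) := by
  obtain ⟨β₂, h₂, hd, h₂0⟩ := X.exists_normalised hβ hres
  obtain ⟨W, B, hW, hWB, cB, hBu, huB⟩ := X.exists_units_cocycle h₂ h₂0
  obtain ⟨x, P, hP', hxfix, hP⟩ := X.exists_carry cB hBu huB
  obtain ⟨r, hr⟩ := Cyc.exists_root (Fact.out : p.Prime).pos x
  have hrH : ∀ h : ↥H, (h : Ω ≃ₐ[F] Ω) • r ^ p = r ^ p := fun h => by rw [hr]; exact hxfix h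
  refine ⟨r, hrH, ?_⟩
  have hmid : β₂ + X.cup (C.kum H r) ∈ B2 LH (C.rep.comp H.subtype) := by
    refine Cyc.mem_B2_of_isCobU (Cyc.isCobU_congr ?_
      ((Cyc.isCobU_d W hW).mul ((Cyc.isCobU_d P hP').mul
        (Cyc.isCobU_d (fun g : ↥H => r ^ (X.χ g).val) (X.con_root r)))))
    rintro ⟨g, h⟩
    have hcc := congrArg Additive.ofMul (X.mu_cup (C := C) hrH g h)
    rw [hr] at hcc
    simp only [Pi.add_apply, C.mu_add, hWB g h, hP g h]
    apply Additive.ofMul.injective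
    simp only [div_eq_mul_inv, ofMul_mul, ofMul_inv] at hcc ⊢
    linear_combination (norm := abel) -hcc
  rw [show β + X.cup (C.kum H r) = (β - β₂) + (β₂ + X.cup (C.kum H r)) by abel]
  exact add_mem hd hmid

end Chi

end Fermat.Agent.PT
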