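import Mathlib.RingTheory.Trace.Basic
import Fermat.Agent.PT.Cyclic

/-!
# Fixed fields of level subgroups

The degree of the fixed field of a level is its index, and the units fixed by a subgroup are the
units of its fixed field.
-/

noncomputable section

namespace Fermat.Agent.PT

open Lv IntermediateField

variable {F Ω : Type*} [Field F] [Field Ω] [Algebra F Ω] [IsGalois F Ω]
variable {H : Subgroup (Ω ≃ₐ[F] Ω)}

theorem fixingSubgroup_fixedField_of_mem (hH : H ∈ krull F Ω) :
    (fixedField H).fixingSubgroup = H := by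
  obtain ⟨E, hE, hEH⟩ := hH
  exact InfiniteGalois.fixingSubgroup_fixedField
    ⟨H, Subgroup.isClosed_of_isOpen H (Subgroup.isOpen_mono hEH E.fixingSubgroup_isOpen)⟩

theorem finiteDimensional_fixedField (hH : H ∈ krull F Ω) :
    FiniteDimensional F (fixedField H) := by
  obtain ⟨E, hE, hEH⟩ := hH
  have h : fixedField H ≤ E := by
    intro x hx
    rw [← InfiniteGalois.fixedField_fixingSubgroup E]
    rintro ⟨g, hg⟩
    exact hx ⟨g, hEH hg⟩
  exact FiniteDimensional.of_injective (IntermediateField.inclusion h).toLinearMap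
    (IntermediateField.inclusion_injective h)

/-- The degree of the fixed field is the index. -/
theorem finrank_fixedField [IsAlgClosed Ω] (hH : H ∈ krull F Ω) :
    Module.finrank F (fixedField H) = H.index := by
  have := finiteDimensional_fixedField hH
  have : Algebra.IsSeparable F (fixedField H) :=
    Algebra.isSeparable_tower_bot_of_isSeparable F (fixedField H) Ω
  have hfix := fixingSubgroup_fixedField_of_mem hH
  rw [← AlgHom.card F (fixedField H) Ω, Subgroup.index_eq_card, ← Nat.card_eq_fintype_card]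
  let e : (Ω ≃ₐ[F] Ω) ⧸ H → (fixedField H →ₐ[F] Ω) := Quotient.lift
    (fun g => (g : Ω →ₐ[F] Ω).comp (fixedField H).val) fun a b hab => by
    ext ⟨x, hx⟩
    show a x = b x
    have h1 : (a⁻¹ * b) x = x := hx ⟨_, QuotientGroup.leftRel_apply.1 hab⟩
    rw [AlgEquiv.mul_apply] at h1
    conv_lhs => rw [← h1]
    exact AlgEquiv.apply_symm_apply a _
  refine (Nat.card_eq_of_bijective e ⟨fun x y h => ?_, fun φ => ?_⟩).symm
  · induction x using QuotientGroup.induction_on with | _ a => ?_
    induction y using QuotientGroup.induction_on with | _ b => ?_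
    rw [QuotientGroup.eq, ← hfix, IntermediateField.mem_fixingSubgroup_iff]
    intro z hz
    have h' : a z = b z := DFunLike.congr_fun h (⟨z, hz⟩ : fixedField H)
    rw [AlgEquiv.mul_apply, ← h']
    exact AlgEquiv.symm_apply_apply a z
  · obtain ⟨ψ, hψ⟩ : ∃ ψ : Ω →ₐ[F] Ω, ψ.comp (fixedField H).val = φ :=
      IntermediateField.exists_algHom_of_splits' φ fun s =>
        ⟨Algebra.IsIntegral.isIntegral s, IsAlgClosed.splits _⟩
    obtain ⟨g, hg⟩ : ∃ g : Ω ≃ₐ[F] Ω, (g : Ω →ₐ[F] Ω) = ψ :=
      ⟨AlgEquiv.ofBijective ψ (Algebra.IsAlgebraic.algHom_bijective ψ), by ext; rfl⟩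
    refine ⟨QuotientGroup.mk g, ?_⟩
    show (g : Ω →ₐ[F] Ω).comp (fixedField H).val = φ
    rw [hg, hψ]

variable (H) in
/-- The units fixed by `H`. -/
def fixU : Subgroup Ωˣ where
  carrier := {x | ∀ h : ↥H, (h : Ω ≃ₐ[F] Ω) • x = x}
  one_mem' := fun _ => smul_one _
  mul_mem' := fun {a b} ha hb h => by rw [smul_mul', ha h, hb h]
  inv_mem' := fun {a} ha h => by rw [smul_inv', ha h]

omit [IsGalois F Ω] in
theorem mem_fixU_iff {x : Ωˣ} : x ∈ fixU H ↔ (x : Ω) ∈ fixedField H :=
  ⟨fun h g => congrArg Units.val (h g), fun h g => Units.ext (h g)⟩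

variable (H) in
/-- The fixed units are the units of the fixed field. -/
def fixUEquiv : (fixedField H)ˣ ≃* fixU H :=
  MulEquiv.ofBijective
    (MonoidHom.mk' (fun x => ⟨Units.map ((fixedField H).val : fixedField H →* Ω) x,
      mem_fixU_iff.2 (x : fixedField H).2⟩) fun a b => Subtype.ext (map_mul _ a b))
    ⟨fun _a _b h => Units.ext (Subtype.ext (congrArg (fun z : fixU H => ((z : Ωˣ) : Ω)) h)),
      fun x => ⟨Units.mk0 ⟨((x : Ωˣ) : Ω), mem_fixU_iff.1 x.2⟩ fun h =>
        (x : Ωˣ).ne_zero (congrArg Subtype.val h), Subtype.ext (Units.ext rfl)⟩⟩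

end Fermat.Agent.PT
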