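import Fermat.Agent.PT.Devissage

/-!
# Restriction between nested subgroups; transport of corestriction surjectivity

Comparison of cohomology of `V ≤ H` computed inside `H` and inside the ambient group, restriction
`resI` between nested subgroups with its injectivity for index prime to `p`, and transport of
surjectivity of corestriction along isomorphisms.
-/

noncomputable section

namespace Fermat.Agent.PT

open Lv

variable {G : Type*} [Group G] (L : Lv G) {H V : Subgroup G}

theorem compat_inclusion (h : V ≤ H) :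
    Compat (L.comap H.subtype) (L.comap V.subtype) (Subgroup.inclusion h) :=
  fun _ ⟨W, hW, hWU⟩ => ⟨W, hW, fun _ hg => hWU hg⟩

variable (k : Type*) [CommRing k]

/-- The trivial coefficients. -/
abbrev triv (k : Type*) [CommRing k] (G : Type*) [Group G] : Representation k G k :=
  Representation.trivial k G k

/-- Restriction to a smaller subgroup, for trivial coefficients. -/
def resI (h : V ≤ H) :
    H2 (L.comap H.subtype) (triv k ↥H) →ₗ[k] H2 (L.comap V.subtype) (triv k ↥V) :=
  H2map (compat_inclusion L h) (φ := LinearMap.id) (fun _ _ => rfl)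

theorem resI_mk2 (h : V ≤ H) (x : ↥(Z2 (L.comap H.subtype) (triv k ↥H))) :
    resI L k h (mk2 (L.comap H.subtype) (triv k ↥H) x) = mk2 (L.comap V.subtype) (triv k ↥V)
      ⟨pp2 (Subgroup.inclusion h) LinearMap.id x,
        pp2_mem_Z2 (compat_inclusion L h) (φ := LinearMap.id) (fun _ _ => rfl) x.2⟩ := rfl

theorem resI_resI {W : Subgroup G} (h : V ≤ H) (h' : W ≤ V)
    (a : H2 (L.comap H.subtype) (triv k ↥H)) :
    resI L k h' (resI L k h a) = resI L k (h'.trans h) a := by
  obtain ⟨x, rfl⟩ := mk2_surjective a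
  rfl

theorem resI_self (a : H2 (L.comap H.subtype) (triv k ↥H)) : resI L k le_rfl a = a := by
  obtain ⟨x, rfl⟩ := mk2_surjective a
  rfl

variable {L} in
/-- Every class dies on some normal level. -/
theorem exists_normal_resI_eq_zero (hH : H ∈ L) (a : H2 (L.comap H.subtype) (triv k ↥H)) :
    ∃ (U : Subgroup G) (hUH : U ≤ H), U ∈ L ∧ U.Normal ∧ resI L k hUH a = 0 := by
  obtain ⟨⟨β, hβ⟩, rfl⟩ := mk2_surjective a
  obtain ⟨W, ⟨W₀, hW₀, hW₀W⟩, hc⟩ := (mem_Z2.1 hβ).1
  obtain ⟨U, hU, hUW, hUn⟩ := L.exists_normal (L.inf_mem hW₀ hH)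
  refine ⟨U, hUW.trans inf_le_right, hU, hUn, ?_⟩
  rw [resI_mk2, mk2_eq_zero]
  refine ⟨fun _ => β (1, 1), con1_const _, funext fun ⟨u, v⟩ => ?_⟩
  have hmem : ∀ u : ↥U, Subgroup.inclusion (hUW.trans inf_le_right) u ∈ W := fun u =>
    hW₀W (hUW u.2).1
  show β (1, 1) - β (1, 1) + β (1, 1) = β (Subgroup.inclusion _ u, Subgroup.inclusion _ v)
  rw [sub_self, zero_add]
  have := hc 1 1 _ (hmem u) _ (hmem v)
  rw [one_mul, one_mul] at this
  exact this.symm

section SubgroupOf

/-- The identification of `V` seen inside `H` with `V`. -/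
def ofSubgroupOf (h : V ≤ H) : ↥(V.subgroupOf H) →* ↥V :=
  (Subgroup.subgroupOfEquivOfLe h).toMonoidHom

theorem compat_ofSubgroupOf (h : V ≤ H) : Compat (L.comap V.subtype)
    ((L.comap H.subtype).comap (V.subgroupOf H).subtype) (ofSubgroupOf h) :=
  fun _ ⟨W, hW, hWU⟩ => ⟨W.comap H.subtype, comap_mem_comap _ hW, fun _ hg => hWU hg⟩

/-- Comparison of the two descriptions of cohomology of a subgroup. -/
def H2sub (h : V ≤ H) : H2 (L.comap V.subtype) (triv k ↥V) →ₗ[k]
    H2 ((L.comap H.subtype).comap (V.subgroupOf H).subtype)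
      ((triv k ↥H).comp (V.subgroupOf H).subtype) :=
  H2map (compat_ofSubgroupOf L h) (φ := LinearMap.id) (fun _ _ => rfl)

theorem H2sub_resI (h : V ≤ H) (a : H2 (L.comap H.subtype) (triv k ↥H)) :
    H2sub L k h (resI L k h a) = res (L.comap H.subtype) (triv k ↥H) (V.subgroupOf H) a := by
  obtain ⟨x, rfl⟩ := mk2_surjective a
  rfl

variable {L}

theorem subgroupOf_mem (hV : V ∈ L) : V.subgroupOf H ∈ L.comap H.subtype :=
  comap_mem_comap _ hV

/-- A class restricting to zero on `V` is killed by the index of `V`. -/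
theorem relIndex_smul_eq_zero (hV : V ∈ L) (h : V ≤ H)
    {a : H2 (L.comap H.subtype) (triv k ↥H)} (ha : resI L k h a = 0) :
    V.relIndex H • a = 0 := by
  have := (L.comap H.subtype).finiteIndex (subgroupOf_mem (H := H) hV)
  have : Fintype (↥H ⧸ V.subgroupOf H) := Fintype.ofFinite _
  rw [Subgroup.relIndex, ← cores_res (subgroupOf_mem (H := H) hV) (smooth_trivial _ k),
    ← H2sub_resI _ _ h, ha, map_zero, map_zero]

/-- Restriction is injective when the index is invertible in the coefficients. -/
theorem resI_injective (hV : V ∈ L) (h : V ≤ H) (hu : IsUnit ((V.relIndex H : ℕ) : k)) :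
    Function.Injective (resI L k h) := by
  rw [injective_iff_map_eq_zero]
  intro a ha
  have h0 := relIndex_smul_eq_zero k hV h ha
  rw [← Nat.cast_smul_eq_nsmul k] at h0
  exact hu.smul_eq_zero.1 h0

end SubgroupOf

section Transport

variable {G' : Type*} [Group G'] {L}
variable [Fintype (G ⧸ V)] {U : Subgroup G'} [Fintype (G' ⧸ U)]

/-- Surjectivity of corestriction, with trivial coefficients, moves along an isomorphism. -/
theorem cores_surjective_of_equiv (f : G' ≃* G) (hU : U = V.comap f.toMonoidHom) (hV : V ∈ L)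
    (hU' : U ∈ L.comap f.toMonoidHom)
    (hs : Function.Surjective (cores (ρ := triv k G) hV (smooth_trivial L k))) :
    Function.Surjective
      (cores (ρ := triv k G') hU' (smooth_trivial (L.comap f.toMonoidHom) k)) := by
  let fs : G →* G' := f.symm.toMonoidHom
  have hfs : Compat (L.comap f.toMonoidHom) L fs := by
    rintro W ⟨W', hW', hW'W⟩
    refine L.mem_of_le hW' fun g hg => hW'W ?_
    show f (f.symm g) ∈ W'
    rwa [f.apply_symm_apply]
  intro a'
  let a : H2 L (triv k G) := H2map (ρ := triv k G') (ρ' := triv k G) hfs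
    (φ := LinearMap.id) (fun _ _ => rfl) a'
  obtain ⟨c, hc⟩ := hs a
  obtain ⟨b, rfl⟩ := sh_surjective hV c
  rw [cores_sh] at hc
  -- transport the induced cocycle
  let e₀ : G' ⧸ U → G ⧸ V := Quotient.lift (fun g => ((f g : G) : G ⧸ V)) fun a b hab => by
    have : f (a⁻¹ * b) ∈ V := by
      have := QuotientGroup.leftRel_apply.1 hab
      rw [hU] at this
      exact this
    rw [QuotientGroup.eq]
    simpa using this
  have he₀ : Function.Bijective e₀ := by
    refine ⟨fun x y => ?_, fun x => ?_⟩
    · induction x using QuotientGroup.induction_on with | _ a => ?_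
      induction y using QuotientGroup.induction_on with | _ b => ?_
      intro h
      have h' : (f a)⁻¹ * f b ∈ V := QuotientGroup.eq.1 h
      rw [QuotientGroup.eq, hU]
      show f (a⁻¹ * b) ∈ V
      simpa using h'
    · induction x using QuotientGroup.induction_on with | _ a => ?_
      exact ⟨((f.symm a : G') : G' ⧸ U), congrArg QuotientGroup.mk (f.apply_symm_apply a)⟩
  have heq : ∀ (g : G') (x : G' ⧸ U), e₀ (g • x) = f g • e₀ x := by
    intro g x
    induction x using QuotientGroup.induction_on with | _ a => ?_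
    exact congrArg QuotientGroup.mk (map_mul f g a)
  let φ : (G ⧸ V → k) →ₗ[k] (G' ⧸ U → k) :=
    { toFun := fun F x => F (e₀ x)
      map_add' := fun _ _ => rfl
      map_smul' := fun _ _ => rfl }
  have hφ : Equiv' f.toMonoidHom (indRep V (triv k G)) (indRep U (triv k G')) φ := by
    intro g F
    ext x
    show F ((f g)⁻¹ • e₀ x) = F (e₀ (g⁻¹ • x))
    rw [heq, map_inv]
  have hsum : ∀ F, indSum (k := k) U (φ F) = indSum (k := k) V F := fun F =>
    Fintype.sum_bijective e₀ he₀ _ _ fun _ => rfl
  refine ⟨sh U (triv k G') (L.comap f.toMonoidHom)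
    (H2map (compat_comap L f.toMonoidHom) hφ b), ?_⟩
  rw [cores_sh]
  have : a' = H2map (ρ := triv k G) (ρ' := triv k G') (compat_comap L f.toMonoidHom)
      (φ := LinearMap.id) (fun _ _ => rfl) a := by
    obtain ⟨⟨x, hx⟩, rfl⟩ := mk2_surjective a'
    show mk2 (L.comap f.toMonoidHom) (triv k G') ⟨x, hx⟩ =
      mk2 (L.comap f.toMonoidHom) (triv k G') ⟨_, _⟩
    refine congrArg _ (Subtype.ext (funext fun gg => ?_))
    show x gg = x (f.symm (f gg.1), f.symm (f gg.2))
    rw [f.symm_apply_apply, f.symm_apply_apply]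
  rw [this, ← hc]
  obtain ⟨x, rfl⟩ := mk2_surjective b
  show mk2 (L.comap f.toMonoidHom) (triv k G') ⟨_, _⟩ =
      mk2 (L.comap f.toMonoidHom) (triv k G') ⟨_, _⟩
  exact congrArg _ (Subtype.ext (funext fun gg => hsum _))

end Transport

/-- `CoresSurj` only has to be checked for the layers inside `G`. -/
theorem coresSurj_of_subgroups {p : ℕ} [Fact p.Prime] {G : Type} [Group G] {L : Lv G}
    {K : Subgroup G} (hK : K ∈ L)
    (h : ∀ (H V : Subgroup G) (hV : V ∈ L), K ≤ V → V ≤ H → (V.subgroupOf H).Normal →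
      V.relIndex H = p → (∃ m, K.relIndex H = p ^ m) → ∀ [Fintype (↥H ⧸ V.subgroupOf H)],
        Function.Surjective (cores (ρ := triv (ZMod p) ↥H) (subgroupOf_mem (H := H) hV)
          (smooth_trivial _ (ZMod p)))) :
    CoresSurj p L K := by
  intro G' _ j hj hKj hm L' hL' U _ hUn hUi hKU hU
  subst hL'
  let f : G' ≃* ↥j.range := MonoidHom.ofInjective hj
  let V : Subgroup G := U.map j
  have hUV : U = (V.subgroupOf j.range).comap f.toMonoidHom := by
    ext g
    show g ∈ U ↔ j g ∈ U.map j
    rw [Subgroup.mem_map_iff_mem hj]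
  have hKV : K ≤ V := fun g hg => by
    obtain ⟨a, rfl⟩ := hKj hg
    exact ⟨a, hKU hg, rfl⟩
  have hVn : (V.subgroupOf j.range).Normal := by
    refine ⟨fun n hn g => ?_⟩
    obtain ⟨a, rfl⟩ := f.surjective n
    obtain ⟨b, rfl⟩ := f.surjective g
    rw [← map_inv, ← map_mul, ← map_mul]
    have ha : a ∈ U := by rw [hUV]; exact hn
    have := hUn.conj_mem a ha b
    rw [hUV] at this
    exact this
  have hVi : V.relIndex j.range = p := by
    rw [Subgroup.relIndex, ← hUi, hUV]
    exact (Subgroup.index_comap_of_surjective _ f.surjective).symm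
  have hV : V ∈ L := L.mem_of_le hK hKV
  have : (V.subgroupOf j.range).FiniteIndex :=
    (L.comap j.range.subtype).finiteIndex (subgroupOf_mem hV)
  let _ : Fintype (↥j.range ⧸ V.subgroupOf j.range) := Fintype.ofFinite _
  have hs := h j.range V hV hKV (Subgroup.map_le_range j U) hVn hVi
    (by simpa only [Subgroup.index_comap] using hm)
  have hL : L.comap j = (L.comap j.range.subtype).comap f.toMonoidHom := by
    rw [Lv.comap_comap]
    rfl
  revert hU
  rw [hL]
  intro hU
  exact cores_surjective_of_equiv (ZMod p) f hUV (subgroupOf_mem hV) hU hs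

end Fermat.Agent.PT
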