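import Mathlib.Algebra.BigOperators.Intervals
import Mathlib.FieldTheory.Finite.Basic
import Fermat.Agent.PT.Fixed
import Fermat.Agent.PT.Tower

/-!
# Symbols in `H²(H, μ_p)` for a subgroup `H` fixing `μ_p`

For `H` fixing `μ_p` the symbol of two elements fixed by `H` (given through `p`-th roots) is the
cup product of their Kummer classes.  It is bilinear, vanishes exactly for norms, and its
corestriction from a subgroup is the symbol of the norm (`cores_sym`).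
-/

noncomputable section

namespace Fermat.Agent.PT

open Lv

variable {F Ω : Type*} [Field F] [Field Ω] [Algebra F Ω]
variable {p : ℕ} [Fact p.Prime] {C : Cyc F Ω p} {H V : Subgroup (Ω ≃ₐ[F] Ω)}

local notation "LH" => Lv.comap (krull F Ω) (Subgroup.subtype H)

theorem mk2_congr {k : Type*} [CommRing k] {G : Type*} [Group G] {L : Lv G} {M : Type*}
    [AddCommGroup M] [Module k M] {ρ : Representation k G M} {x y : ↥(Z2 L ρ)}
    (h : (x : G × G → M) = (y : G × G → M)) : mk2 L ρ x = mk2 L ρ y := by rw [Subtype.ext h]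

namespace Cyc

variable (C H) in
/-- `H` fixes the `p`-th roots of unity. -/
def MuFix : Prop := ∀ h ∈ H, C.ω h = 1

omit [Fact p.Prime] in
theorem MuFix.anti (hμ : C.MuFix H) (h : V ≤ H) : C.MuFix V := fun _ hg => hμ _ (h hg)

/-- A group in which a subgroup fixing `μ_p` has `p`-power index fixes `μ_p`, as the character has
values in a group of order `p - 1`. -/
theorem muFix_of_relIndex_pow {K : Subgroup (Ω ≃ₐ[F] Ω)} (hK : K ≤ C.ω.ker)
    (hm : ∃ m, K.relIndex H = p ^ m) : C.MuFix H := by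
  intro g hg
  obtain ⟨m, hm⟩ := hm
  let ψ : ↥H →* (ZMod p)ˣ := C.ω.comp H.subtype
  have hle : K.subgroupOf H ≤ ψ.ker := fun n hn => hK hn
  have h2 : (⟨g, hg⟩ : ↥H) ^ ψ.ker.index ∈ ψ.ker := Subgroup.pow_index_mem _ _
  obtain ⟨l, -, hl⟩ := (Nat.dvd_prime_pow Fact.out).1
    ((Subgroup.index_dvd_of_le hle).trans hm.dvd)
  rw [hl, MonoidHom.mem_ker, map_pow, MonoidHom.comp_apply] at h2
  have h3 : ((C.ω g : (ZMod p)ˣ) : ZMod p) = 1 := by
    rw [← ZMod.pow_card_pow (n := l) ((C.ω g : (ZMod p)ˣ) : ZMod p), ← Units.val_pow_eq_pow_val]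
    exact congrArg Units.val h2
  exact Units.ext h3

theorem rep_comp_eq_triv (hμ : C.MuFix H) : C.rep.comp H.subtype = triv (ZMod p) ↥H := by
  ext g
  simp [rep_apply, hμ g g.2]

/-- The twist `μ_p` is trivial on a group fixing the roots of unity. -/
theorem rep_eq_one (hμ : C.MuFix H) : ∀ g ∈ H, C.rep g = 1 := fun g hg => LinearMap.ext fun z => by
  rw [rep_apply, hμ g hg, Units.val_one, one_mul]
  rfl

theorem mu_sum {ι : Type*} (f : ι → ZMod p) (t : Finset ι) :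
    C.mu (∑ i ∈ t, f i) = ∏ i ∈ t, C.mu (f i) := by
  classical
  induction t using Finset.induction with
  | empty => simp [C.mu_zero]
  | insert a t ha ih => rw [Finset.sum_insert ha, C.mu_add, ih, Finset.prod_insert ha]

theorem smul_mu_of_muFix (hμ : C.MuFix H) (g : ↥H) (z : ZMod p) :
    (g : Ω ≃ₐ[F] Ω) • C.mu z = C.mu z := by
  rw [C.smul_mu, hμ g g.2, Units.val_one, one_mul]

variable (p H) in
/-- The units whose `p`-th power is fixed by `H`. -/
def rootU : Subgroup Ωˣ where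
  carrier := {r | ∀ h : ↥H, (h : Ω ≃ₐ[F] Ω) • r ^ p = r ^ p}
  one_mem' := fun h => by simp
  mul_mem' := fun {a b} ha hb h => by simp only [mul_pow, smul_mul', ha h, hb h]
  inv_mem' := fun {a} ha h => by simp only [inv_pow, smul_inv', ha h]

omit [Fact p.Prime] in
theorem rootU_mono (h : V ≤ H) : rootU p H ≤ rootU p V := fun _ hr g => hr ⟨g, h g.2⟩

theorem kum_mul {r r' : Ωˣ} (hr : r ∈ rootU p H) (hr' : r' ∈ rootU p H) (g : ↥H) :
    C.kum H (r * r') g = C.kum H r g + C.kum H r' g := by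
  apply C.mu_injective
  rw [C.mu_add, mu_kum (mul_mem hr hr'), mu_kum hr, mu_kum hr', smul_mul', div_mul_div_comm]

theorem kum_one (g : ↥H) : C.kum H 1 g = 0 := by
  have := kum_mul (C := C) (one_mem (rootU p H)) (one_mem _) g
  simpa using this

theorem kum_inv {r : Ωˣ} (hr : r ∈ rootU p H) (g : ↥H) : C.kum H r⁻¹ g = -C.kum H r g := by
  have := kum_mul (C := C) hr (inv_mem hr) g
  rw [mul_inv_cancel, kum_one] at this
  exact (neg_eq_of_add_eq_zero_right this.symm).symm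

theorem kum_eq_zero_iff {r : Ωˣ} (hr : r ∈ rootU p H) (g : ↥H) :
    C.kum H r g = 0 ↔ (g : Ω ≃ₐ[F] Ω) • r = r := by
  rw [← C.mu_injective.eq_iff, mu_kum hr, C.mu_zero, div_eq_one]

theorem kum_mu (hμ : C.MuFix H) (z : ZMod p) (g : ↥H) : C.kum H (C.mu z) g = 0 :=
  (kum_eq_zero_iff (fun h => by rw [C.mu_pow, smul_one]) g).2 (smul_mu_of_muFix hμ g z)

variable [IsGalois F Ω]

theorem kum_hom (hμ : C.MuFix H) {r : Ωˣ} (hr : r ∈ rootU p H) (g g' : ↥H) :
    C.kum H r (g * g') = C.kum H r g + C.kum H r g' := by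
  rw [(mem_Z1.1 (kum_mem_Z1 (C := C) hr)).2, rep_comp_eq_triv hμ]
  simp [add_comm]

theorem kum_pow (hμ : C.MuFix H) {r : Ωˣ} (hr : r ∈ rootU p H) (g : ↥H) (n : ℕ) :
    C.kum H r (g ^ n) = n * C.kum H r g := by
  induction n with
  | zero =>
    have := kum_hom hμ hr 1 1
    simpa using this
  | succ n ih => rw [pow_succ, kum_hom hμ hr, ih]; push_cast; ring

theorem con_kum {r : Ωˣ} (hr : r ∈ rootU p H) : Con1 LH (C.kum H r) :=
  (mem_Z1.1 (kum_mem_Z1 (C := C) hr)).1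

/-- The character attached to a nontrivial Kummer cochain. -/
def chiOf (hμ : C.MuFix H) {s : Ωˣ} (hs : s ∈ rootU p H) (h : ∃ g, C.kum H s g ≠ 0) :
    Chi p H where
  χ := C.kum H s
  map_mul := kum_hom hμ hs
  con := con_kum hs
  σ := h.choose ^ ((C.kum H s h.choose)⁻¹).val
  χ_σ := by rw [kum_pow hμ hs, ZMod.natCast_zmod_val, inv_mul_cancel₀ h.choose_spec]

theorem exists_root_chi (hμ : C.MuFix H) (X : Chi p H) :
    ∃ s ∈ rootU p H, ∀ g, X.χ g = C.kum H s g := by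
  refine exists_kum ?_
  rw [rep_comp_eq_triv hμ, mem_Z1]
  exact ⟨X.con, fun g h => by simp [X.map_mul, add_comm]⟩

variable (C H) in
/-- The cochain of a symbol. -/
def symC (r s : Ωˣ) (gh : ↥H × ↥H) : ZMod p := C.kum H r gh.1 * C.kum H s gh.2

theorem symC_mem_Z2 (hμ : C.MuFix H) {r s : Ωˣ} (hr : r ∈ rootU p H) (hs : s ∈ rootU p H) :
    symC C H r s ∈ Z2 LH (triv (ZMod p) ↥H) := by
  rw [mem_Z2]
  constructor
  · obtain ⟨U, hU, h⟩ := con_kum (C := C) hr
    obtain ⟨U', hU', h'⟩ := con_kum (C := C) hs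
    exact ⟨U ⊓ U', Lv.inf_mem _ hU hU', fun g g' u hu u' hu' => by
      simp only [symC, h g u hu.1, h' g' u' hu'.2]⟩
  · intro g h j
    simp only [symC, kum_hom hμ hr, kum_hom hμ hs, Representation.trivial_apply]
    ring

variable (H) in
/-- The symbol of two elements, given by `p`-th roots. -/
def sym (hμ : C.MuFix H) (r s : ↥(rootU p H)) : H2 LH (triv (ZMod p) ↥H) :=
  mk2 LH (triv (ZMod p) ↥H) ⟨symC C H r s, symC_mem_Z2 hμ r.2 s.2⟩

variable (hμ : C.MuFix H)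

theorem sym_mul_left (r r' s : ↥(rootU p H)) :
    sym H hμ (r * r') s = sym H hμ r s + sym H hμ r' s := by
  rw [sym, sym, sym, ← map_add]
  congr 1
  ext gh
  simp [symC, kum_mul r.2 r'.2, add_mul]

theorem sym_mul_right (r s s' : ↥(rootU p H)) :
    sym H hμ r (s * s') = sym H hμ r s + sym H hμ r s' := by
  rw [sym, sym, sym, ← map_add]
  congr 1
  ext gh
  simp [symC, kum_mul s.2 s'.2, mul_add]

theorem sym_eq_zero_of_left {r : ↥(rootU p H)} (s : ↥(rootU p H))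
    (h : ∀ g, C.kum H r g = 0) : sym H hμ r s = 0 := by
  rw [sym, mk2_eq_zero]
  exact ⟨0, con1_const 0, by ext gh; simp [symC, h]⟩

theorem sym_eq_zero_of_right {s : ↥(rootU p H)} (r : ↥(rootU p H))
    (h : ∀ g, C.kum H s g = 0) : sym H hμ r s = 0 := by
  rw [sym, mk2_eq_zero]
  exact ⟨0, con1_const 0, by ext gh; simp [symC, h]⟩

theorem sym_one_left (s : ↥(rootU p H)) : sym H hμ 1 s = 0 :=
  sym_eq_zero_of_left hμ s kum_one

theorem sym_pow_left (r s : ↥(rootU p H)) (n : ℕ) :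
    sym H hμ (r ^ n) s = n • sym H hμ r s := by
  induction n with
  | zero => simpa using sym_one_left hμ s
  | succ n ih => rw [pow_succ, sym_mul_left, ih, succ_nsmul]

theorem symC_eq_cup (X : Chi p H) {s : ↥(rootU p H)} (hX : ∀ g, X.χ g = C.kum H s g)
    (r : ↥(rootU p H)) : symC C H r s = X.cup (C.kum H r) := by
  ext gh
  simp [symC, Chi.cup, hX]

/-- A symbol vanishes exactly for norms. -/
theorem sym_eq_zero_iff [IsAlgClosed Ω] (X : Chi p H) {s : ↥(rootU p H)}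
    (hX : ∀ g, X.χ g = C.kum H s g)
    (r : ↥(rootU p H)) :
    sym H hμ r s = 0 ↔ ∃ y, X.Fixed y ∧ X.nrm y = (r : Ωˣ) ^ p := by
  rw [sym, mk2_eq_zero, ← mem_B2]
  show symC C H r s ∈ B2 LH (triv (ZMod p) ↥H) ↔ _
  rw [← rep_comp_eq_triv hμ, symC_eq_cup X hX r]
  exact ⟨fun h => X.exists_nrm_of_cup_mem_B2 r.2 h,
    fun ⟨y, hy, e⟩ => X.cup_mem_B2_of_nrm hy e.symm⟩

variable (hodd : p ≠ 2)
include hodd

/-- A symbol of an element with itself vanishes. -/
theorem sym_self [IsAlgClosed Ω] (r : ↥(rootU p H)) : sym H hμ r r = 0 := by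
  by_cases h : ∀ g, C.kum H r g = 0
  · exact sym_eq_zero_of_left hμ r h
  push Not at h
  let X := chiOf hμ r.2 h
  refine (sym_eq_zero_iff hμ X (s := r) (fun _ => rfl) r).2 ⟨r, fun u hu => ?_, ?_⟩
  · exact (kum_eq_zero_iff r.2 u).1 hu
  · have hi : ∀ i : ℕ, ((X.σ ^ i : ↥H) : Ω ≃ₐ[F] Ω) • (r : Ωˣ) = C.mu i * r := fun i => by
      have e : C.kum H r (X.σ ^ i) = i := X.χ_pow i
      rw [← e, mu_kum r.2, div_mul_cancel]
    rw [Chi.nrm, Finset.prod_congr rfl fun i _ => hi i, Finset.prod_mul_distrib,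
      Finset.prod_const, Finset.card_range]
    suffices (∏ i ∈ Finset.range p, C.mu (i : ZMod p)) = 1 by rw [this, one_mul]
    rw [← C.mu_sum, ← Nat.cast_sum]
    suffices ((∑ i ∈ Finset.range p, i : ℕ) : ZMod p) = 0 by rw [this, C.mu_zero]
    have h2 : ((∑ i ∈ Finset.range p, i : ℕ) : ZMod p) * 2 = 0 := by
      have := congrArg (fun n : ℕ => (n : ZMod p)) (Finset.sum_range_id_mul_two p)
      simpa using this
    refine (mul_eq_zero.1 h2).resolve_right fun h0 => hodd ?_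
    have : p ∣ 2 := (ZMod.natCast_eq_zero_iff 2 p).1 (by exact_mod_cast h0)
    exact (Nat.prime_dvd_prime_iff_eq Fact.out Nat.prime_two).1 this

theorem sym_comm [IsAlgClosed Ω] (r s : ↥(rootU p H)) : sym H hμ r s = -sym H hμ s r := by
  have := sym_self hμ hodd (r * s)
  rw [sym_mul_left, sym_mul_right, sym_mul_right, sym_self hμ hodd, sym_self hμ hodd,
    zero_add, add_zero] at this
  exact eq_neg_of_add_eq_zero_left this

omit hodd

theorem resI_sym (h : V ≤ H) (r s : ↥(rootU p H)) :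
    resI (krull F Ω) (ZMod p) h (sym H hμ r s) =
      sym V (hμ.anti h) ⟨r, rootU_mono h r.2⟩ ⟨s, rootU_mono h s.2⟩ := rfl

section Cores

variable [Fintype (↥H ⧸ V.subgroupOf H)]

variable (H V) in
/-- The norm of a root from `V` to `H`. -/
def rootN (r : Ωˣ) : Ωˣ :=
  ∏ x : ↥H ⧸ V.subgroupOf H, ((sec (V.subgroupOf H) x : ↥H) : Ω ≃ₐ[F] Ω) • r

omit [IsGalois F Ω] [Fact p.Prime] in
theorem rootN_pow (r : Ωˣ) : rootN H V r ^ p = rootN H V (r ^ p) := by
  simp [rootN, Finset.prod_pow, smul_pow']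

omit [IsGalois F Ω] [Fintype (↥H ⧸ V.subgroupOf H)] in
theorem smul_sec_smul {y : Ωˣ} (hy : ∀ v : ↥V, (v : Ω ≃ₐ[F] Ω) • y = y) (g : ↥H)
    (x : ↥H ⧸ V.subgroupOf H) :
    (g : Ω ≃ₐ[F] Ω) • ((sec (V.subgroupOf H) (g⁻¹ • x) : ↥H) : Ω ≃ₐ[F] Ω) • y =
      ((sec (V.subgroupOf H) x : ↥H) : Ω ≃ₐ[F] Ω) • y := by
  have e : g * sec (V.subgroupOf H) (g⁻¹ • x) =
      sec (V.subgroupOf H) x * (kap (V.subgroupOf H) x g : ↥H) := by
    rw [coe_kap]; group
  rw [← mul_smul, ← Subgroup.coe_mul, e, Subgroup.coe_mul, mul_smul]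
  exact congrArg _ (hy ⟨_, (kap (V.subgroupOf H) x g).2⟩)

omit [IsGalois F Ω] in
theorem smul_rootN {y : Ωˣ} (hy : ∀ v : ↥V, (v : Ω ≃ₐ[F] Ω) • y = y) (g : ↥H) :
    (g : Ω ≃ₐ[F] Ω) • rootN H V y = rootN H V y := by
  conv_rhs => rw [rootN]
  rw [rootN, Finset.smul_prod']
  refine Fintype.prod_bijective (g • ·) (MulAction.bijective g) _ _ fun x => ?_
  rw [← smul_sec_smul hy g (g • x), inv_smul_smul]

omit [IsGalois F Ω] [Fact p.Prime] in
theorem rootN_mem {r : Ωˣ} (hr : r ∈ rootU p V) : rootN H V r ∈ rootU p H := fun g => by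
  rw [rootN_pow]; exact smul_rootN hr g

/-- The corestriction of a symbol. -/
theorem cores_sym (hV : V ∈ krull F Ω) (h : V ≤ H) (r : ↥(rootU p V)) (s : ↥(rootU p H)) :
    cores (subgroupOf_mem (H := H) hV) (smooth_trivial LH (ZMod p))
        (H2sub (krull F Ω) (ZMod p) h (sym V (hμ.anti h) r ⟨s, rootU_mono h s.2⟩)) =
      sym H hμ ⟨rootN H V r, rootN_mem r.2⟩ s := by
  let f : ↥H ⧸ (V.subgroupOf H) → Ωˣ := fun x =>
    ((sec (V.subgroupOf H) x : ↥H) : Ω ≃ₐ[F] Ω) • (r : Ωˣ)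
  have hf : ∀ (g : ↥H) (x : ↥H ⧸ (V.subgroupOf H)),
      ((g : Ω ≃ₐ[F] Ω) • f (g⁻¹ • x) / f x) ^ p = 1 := by
    intro g x
    rw [div_pow, div_eq_one]
    simp only [f, ← smul_pow']
    exact smul_sec_smul r.2 g x
  let y : ↥H → ↥H ⧸ (V.subgroupOf H) → ZMod p := fun g x =>
    C.lg ((g : Ω ≃ₐ[F] Ω) • f (g⁻¹ • x) / f x)
  have hy : ∀ g h x, y (g * h) x = y h (g⁻¹ • x) + y g x := by
    intro g g' x
    apply C.mu_injective
    have h1 := hf (g * g') x
    rw [mul_inv_rev, mul_smul, Subgroup.coe_mul, mul_smul] at h1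
    simp only [y, C.mu_add, C.mu_lg (hf _ _), mul_inv_rev, mul_smul, Subgroup.coe_mul,
      C.mu_lg h1]
    have := smul_mu_of_muFix hμ g (y g' (g⁻¹ • x))
    simp only [y, C.mu_lg (hf _ _), smul_div'] at this
    rw [← this, div_mul_div_cancel]
  obtain ⟨U₀, hU₀, hU₀V, hn⟩ := Lv.exists_normal LH (subgroupOf_mem (H := H) hV)
  choose W hW hWfix using fun x => exists_level_fixing_units (F := F) (f x)
  let U₁ : Subgroup ↥H := (Finset.univ : Finset (↥H ⧸ (V.subgroupOf H))).inf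
    fun x => (W x).comap H.subtype
  have hU₁ : U₁ ∈ LH := Finset.inf_induction (Lv.top_mem _) (fun a ha b hb => Lv.inf_mem _ ha hb)
    (fun x _ => comap_mem_comap _ (hW x))
  have hyc : ∀ g, ∀ u ∈ U₀ ⊓ U₁, y (g * u) = y g := fun g u hu => by
    ext x
    have e : u⁻¹ • g⁻¹ • x = g⁻¹ • x :=
      smul_eq_of_mem_normal (V.subgroupOf H) hn hU₀V (inv_mem hu.1) _
    have e' : (u : Ω ≃ₐ[F] Ω) • f (g⁻¹ • x) = f (g⁻¹ • x) :=
      hWfix _ _ ((Finset.inf_le (s := (Finset.univ : Finset (↥H ⧸ (V.subgroupOf H))))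
        (f := fun x => (W x).comap H.subtype) (Finset.mem_univ (g⁻¹ • x))) hu.2)
    simp only [y, mul_inv_rev, mul_smul, e, Subgroup.coe_mul, e']
  let B : ↥H × ↥H → ↥H ⧸ (V.subgroupOf H) → ZMod p := fun gh x => y gh.1 x * C.kum H s gh.2
  have hB : B ∈ Z2 LH (indRep (V.subgroupOf H) (triv (ZMod p) ↥H)) := by
    rw [mem_Z2]
    constructor
    · obtain ⟨U₂, hU₂, h₂⟩ := con_kum (C := C) s.2
      exact ⟨U₀ ⊓ U₁ ⊓ U₂, Lv.inf_mem _ (Lv.inf_mem _ hU₀ hU₁) hU₂, fun g g' u hu u' hu' => by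
        ext x
        simp only [B, hyc g u hu.1, h₂ g' u' hu'.2]⟩
    · intro g g' j
      ext x
      simp only [B, Pi.add_apply, indRep_apply, Representation.trivial_apply, hy,
        kum_hom hμ s.2]
      ring
  have hsh : sh (V.subgroupOf H) (triv (ZMod p) ↥H) LH
      (mk2 LH (indRep (V.subgroupOf H) (triv (ZMod p) ↥H)) ⟨B, hB⟩) =
      H2sub (krull F Ω) (ZMod p) h (sym V (hμ.anti h) r ⟨s, rootU_mono h s.2⟩) := by
    refine mk2_congr (funext fun ⟨a, b⟩ => ?_)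
    have e : ((a : ↥H)⁻¹ • ((1 : ↥H) : ↥H ⧸ (V.subgroupOf H))) =
        ((1 : ↥H) : ↥H ⧸ (V.subgroupOf H)) := by
      rw [inv_smul_eq_iff, MulAction.Quotient.smul_coe, QuotientGroup.eq]; simp
    show C.lg (((a : ↥H) : Ω ≃ₐ[F] Ω) • f ((a : ↥H)⁻¹ • ((1 : ↥H) : ↥H ⧸ (V.subgroupOf H))) /
        f ((1 : ↥H) : ↥H ⧸ (V.subgroupOf H))) * C.kum H s (b : ↥H) = _
    rw [e]
    simp only [f, sec_one, Subgroup.coe_one, one_smul]
    rfl
  rw [← hsh, cores_sh]
  refine mk2_congr (funext fun ⟨a, b⟩ => ?_)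
  simp only [LinearMap.coe_restrict_apply, pp2_apply, MonoidHom.id_apply, symC, B]
  rw [indSum_apply, ← Finset.sum_mul]
  congr 1
  apply C.mu_injective
  rw [C.mu_sum, mu_kum (rootN_mem r.2)]
  simp only [y, C.mu_lg (hf _ _), Finset.prod_div_distrib, rootN, Finset.smul_prod']
  congr 1
  exact Fintype.prod_bijective (a⁻¹ • ·) (MulAction.bijective a⁻¹) _ _ fun x => rfl

end Cores

/-- For the kernel of a character the norm is the cyclic norm. -/
theorem rootN_ker_eq_nrm (X : Chi p H) [Fintype (↥H ⧸ X.ker.subgroupOf H)] {y : Ωˣ}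
    (hy : X.Fixed y) :
    rootN H X.ker y = X.nrm y := by
  rw [Chi.nrm, rootN]
  refine (Finset.prod_bij (fun i _ => ((X.σ ^ i : ↥H) : ↥H ⧸ X.ker.subgroupOf H))
    (fun i _ => Finset.mem_univ _) (fun i hi j hj h => ?_) (fun x _ => ?_) (fun i _ => ?_)).symm
  · rw [QuotientGroup.eq, Subgroup.mem_subgroupOf, X.mem_ker, X.map_mul, X.map_inv, X.χ_pow,
      X.χ_pow, neg_add_eq_zero] at h
    have := congrArg ZMod.val h
    rwa [ZMod.val_cast_of_lt (Finset.mem_range.1 hi),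
      ZMod.val_cast_of_lt (Finset.mem_range.1 hj)] at this
  · induction x using QuotientGroup.induction_on with | _ g => ?_
    refine ⟨(X.χ g).val, Finset.mem_range.2 (ZMod.val_lt _), QuotientGroup.eq.2 ?_⟩
    rw [Subgroup.mem_subgroupOf, X.mem_ker, X.map_mul, X.map_inv, X.χ_pow, ZMod.natCast_zmod_val,
      neg_add_cancel]
  · refine hy.smul_eq ?_
    have := mk_sec (X.ker.subgroupOf H) ((X.σ ^ i : ↥H) : ↥H ⧸ X.ker.subgroupOf H)
    rw [QuotientGroup.eq, Subgroup.mem_subgroupOf, X.mem_ker, X.map_mul, X.map_inv,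
      neg_add_eq_zero] at this
    exact this.symm

end Cyc

/-- A unit fixed by `H` is the `p`-th power of an element of `rootU p H`. -/
theorem exists_rootU_of_fixU [IsAlgClosed Ω] {H : Subgroup (Ω ≃ₐ[F] Ω)} {a : Ωˣ} (ha : a ∈ fixU H) :
    ∃ r : ↥(Cyc.rootU p H), (r : Ωˣ) ^ p = a := by
  obtain ⟨r, hr⟩ := Cyc.exists_root (Ω := Ω) (Fact.out : p.Prime).pos a
  exact ⟨⟨r, fun g => by rw [hr]; exact ha g⟩, hr⟩

end Fermat.Agent.PT
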