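import Fermat.Agent.PT.ChiOfKer
import Fermat.Agent.PT.Split
import Fermat.Agent.PT.Symbol

/-!
# `H²` of a finite extension of `ℚ_q` with values in `μ_p`

For `H` fixing `μ_p` in the Galois group of `ℚ_q`: symbols are nondegenerate, every class of
`H²(H, μ_p)` is a symbol, the space is a line, and corestriction is surjective in layers of degree
`p`.  Hence local `H²` is right exact.
-/

noncomputable section

namespace Fermat.Agent.PT

open Lv

theorem cores_H2sub_resI (k : Type*) [CommRing k] {G : Type*} [Group G] {L : Lv G}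
    {H V : Subgroup G} (hV : V ∈ L) (h : V ≤ H) [Fintype (↥H ⧸ V.subgroupOf H)]
    (a : H2 (L.comap H.subtype) (triv k ↥H)) :
    cores (subgroupOf_mem (H := H) hV) (smooth_trivial _ k) (H2sub L k h (resI L k h a)) =
      V.relIndex H • a := by
  rw [H2sub_resI, cores_res]
  rfl

theorem map_map_nsmul_eq (k : Type*) [CommRing k] {A B D : Type*} [AddCommGroup A] [Module k A]
    [AddCommGroup B] [Module k B] [AddCommGroup D] [Module k D] (f : A →ₗ[k] B) (g : B →ₗ[k] D)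
    (i : ℕ) {x : A} {c : D} (hx : g (f x) = c) : g (f (i • x)) = (i : k) • c := by
  rw [← Nat.cast_smul_eq_nsmul k, map_smul, map_smul, hx]

/-- A class dying on the kernel of a character is minus a symbol with the character's radical. -/
theorem Cyc.exists_sym_add_eq_zero {F Ω : Type*} [Field F] [Field Ω] [Algebra F Ω] [IsGalois F Ω]
    [IsAlgClosed Ω] {p : ℕ} [Fact p.Prime] {C : Cyc F Ω p} {H : Subgroup (Ω ≃ₐ[F] Ω)}
    (hμ : C.MuFix H) (X : Chi p H) {s : ↥(Cyc.rootU p H)} (hX : ∀ g, X.χ g = C.kum H s g)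
    {a : H2 ((krull F Ω).comap H.subtype) (triv (ZMod p) ↥H)}
    (hres : resI (krull F Ω) (ZMod p) X.ker_le a = 0) :
    ∃ r, a + Cyc.sym H hμ r s = 0 := by
  obtain ⟨⟨β, hβ⟩, rfl⟩ := mk2_surjective a
  rw [resI_mk2, mk2_eq_zero] at hres
  have hrB : pp2 (Subgroup.inclusion X.ker_le) (LinearMap.id : ZMod p →ₗ[ZMod p] ZMod p) β ∈
      B2 ((krull F Ω).comap X.ker.subtype) (C.rep.comp X.ker.subtype) := by
    rw [Cyc.rep_comp_eq_triv (C := C) (hμ.anti X.ker_le)]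
    exact mem_B2.2 hres
  have hβ' : β ∈ Z2 ((krull F Ω).comap H.subtype) (C.rep.comp H.subtype) := by
    rw [Cyc.rep_comp_eq_triv hμ]; exact hβ
  obtain ⟨r, hr, hB⟩ := X.exists_cup_of_res_mem_B2 hβ' hrB
  rw [Cyc.rep_comp_eq_triv (C := C) hμ, ← Cyc.symC_eq_cup X (s := s) hX ⟨r, hr⟩, mem_B2] at hB
  refine ⟨⟨r, hr⟩, ?_⟩
  rw [Cyc.sym, ← map_add, mk2_eq_zero]
  exact hB

variable {q p : ℕ} [Fact q.Prime] [Fact p.Prime]

local notation "Ωq" => PadicAlgCl q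
local notation "Gq" => (PadicAlgCl q ≃ₐ[ℚ_[q]] PadicAlgCl q)

variable {C : Cyc ℚ_[q] (PadicAlgCl q) p}
variable {H : Subgroup (PadicAlgCl q ≃ₐ[ℚ_[q]] PadicAlgCl q)}

local notation "LH" => Lv.comap (krull ℚ_[q] (PadicAlgCl q)) (Subgroup.subtype H)

namespace Local

variable (hodd : p ≠ 2) (hH : H ∈ krull ℚ_[q] (PadicAlgCl q)) (hμ : C.MuFix H)
include hodd hH

/-- A non-norm exists for every character. -/
theorem exists_not_norm (X : Chi p H) : ∃ a ∈ fixU H, a ∉ X.normImage := by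
  by_contra! h
  have h1 : X.normImage.relIndex (fixU H) = 1 := Subgroup.relIndex_eq_one.2 h
  rw [X.normImage_relIndex hodd hH] at h1
  exact (Fact.out : p.Prime).ne_one h1

/-- Any element is a power of a given non-norm up to norms. -/
theorem exists_pow_mul_norm (X : Chi p H) {a a' : (Ωq)ˣ} (ha : a ∈ fixU H)
    (hna : a ∉ X.normImage) (ha' : a' ∈ fixU H) : ∃ i : ℕ, a' * (a ^ i)⁻¹ ∈ X.normImage := by
  have hp : p.Prime := Fact.out
  set N := X.normImage.subgroupOf (fixU H)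
  have hc : Nat.card (↥(fixU H) ⧸ N) = p := X.normImage_relIndex hodd hH
  have hne : ((⟨a, ha⟩ : fixU H) : ↥(fixU H) ⧸ N) ≠ 1 := fun h =>
    hna (Subgroup.mem_subgroupOf.1 ((QuotientGroup.eq_one_iff _).1 h))
  obtain ⟨i, hi⟩ : ∃ i : ℕ, ((⟨a, ha⟩ : fixU H) : ↥(fixU H) ⧸ N) ^ i =
      ((⟨a', ha'⟩ : fixU H) : ↥(fixU H) ⧸ N) := by
    have : Finite (↥(fixU H) ⧸ N) := Nat.finite_of_card_ne_zero (by rw [hc]; exact hp.ne_zero)
    exact Submonoid.mem_powers_iff _ _ |>.1 (mem_powers_of_prime_card hc hne)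
  refine ⟨i, ?_⟩
  have : ((⟨a', ha'⟩ * (⟨a, ha⟩ ^ i)⁻¹ : fixU H) : ↥(fixU H) ⧸ N) = 1 := by
    rw [QuotientGroup.mk_mul, QuotientGroup.mk_inv, QuotientGroup.mk_pow, hi, mul_inv_cancel]
  exact Subgroup.mem_subgroupOf.1 ((QuotientGroup.eq_one_iff _).1 this)

include hμ

/-- If `s` is not fixed by `H`, some symbol with `s` on the right is nonzero. -/
theorem exists_sym_ne_zero_left (s : ↥(Cyc.rootU p H)) (hs : ∃ g, C.kum H s g ≠ 0) :
    ∃ r, Cyc.sym H hμ r s ≠ 0 := by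
  let X := Cyc.chiOf hμ s.2 hs
  obtain ⟨a, ha, hna⟩ := exists_not_norm hodd hH X
  obtain ⟨r, hr⟩ := exists_rootU_of_fixU (p := p) ha
  refine ⟨r, fun h0 => hna ?_⟩
  rw [X.mem_normImage, ← hr]
  exact (Cyc.sym_eq_zero_iff hμ X (s := s) (fun _ => rfl) r).1 h0

/-- If `r` is not fixed by `H`, some symbol with `r` on the left is nonzero. -/
theorem exists_sym_ne_zero_right (r : ↥(Cyc.rootU p H)) (hr : ∃ g, C.kum H r g ≠ 0) :
    ∃ s, Cyc.sym H hμ r s ≠ 0 := by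
  obtain ⟨s, hs⟩ := exists_sym_ne_zero_left hodd hH hμ r hr
  exact ⟨s, by rwa [Cyc.sym_comm hμ hodd, neg_ne_zero]⟩

omit hodd hH in
theorem kum_ne_zero_of_sym {r s : ↥(Cyc.rootU p H)} (h : Cyc.sym H hμ r s ≠ 0) :
    ∃ g, C.kum H s g ≠ 0 := by
  by_contra! h0
  exact h (Cyc.sym_eq_zero_of_right hμ r h0)

/-- With fixed second entry the symbols form a line. -/
theorem exists_eq_nsmul_fixed {r s : ↥(Cyc.rootU p H)} (h : Cyc.sym H hμ r s ≠ 0)
    (r' : ↥(Cyc.rootU p H)) : ∃ i : ℕ, Cyc.sym H hμ r' s = i • Cyc.sym H hμ r s := by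
  let X := Cyc.chiOf hμ s.2 (kum_ne_zero_of_sym hμ h)
  have hna : (r : (Ωq)ˣ) ^ p ∉ X.normImage := fun hn =>
    h ((Cyc.sym_eq_zero_iff hμ X (s := s) (fun _ => rfl) r).2 (X.mem_normImage.1 hn))
  obtain ⟨i, hi⟩ := exists_pow_mul_norm hodd hH X (a' := (r' : (Ωq)ˣ) ^ p) r.2 hna r'.2
  refine ⟨i, ?_⟩
  have h0 : Cyc.sym H hμ (r' * (r ^ i)⁻¹) s = 0 := by
    refine (Cyc.sym_eq_zero_iff hμ X (s := s) (fun _ => rfl) _).2 (X.mem_normImage.1 ?_)
    have e : (((r' * (r ^ i)⁻¹ : ↥(Cyc.rootU p H)) : (Ωq)ˣ)) ^ p =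
        (r' : (Ωq)ˣ) ^ p * (((r : (Ωq)ˣ) ^ p) ^ i)⁻¹ := by
      push_cast
      rw [mul_pow, inv_pow, pow_right_comm]
    rw [e]
    exact hi
  have h1 : Cyc.sym H hμ r' s = Cyc.sym H hμ (r' * (r ^ i)⁻¹) s + Cyc.sym H hμ (r ^ i) s := by
    rw [← Cyc.sym_mul_left, inv_mul_cancel_right]
  rw [h1, h0, zero_add, Cyc.sym_pow_left]

/-- All symbols are multiples of any nonzero one. -/
theorem exists_eq_nsmul {a b : ↥(Cyc.rootU p H)} (h : Cyc.sym H hμ a b ≠ 0)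
    (a' b' : ↥(Cyc.rootU p H)) : ∃ i : ℕ, Cyc.sym H hμ a' b' = i • Cyc.sym H hμ a b := by
  by_cases h' : Cyc.sym H hμ a' b' = 0
  · exact ⟨0, by rw [h', zero_smul]⟩
  obtain ⟨c, hc, hc'⟩ : ∃ c, Cyc.sym H hμ c b ≠ 0 ∧ Cyc.sym H hμ c b' ≠ 0 := by
    by_cases h1 : Cyc.sym H hμ a b' = 0
    · by_cases h2 : Cyc.sym H hμ a' b = 0
      · exact ⟨a * a', by rwa [Cyc.sym_mul_left, h2, add_zero],
          by rwa [Cyc.sym_mul_left, h1, zero_add]⟩
      · exact ⟨a', h2, h'⟩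
    · exact ⟨a, h, h1⟩
  have hcb : Cyc.sym H hμ b c ≠ 0 := by rwa [Cyc.sym_comm hμ hodd, neg_ne_zero]
  obtain ⟨i, hi⟩ := exists_eq_nsmul_fixed hodd hH hμ hc' a'
  obtain ⟨j, hj⟩ := exists_eq_nsmul_fixed hodd hH hμ hcb b'
  obtain ⟨l, hl⟩ := exists_eq_nsmul_fixed hodd hH hμ h c
  refine ⟨i * j * l, ?_⟩
  rw [hi, Cyc.sym_comm hμ hodd c b', hj, Cyc.sym_comm hμ hodd b c, hl, mul_smul, mul_smul]
  simp only [smul_neg, neg_neg]

/-- Some norm is not the `p`-th power of an element fixed by `H`. -/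
theorem exists_norm_not_pow (X : Chi p H) :
    ∃ a ∈ X.normImage, ∀ b ∈ fixU H, b ^ p ≠ a := by
  have hp : p.Prime := Fact.out
  by_contra! h
  obtain ⟨hf, hv⟩ := hq_fixU (p := p) hodd hH
  set A := Additive (fixU H)
  have hker : p ≤ Nat.card (mulHom p A).ker := by
    have : Finite (mulHom p A).ker := Nat.finite_of_card_ne_zero hf.2
    have hz : Nat.card (ZMod p) = p := Nat.card_zmod p
    refine hz.symm.le.trans (Nat.card_le_card_of_injective
      (fun z => (⟨Additive.ofMul ⟨C.mu z, fun g => Cyc.smul_mu_of_muFix hμ g z⟩, ?_⟩ :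
        (mulHom p A).ker)) fun z z' e => ?_)
    · rw [AddMonoidHom.mem_ker, mulHom_apply, ← ofMul_pow]
      exact congrArg Additive.ofMul (Subtype.ext (C.mu_pow z))
    · exact C.mu_injective
        (congrArg (fun w : (mulHom p A).ker => (((w : A).toMul : fixU H) : (Ωq)ˣ)) e)
  -- norms are powers, so the index of powers is at most `p`
  have hle : (mulHom p A).range.index ∣ p := by
    have h1 : Subgroup.toAddSubgroup (X.normImage.subgroupOf (fixU H)) ≤ (mulHom p A).range := by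
      intro z hz
      obtain ⟨b, hb, e⟩ := h _ (Subgroup.mem_subgroupOf.1 hz)
      exact ⟨Additive.ofMul ⟨b, hb⟩, Additive.toMul.injective (Subtype.ext e)⟩
    have h2 := AddSubgroup.index_dvd_of_le h1
    rwa [Subgroup.index_toAddSubgroup, ← Subgroup.relIndex, X.normImage_relIndex hodd hH] at h2
  have hi : ((mulHom p A).range.index : ℚ) =
      p * degreeFactor q p H.index * Nat.card (mulHom p A).ker := by
    rw [← hv, hq, div_mul_cancel₀]
    exact_mod_cast hf.2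
  have h1 := one_le_degreeFactor (q := q) (p := p) H.index
  have h2 : ((p * p : ℕ) : ℚ) ≤ (mulHom p A).range.index := by
    rw [hi]
    push_cast
    exact mul_le_mul (le_mul_of_one_le_right (by positivity) h1) (by exact_mod_cast hker)
      (by positivity) (by positivity)
  have h3 := Nat.le_of_dvd hp.pos hle
  have h4 : p * p ≤ (mulHom p A).range.index := by exact_mod_cast h2
  nlinarith [hp.two_le]

omit hodd hH hμ in
theorem kum_ne_zero_of_not_pow {r : ↥(Cyc.rootU p H)}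
    (h : ∀ b ∈ fixU H, b ^ p ≠ (r : (Ωq)ˣ) ^ p) : ∃ g, C.kum H r g ≠ 0 := by
  by_contra! h0
  exact h r (fun g => (Cyc.kum_eq_zero_iff r.2 g).1 (h0 g)) rfl

/-- Corestriction from the kernel of a character hits a nonzero symbol. -/
theorem exists_cores_ne_zero (X : Chi p H) :
    ∃ (r : ↥(Cyc.rootU p X.ker)) (s : ↥(Cyc.rootU p H)),
      ∀ [Fintype (↥H ⧸ X.ker.subgroupOf H)],
        Cyc.sym H hμ ⟨Cyc.rootN H X.ker r, Cyc.rootN_mem r.2⟩ s ≠ 0 := by
  obtain ⟨a, ha, hna⟩ := exists_norm_not_pow hodd hH hμ X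
  obtain ⟨y, hy, hya⟩ := ha
  obtain ⟨r, hr⟩ := exists_rootU_of_fixU (H := X.ker) (p := p) hy
  have := (krull ℚ_[q] Ωq).finiteIndex hH
  have : (X.ker.subgroupOf H).FiniteIndex :=
    (LH).finiteIndex (subgroupOf_mem (X.ker_mem_krull hH))
  let _ : Fintype (↥H ⧸ X.ker.subgroupOf H) := Fintype.ofFinite _
  have hR : Cyc.rootN H X.ker (r : (Ωq)ˣ) ^ p = a := by
    rw [Cyc.rootN_pow, hr, Cyc.rootN_ker_eq_nrm X (X.fixed_iff.2 hy)]
    exact hya
  obtain ⟨s, hs⟩ := exists_sym_ne_zero_right hodd hH hμ ⟨_, Cyc.rootN_mem r.2⟩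
    (kum_ne_zero_of_not_pow (r := ⟨_, Cyc.rootN_mem r.2⟩) fun b hb e => hna b hb (e.trans hR))
  refine ⟨r, s, fun {inst} => ?_⟩
  convert hs

/-- Some symbol is nonzero. -/
theorem exists_sym_ne_zero : ∃ r s, Cyc.sym H hμ r s ≠ 0 := by
  have hp : p.Prime := Fact.out
  obtain ⟨hf, hv⟩ := hq_fixU (p := p) hodd hH
  obtain ⟨a, ha⟩ : ∃ a : Additive (fixU H), a ∉ (mulHom p (Additive (fixU H))).range := by
    by_contra! hall
    have h1 : (mulHom p (Additive (fixU H))).range.index = 1 :=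
      AddSubgroup.index_eq_one.2 (eq_top_iff.2 fun x _ => hall x)
    rw [hq, h1, Nat.cast_one] at hv
    have h2 := one_le_degreeFactor (q := q) (p := p) H.index
    have h3 : (1 : ℚ) ≤ Nat.card (mulHom p (Additive (fixU H))).ker := by
      exact_mod_cast Nat.pos_of_ne_zero hf.2
    have h4 : (2 : ℚ) ≤ p := by exact_mod_cast hp.two_le
    have h5 : 1 / (Nat.card (mulHom p (Additive (fixU H))).ker : ℚ) ≤ 1 := by
      rw [div_le_one (by linarith)]; exact h3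
    nlinarith
  obtain ⟨r, hr⟩ := exists_rootU_of_fixU (p := p) a.toMul.2
  obtain ⟨s, hs⟩ := exists_sym_ne_zero_right hodd hH hμ r (kum_ne_zero_of_not_pow
    fun b hb e => ha ⟨Additive.ofMul ⟨b, hb⟩, Additive.toMul.injective
      (Subtype.ext (e.trans hr))⟩)
  exact ⟨r, s, hs⟩

omit hodd hH in
variable (H) in
/-- A class is a symbol. -/
def IsSym (a : H2 LH (triv (ZMod p) ↥H)) : Prop := ∃ r s, a = Cyc.sym H hμ r s

omit hodd hH in
theorem isSym_zero : IsSym H hμ (0 : H2 LH (triv (ZMod p) ↥H)) :=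
  ⟨1, 1, (Cyc.sym_one_left hμ 1).symm⟩

attribute [local irreducible] resI H2sub cores in
/-- A class whose restriction to the kernel of a character is a symbol restricts to zero there. -/
theorem resI_ker_eq_zero (X : Chi p H) (a : H2 LH (triv (ZMod p) ↥H))
    (ha : IsSym X.ker (hμ.anti X.ker_le)
      (resI (krull ℚ_[q] Ωq) (ZMod p) X.ker_le a)) :
    resI (krull ℚ_[q] Ωq) (ZMod p) X.ker_le a = 0 := by
  obtain ⟨r, s, e⟩ := ha
  have hXL : X.ker ∈ krull ℚ_[q] Ωq := X.ker_mem_krull hH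
  have hfiX : (X.ker.subgroupOf H).FiniteIndex :=
    (LH).finiteIndex (subgroupOf_mem hXL)
  let _ : Fintype (↥H ⧸ X.ker.subgroupOf H) := Fintype.ofFinite _
  obtain ⟨r₁, s₁, h₁⟩ := exists_cores_ne_zero hodd hH hμ X
  have hc := Cyc.cores_sym hμ hXL X.ker_le r₁ s₁
  have h₂ : Cyc.sym X.ker (hμ.anti X.ker_le) r₁
      ⟨s₁, Cyc.rootU_mono X.ker_le s₁.2⟩ ≠ 0 := fun h => h₁ (by
    rw [← hc, h, map_zero, map_zero])
  obtain ⟨i, hi⟩ := exists_eq_nsmul hodd hXL (hμ.anti X.ker_le) h₂ r s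
  have hidx : X.ker.relIndex H = p := X.ker_relIndex
  have hei := e.trans hi
  -- restriction then corestriction is multiplication by `p`
  have hres := (congrArg (fun z => cores (subgroupOf_mem (H := H) hXL)
    (smooth_trivial LH (ZMod p)) (H2sub (krull ℚ_[q] Ωq) (ZMod p) X.ker_le z)) hei).symm.trans
      (cores_H2sub_resI (ZMod p) hXL X.ker_le a)
  have h5 := (map_map_nsmul_eq (ZMod p) _ _ i hc).symm.trans hres
  rw [hidx, ← Nat.cast_smul_eq_nsmul (ZMod p) p, ZMod.natCast_self, zero_smul, smul_eq_zero] at h5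
  rw [hei, ← Nat.cast_smul_eq_nsmul (ZMod p), h5.resolve_right h₁, zero_smul]

/-- A class which is a symbol on the kernel of a character is a symbol. -/
theorem isSym_of_resI_ker (X : Chi p H) (a : H2 LH (triv (ZMod p) ↥H))
    (ha : IsSym X.ker (hμ.anti X.ker_le)
      (resI (krull ℚ_[q] Ωq) (ZMod p) X.ker_le a)) : IsSym H hμ a := by
  obtain ⟨s, hs, hXs⟩ := Cyc.exists_root_chi hμ X
  obtain ⟨r, hr⟩ := Cyc.exists_sym_add_eq_zero hμ X (s := ⟨s, hs⟩) hXs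
    (resI_ker_eq_zero hodd hH hμ X a ha)
  refine ⟨r⁻¹, ⟨s, hs⟩, ?_⟩
  rw [eq_neg_of_add_eq_zero_left hr, eq_comm, eq_neg_iff_add_eq_zero, ← Cyc.sym_mul_left,
    inv_mul_cancel, Cyc.sym_one_left]

omit hH hμ in
/-- Every class is a symbol: induction on the index of a splitting subgroup. -/
theorem isSym_of_resI : ∀ (n : ℕ) (H : Subgroup (Ωq ≃ₐ[ℚ_[q]] Ωq))
    (_ : H ∈ krull ℚ_[q] Ωq) (hμ : C.MuFix H) (U : Subgroup (Ωq ≃ₐ[ℚ_[q]] Ωq))
    (hUH : U ≤ H) (_ : U ∈ krull ℚ_[q] Ωq) (_ : U.Normal) (_ : U.relIndex H = n)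
    (a : H2 ((krull ℚ_[q] Ωq).comap H.subtype) (triv (ZMod p) ↥H)),
    resI (krull ℚ_[q] Ωq) (ZMod p) hUH a = 0 → IsSym H hμ a := by
  intro n
  induction n using Nat.strong_induction_on with
  | _ n ih => ?_
  intro H hH hμ U hUH hUL hUn hn a ha
  rcases eq_or_exists_closer_level (p := p) hUH hUL hUn with
    rfl | ⟨V, hUV, hVH, hV, hlt, hcop⟩ | ⟨X, hUX, hlt⟩
  · rw [resI_self] at ha
    exact ha ▸ isSym_zero hμ
  · rw [hn] at hlt
    obtain ⟨r, s, e⟩ := ih _ hlt V hV (hμ.anti hVH) U hUV hUL hUn rfl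
      (resI (krull ℚ_[q] Ωq) (ZMod p) hVH a) (by rw [resI_resI]; exact ha)
    obtain ⟨r₀, s₀, h₀⟩ := exists_sym_ne_zero hodd hH hμ
    have hinj : Function.Injective (resI (krull ℚ_[q] Ωq) (ZMod p) hVH) :=
      resI_injective (ZMod p) hV hVH (isUnit_iff_ne_zero.2
        (by rwa [Ne, ZMod.natCast_eq_zero_iff]))
    have h₀' : Cyc.sym V (hμ.anti hVH) ⟨r₀, Cyc.rootU_mono hVH r₀.2⟩
        ⟨s₀, Cyc.rootU_mono hVH s₀.2⟩ ≠ 0 := by
      rw [← Cyc.resI_sym hμ hVH r₀ s₀]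
      exact fun h => h₀ (hinj (h.trans (map_zero _).symm))
    obtain ⟨i, hi⟩ := exists_eq_nsmul hodd hV (hμ.anti hVH) h₀' r s
    refine ⟨r₀ ^ i, s₀, hinj ?_⟩
    rw [e, hi, Cyc.sym_pow_left, map_nsmul, Cyc.resI_sym]
  · rw [hn] at hlt
    have hXL : X.ker ∈ krull ℚ_[q] Ωq := X.ker_mem_krull hH
    obtain ⟨r, s, e⟩ := ih _ hlt X.ker hXL (hμ.anti X.ker_le) U hUX hUL hUn rfl
      (resI (krull ℚ_[q] Ωq) (ZMod p) X.ker_le a) (by rw [resI_resI]; exact ha)
    exact isSym_of_resI_ker hodd hH hμ X a ⟨r, s, e⟩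

/-- Every class is a symbol. -/
theorem isSym (a : H2 LH (triv (ZMod p) ↥H)) : IsSym H hμ a := by
  obtain ⟨U, hUH, hU, hUn, h⟩ := exists_normal_resI_eq_zero (ZMod p) hH a
  exact isSym_of_resI hodd _ H hH hμ U hUH hU hUn rfl a h

/-- `H²` is one-dimensional. -/
theorem exists_generator :
    ∃ c : H2 LH (triv (ZMod p) ↥H), c ≠ 0 ∧ ∀ a, ∃ z : ZMod p, a = z • c := by
  obtain ⟨r, s, h⟩ := exists_sym_ne_zero hodd hH hμ
  refine ⟨_, h, fun a => ?_⟩
  obtain ⟨r', s', rfl⟩ := isSym hodd hH hμ a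
  obtain ⟨i, hi⟩ := exists_eq_nsmul hodd hH hμ h r' s'
  exact ⟨i, by rw [hi, Nat.cast_smul_eq_nsmul]⟩

/-- Corestriction is surjective in layers of degree `p`. -/
theorem cores_surjective (X : Chi p H) [Fintype (↥H ⧸ X.ker.subgroupOf H)] :
    Function.Surjective (cores (ρ := triv (ZMod p) ↥H)
      (subgroupOf_mem (L := krull ℚ_[q] Ωq) (H := H) (X.ker_mem_krull hH))
      (smooth_trivial LH (ZMod p))) := by
  obtain ⟨r₁, s₁, h₁⟩ := exists_cores_ne_zero hodd hH hμ X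
  intro a
  obtain ⟨r, s, rfl⟩ := isSym hodd hH hμ a
  obtain ⟨i, hi⟩ := exists_eq_nsmul hodd hH hμ h₁ r s
  exact ⟨i • _, by rw [map_nsmul, Cyc.cores_sym hμ (X.ker_mem_krull hH) X.ker_le r₁ s₁, hi]⟩

omit hH hμ in
/-- The input for right exactness of local `H²`. -/
theorem coresSurj (C : Cyc ℚ_[q] (PadicAlgCl q) p) (K : Subgroup Gq)
    (hK : K ∈ krull ℚ_[q] (PadicAlgCl q)) (hKω : K ≤ C.ω.ker) :
    CoresSurj p (krull ℚ_[q] (PadicAlgCl q)) K := by
  refine coresSurj_of_subgroups hK fun H V hV hKV hVH hVn hVi hm => ?_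
  intro _
  have hH : H ∈ krull ℚ_[q] Ωq := (krull _ _).mem_of_le hV hVH
  have hμ : C.MuFix H := Cyc.muFix_of_relIndex_pow hKω hm
  obtain ⟨X, rfl⟩ := exists_chi_ker hV hVH hVn hVi
  exact cores_surjective hodd hH hμ X

end Local

end Fermat.Agent.PT
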