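import Mathlib.Analysis.Normed.Field.Krasner
import Fermat.Prelude.Def_ExtCitation_KummerBridge
import Fermat.Prelude.Def_GaloisRep_CompletionBridge
import Fermat.Agent.Gal.Basic
import Fermat.Agent.PT.LocalH2

/-!
# Localisation from `Gal(ℚ̄/ℚ)` to `Gal(ℚ̄_q/ℚ_q)`

The decomposition subgroup `stab q H g` at the embedding twisted by `g`, the localisation map
`locH2` on classes of a subgroup `H`, and Krasner's lemma in the form: every local level contains
the preimage of a global one.
-/

noncomputable section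

namespace Fermat.Agent.PT

open Lv Polynomial

/-- The global Galois group. -/
abbrev Gam := AlgebraicClosure ℚ ≃ₐ[ℚ] AlgebraicClosure ℚ

/-- The local Galois group. -/
abbrev GamQ (q : ℕ) [Fact q.Prime] := PadicAlgCl q ≃ₐ[ℚ_[q]] PadicAlgCl q

/-- The global levels. -/
abbrev LG : Lv Gam := krull ℚ (AlgebraicClosure ℚ)

/-- The local levels. -/
abbrev LQ (q : ℕ) [Fact q.Prime] : Lv (GamQ q) := krull ℚ_[q] (PadicAlgCl q)

variable (q p : ℕ) [Fact q.Prime] [Fact p.Prime]

/-- A primitive root of unity with the cyclotomic character. -/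
def cyc : Cyc ℚ (AlgebraicClosure ℚ) p :=
  haveI : NeZero p := ⟨(Fact.out : p.Prime).ne_zero⟩
  { ζ := ((HasEnoughRootsOfUnity.exists_primitiveRoot (AlgebraicClosure ℚ) p).choose_spec.isUnit
      (Fact.out : p.Prime).ne_zero).unit
    prim := IsPrimitiveRoot.coe_units_iff.1 (by
      simpa using (HasEnoughRootsOfUnity.exists_primitiveRoot (AlgebraicClosure ℚ) p).choose_spec)
    ω := ExtCitation.cycloChar p
    act := fun g => Units.ext <| modularCyclotomicCharacter.spec (n := p) (AlgebraicClosure ℚ)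
      _ (g : AlgebraicClosure ℚ ≃+* AlgebraicClosure ℚ)
      (by
        rw [mem_rootsOfUnity]
        refine Units.ext ?_
        simpa using
          (HasEnoughRootsOfUnity.exists_primitiveRoot
            (AlgebraicClosure ℚ) p).choose_spec.pow_eq_one) }

/-- The embedding on units. -/
def embU : (AlgebraicClosure ℚ)ˣ →* (PadicAlgCl q)ˣ :=
  Units.map (padicEmbedding q : AlgebraicClosure ℚ →* PadicAlgCl q)

theorem embU_injective : Function.Injective (embU q) :=
  Units.map_injective (padicEmbedding q).injective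

theorem embU_smul (τ : GamQ q) (x : (AlgebraicClosure ℚ)ˣ) :
    embU q (localGaloisToGlobal q τ • x) = τ • embU q x :=
  Units.ext (padicEmbedding_localGaloisToGlobal q τ x)

/-- The local root of unity. -/
def cycLoc : Cyc ℚ_[q] (PadicAlgCl q) p where
  ζ := embU q (cyc p).ζ
  prim := (cyc p).prim.map_of_injective (embU_injective q)
  ω := (cyc p).ω.comp (localGaloisToGlobal q)
  act τ := by rw [← embU_smul, (cyc p).act, map_pow]; rfl

theorem cycLoc_mu (z : ZMod p) : (cycLoc q p).mu z = embU q ((cyc p).mu z) := by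
  simp [Cyc.mu, cycLoc]

theorem compat_local : Compat LG (LQ q) (localGaloisToGlobal q) := by
  rintro U ⟨E, hE, hEU⟩
  classical
  let b := Module.finBasis ℚ E
  obtain ⟨W, hW, hfix⟩ := exists_level_fixing_finset (F := ℚ_[q]) (Ω := PadicAlgCl q)
    (Finset.univ.image fun i => padicEmbedding q (b i : AlgebraicClosure ℚ))
  refine (LQ q).mem_of_le hW fun τ hτ => hEU ((IntermediateField.mem_fixingSubgroup_iff _ _).2
    fun x hx => ?_)
  have hb : ∀ i, localGaloisToGlobal q τ (b i : AlgebraicClosure ℚ) = (b i : AlgebraicClosure ℚ) :=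
    fun i => (padicEmbedding q).injective (show padicEmbedding q _ = padicEmbedding q _ by
      rw [padicEmbedding_localGaloisToGlobal]
      exact hfix τ hτ _ (Finset.mem_image_of_mem _ (Finset.mem_univ i)))
  have hsum := congrArg Subtype.val (b.sum_repr (⟨x, hx⟩ : E))
  simp only [AddSubmonoidClass.coe_finsetSum, SetLike.val_smul] at hsum
  rw [← hsum, map_sum]
  refine Finset.sum_congr rfl fun i _ => ?_
  rw [Algebra.smul_def, map_mul, hb, AlgEquiv.commutes]

/-- An element fixing `b` fixes the field generated by `b`. -/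
theorem apply_eq_of_mem_adjoin_simple {F E : Type*} [Field F] [Field E] [Algebra F E]
    {τ : E ≃ₐ[F] E} {b y : E} (hb : τ b = b) (hy : y ∈ IntermediateField.adjoin F {b}) :
    τ y = y := by
  have hle : IntermediateField.adjoin F {b} ≤
      IntermediateField.fixedField (Subgroup.zpowers τ) := by
    rw [IntermediateField.adjoin_simple_le_iff]
    rintro ⟨σ, hσ⟩
    exact ((Subgroup.zpowers_le (H := MulAction.stabilizer (E ≃ₐ[F] E) b)).2 hb) hσ
  exact hle hy ⟨τ, Subgroup.mem_zpowers τ⟩

/-- An algebraic number keeps a positive distance from its other conjugates. -/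
theorem exists_conjRoot_separation (x : PadicAlgCl q) :
    ∃ δ : ℝ, 0 < δ ∧ ∀ x', IsConjRoot ℚ_[q] x x' → x ≠ x' → δ ≤ ‖x - x'‖ := by
  classical
  have hint : IsIntegral ℚ_[q] x := (Algebra.IsAlgebraic.isAlgebraic x).isIntegral
  let S := ((minpoly ℚ_[q] x).rootSet (PadicAlgCl q)).toFinite.toFinset.filter (x ≠ ·)
  have hS : ∀ x', IsConjRoot ℚ_[q] x x' → x ≠ x' → x' ∈ S := fun x' h h' => by
    simpa [S, h'] using (isConjRoot_iff_mem_minpoly_rootSet hint).1 h
  by_cases hne : S.Nonempty
  · refine ⟨S.inf' hne fun x' => ‖x - x'‖, ?_, fun x' h h' =>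
      Finset.inf'_le (fun x' => ‖x - x'‖) (hS x' h h')⟩
    rw [Finset.lt_inf'_iff]
    intro x' hx'
    exact norm_pos_iff.2 (sub_ne_zero.2 (Finset.mem_filter.1 hx').2)
  · exact ⟨1, one_pos, fun x' h h' => absurd ⟨x', hS x' h h'⟩ hne⟩

/-- Evaluations of a polynomial at finitely many points are approximated by a rational one. -/
theorem exists_rat_approx (P : ℚ_[q][X]) {n : ℕ} (hn : P.natDegree < n)
    (s : Finset (PadicAlgCl q)) {ε : ℝ} (hε : 0 < ε) :
    ∃ Q : ℚ[X], Q.degree < n ∧ ∀ b ∈ s, ‖aeval b Q - aeval b P‖ < ε := by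
  set M := ∑ b ∈ s, ∑ i ∈ Finset.range n, ‖b‖ ^ i + 1
  have hM : 0 < M := by positivity
  have happ : ∀ i, ∃ c : ℚ, ‖P.coeff i - (c : ℚ_[q])‖ < ε / M := fun i =>
    Padic.rat_dense _ (P.coeff i) (div_pos hε hM)
  choose c hc using happ
  refine ⟨∑ i ∈ Finset.range n, C (c i) * X ^ i, ?_, fun b hb => ?_⟩
  · refine (degree_sum_le _ _).trans_lt ((Finset.sup_lt_iff (WithBot.bot_lt_coe n)).2
      fun i hi => ?_)
    exact (degree_C_mul_X_pow_le i (c i)).trans_lt (WithBot.coe_lt_coe.2 (Finset.mem_range.1 hi))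
  rw [aeval_eq_sum_range' hn]
  simp only [map_sum, map_mul, aeval_X_pow, aeval_C, eq_ratCast, ← Finset.sum_sub_distrib]
  calc ‖∑ i ∈ Finset.range n, ((c i : PadicAlgCl q) * b ^ i - P.coeff i • b ^ i)‖
      ≤ ∑ i ∈ Finset.range n, ε / M * ‖b‖ ^ i := by
        refine (norm_sum_le _ _).trans (Finset.sum_le_sum fun i _ => ?_)
        rw [Algebra.smul_def, ← map_ratCast (algebraMap ℚ_[q] (PadicAlgCl q)), ← sub_mul,
          ← map_sub, norm_mul, norm_pow, norm_algebraMap', norm_sub_rev]
        exact mul_le_mul_of_nonneg_right (hc i).le (by positivity)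
    _ ≤ ε / M * (M - 1) := by
        rw [← Finset.mul_sum, show M - 1 = ∑ b ∈ s, ∑ i ∈ Finset.range n, ‖b‖ ^ i from
          add_sub_cancel_right _ _]
        exact mul_le_mul_of_nonneg_left (Finset.single_le_sum
          (f := fun b => ∑ i ∈ Finset.range n, ‖b‖ ^ i) (fun _ _ => by positivity) hb)
          (by positivity)
    _ < ε := by
        rw [div_mul_eq_mul_div, div_lt_iff₀ hM]
        exact mul_lt_mul_of_pos_left (sub_one_lt M) hε

/-- A point at which a monic rational polynomial is small is close to one of its roots. -/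
theorem exists_root_near {g : ℚ[X]} (hg : g.Monic) {x : PadicAlgCl q} {δ : ℝ} (hδ : 0 < δ)
    (hx : ‖aeval x g‖ < δ ^ g.natDegree) :
    ∃ β : AlgebraicClosure ℚ, ‖x - padicEmbedding q β‖ < δ := by
  have hsplit : (g.map (algebraMap ℚ (AlgebraicClosure ℚ))).Splits := IsAlgClosed.splits _
  by_contra! hfar
  have e : aeval x g = ((g.map (algebraMap ℚ (AlgebraicClosure ℚ))).roots.map
      fun r => x - padicEmbedding q r).prod := by
    have h1 : g.map (algebraMap ℚ (PadicAlgCl q)) = (g.map (algebraMap ℚ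
        (AlgebraicClosure ℚ))).map (padicEmbedding q : AlgebraicClosure ℚ →+* PadicAlgCl q) := by
      rw [Polynomial.map_map, AlgHom.comp_algebraMap]
    rw [aeval_def, ← eval_map, h1, hsplit.eq_prod_roots_of_monic (hg.map _),
      Polynomial.map_multiset_prod, eval_multiset_prod, Multiset.map_map, Multiset.map_map]
    rw [← hsplit.eq_prod_roots_of_monic (hg.map _)]
    congr 1
    refine Multiset.map_congr rfl fun r _ => ?_
    simp
  have hcard : (g.map (algebraMap ℚ (AlgebraicClosure ℚ))).roots.card = g.natDegree := by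
    rw [← hsplit.natDegree_eq_card_roots, natDegree_map]
  rw [e, ← hcard] at hx
  have : ∀ s : Multiset (AlgebraicClosure ℚ),
      δ ^ s.card ≤ ‖(s.map fun r => x - padicEmbedding q r).prod‖ := by
    intro s
    induction s using Multiset.induction with
    | empty => simp
    | cons r s ih =>
      rw [Multiset.card_cons, pow_succ', Multiset.map_cons, Multiset.prod_cons, norm_mul]
      exact mul_le_mul (hfar r) ih (by positivity) (norm_nonneg _)
  exact (this _).not_gt hx

/-- Every local level contains the preimage of a global one (Krasner). -/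
theorem exists_global_level {W : Subgroup (GamQ q)} (hW : W ∈ LQ q) :
    ∃ U ∈ LG, U.comap (localGaloisToGlobal q) ≤ W := by
  obtain ⟨E, hE, hEW⟩ := hW
  obtain ⟨a, ha⟩ := Field.exists_primitive_element ℚ_[q] E
  set x : PadicAlgCl q := (a : PadicAlgCl q) with hx
  have hint : IsIntegral ℚ_[q] x := (Algebra.IsAlgebraic.isAlgebraic x).isIntegral
  set f := minpoly ℚ_[q] x
  set n := f.natDegree
  have hn : 0 < n := minpoly.natDegree_pos hint
  obtain ⟨δ, hδ, hδ'⟩ := exists_conjRoot_separation q x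
  -- approximate the minimal polynomial
  obtain ⟨Q, hQd, hQ⟩ := exists_rat_approx q f.eraseLead (n := n)
    (f.eraseLead_natDegree_le.trans_lt (Nat.sub_one_lt hn.ne')) {x} (pow_pos hδ n)
  have hgm : (X ^ n + Q).Monic := monic_X_pow_add hQd
  have hgd : (X ^ n + Q).natDegree = n := natDegree_eq_of_degree_eq_some (by
    rw [degree_add_eq_left_of_degree_lt (by rwa [degree_X_pow]), degree_X_pow])
  have hgx : ‖aeval x (X ^ n + Q)‖ < δ ^ n := by
    have h0 : aeval x f = 0 := minpoly.aeval _ _
    rw [← f.eraseLead_add_C_mul_X_pow, (minpoly.monic hint).leadingCoeff, map_one, one_mul,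
      map_add, aeval_X_pow] at h0
    rw [map_add, aeval_X_pow, eq_neg_of_add_eq_zero_right h0, neg_add_eq_sub]
    exact hQ x (Finset.mem_singleton_self x)
  obtain ⟨β, hβ⟩ := exists_root_near q hgm hδ (by rw [hgd]; exact hgx)
  obtain ⟨U, hU, hUβ⟩ := exists_level_fixing (F := ℚ) β
  refine ⟨U, hU, fun τ hτ => hEW ((IntermediateField.mem_fixingSubgroup_iff _ _).2 fun y hy => ?_)⟩
  have hxy : x ∈ IntermediateField.adjoin ℚ_[q] {padicEmbedding q β} :=
    IsKrasner.krasner (Algebra.IsSeparable.isSeparable ℚ_[q] x) (IsAlgClosed.splits _)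
      (Algebra.IsAlgebraic.isAlgebraic _).isIntegral
      fun x' h h' => hβ.trans_le (hδ' x' h h')
  have hτb : τ (padicEmbedding q β) = padicEmbedding q β := by
    rw [← padicEmbedding_localGaloisToGlobal, hUβ _ hτ]
  have hmap : (IntermediateField.adjoin ℚ_[q] {a}).map E.val =
      IntermediateField.adjoin ℚ_[q] {x} := by
    rw [IntermediateField.adjoin_map, Set.image_singleton]
    rfl
  refine apply_eq_of_mem_adjoin_simple (apply_eq_of_mem_adjoin_simple hτb hxy) ?_
  rw [← hmap, ha]
  exact ⟨⟨y, hy⟩, IntermediateField.mem_top, rfl⟩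

theorem LQ_eq_comap : LQ q = LG.comap (localGaloisToGlobal q) := by
  refine SetLike.ext fun W => ⟨fun hW => ?_, ?_⟩
  · obtain ⟨U, hU, h⟩ := exists_global_level q hW
    exact ⟨U, hU, h⟩
  · rintro ⟨U, hU, h⟩
    exact (LQ q).mem_of_le (compat_local q U hU) h

/-! ### Localisation at a conjugate embedding -/

/-- `τ ↦ g⁻¹ ι(τ) g`. -/
def cj (g : Gam) : GamQ q →* Gam :=
  (MulAut.conj g⁻¹).toMonoidHom.comp (localGaloisToGlobal q)

theorem cj_apply (g : Gam) (τ : GamQ q) : cj q g τ = g⁻¹ * localGaloisToGlobal q τ * g := by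
  simp [cj]

theorem compat_cj (g : Gam) : Compat LG (LQ q) (cj q g) := by
  intro U hU
  obtain ⟨V, hV, hVU, hn⟩ := LG.exists_normal hU
  refine (LQ q).mem_of_le (compat_local q V hV) fun τ hτ => hVU ?_
  show cj q g τ ∈ V
  rw [cj_apply]
  simpa using hn.conj_mem _ hτ g⁻¹

variable (H : Subgroup Gam) (g : Gam)

/-- The decomposition subgroup at `(q, g)`. -/
def stab : Subgroup (GamQ q) := H.comap (cj q g)

theorem mem_stab {τ : GamQ q} : τ ∈ stab q H g ↔ cj q g τ ∈ H := Iff.rfl

/-- For a normal subgroup the decomposition subgroup does not depend on the embedding. -/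
theorem mem_stab_iff_of_normal [hn : H.Normal] {τ : GamQ q} :
    τ ∈ stab q H g ↔ localGaloisToGlobal q τ ∈ H := by
  rw [mem_stab, cj_apply, mul_assoc, hn.mem_comm_iff, mul_inv_cancel_right]

variable {H}

theorem stab_mem (hH : H ∈ LG) : stab q H g ∈ LQ q := compat_cj q g H hH

theorem stab_mono {V : Subgroup Gam} (h : V ≤ H) : stab q V g ≤ stab q H g := fun _ hτ => h hτ

variable (H)

/-- The localisation homomorphism. -/
def locHom : ↥(stab q H g) →* ↥H :=
  ((cj q g).comp (stab q H g).subtype).codRestrict H fun τ => τ.2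

theorem coe_locHom (τ : ↥(stab q H g)) : (locHom q H g τ : Gam) = cj q g τ := rfl

theorem compat_locHom :
    Compat (LG.comap H.subtype) ((LQ q).comap (stab q H g).subtype) (locHom q H g) :=
  fun _ ⟨W, hW, hWU⟩ => ⟨W.comap (cj q g), compat_cj q g W hW, fun _ hτ => hWU hτ⟩

/-- Multiplication by the value of the character at `g`. -/
def twist : ZMod p →ₗ[ZMod p] ZMod p := (((cyc p).ω g : (ZMod p)ˣ) : ZMod p) • LinearMap.id

theorem twist_apply (z : ZMod p) : twist p g z = ((cyc p).ω g : ZMod p) * z := rfl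

/-- Localisation of a class of `H` at `(q, g)`. -/
def locH2 : H2 (LG.comap H.subtype) (triv (ZMod p) ↥H) →ₗ[ZMod p]
    H2 ((LQ q).comap (stab q H g).subtype) (triv (ZMod p) ↥(stab q H g)) :=
  H2map (compat_locHom q H g) (φ := twist p g) (fun _ _ => rfl)

variable {H}

theorem muFix_stab (hμ : (cyc p).MuFix H) : (cycLoc q p).MuFix (stab q H g) := fun τ hτ => by
  show (cyc p).ω (localGaloisToGlobal q τ) = 1
  have h := hμ _ hτ
  rw [cj_apply, map_mul, map_mul, map_inv, mul_comm _⁻¹, mul_assoc, inv_mul_cancel, mul_one] at h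
  exact h

/-- A unit fixed by `H` is fixed by the decomposition subgroup after localisation. -/
theorem embU_mem_fixU {z : (AlgebraicClosure ℚ)ˣ} (hz : z ∈ fixU H) :
    embU q (g • z) ∈ fixU (stab q H g) := fun τ => by
  rw [← embU_smul, ← mul_smul,
    show localGaloisToGlobal q (τ : GamQ q) * g = g * cj q g τ by rw [cj_apply]; group, mul_smul]
  exact congrArg _ (congrArg (g • ·) (hz (locHom q H g τ)))

omit [Fact p.Prime] in
theorem embU_mem_rootU {r : (AlgebraicClosure ℚ)ˣ} (hr : r ∈ Cyc.rootU p H) :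
    embU q (g • r) ∈ Cyc.rootU p (stab q H g) := fun τ => by
  rw [← map_pow, ← smul_pow']
  exact embU_mem_fixU q g hr τ

theorem kum_loc {r : (AlgebraicClosure ℚ)ˣ} (hr : r ∈ Cyc.rootU p H) (τ : ↥(stab q H g)) :
    (cycLoc q p).kum (stab q H g) (embU q (g • r)) τ =
      ((cyc p).ω g : ZMod p) * (cyc p).kum H r (locHom q H g τ) := by
  apply (cycLoc q p).mu_injective
  rw [Cyc.mu_kum (embU_mem_rootU q p g hr), cycLoc_mu, ← Cyc.smul_mu, Cyc.mu_kum hr, coe_locHom,
    smul_div', ← mul_smul, cj_apply, show g * (g⁻¹ * localGaloisToGlobal q (τ : GamQ q) * g) =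
      localGaloisToGlobal q (τ : GamQ q) * g by group, mul_smul, _root_.map_div, embU_smul]

theorem locH2_sym (hμ : (cyc p).MuFix H) (r s : ↥(Cyc.rootU p H)) :
    ((cyc p).ω g : ZMod p) • locH2 q p H g (Cyc.sym H hμ r s) =
      Cyc.sym (stab q H g) (muFix_stab q p g hμ) ⟨_, embU_mem_rootU q p g r.2⟩
        ⟨_, embU_mem_rootU q p g s.2⟩ := by
  show ((cyc p).ω g : ZMod p) • mk2 ((LQ q).comap (stab q H g).subtype)
    (triv (ZMod p) ↥(stab q H g)) ⟨pp2 (locHom q H g) (twist p g) ((cyc p).symC H r s), _⟩ = _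
  rw [← map_smul]
  refine mk2_congr (funext fun ⟨a, b⟩ => ?_)
  simp only [SetLike.val_smul, Pi.smul_apply, smul_eq_mul, pp2_apply, twist_apply, Cyc.symC,
    kum_loc q p g r.2, kum_loc q p g s.2]
  ring

theorem locH2_sym_eq_zero_iff (hμ : (cyc p).MuFix H) (r s : ↥(Cyc.rootU p H)) :
    locH2 q p H g (Cyc.sym H hμ r s) = 0 ↔
      Cyc.sym (stab q H g) (muFix_stab q p g hμ) ⟨_, embU_mem_rootU q p g r.2⟩
        ⟨_, embU_mem_rootU q p g s.2⟩ = 0 := by
  rw [← locH2_sym]
  exact (smul_eq_zero_iff_right (Units.ne_zero ((cyc p).ω g))).symm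

theorem locH2_resI {V : Subgroup Gam} (h : V ≤ H)
    (a : H2 (LG.comap H.subtype) (triv (ZMod p) ↥H)) :
    locH2 q p V g (resI LG (ZMod p) h a) =
      resI (LQ q) (ZMod p) (stab_mono q g h) (locH2 q p H g a) := by
  obtain ⟨x, rfl⟩ := mk2_surjective a
  rfl

end Fermat.Agent.PT
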