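import Mathlib.Analysis.AbsoluteValue.Equivalence
import Mathlib.NumberTheory.NumberField.Basic
import Fermat.Agent.Gal.Basic
import Fermat.Agent.PT.LocalGlobal

/-!
# The places of a number field inside `ℚ̄` above a prime

The places above `q` of the fixed field of a level `H` are the classes `Pl q H` of embeddings
inducing the same absolute value; they correspond to the double cosets `D_q \ G / H`.
-/

noncomputable section

namespace Fermat.Agent.PT

open Lv Polynomial IntermediateField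

local notation "Qb" => AlgebraicClosure ℚ

instance factPrimesPT (q : Nat.Primes) : Fact (q : ℕ).Prime := ⟨q.2⟩

variable (q : ℕ) [Fact q.Prime]

/-- The absolute value at the embedding `x ↦ emb (g x)`. -/
def nq (g : Gam) (x : Qb) : ℝ := ‖padicEmbedding q (g x)‖

variable {q}

theorem nq_nonneg (g : Gam) (x : Qb) : 0 ≤ nq q g x := norm_nonneg _

theorem nq_zero (g : Gam) : nq q g 0 = 0 := by simp [nq]

theorem nq_one (g : Gam) : nq q g 1 = 1 := by simp [nq]

theorem nq_mul (g : Gam) (x y : Qb) : nq q g (x * y) = nq q g x * nq q g y := by simp [nq]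

theorem nq_inv (g : Gam) (x : Qb) : nq q g x⁻¹ = (nq q g x)⁻¹ := by simp [nq]

theorem nq_pow (g : Gam) (x : Qb) (n : ℕ) : nq q g (x ^ n) = nq q g x ^ n := by simp [nq]

theorem nq_pos (g : Gam) {x : Qb} (hx : x ≠ 0) : 0 < nq q g x := by
  refine norm_pos_iff.2 fun h => hx ?_
  exact g.injective (((padicEmbedding q).toRingHom.injective (h.trans (map_zero _).symm)).trans
    (map_zero g).symm)

theorem nq_comp (g h : Gam) (x : Qb) : nq q (g * h) x = nq q g (h x) := rfl

theorem nq_left (g : Gam) (τ : GamQ q) (x : Qb) :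
    nq q (localGaloisToGlobal q τ * g) x = nq q g x := by
  rw [nq, AlgEquiv.mul_apply, padicEmbedding_localGaloisToGlobal]
  exact congrArg NNReal.toReal (nnnorm_padicAlgCl_algEquiv q τ _)

theorem nq_ratCast (g : Gam) (r : ℚ) : nq q g (r : Qb) = ‖(r : ℚ_[q])‖ := by
  rw [nq, map_ratCast, map_ratCast, ← map_ratCast (algebraMap ℚ_[q] (PadicAlgCl q)),
    norm_algebraMap']

theorem nq_le_one_of_isIntegral (g : Gam) {x : Qb} (hx : IsIntegral ℤ x) : nq q g x ≤ 1 := by
  have h := Gal.mem_of_isIntegral (A := padicPlace q)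
    (hx.map ((g : Qb →+* Qb).toIntAlgHom))
  rw [mem_padicPlace_iff] at h
  exact h

theorem nq_add_le (g : Gam) (x y : Qb) : nq q g (x + y) ≤ max (nq q g x) (nq q g y) := by
  rw [nq, map_add, map_add]
  exact IsUltrametricDist.norm_add_le_max _ _

variable (H : Subgroup Gam)

variable (q) in
/-- `g` and `g'` define the same place of the fixed field of `H`. -/
def SamePlace (g g' : Gam) : Prop := ∃ τ : GamQ q, ∃ h ∈ H, g' = localGaloisToGlobal q τ * g * h

variable {H}

theorem SamePlace.refl (g : Gam) : SamePlace q H g g := ⟨1, 1, H.one_mem, by simp⟩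

theorem SamePlace.symm {g g' : Gam} (h : SamePlace q H g g') : SamePlace q H g' g := by
  obtain ⟨τ, k, hk, rfl⟩ := h
  exact ⟨τ⁻¹, k⁻¹, H.inv_mem hk, by rw [map_inv]; group⟩

theorem SamePlace.trans {g g' g'' : Gam} (h : SamePlace q H g g') (h' : SamePlace q H g' g'') :
    SamePlace q H g g'' := by
  obtain ⟨τ, k, hk, rfl⟩ := h
  obtain ⟨τ', k', hk', rfl⟩ := h'
  exact ⟨τ' * τ, k * k', H.mul_mem hk hk', by rw [map_mul]; group⟩

theorem nq_samePlace {g g' : Gam} (h : SamePlace q H g g') {x : Qb} (hx : ∀ h ∈ H, h x = x) :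
    nq q g' x = nq q g x := by
  obtain ⟨τ, k, hk, rfl⟩ := h
  rw [nq_comp, hx k hk, nq_left]

variable (q) (H) in
/-- The relation of defining the same place. -/
def placeSetoid : Setoid Gam where
  r := SamePlace q H
  iseqv := ⟨SamePlace.refl, SamePlace.symm, SamePlace.trans⟩

variable (q) (H) in
/-- The places of the fixed field of `H` above `q`. -/
def Pl : Type := Quotient (placeSetoid q H)

/-- The place of an element. -/
def Pl.mk (g : Gam) : Pl q H := Quotient.mk (placeSetoid q H) g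

/-- A representative. -/
def Pl.rep (v : Pl q H) : Gam := Quotient.out v

theorem Pl.mk_rep (v : Pl q H) : Pl.mk v.rep = v := Quotient.out_eq v

theorem Pl.mk_eq {g g' : Gam} : (Pl.mk g : Pl q H) = Pl.mk g' ↔ SamePlace q H g g' :=
  Quotient.eq

theorem Pl.samePlace_rep (g : Gam) : SamePlace q H g (Pl.mk g : Pl q H).rep :=
  Pl.mk_eq.1 (Pl.mk_rep _).symm

theorem finite_pl (hH : H ∈ LG) : Finite (Pl q H) := by
  have := LG.finiteIndex hH
  have : Finite (Gam ⧸ H) := Subgroup.finite_quotient_of_finiteIndex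
  refine Finite.of_surjective (fun y : Gam ⧸ H => (Pl.mk y.out : Pl q H)) fun v => ?_
  refine ⟨(v.rep : Gam ⧸ H), (Pl.mk_eq.2 ?_).trans v.mk_rep⟩
  refine ⟨1, ((v.rep : Gam ⧸ H).out)⁻¹ * v.rep, ?_, by simp⟩
  exact QuotientGroup.eq.1 (v.rep : Gam ⧸ H).out_eq

/-- Membership in the fixed field of `H`. -/
theorem mem_fixedField_iff {x : Qb} : x ∈ fixedField H ↔ ∀ h ∈ H, h x = x :=
  ⟨fun hx h hh => hx ⟨h, hh⟩, fun hx h => hx h h.2⟩

theorem exists_primitive (hH : H ∈ LG) :
    ∃ α : Qb, (∀ h ∈ H, h α = α) ∧ ∀ g : Gam, g α = α → g ∈ H := by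
  have := finiteDimensional_fixedField hH
  obtain ⟨a, ha⟩ := Field.exists_primitive_element ℚ (fixedField H)
  refine ⟨a, mem_fixedField_iff.1 a.2, fun g hg => ?_⟩
  rw [← fixingSubgroup_fixedField_of_mem hH, IntermediateField.mem_fixingSubgroup_iff]
  intro x hx
  have hmem : (⟨x, hx⟩ : fixedField H) ∈ ℚ⟮a⟯ := ha ▸ IntermediateField.mem_top
  obtain ⟨r, s, e⟩ := (IntermediateField.mem_adjoin_simple_iff ℚ _).1 hmem
  have e' : x = aeval (a : Qb) r / aeval (a : Qb) s := by
    have := congrArg (fixedField H).val e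
    rw [map_div₀, ← aeval_algHom_apply, ← aeval_algHom_apply] at this
    exact this
  have hP : ∀ P : ℚ[X], g (aeval (a : Qb) P) = aeval (a : Qb) P := fun P => by
    rw [← AlgEquiv.coe_toAlgHom, ← aeval_algHom_apply, AlgEquiv.coe_toAlgHom, hg]
  rw [e', map_div₀, hP, hP]

/-- Two embeddings inducing the same absolute value define the same place. -/
theorem samePlace_of_nq_eq (hH : H ∈ LG) {g g' : Gam}
    (h : ∀ x : Qb, (∀ k ∈ H, k x = x) → nq q g' x = nq q g x) : SamePlace q H g g' := by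
  obtain ⟨α, hα, hαH⟩ := exists_primitive hH
  set a := padicEmbedding q (g α)
  set a' := padicEmbedding q (g' α)
  set f := minpoly ℚ_[q] a
  have hint : IsIntegral ℚ_[q] a := (Algebra.IsAlgebraic.isAlgebraic a).isIntegral
  have hzero : aeval a' f = 0 := by
    rw [← norm_eq_zero]
    refine le_antisymm (le_of_forall_gt_imp_ge_of_dense fun ε hε => ?_) (norm_nonneg _)
    classical
    obtain ⟨Q, -, hQ⟩ := exists_rat_approx q f (Nat.lt_succ_self _) {a, a'} hε
    have hemb : ∀ γ : Gam, padicEmbedding q (γ (aeval α Q)) = aeval (padicEmbedding q (γ α)) Q :=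
      fun γ => by rw [← AlgEquiv.coe_toAlgHom, ← aeval_algHom_apply, ← aeval_algHom_apply]
    have h1 := hQ a (Finset.mem_insert_self a _)
    have h2 := hQ a' (Finset.mem_insert_of_mem (Finset.mem_singleton_self a'))
    rw [minpoly.aeval, sub_zero] at h1
    have h3 : ‖aeval a' Q‖ = ‖aeval a Q‖ := by
      have := h (aeval α Q) fun k hk => by
        rw [← AlgEquiv.coe_toAlgHom, ← aeval_algHom_apply, AlgEquiv.coe_toAlgHom, hα k hk]
      rwa [nq, nq, hemb, hemb] at this
    rw [← sub_sub_self (aeval a' Q) (aeval a' f)]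
    exact (norm_sub_le_max' _ _).trans (max_le (h3 ▸ h1.le) h2.le)
  have hmin : minpoly ℚ_[q] a' = minpoly ℚ_[q] a :=
    (minpoly.eq_of_irreducible_of_monic (minpoly.irreducible hint) hzero
      (minpoly.monic hint)).symm
  obtain ⟨τ, hτ⟩ : ∃ τ : GamQ q, τ a = a' := by
    have h := (Normal.minpoly_eq_iff_mem_orbit (F := ℚ_[q]) (PadicAlgCl q) (x := a) (y := a')).1
      hmin.symm
    obtain ⟨τ, hτ⟩ := MulAction.mem_orbit_iff.1 h
    exact ⟨τ⁻¹, by rw [← hτ]; exact AlgEquiv.symm_apply_apply τ a'⟩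
  refine ⟨τ, (localGaloisToGlobal q τ * g)⁻¹ * g', hαH _ ?_, by group⟩
  have h1 : localGaloisToGlobal q τ (g α) = g' α :=
    (padicEmbedding q).toRingHom.injective
      ((padicEmbedding_localGaloisToGlobal q τ (g α)).trans hτ)
  rw [AlgEquiv.mul_apply, ← h1]
  exact AlgEquiv.symm_apply_apply (localGaloisToGlobal q τ * g) α

/-- The absolute value on the fixed field. -/
def absPl (g : Gam) : AbsoluteValue (fixedField H) ℝ where
  toFun x := nq q g (x : Qb)
  map_mul' x y := nq_mul g (x : Qb) (y : Qb)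
  nonneg' x := nq_nonneg g _
  eq_zero' x := by
    refine ⟨fun h => ?_, fun h => by rw [h]; exact nq_zero g⟩
    by_contra hx
    exact (nq_pos (q := q) g (fun h0 => hx (Subtype.ext h0))).ne' h
  add_le' x y := (nq_add_le g (x : Qb) (y : Qb)).trans
    (max_le_add_of_nonneg (nq_nonneg g _) (nq_nonneg g _))

theorem absPl_apply (g : Gam) (x : fixedField H) : absPl (q := q) g x = nq q g (x : Qb) := rfl

theorem absPl_ratCast (g : Gam) (r : ℚ) :
    absPl (q := q) g (r : fixedField H) = ‖(r : ℚ_[q])‖ := by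
  rw [absPl_apply, ← nq_ratCast g]
  norm_cast

/-- Equivalent absolute values at two places have the same prime and are equal. -/
theorem eq_of_isEquiv_absPl {q' : ℕ} [Fact q'.Prime] {g g' : Gam}
    (h : (absPl (q := q) (H := H) g).IsEquiv (absPl (q := q') (H := H) g')) :
    q = q' ∧ ∀ x : Qb, (∀ k ∈ H, k x = x) → nq q' g' x = nq q g x := by
  obtain ⟨c, hc, he⟩ := AbsoluteValue.isEquiv_iff_exists_rpow_eq.1 h
  have hq := congrFun he ((q : ℚ) : fixedField H)
  beta_reduce at hq
  rw [absPl_ratCast, absPl_ratCast, Rat.cast_natCast, Rat.cast_natCast, Padic.norm_p] at hq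
  have hqq : q = q' := by
    by_contra hne
    rw [Padic.norm_natCast_eq_one_iff.2 ((Nat.coprime_primes Fact.out Fact.out).2
      (Ne.symm hne))] at hq
    have : ((q : ℝ)⁻¹) ^ c < 1 := Real.rpow_lt_one (by positivity)
      (inv_lt_one_of_one_lt₀ (by exact_mod_cast (Fact.out : q.Prime).one_lt)) hc
    exact this.ne hq
  subst hqq
  refine ⟨rfl, fun x hx => ?_⟩
  rw [Padic.norm_p] at hq
  have hc1 : c = 1 := by
    have h1 : (0 : ℝ) < (q : ℝ)⁻¹ := by
      have := (Fact.out : q.Prime).pos; positivity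
    have h2 := congrArg Real.log hq
    rw [Real.log_rpow h1] at h2
    have h3 : Real.log ((q : ℝ)⁻¹) ≠ 0 := (Real.log_neg h1
      (inv_lt_one_of_one_lt₀ (by exact_mod_cast (Fact.out : q.Prime).one_lt))).ne
    exact mul_right_cancel₀ h3 (h2.trans (one_mul _).symm)
  have := congrFun he ⟨x, mem_fixedField_iff.2 hx⟩
  simp only [absPl_apply, hc1, Real.rpow_one] at this
  exact this.symm

theorem dense_local (hH : H ∈ LG) (g : Gam) {a : PadicAlgCl q}
    (ha : ∀ τ ∈ stab q H g, τ a = a) {ε : ℝ} (hε : 0 < ε) :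
    ∃ x : Qb, (∀ k ∈ H, k x = x) ∧ ‖padicEmbedding q (g x) - a‖ < ε := by
  obtain ⟨α, hα, hαH⟩ := exists_primitive hH
  set b := padicEmbedding q (g α)
  have hb : IsIntegral ℚ_[q] b := (Algebra.IsAlgebraic.isAlgebraic b).isIntegral
  have hmem : a ∈ ℚ_[q]⟮b⟯ := by
    rw [← InfiniteGalois.fixedField_fixingSubgroup ℚ_[q]⟮b⟯]
    rintro ⟨τ, hτ⟩
    refine ha τ ?_
    have h1 : τ b = b := hτ ⟨b, IntermediateField.mem_adjoin_simple_self _ _⟩
    rw [← padicEmbedding_localGaloisToGlobal] at h1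
    have h2 := (padicEmbedding q).toRingHom.injective h1
    refine hαH _ ?_
    rw [cj_apply, AlgEquiv.mul_apply, AlgEquiv.mul_apply, h2]
    exact AlgEquiv.symm_apply_apply g α
  obtain ⟨P, hP⟩ : ∃ P : ℚ_[q][X], aeval b P = a := by
    have : a ∈ (ℚ_[q]⟮b⟯).toSubalgebra := hmem
    rw [IntermediateField.adjoin_simple_toSubalgebra_of_isAlgebraic hb.isAlgebraic,
      Algebra.adjoin_singleton_eq_range_aeval] at this
    exact this
  obtain ⟨Q, -, hQ⟩ := exists_rat_approx q P (Nat.lt_succ_self _) {b} hε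
  refine ⟨aeval α Q, fun k hk => ?_, ?_⟩
  · rw [← AlgEquiv.coe_toAlgHom, ← aeval_algHom_apply, AlgEquiv.coe_toAlgHom, hα k hk]
  rw [← hP, ← AlgEquiv.coe_toAlgHom, ← aeval_algHom_apply, ← aeval_algHom_apply]
  exact hQ b (Finset.mem_singleton_self b)

end Fermat.Agent.PT
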