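import Fermat.Agent.PT.GlobalRaw

/-!
# Surjectivity of corestriction for `G_S`

By counting (`DimBound`) and the test classes of `Lifting`, the pairing for modules induced from
a level fixing `μ_p` is perfect (`indH_facts`), which forces corestriction to be surjective.
-/

noncomputable section

namespace Fermat.Agent.PT

open Lv Module

variable {p : ℕ} [Fact p.Prime]

variable (p) in
/-- A level at which every prime of `S` moves some layer of the cyclotomic tower. -/
structure Deep (S : Finset Nat.Primes) (U : Subgroup Gam) : Prop where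
  normal : U.Normal
  mem : U ∈ LS S
  muFix : (cyc p).MuFix U
  moved : ∃ j, U ≤ Hm p j ∧ ∀ r ∈ S, ∃ τ : GamQ ((r : Nat.Primes) : ℕ),
    localGaloisToGlobal (r : ℕ) τ ∈ U ∧ localGaloisToGlobal (r : ℕ) τ ∉ Hm p (j + 1)

variable {S : Finset Nat.Primes}

theorem exists_deep (hpS : pP p ∈ S) {V : Subgroup Gam} (hV : V ∈ LS S) :
    ∃ U, Deep p S U ∧ U ≤ V := by
  obtain ⟨V', hV', hV'V, hn⟩ := (LS S).exists_normal hV
  obtain ⟨j, hj⟩ := exists_layer (p := p) (S := S) (LS_le_LG hV')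
  exact ⟨V' ⊓ Hm p j, ⟨inferInstance, (LS S).inf_mem hV' (Hm_mem_LS hpS j),
    (Hm_muFix j).anti inf_le_right, j, inf_le_right, hj⟩, inf_le_left.trans hV'V⟩

section Left

variable {M : Type} [AddCommGroup M] [Module (ZMod p) M] {ρ : Representation (ZMod p) Gam M}
variable (GI : GlobalInputs p) (hodd : p ≠ 2)
  (lam : ∀ q : Nat.Primes, H2 (LQ (q : ℕ)) (muQ p (q : ℕ)) →ₗ[ZMod p] ZMod p)
  (hlam : ∀ q, Function.Bijective (lam q))
  (hrec : ∀ (S : Finset Nat.Primes) (z : H2 LG (muG p)),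
    (∀ q, q ∉ S → locQ p (q : ℕ) z = 0) → ∑ q ∈ S, lam q (locQ p (q : ℕ) z) = 0)
  (hpS : pP p ∈ S)
include GI hodd hlam hrec hpS

/-- A pair killing all test classes is trivial. -/
theorem eq_const_of_rawF_eq_zero {U : Subgroup Gam} [Fintype (Gam ⧸ U)] (hD : Deep p S U)
    (hρ : ∀ u ∈ U, ρ u = 1) (a : ↥(pairsA S ρ))
    (hU : ∀ g, ∀ u ∈ U, a.1.1 (g * u) = a.1.1 g) (h : ∀ B, rawF lam a hU B = 0) :
    ∃ m₀, (∀ q, a.1.2 q = m₀) ∧ ∀ g, a.1.1 g = dualR (muG p) ρ g m₀ - m₀ := by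
  classical
  have := hD.normal
  have hμ := hD.muFix
  have hUG := LS_le_LG hD.mem
  obtain ⟨j, hj, hmoved⟩ := hD.moved
  have hfin : ∀ r : Nat.Primes, Finite (Pl (r : ℕ) U) := fun r => finite_pl hUG
  let _ : ∀ r : Nat.Primes, Fintype (Pl (r : ℕ) U) := fun r => Fintype.ofFinite _
  let w : M → (t : ↥S) → Gam ⧸ U → ZMod p := fun m t x => wt (muG p) ρ (a.1.2 t) a.1.1 m x
  have hpl : ∀ m (v v' : PlS S U),
      w m v.1 (v.2.rep : Gam ⧸ U) = w m v'.1 (v'.2.rep : Gam ⧸ U) := by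
    intro m v v'
    by_cases hvv : v = v'
    · rw [hvv]
    obtain ⟨c, hc1, hc2, hc0⟩ :=
      exists_pair_LS GI hodd lam hlam hrec hpS hD.mem hμ hj hmoved v v' hvv
    obtain ⟨B, hB⟩ := sh_surjective (L := LS S) (ρ := muG p) hD.mem
      ((H2eq (LSH S U) (muG_comp hμ)).symm c)
    have h1 := h (H2push (LS S) (indRep U (muG p)) (indRep U ρ)
      (epsMap (U := U) (muG p) ρ m) (epsMap_equivariant hρ (muG_eq_one hμ) m) B)
    rw [rawF_eps lam hρ hμ hD.mem a hU m B, hB, LinearEquiv.apply_symm_apply,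
      ← Fintype.sum_sigma', Fintype.sum_eq_add v v' hvv fun t ht => by
        rw [hc0 t ht.1 ht.2, mul_zero], hc1, hc2, mul_one, mul_neg, mul_one] at h1
    exact eq_of_sub_eq_zero (by rw [sub_eq_add_neg]; exact h1)
  have hrep : ∀ m (t : ↥S) (x : Gam ⧸ U), ∃ v : Pl ((t : Nat.Primes) : ℕ) U,
      w m t x = w m t (v.rep : Gam ⧸ U) := by
    intro m t x
    obtain ⟨⟨v, y⟩, rfl⟩ := (orbSigma_bijective ((t : Nat.Primes) : ℕ) (H := U)).2 x
    refine ⟨v, ?_⟩
    induction y using QuotientGroup.induction_on with | _ τ => ?_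
    show wt (muG p) ρ (a.1.2 t) a.1.1 m (orbMap ((t : Nat.Primes) : ℕ) v.rep _) =
      wt (muG p) ρ (a.1.2 t) a.1.1 m _
    rw [orbMap_eq_smul]
    exact wt_smul (χ := muG p) (mem_Z1.1 a.2.1).2 hU hρ (muG_eq_one hμ) (a.2.2 t τ) m _
  have hall : ∀ m (t t' : ↥S) (x x' : Gam ⧸ U), w m t x = w m t' x' := fun m t t' x x' => by
    obtain ⟨v, hv⟩ := hrep m t x
    obtain ⟨v', hv'⟩ := hrep m t' x'
    rw [hv, hv']
    exact hpl m ⟨t, v⟩ ⟨t', v'⟩
  have hc1 : a.1.1 1 = 0 := Z1_apply_one a.2.1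
  have h1 : ∀ m t, w m t ((1 : Gam) : Gam ⧸ U) = a.1.2 t m := fun m t => by
    simp only [w, wt]
    rw [sec_one]
    simp [hc1]
  refine ⟨a.1.2 ⟨pP p, hpS⟩, fun q => LinearMap.ext fun m => ?_, fun g => LinearMap.ext fun m => ?_⟩
  · rw [← h1, ← h1]
    exact hall _ _ _ _ _
  · set t : ↥S := ⟨pP p, hpS⟩
    obtain ⟨u, hu, e⟩ : ∃ u ∈ U, sec U (g : Gam ⧸ U) = g * u :=
      ⟨g⁻¹ * sec U (g : Gam ⧸ U), QuotientGroup.eq.1 (mk_sec U (g : Gam ⧸ U)).symm, by group⟩
    have h2 := hall (ρ g⁻¹ m) t t (g : Gam ⧸ U) ((1 : Gam) : Gam ⧸ U)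
    rw [h1] at h2
    simp only [w, wt, e, hU g u hu, map_mul, mul_inv_rev, hρ u hu,
      muG_eq_one hμ _ (inv_mem hu), Module.End.mul_apply, Module.End.one_apply] at h2
    rw [← Module.End.mul_apply, ← map_mul, mul_inv_cancel, map_one, Module.End.one_apply] at h2
    have h3 := congrArg (muG p g) h2
    rw [← Module.End.mul_apply, ← map_mul, mul_inv_cancel, map_one, Module.End.one_apply] at h3
    rw [LinearMap.sub_apply, dualR_apply, ← h3]
    abel

end Left

/-! ### The pairs attached to homomorphisms and constants -/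

section Induced

variable {H : Subgroup Gam}

/-- A function as a functional. -/
def evF [Fintype (Gam ⧸ H)] :
    (Gam ⧸ H → ZMod p) →ₗ[ZMod p] (Gam ⧸ H → ZMod p) →ₗ[ZMod p] ZMod p where
  toFun F :=
    { toFun := fun φ => ∑ x, φ x * F x
      map_add' := fun φ φ' => by simp only [Pi.add_apply, add_mul, Finset.sum_add_distrib]
      map_smul' := fun c φ => by
        simp only [Pi.smul_apply, smul_eq_mul, RingHom.id_apply, Finset.mul_sum, mul_assoc] }
  map_add' F F' := LinearMap.ext fun φ => by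
    simp only [LinearMap.coe_mk, AddHom.coe_mk, LinearMap.add_apply, Pi.add_apply, mul_add,
      Finset.sum_add_distrib]
  map_smul' c F := LinearMap.ext fun φ => by
    simp only [LinearMap.coe_mk, AddHom.coe_mk, LinearMap.smul_apply, Pi.smul_apply, smul_eq_mul,
      RingHom.id_apply, Finset.mul_sum, mul_left_comm]

theorem evF_apply [Fintype (Gam ⧸ H)] (F φ : Gam ⧸ H → ZMod p) : evF F φ = ∑ x, φ x * F x := rfl

theorem dualR_evF [Fintype (Gam ⧸ H)] (g : Gam) (F : Gam ⧸ H → ZMod p) :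
    dualR (muG p) (indRep H (muG p)) g (evF F) =
      evF fun x => F (g⁻¹ • x) := by
  refine LinearMap.ext fun φ => ?_
  simp only [dualR_apply, evF_apply, indRep_apply, map_sum,
    inv_inv]
  refine Fintype.sum_bijective (g • ·) (MulAction.bijective g) _ _ fun x => ?_
  rw [inv_smul_smul, mul_comm, chr_mul, mul_comm (φ _)]
  congr 1
  rw [← Module.End.mul_apply, ← map_mul, mul_inv_cancel, map_one, Module.End.one_apply]

theorem evF_injective [Fintype (Gam ⧸ H)] {F F' : Gam ⧸ H → ZMod p}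
    (h : evF F = evF F') : F = F' := by
  classical
  funext x
  have := LinearMap.congr_fun h (Pi.single x 1)
  simpa [evF_apply, Pi.single_apply] using this

variable [Fintype (Gam ⧸ H)]

/-- The cochain of a homomorphism, in the dual of the induced module. -/
def cMap : (↥H → ZMod p) →ₗ[ZMod p] Gam → (Gam ⧸ H → ZMod p) →ₗ[ZMod p] ZMod p where
  toFun f g := evF fun x => f (kap H x g)
  map_add' f f' := funext fun g => LinearMap.ext fun φ => by
    simp [evF_apply, mul_add, Finset.sum_add_distrib]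
  map_smul' c f := funext fun g => LinearMap.ext fun φ => by
    simp [evF_apply, Finset.mul_sum, mul_left_comm]

theorem cMap_mem_Z1 {f : ↥H → ZMod p} (hH : H ∈ LS S)
    (hf : f ∈ Z1 (LSH S H) (triv (ZMod p) ↥H)) :
    cMap f ∈ Z1 (LS S) (dualR (muG p) (indRep H (muG p))) := by
  obtain ⟨⟨W, ⟨W', hW', hW'W⟩, hcon⟩, hmul⟩ := mem_Z1_triv.1 hf
  refine mem_Z1.2 ⟨?_, fun g h => ?_⟩
  · obtain ⟨N, hN, hNle, hn⟩ := (LS S).exists_normal ((LS S).inf_mem hW' hH)
    refine ⟨N, hN, fun g s hs => congrArg (evF) (funext fun x => ?_)⟩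
    obtain ⟨v, hv, e⟩ := kap_mul_normal H hn (hNle.trans inf_le_right) x g hs
    rw [e]
    exact hcon _ _ (hW'W (hNle hv).1)
  · show evF _ =
      dualR (muG p) (indRep H (muG p)) g (evF _) +
        evF _
    rw [dualR_evF, ← map_add]
    exact congrArg (evF) (funext fun x => by
      rw [Pi.add_apply, kap_mul, hmul])

/-- The orbit coordinates of a coset. -/
def orbE (q : Nat.Primes) :
    (Σ v : Pl (q : ℕ) H, GamQ (q : ℕ) ⧸ stab (q : ℕ) H v.rep) ≃ Gam ⧸ H :=
  Equiv.ofBijective _ (orbSigma_bijective (q : ℕ) (H := H))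

/-- The values of the local trivialisation attached to a homomorphism and constants. -/
def bVal (fC : (↥H → ZMod p) × (PlS S H → ZMod p)) (q : ↥S) (x : Gam ⧸ H) : ZMod p :=
  fC.2 ⟨q, ((orbE (q : Nat.Primes)).symm x).1⟩ -
    fC.1 (kap H x (localGaloisToGlobal ((q : Nat.Primes) : ℕ)
      ((orbE (q : Nat.Primes)).symm x).2.out))

/-- The local trivialisations attached to a homomorphism and constants. -/
def bMap : ((↥H → ZMod p) × (PlS S H → ZMod p)) →ₗ[ZMod p]
    ↥S → (Gam ⧸ H → ZMod p) →ₗ[ZMod p] ZMod p where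
  toFun fC q := evF (bVal fC q)
  map_add' a b := funext fun q => by
    simp only [Pi.add_apply, ← map_add]
    exact congrArg _ (funext fun x => add_sub_add_comm _ _ _ _)
  map_smul' c a := funext fun q => by
    simp only [Pi.smul_apply, RingHom.id_apply, ← map_smul]
    exact congrArg _ (funext fun x => (smul_sub c _ _).symm)

/-- `bMap` trivialises the cochain of a homomorphism at the places over `S`. -/
theorem bMap_spec {f : ↥H → ZMod p} (hf : f ∈ sha1H (p := p) S H) (C : PlS S H → ZMod p) (q : ↥S)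
    (τ : GamQ ((q : Nat.Primes) : ℕ)) :
    cMap f (localGaloisToGlobal ((q : Nat.Primes) : ℕ) τ) =
      dualR (muG p) (indRep H (muG p)) (localGaloisToGlobal ((q : Nat.Primes) : ℕ) τ)
          (bMap (f, C) q) - bMap (f, C) q := by
  have hmul := (mem_Z1_triv.1 hf.1).2
  set ι := localGaloisToGlobal ((q : Nat.Primes) : ℕ)
  let F : Gam ⧸ H → ZMod p := bVal (f, C) q
  have hval : ∀ (v : Pl ((q : Nat.Primes) : ℕ) H) (σ : GamQ ((q : Nat.Primes) : ℕ)),
      F (ι σ • (v.rep : Gam ⧸ H)) = C ⟨q, v⟩ - f (kap H (ι σ • (v.rep : Gam ⧸ H)) (ι σ)) := by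
    intro v σ
    have he : (orbE (q : Nat.Primes)).symm (ι σ • (v.rep : Gam ⧸ H)) = ⟨v, (σ : _ ⧸ _)⟩ :=
      (Equiv.symm_apply_eq _).2 rfl
    simp only [F, bVal]
    rw [he]
    obtain ⟨s, hs⟩ := QuotientGroup.mk_out_eq_mul (stab ((q : Nat.Primes) : ℕ) H v.rep) σ
    rw [sub_right_inj, hs, map_mul, kap_mul, hmul, add_eq_right]
    rw [show (ι σ)⁻¹ • ι σ • (v.rep : Gam ⧸ H) = (v.rep : Gam ⧸ H) from inv_smul_smul _ _]
    have hfix : (ι (s : GamQ _))⁻¹ • (v.rep : Gam ⧸ H) = (v.rep : Gam ⧸ H) := by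
      have h2 : cj _ v.rep (s : GamQ ((q : Nat.Primes) : ℕ)) ∈ H := s.2
      rw [cj_apply] at h2
      refine QuotientGroup.eq.2 ?_
      beta_reduce
      convert h2 using 1
      rw [smul_eq_mul]
      group; rfl
    obtain ⟨h₀, hh₀, e₀⟩ : ∃ h₀ ∈ H, sec H (v.rep : Gam ⧸ H) = v.rep * h₀ :=
      ⟨v.rep⁻¹ * sec H (v.rep : Gam ⧸ H), QuotientGroup.eq.1 (mk_sec H _).symm, by group⟩
    have e : kap H (v.rep : Gam ⧸ H) (ι (s : GamQ _)) =
        (⟨h₀, hh₀⟩ : ↥H)⁻¹ * locHom ((q : Nat.Primes) : ℕ) H v.rep s * ⟨h₀, hh₀⟩ := by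
      refine Subtype.ext ?_
      rw [coe_kap, hfix, e₀, Subgroup.coe_mul, Subgroup.coe_mul, Subgroup.coe_inv, coe_locHom,
        cj_apply]
      group; rfl
    rw [e, hmul, hmul, hf.2 q q.2 v.rep s, zero_add, ← hmul, inv_mul_cancel]
    simpa using hmul 1 1
  have hF : ∀ x, f (kap H x (ι τ)) = F ((ι τ)⁻¹ • x) - F x := by
    intro x
    obtain ⟨⟨v, y⟩, hy⟩ := (orbE (H := H) (q : Nat.Primes)).surjective ((ι τ)⁻¹ • x)
    induction y using QuotientGroup.induction_on with | _ σ => ?_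
    have hy' : (ι τ)⁻¹ • x = ι σ • (v.rep : Gam ⧸ H) := hy.symm
    have hx : x = ι (τ * σ) • (v.rep : Gam ⧸ H) := by
      rw [map_mul, mul_smul, ← hy', smul_inv_smul]
    conv_rhs => rw [hy', hval, hx, hval, ← hx, map_mul, kap_mul, hmul, hy']
    ring
  show evF _ =
    dualR (muG p) (indRep H (muG p)) _ (evF F) -
      evF F
  rw [dualR_evF, ← map_sub]
  exact congrArg (evF) (funext fun x => hF x)

/-- The pairs attached to homomorphisms in `W` and constants at the places over `S`. -/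
def pairW (hH : H ∈ LS S) (W : Submodule (ZMod p) (↥H → ZMod p)) (hW : W ≤ sha1H S H) :
    (↥W × (PlS S H → ZMod p)) →ₗ[ZMod p] ↥(pairsA S (indRep H (muG p))) :=
  LinearMap.codRestrict _
    ((cMap ∘ₗ W.subtype ∘ₗ LinearMap.fst (ZMod p) ↥W (PlS S H → ZMod p)).prod
      (bMap ∘ₗ W.subtype.prodMap LinearMap.id))
    fun fC => ⟨cMap_mem_Z1 hH (hW fC.1.2).1, fun q τ => bMap_spec (hW fC.1.2) fC.2 q τ⟩

/-- A pair with trivial functional comes from a single constant. -/
theorem pairW_trivial (hpS : pP p ∈ S) (hH : H ∈ LS S) {W : Submodule (ZMod p) (↥H → ZMod p)}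
    (hW : W ≤ sha1H S H) {fC : ↥W × (PlS S H → ZMod p)}
    {m₀ : (Gam ⧸ H → ZMod p) →ₗ[ZMod p] ZMod p}
    (hb : ∀ q, (pairW hH W hW fC).1.2 q = m₀)
    (hc : ∀ g, (pairW hH W hW fC).1.1 g = dualR (muG p) (indRep H (muG p)) g m₀ - m₀) :
    ∃ z : ZMod p, fC = (0, fun _ => z) := by
  classical
  obtain ⟨f, C⟩ := fC
  have hmul := (mem_Z1_triv.1 (hW f.2).1).2
  set t : ↥S := ⟨pP p, hpS⟩
  let F : ↥S → Gam ⧸ H → ZMod p := bVal ((f : ↥H → ZMod p), C)
  have hFt : ∀ q, F q = F t := fun q => evF_injective (p := p)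
    ((hb q).trans (hb t).symm)
  have hf : ∀ g x, (f : ↥H → ZMod p) (kap H x g) = F t (g⁻¹ • x) - F t x := fun g => by
    have h1 := hc g
    rw [← hb t] at h1
    refine congrFun (evF_injective (p := p) (h1.trans ?_))
    show dualR (muG p) (indRep H (muG p)) g (evF (F t)) -
      evF (F t) = _
    rw [dualR_evF, ← map_sub]
    rfl
  have hf0 : f = 0 := Subtype.ext (funext fun h => by
    have h1 := hf (h : Gam) ((1 : Gam) : Gam ⧸ H)
    have hfix : (h : Gam)⁻¹ • ((1 : Gam) : Gam ⧸ H) = ((1 : Gam) : Gam ⧸ H) := by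
      rw [inv_smul_eq_iff, MulAction.Quotient.smul_coe, QuotientGroup.eq]; simp
    have e : kap H ((1 : Gam) : Gam ⧸ H) (h : Gam) = h :=
      Subtype.ext (by rw [coe_kap, hfix, sec_one]; simp)
    rw [e, hfix, sub_self] at h1
    exact h1)
  subst hf0
  refine ⟨F t ((1 : Gam) : Gam ⧸ H), Prod.ext rfl (funext fun qv => ?_)⟩
  obtain ⟨q, v⟩ := qv
  have he : ((orbE (q : Nat.Primes)).symm (v.rep : Gam ⧸ H)).1 = v := by
    rw [(Equiv.symm_apply_eq _).2 (show (v.rep : Gam ⧸ H) = orbE (H := H) (q : Nat.Primes)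
      ⟨v, ((1 : GamQ ((q : Nat.Primes) : ℕ)) :
        GamQ ((q : Nat.Primes) : ℕ) ⧸ stab ((q : Nat.Primes) : ℕ) H v.rep)⟩ from by
        show _ = orbMap (H := H) ((q : Nat.Primes) : ℕ) v.rep
          ((1 : GamQ ((q : Nat.Primes) : ℕ)) :
            GamQ ((q : Nat.Primes) : ℕ) ⧸ stab ((q : Nat.Primes) : ℕ) H v.rep)
        rw [orbMap_mk, map_one, one_mul])]
  have h1 := hf v.rep (v.rep : Gam ⧸ H)
  rw [show (v.rep)⁻¹ • (v.rep : Gam ⧸ H) = ((1 : Gam) : Gam ⧸ H) from by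
    rw [MulAction.Quotient.smul_coe, smul_eq_mul, inv_mul_cancel]] at h1
  simp only [ZeroMemClass.coe_zero, Pi.zero_apply, ← hFt q] at h1
  rw [eq_comm, sub_eq_zero] at h1
  show C ⟨q, v⟩ = F t _
  rw [← hFt q, h1]
  simp only [F, bVal, he, ZeroMemClass.coe_zero, Pi.zero_apply, sub_zero]

/-! ### Counting -/

theorem muG_smooth_LS (hpS : pP p ∈ S) : Smooth (LS S) (muG p) :=
  smooth_of_le (Hm_mem_LS hpS 0) (muG_eq_one (Hm_muFix 0))

/-- A large family of functionals through a map forces it to be surjective. -/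
theorem surjective_of_functionals {K A V₂ V : Type*} [Field K] [AddCommGroup A] [Module K A]
    [FiniteDimensional K A] [AddCommGroup V₂] [Module K V₂] [AddCommGroup V] [Module K V]
    [FiniteDimensional K V] (T : A →ₗ[K] Module.Dual K V₂) (ψ : V₂ →ₗ[K] V)
    (h : ∀ a x, ψ x = 0 → T a x = 0)
    (hdim : finrank K V + finrank K ↥(LinearMap.ker T) ≤ finrank K A) :
    Function.Surjective ψ ∧ ∀ φ : V →ₗ[K] K, ∃ a, ∀ x, T a x = φ (ψ x) := by
  have hR : LinearMap.range T ≤ LinearMap.range ψ.dualMap := by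
    rintro _ ⟨a, rfl⟩
    rw [LinearMap.range_dualMap_eq_dualAnnihilator_ker, Submodule.mem_dualAnnihilator]
    exact fun x hx => h a x hx
  have h1 := LinearMap.finrank_range_add_finrank_ker T
  have h2 := LinearMap.finrank_range_add_finrank_ker ψ.dualMap
  rw [Subspace.dual_finrank_eq] at h2
  have h3 := Submodule.finrank_mono hR
  have hinj : Function.Injective ψ.dualMap := by
    rw [← LinearMap.ker_eq_bot, ← Submodule.finrank_eq_zero (R := K)]
    omega
  refine ⟨LinearMap.dualMap_injective_iff.1 hinj, fun φ => ?_⟩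
  have e : LinearMap.range T = LinearMap.range ψ.dualMap :=
    Submodule.eq_of_le_of_finrank_le hR (by omega)
  obtain ⟨a, ha⟩ : ψ.dualMap φ ∈ LinearMap.range T := e.symm ▸ ⟨φ, rfl⟩
  exact ⟨a, fun x => by rw [ha]; rfl⟩

variable (GI : GlobalInputs p) (hodd : p ≠ 2)
  (lam : ∀ q : Nat.Primes, H2 (LQ (q : ℕ)) (muQ p (q : ℕ)) →ₗ[ZMod p] ZMod p)
  (hlam : ∀ q, Function.Bijective (lam q))
  (hrec : ∀ (S : Finset Nat.Primes) (z : H2 LG (muG p)),
    (∀ q, q ∉ S → locQ p (q : ℕ) z = 0) → ∑ q ∈ S, lam q (locQ p (q : ℕ) z) = 0)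
  (hpS : pP p ∈ S)
include GI hodd hlam hrec hpS

omit [Fintype (Gam ⧸ H)] in
/-- The duality for modules induced from a level fixing the roots of unity. -/
theorem indH_facts (hH : H ∈ LS S) (hμ : (cyc p).MuFix H) {V₀ : Subgroup Gam} (hV₀ : V₀ ∈ LS S) :
    ∃ U, Deep p S U ∧ U ≤ V₀ ∧ U ≤ H ∧ FiniteDimensional (ZMod p) (H2 (LS S) (indRep H (muG p))) ∧
      ∀ [Fintype (Gam ⧸ U)],
        Function.Surjective (H2push (LS S) (indRep U (indRep H (muG p))) (indRep H (muG p))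
          (indSum (k := ZMod p) U) (indSum_equivariant U _)) ∧
        ∀ φ : H2 (LS S) (indRep H (muG p)) →ₗ[ZMod p] ZMod p,
          ∃ (a : ↥(pairsA S (indRep H (muG p)))) (hU : ∀ g, ∀ u ∈ U, a.1.1 (g * u) = a.1.1 g),
            ∀ B, rawF lam a hU B = φ (H2push (LS S) (indRep U (indRep H (muG p)))
              (indRep H (muG p)) (indSum (k := ZMod p) U) (indSum_equivariant U _) B) := by
  classical
  have hfi := (LS S).finiteIndex hH
  let _ : Fintype (Gam ⧸ H) := Fintype.ofFinite _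
  obtain ⟨W, hW, hWfin, hfd, hdim⟩ := exists_dim_bound GI hodd lam hlam hrec hpS hH hμ
  have := finite_PlS (S := S) (LS_le_LG hH)
  let _ : Fintype (PlS S H) := Fintype.ofFinite _
  let e : H2 (LS S) (indRep H (muG p)) ≃ₗ[ZMod p] H2 (LSH S H) (triv (ZMod p) ↥H) :=
    (shEquiv hH (muG_smooth_LS hpS)).trans (H2eq (LSH S H) (muG_comp hμ))
  have hfd' : FiniteDimensional (ZMod p) (H2 (LS S) (indRep H (muG p))) := e.symm.finiteDimensional
  -- a common level
  have hWfinite : Finite ↥W := Module.finite_of_finite (ZMod p)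
  let _ : Fintype ↥W := Fintype.ofFinite _
  have hlev : ∀ f : ↥W, ∃ V ∈ LS S, ∀ g, ∀ s ∈ V,
      cMap (f : ↥H → ZMod p) (g * s) = cMap (f : ↥H → ZMod p) g := fun f =>
    (mem_Z1.1 (cMap_mem_Z1 hH (hW f.2).1)).1
  choose V hV hVc using hlev
  obtain ⟨U, hD, hUle⟩ := exists_deep hpS ((LS S).inf_mem ((LS S).inf_mem hV₀ hH)
    (Finset.inf_induction (s := (Finset.univ : Finset ↥W)) (f := V) (p := fun X => X ∈ LS S)
      (LS S).top_mem (fun a ha b hb => (LS S).inf_mem ha hb) fun f _ => hV f))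
  have hUH : U ≤ H := hUle.trans (inf_le_left.trans inf_le_right)
  refine ⟨U, hD, hUle.trans (inf_le_left.trans inf_le_left), hUH, hfd', fun {_} => ?_⟩
  have := hD.normal
  have hρ := indRep_eq_one (H := H) hUH (muG_eq_one hD.muFix)
  have hU : ∀ (fC : ↥W × (PlS S H → ZMod p)) g, ∀ u ∈ U,
      (pairW hH W hW fC).1.1 (g * u) = (pairW hH W hW fC).1.1 g := fun fC g u hu =>
    hVc fC.1 g u (Finset.inf_le (f := V) (Finset.mem_univ fC.1) (hUle hu).2)
  let T : (↥W × (PlS S H → ZMod p)) →ₗ[ZMod p]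
      H2 (LS S) (indRep U (indRep H (muG p))) →ₗ[ZMod p] ZMod p :=
    { toFun := fun fC => rawF lam (pairW hH W hW fC) (hU fC)
      map_add' := fun a a' => LinearMap.ext fun B => by
        rw [LinearMap.add_apply, ← rawF_add lam _ _ (hU a) (hU a') (fun g u hu => by
          rw [← map_add]; exact hU (a + a') g u hu)]
        simp only [← map_add]
      map_smul' := fun c a => LinearMap.ext fun B => by
        rw [RingHom.id_apply, LinearMap.smul_apply, ← rawF_smul lam c _ (hU a) (fun g u hu => by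
          rw [← map_smul]; exact hU (c • a) g u hu)]
        simp only [← map_smul] }
  have hker : finrank (ZMod p) ↥(LinearMap.ker T) ≤ 1 := by
    refine (Submodule.finrank_mono (t := (ZMod p) ∙ ((0, fun _ => 1) : ↥W × (PlS S H → ZMod p)))
      fun fC hfC => ?_).trans ((finrank_span_le_card _).trans (by simp))
    obtain ⟨m₀, hb, hc⟩ := eq_const_of_rawF_eq_zero GI hodd lam hlam hrec hpS hD hρ _ (hU fC)
      fun B => LinearMap.congr_fun (LinearMap.mem_ker.1 hfC) B
    obtain ⟨z, rfl⟩ := pairW_trivial hpS hH hW hb hc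
    exact Submodule.mem_span_singleton.2 ⟨z, Prod.ext (smul_zero z)
      (funext fun _ => mul_one z)⟩
  obtain ⟨h1, h2⟩ := surjective_of_functionals T
    (H2push (LS S) (indRep U (indRep H (muG p))) (indRep H (muG p))
      (indSum (k := ZMod p) U) (indSum_equivariant U _))
    (fun fC B hB => rawF_eq_zero_of_push lam hrec hpS hD.mem (smooth_of_le hD.mem hρ) _
      (hU fC) B hB)
    (by
      rw [e.finrank_eq, Module.finrank_prod, Module.finrank_pi, ← Nat.card_eq_fintype_card]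
      omega)
  refine ⟨h1, fun φ => ?_⟩
  obtain ⟨fC, hfC⟩ := h2 φ
  exact ⟨pairW hH W hW fC, hU fC, hfC⟩

omit GI hodd hlam hrec hpS

end Induced

end Fermat.Agent.PT
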