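import Mathlib.Algebra.Field.ZMod
import Mathlib.Tactic.Abel
import Mathlib.Tactic.Ring
import Fermat.Agent.PT.Krull

/-!
# Kummer theory for level-constant cochains

`Cyc` fixes a primitive `p`-th root of unity together with its character; `mu` transports `ZMod p`
to the roots of unity.  We prove that `H¹(H, μ_p)` is given by `p`-th roots and that a
`μ_p`-valued `2`-cocycle which is a coboundary in `Ωˣ` is a coboundary.
-/

noncomputable section

namespace Fermat.Agent.PT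

open Lv

variable (F Ω : Type*) [Field F] [Field Ω] [Algebra F Ω]

local notation "𝒢" => (Ω ≃ₐ[F] Ω)

/-- A primitive root of unity with its character. -/
structure Cyc (p : ℕ) where
  /-- The primitive `p`-th root of unity. -/
  ζ : Ωˣ
  prim : IsPrimitiveRoot ζ p
  /-- The cyclotomic character modulo `p`. -/
  ω : (Ω ≃ₐ[F] Ω) →* (ZMod p)ˣ
  act : ∀ g : Ω ≃ₐ[F] Ω, g • ζ = ζ ^ ((ω g : ZMod p)).val

variable {F Ω} {p : ℕ} [Fact p.Prime] (C : Cyc F Ω p)

namespace Cyc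

/-- The one-dimensional representation `μ_p`, written additively on `ZMod p`. -/
def rep : Representation (ZMod p) 𝒢 (ZMod p) where
  toFun g := ((C.ω g : ZMod p)) • LinearMap.id
  map_one' := by ext; simp
  map_mul' g h := by ext; simp [mul_comm]

theorem rep_apply (g : 𝒢) (z : ZMod p) : C.rep g z = (C.ω g : ZMod p) * z := by simp [rep]

/-- `ZMod p → μ_p`. -/
def mu (z : ZMod p) : Ωˣ := C.ζ ^ z.val

theorem zeta_pow_eq (n : ℕ) : C.ζ ^ n = C.mu (n : ZMod p) := by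
  rw [mu, ZMod.val_natCast]
  exact pow_eq_pow_mod n C.prim.pow_eq_one

theorem mu_zero : C.mu 0 = 1 := by simp [mu]

theorem mu_add (a b : ZMod p) : C.mu (a + b) = C.mu a * C.mu b := by
  conv_rhs => rw [mu, mu, ← pow_add, C.zeta_pow_eq, Nat.cast_add, ZMod.natCast_zmod_val,
    ZMod.natCast_zmod_val]

theorem mu_injective : Function.Injective C.mu := fun a b h =>
  ZMod.val_injective p (C.prim.pow_inj (ZMod.val_lt a) (ZMod.val_lt b) h)

theorem mu_neg (a : ZMod p) : C.mu (-a) = (C.mu a)⁻¹ :=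
  eq_inv_of_mul_eq_one_left (by rw [← mu_add, neg_add_cancel, mu_zero])

theorem mu_sub (a b : ZMod p) : C.mu (a - b) = C.mu a / C.mu b := by
  rw [sub_eq_add_neg, mu_add, mu_neg, div_eq_mul_inv]

theorem mu_mul (a b : ZMod p) : C.mu (a * b) = C.mu b ^ a.val := by
  conv_rhs => rw [mu, ← pow_mul, mul_comm b.val, C.zeta_pow_eq (a.val * b.val), Nat.cast_mul,
    ZMod.natCast_zmod_val, ZMod.natCast_zmod_val]

theorem smul_mu (g : 𝒢) (z : ZMod p) : g • C.mu z = C.mu ((C.ω g : ZMod p) * z) := by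
  rw [mu, smul_pow', C.act, ← pow_mul, C.zeta_pow_eq, Nat.cast_mul, ZMod.natCast_zmod_val,
    ZMod.natCast_zmod_val]

omit [Fact p.Prime] in
theorem mu_pow (z : ZMod p) : C.mu z ^ p = 1 := by
  rw [mu, pow_right_comm, C.prim.pow_eq_one, one_pow]

/-- `μ_p → ZMod p`. -/
def lg (u : Ωˣ) : ZMod p :=
  haveI := Classical.dec (∃ z, C.mu z = u)
  if h : ∃ z, C.mu z = u then h.choose else 0

theorem mu_lg {u : Ωˣ} (hu : u ^ p = 1) : C.mu (C.lg u) = u := by
  obtain ⟨i, hi, h⟩ := (C.prim.map_of_injective (f := Units.coeHom Ω) Units.val_injective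
    ).eq_pow_of_pow_eq_one (ξ := (u : Ω)) (by rw [← Units.val_pow_eq_pow_val, hu, Units.val_one])
  have he : ∃ z, C.mu z = u :=
    ⟨(i : ZMod p), by rw [← C.zeta_pow_eq]; exact Units.ext (by simpa using h)⟩
  rw [lg, dif_pos he]
  exact he.choose_spec

theorem lg_mu (z : ZMod p) : C.lg (C.mu z) = z := C.mu_injective (C.mu_lg (C.mu_pow z))

/-- A two-variable function into `Ωˣ` is the coboundary of a level-constant one. -/
def IsCobU [IsGalois F Ω] (H : Subgroup 𝒢) (b : ↥H × ↥H → Ωˣ) : Prop :=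
  ∃ Y : ↥H → Ωˣ, Con1 ((krull F Ω).comap H.subtype) Y ∧
    ∀ g h : ↥H, b (g, h) = (g : 𝒢) • Y h * Y g / Y (g * h)

variable {C}

variable [IsGalois F Ω] {H : Subgroup (Ω ≃ₐ[F] Ω)}

local notation "LH" => Lv.comap (krull F Ω) (Subgroup.subtype H)
local notation "μH" => MonoidHom.comp (Cyc.rep C) (Subgroup.subtype H)

omit [IsGalois F Ω] in
theorem d1_rep_apply (f : ↥H → ZMod p) (g h : ↥H) :
    d1 μH f (g, h) = (C.ω (g : 𝒢) : ZMod p) * f h - f (g * h) + f g := by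
  rw [d1_apply]
  simp [rep_apply]

theorem isCobU_of_mem_B2 {b : ↥H × ↥H → ZMod p} (hb : b ∈ B2 LH μH) :
    IsCobU H fun x => C.mu (b x) := by
  obtain ⟨y, hy, rfl⟩ := mem_B2.1 hb
  refine ⟨fun g => C.mu (y g), hy.comp _, fun g h => ?_⟩
  simp only [d1_rep_apply, C.mu_add, C.mu_sub, C.smul_mu]
  rw [div_mul_eq_mul_div]

theorem IsCobU.mul {b b' : ↥H × ↥H → Ωˣ} (hb : IsCobU H b) (hb' : IsCobU H b') :
    IsCobU H fun x => b x * b' x := by
  obtain ⟨Y, hY, e⟩ := hb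
  obtain ⟨Y', hY', e'⟩ := hb'
  refine ⟨fun g => Y g * Y' g, hY.map₂ hY' (· * ·), fun g h => ?_⟩
  simp only [e, e', smul_mul', div_mul_div_comm]
  congr 1
  exact mul_mul_mul_comm _ _ _ _

theorem IsCobU.inv {b : ↥H × ↥H → Ωˣ} (hb : IsCobU H b) : IsCobU H fun x => (b x)⁻¹ := by
  obtain ⟨Y, hY, e⟩ := hb
  refine ⟨fun g => (Y g)⁻¹, hY.comp (·⁻¹), fun g h => ?_⟩
  simp only [e, smul_inv', inv_inv, div_eq_mul_inv, mul_inv_rev]
  simp [mul_comm, mul_left_comm]

theorem isCobU_congr {b b' : ↥H × ↥H → Ωˣ} (h : ∀ x, b x = b' x) (hb : IsCobU H b) :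
    IsCobU H b' := by
  obtain rfl : b = b' := funext h
  exact hb

/-- The coboundary of a level-constant function is one. -/
theorem isCobU_d (Y : ↥H → Ωˣ) (hY : Con1 LH Y) :
    IsCobU H fun x => (x.1 : 𝒢) • Y x.2 * Y x.1 / Y (x.1 * x.2) :=
  ⟨Y, hY, fun _ _ => rfl⟩

omit [IsGalois F Ω] [Fact p.Prime] in
theorem exists_root [IsAlgClosed Ω] (hp : 0 < p) (x : Ωˣ) : ∃ r : Ωˣ, r ^ p = x := by
  obtain ⟨z, hz⟩ := IsAlgClosed.exists_pow_nat_eq (x : Ω) hp
  have hz0 : z ≠ 0 := fun h => x.ne_zero (by rw [← hz, h, zero_pow hp.ne'])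
  exact ⟨Units.mk0 z hz0, Units.ext (by simpa using hz)⟩

variable (C H) in
/-- The Kummer cochain of `r`. -/
def kum (r : Ωˣ) (h : ↥H) : ZMod p := C.lg ((h : 𝒢) • r / r)

omit [IsGalois F Ω] in
theorem mu_kum {r : Ωˣ} (hr : ∀ h : ↥H, (h : 𝒢) • r ^ p = r ^ p) (h : ↥H) :
    C.mu (C.kum H r h) = (h : 𝒢) • r / r :=
  C.mu_lg (by rw [div_pow, ← smul_pow', hr, div_self'])

theorem kum_mem_Z1 {r : Ωˣ} (hr : ∀ h : ↥H, (h : 𝒢) • r ^ p = r ^ p) :
    C.kum H r ∈ Z1 LH μH := by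
  rw [mem_Z1]
  constructor
  · obtain ⟨U, hU, hfix⟩ := exists_level_fixing_units (F := F) r
    exact ⟨U.comap H.subtype, comap_mem_comap _ hU, fun g s hs => by
      simp only [kum, Subgroup.coe_mul, mul_smul, show (s : 𝒢) • r = r from hfix _ hs]⟩
  · intro g h
    apply C.mu_injective
    simp only [MonoidHom.coe_comp, Function.comp_apply, Subgroup.coe_subtype, rep_apply,
      C.mu_add, ← C.smul_mu, mu_kum hr, Subgroup.coe_mul, mul_smul, smul_div', div_mul_div_cancel]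

/-- Kummer theory: every level-constant cocycle is given by a `p`-th root. -/
theorem exists_kum {f : ↥H → ZMod p} (hf : f ∈ Z1 LH μH) :
    ∃ r : Ωˣ, (∀ h : ↥H, (h : 𝒢) • r ^ p = r ^ p) ∧ ∀ h, f h = C.kum H r h := by
  rw [mem_Z1] at hf
  obtain ⟨r, hr⟩ := hilbert90 H (fun h => C.mu (f h)) (hf.1.comp _) fun g h => by
    simp only [hf.2, C.mu_add, C.smul_mu, MonoidHom.coe_comp, Function.comp_apply,
      Subgroup.coe_subtype, rep_apply]
  have hr' : ∀ h : ↥H, (h : 𝒢) • r ^ p = r ^ p := fun h => by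
    have := C.mu_pow (f h)
    rw [hr, div_pow, div_eq_one, ← smul_pow'] at this
    exact this
  exact ⟨r, hr', fun h => C.mu_injective (by rw [mu_kum hr', ← hr])⟩

/-- A `μ_p`-valued cocycle which is a coboundary in `Ωˣ` is a coboundary. -/
theorem mem_B2_of_isCobU [IsAlgClosed Ω] {b : ↥H × ↥H → ZMod p}
    (hb : IsCobU H fun x => C.mu (b x)) : b ∈ B2 LH μH := by
  have hp : 0 < p := (Fact.out : p.Prime).pos
  obtain ⟨Y, hY, e⟩ := hb
  obtain ⟨w, hw⟩ := hilbert90 H (fun g => Y g ^ p) (hY.comp (· ^ p)) fun g h => by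
    have := C.mu_pow (b (g, h))
    rw [show C.mu (b (g, h)) = _ from e g h, div_pow, div_eq_one, mul_pow, ← smul_pow'] at this
    exact this.symm
  obtain ⟨r, hr⟩ := exists_root hp w
  let Z : ↥H → Ωˣ := fun g => Y g / ((g : 𝒢) • r / r)
  have hZ : ∀ g, Z g ^ p = 1 := fun g => by
    simp only [Z, div_pow, ← smul_pow', hr, hw, div_self']
  have hZc : Con1 LH Z := by
    obtain ⟨U, hU, hfix⟩ := exists_level_fixing_units (F := F) r
    have hc : Con1 LH (fun g : ↥H => (g : 𝒢) • r / r) :=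
      ⟨U.comap H.subtype, comap_mem_comap _ hU, fun g s hs => by
        simp only [Subgroup.coe_mul, mul_smul, show (s : 𝒢) • r = r from hfix _ hs]⟩
    exact hY.map₂ hc (· / ·)
  refine mem_B2.2 ⟨fun g => C.lg (Z g), hZc.comp _, funext fun ⟨g, h⟩ => C.mu_injective ?_⟩
  rw [d1_rep_apply, C.mu_add, C.mu_sub, ← C.smul_mu, C.mu_lg (hZ _), C.mu_lg (hZ _),
    C.mu_lg (hZ _), show C.mu (b (g, h)) = _ from e g h]
  simp only [Z, smul_div', Subgroup.coe_mul, mul_smul]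
  apply Additive.ofMul.injective
  simp only [div_eq_mul_inv, ofMul_mul, ofMul_inv]
  abel

end Cyc

end Fermat.Agent.PT
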