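import Mathlib.GroupTheory.Index
import Fermat.Agent.PT.Fixed
import Fermat.Agent.PT.PadicUnits

/-!
# The norm index in a cyclic extension of prime degree of local fields

In a cyclic extension of degree `p` of finite extensions of `ℚ_q` the norm group has index `p`
(`Chi.normImage_relIndex`), by the Herbrand identity and the count of `p`-th power classes.
-/

noncomputable section

namespace Fermat.Agent.PT

open Lv IntermediateField

section General

variable {F Ω : Type*} [Field F] [Field Ω] [Algebra F Ω] [IsGalois F Ω] {p : ℕ} [Fact p.Prime]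
variable {H : Subgroup (Ω ≃ₐ[F] Ω)} (X : Chi p H)

namespace Chi

theorem ker_mem_krull (hH : H ∈ krull F Ω) : X.ker ∈ krull F Ω := by
  obtain ⟨V, ⟨W, hW, hWV⟩, hV⟩ := X.con
  refine (krull F Ω).mem_of_le ((krull F Ω).inf_mem hW hH) fun g hg => ⟨hg.2, ?_⟩
  have := hV 1 ⟨g, hg.2⟩ (hWV hg.1)
  rwa [one_mul, X.map_one] at this

theorem ker_relIndex : X.ker.relIndex H = p := by
  let f : ↥H →* Multiplicative (ZMod p) :=
    MonoidHom.mk' (fun g => Multiplicative.ofAdd (X.χ g)) fun a b => by rw [X.map_mul]; rfl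
  have hf : Function.Surjective f := fun z =>
    ⟨X.σ ^ z.toAdd.val, by simp [f, X.χ_pow]⟩
  have hk : f.ker = X.ker.subgroupOf H := by
    ext g
    simp [f, MonoidHom.mem_ker, Subgroup.mem_subgroupOf, X.mem_ker]
  rw [Subgroup.relIndex, ← hk, Subgroup.index_ker, MonoidHom.range_eq_top.2 hf, Subgroup.card_top]
  simp [Nat.card_eq_fintype_card]

theorem ker_index : X.ker.index = p * H.index := by
  rw [← Subgroup.relIndex_mul_index X.ker_le, X.ker_relIndex]

theorem fixed_iff {y : Ωˣ} : X.Fixed y ↔ y ∈ fixU X.ker :=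
  ⟨fun h u => h ⟨u, X.ker_le u.2⟩ (X.mem_ker.1 u.2), fun h u hu => h ⟨u, X.mem_ker.2 hu⟩⟩

/-- The norm as a homomorphism. -/
def nrmHom : Ωˣ →* Ωˣ := MonoidHom.mk' X.nrm X.nrm_mul

/-- The norm group. -/
def normImage : Subgroup Ωˣ := (fixU X.ker).map X.nrmHom

theorem mem_normImage {a : Ωˣ} : a ∈ X.normImage ↔ ∃ y, X.Fixed y ∧ X.nrm y = a :=
  ⟨fun ⟨y, hy, e⟩ => ⟨y, X.fixed_iff.2 hy, e⟩, fun ⟨y, hy, e⟩ => ⟨y, X.fixed_iff.1 hy, e⟩⟩

/-- Hilbert 90 for a cyclic extension of degree `p`. -/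
theorem exists_eq_div_smul {a : Ωˣ} (ha : X.Fixed a) (h1 : X.nrm a = 1) :
    ∃ b : Ωˣ, X.Fixed b ∧ a = b / (X.σ : Ω ≃ₐ[F] Ω) • b := by
  have hp : p.Prime := Fact.out
  let P : ℕ → Ωˣ := fun n => ∏ i ∈ Finset.range n, ((X.σ ^ i : ↥H) : Ω ≃ₐ[F] Ω) • a
  have hP : ∀ n, P (n + p) = P n := fun n => by
    simp only [P, Finset.prod_range_add]
    refine mul_eq_left.2 ?_
    have e : ∀ i, ((X.σ ^ (n + i) : ↥H) : Ω ≃ₐ[F] Ω) • a =
        ((X.σ ^ n : ↥H) : Ω ≃ₐ[F] Ω) • ((X.σ ^ i : ↥H) : Ω ≃ₐ[F] Ω) • a := fun i => by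
      rw [← mul_smul, ← Subgroup.coe_mul, ← pow_add]
    rw [Finset.prod_congr rfl fun i _ => e i, ← Finset.smul_prod']
    rw [show ∏ i ∈ Finset.range p, ((X.σ ^ i : ↥H) : Ω ≃ₐ[F] Ω) • a = X.nrm a from rfl, h1,
      smul_one]
  obtain ⟨y, hy⟩ := hilbert90 H (fun g => P (X.χ g).val) (X.con.comp fun z => P z.val) fun g h => by
    have hs : (g : Ω ≃ₐ[F] Ω) • P (X.χ h).val * P (X.χ g).val =
        P ((X.χ g).val + (X.χ h).val) := by
      simp only [P]
      rw [Finset.prod_range_add, mul_comm, Finset.smul_prod']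
      congr 1
      refine Finset.prod_congr rfl fun i _ => ?_
      rw [← mul_smul, ← Subgroup.coe_mul]
      refine ha.smul_eq ?_
      rw [X.map_mul, X.χ_pow, X.χ_pow, Nat.cast_add, ZMod.natCast_zmod_val]
    rw [hs, X.map_mul]
    by_cases hc : p ≤ (X.χ g).val + (X.χ h).val
    · obtain ⟨m, hm⟩ := Nat.exists_eq_add_of_le hc
      rw [ZMod.val_add_of_le hc, hm, Nat.add_sub_cancel_left, add_comm, hP]
    · rw [ZMod.val_add_of_lt (not_le.1 hc)]
  have hyf : X.Fixed y := fun u hu => by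
    have := hy u
    rw [hu, ZMod.val_zero, show P 0 = 1 from Finset.prod_range_zero _, eq_comm, div_eq_one] at this
    exact this
  refine ⟨y⁻¹, fun u hu => by rw [smul_inv', hyf u hu], ?_⟩
  have := hy X.σ
  rw [X.χ_σ, ZMod.val_one, show P 1 = a by
      simp only [P, Finset.prod_range_one, pow_zero, Subgroup.coe_one, one_smul]] at this
  rw [this, smul_inv', inv_div_inv]

/-- The action of the chosen generator on the units fixed by the kernel. -/
def σEnd : AddMonoid.End (Additive (fixU X.ker)) :=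
  MonoidHom.toAdditive (MonoidHom.mk'
    (fun x : fixU X.ker => (⟨(X.σ : Ω ≃ₐ[F] Ω) • (x : Ωˣ), fun u => by
      have hu : X.χ ⟨u, X.ker_le u.2⟩ = 0 := X.mem_ker.1 u.2
      rw [← mul_smul]
      refine (X.fixed_iff.2 x.2).smul_eq (g := ⟨u, X.ker_le u.2⟩ * X.σ) ?_
      rw [X.map_mul, hu, zero_add]⟩ : fixU X.ker))
    fun a b => Subtype.ext (smul_mul' _ _ _))

theorem coe_σEnd_pow (i : ℕ) (a : Additive (fixU X.ker)) :
    ((((X.σEnd ^ i) a).toMul : fixU X.ker) : Ωˣ) =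
      ((X.σ ^ i : ↥H) : Ω ≃ₐ[F] Ω) • (a.toMul : Ωˣ) := by
  induction i generalizing a with
  | zero => simp
  | succ i ih =>
    rw [pow_succ, pow_succ]
    show ((((X.σEnd ^ i) (X.σEnd a)).toMul : fixU X.ker) : Ωˣ) = _
    rw [ih, Subgroup.coe_mul, mul_smul]
    rfl

theorem σEnd_pow_prime : X.σEnd ^ p = 1 :=
  AddMonoidHom.ext fun a => Additive.toMul.injective <| Subtype.ext <|
    (X.coe_σEnd_pow p a).trans ((X.fixed_iff.2 a.toMul.2) _ (by rw [X.χ_pow, ZMod.natCast_self]))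

/-- The units fixed by `σ` among those fixed by the kernel are the units fixed by `H`. -/
theorem σEnd_eq_self_iff (a : Additive (fixU X.ker)) :
    X.σEnd a = a ↔ (a.toMul : Ωˣ) ∈ fixU H := by
  refine ⟨fun ha g => ?_, fun ha => Additive.toMul.injective (Subtype.ext (ha X.σ))⟩
  have h1 : ∀ i : ℕ, (X.σEnd ^ i) a = a := fun i => by
    induction i with
    | zero => rfl
    | succ i ih => rw [pow_succ]; exact (congrArg _ ha).trans ih
  refine ((X.fixed_iff.2 a.toMul.2).smul_eq (g' := X.σ ^ (X.χ g).val) ?_).trans ?_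
  · rw [X.χ_pow, ZMod.natCast_zmod_val]
  · rw [← X.coe_σEnd_pow, h1]

end Chi

end General

variable {q p : ℕ} [Fact q.Prime] [Fact p.Prime]
variable {H : Subgroup (PadicAlgCl q ≃ₐ[ℚ_[q]] PadicAlgCl q)}

/-- The Herbrand ratio of the `p`-th power on the units fixed by a level. -/
theorem hq_fixU (hodd : p ≠ 2) (hH : H ∈ krull ℚ_[q] (PadicAlgCl q)) :
    FinHq (mulHom p (Additive (fixU H))) ∧
      hq (mulHom p (Additive (fixU H))) = p * degreeFactor q p H.index := by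
  have := finiteDimensional_fixedField hH
  obtain ⟨h1, h2⟩ := hq_localUnits (p := p) (fixedField H) hodd
  obtain ⟨e1, e2⟩ := hq_mulHom_congr p (MulEquiv.toAdditive (fixUEquiv H))
  refine ⟨e1 h1, e2.symm.trans (h2.trans ?_)⟩
  rw [finrank_fixedField hH]

/-- The norm group has index `p`. -/
theorem Chi.normImage_relIndex (hodd : p ≠ 2) (hH : H ∈ krull ℚ_[q] (PadicAlgCl q))
    (X : Chi p H) : X.normImage.relIndex (fixU H) = p := by
  have hp : p.Prime := Fact.out
  set A := Additive (fixU X.ker)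
  let σ : AddMonoid.End A := X.σEnd
  have hmem : ∀ a : A, X.nrm (a.toMul : (PadicAlgCl q)ˣ) ∈ fixU X.ker := fun a u =>
    X.smul_nrm (X.fixed_iff.2 a.toMul.2) ⟨u, X.ker_le u.2⟩
  let N : A →+ A := AddMonoidHom.mk' (fun a => Additive.ofMul ⟨_, hmem a⟩) fun a b => by
    apply Additive.toMul.injective
    exact Subtype.ext (X.nrm_mul _ _)
  let G₀ : AddSubgroup A := AddMonoidHom.eqLocus (σ : A →+ A) (AddMonoidHom.id A)
  have hcoe : ∀ (t : Finset ℕ) (f : ℕ → A), ((((∑ i ∈ t, f i)).toMul : fixU X.ker) :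
      (PadicAlgCl q)ˣ) = ∏ i ∈ t, ((f i).toMul : (PadicAlgCl q)ˣ) := fun t f =>
    (congrArg Subtype.val (toMul_sum t f)).trans (SubmonoidClass.coe_finsetProd _ _)
  have hext : ∀ a b : A, (a.toMul : (PadicAlgCl q)ˣ) = (b.toMul : (PadicAlgCl q)ˣ) → a = b :=
    fun a b h => Additive.toMul.injective (Subtype.ext h)
  have hN : ∀ a, N a = ∑ i ∈ Finset.range p, (σ ^ i) a := fun a => hext _ _ <| by
    rw [hcoe]
    simp only [σ, X.coe_σEnd_pow]
    rfl
  have h90 : ∀ a, N a = 0 → ∃ b, a = b - σ b := fun a ha => by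
    obtain ⟨b, hb, e⟩ := X.exists_eq_div_smul (X.fixed_iff.2 a.toMul.2)
      (congrArg (fun z : A => ((z.toMul : fixU X.ker) : (PadicAlgCl q)ˣ)) ha)
    refine ⟨Additive.ofMul ⟨b, X.fixed_iff.1 hb⟩, hext _ _ ?_⟩
    rw [e, sub_eq_add_neg, toMul_add, toMul_neg, Subgroup.coe_mul, Subgroup.coe_inv,
      ← div_eq_mul_inv]
    rfl
  -- the fixed part
  let ι : Additive (fixU H) →+ G₀ := AddMonoidHom.mk'
    (fun a => ⟨Additive.ofMul ⟨(a.toMul : (PadicAlgCl q)ˣ), fun u =>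
      a.toMul.2 ⟨u, X.ker_le u.2⟩⟩, (X.σEnd_eq_self_iff _).2 a.toMul.2⟩)
    fun a b => Subtype.ext (hext _ _ rfl)
  have hι : Function.Bijective ι := by
    refine ⟨fun a b h => Additive.toMul.injective (Subtype.ext ?_), fun z =>
      ⟨Additive.ofMul ⟨_, (X.σEnd_eq_self_iff z).1 z.2⟩, Subtype.ext (hext _ _ rfl)⟩⟩
    exact congrArg (fun z : G₀ => (((z : A).toMul : fixU X.ker) : (PadicAlgCl q)ˣ)) h
  let e : Additive (fixU H) ≃+ G₀ := AddEquiv.ofBijective ι hι
  obtain ⟨hAf, hAv⟩ := hq_fixU (p := p) hodd (X.ker_mem_krull hH)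
  obtain ⟨hHf, hHv⟩ := hq_fixU (p := p) hodd hH
  obtain ⟨e1, e2⟩ := hq_mulHom_congr p e
  obtain ⟨hi0, hi⟩ := herbrand X.σEnd_pow_prime G₀ (fun a => Iff.rfl) N hN h90 hAf (e1 hHf)
  rw [hAv, ← e2, hHv, X.ker_index] at hi
  -- transfer of the index
  have hidx : X.normImage.relIndex (fixU H) = N.range.relIndex G₀ := by
    let j : A →+ Additive (PadicAlgCl q)ˣ := MonoidHom.toAdditive (fixU X.ker).subtype
    have hj : Function.Injective j := fun a b h => hext a b h
    rw [← AddSubgroup.relIndex_map_map_of_injective N.range G₀ hj,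
      ← Subgroup.relIndex_toAddSubgroup]
    congr 1
    · ext z
      constructor
      · rintro ⟨y, hy, rfl⟩
        exact ⟨N (Additive.ofMul ⟨y, hy⟩), ⟨_, rfl⟩, rfl⟩
      · rintro ⟨_, ⟨a, rfl⟩, rfl⟩
        exact ⟨_, a.toMul.2, rfl⟩
    · ext z
      constructor
      · intro hz
        exact ⟨Additive.ofMul ⟨z.toMul, fun u => hz ⟨u, X.ker_le u.2⟩⟩,
          (X.σEnd_eq_self_iff _).2 hz, rfl⟩
      · rintro ⟨a, ha, rfl⟩
        exact (X.σEnd_eq_self_iff a).1 ha
  rw [hidx]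
  have hpd : (p : ℚ) * degreeFactor q p (p * H.index) * (p : ℚ) ^ (p - 1) =
      ((p : ℚ) * degreeFactor q p H.index) ^ p := by
    have : degreeFactor q p (p * H.index) = degreeFactor q p H.index ^ p := by
      rw [degreeFactor, degreeFactor]
      split_ifs
      · rw [← pow_mul, mul_comm]
      · rw [one_pow]
    rw [this, mul_pow, mul_right_comm, ← pow_succ', Nat.sub_add_cancel hp.one_le]
  rw [← hpd, mul_comm ((p : ℚ) * _)] at hi
  have hne : (p : ℚ) * degreeFactor q p (p * H.index) ≠ 0 :=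
    mul_ne_zero (by exact_mod_cast hp.ne_zero)
      (zero_lt_one.trans_le (one_le_degreeFactor _)).ne'
  have h := mul_right_cancel₀ hne hi
  exact Nat.pow_left_injective (Nat.sub_ne_zero_of_lt hp.one_lt) (by exact_mod_cast h)

end Fermat.Agent.PT
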