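import Mathlib.GroupTheory.IndexNormal
import Mathlib.GroupTheory.SpecificGroups.Cyclic
import Mathlib.GroupTheory.Sylow
import Mathlib.RingTheory.RootsOfUnity.AlgebraicallyClosed
import Fermat.Agent.PT.LocalField

/-!
# Characters from normal subgroups of index `p`; a primitive root with its character

A normal subgroup of index `p` is the kernel of a character, and a `p`-group quotient has such a
subgroup above it.
-/

noncomputable section

namespace Fermat.Agent.PT

open Lv

variable {F Ω : Type*} [Field F] [Field Ω] [Algebra F Ω] [IsGalois F Ω] {p : ℕ} [Fact p.Prime]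

/-- A normal subgroup of index `p` is the kernel of a character. -/
theorem exists_chi_ker {H V : Subgroup (Ω ≃ₐ[F] Ω)} (hV : V ∈ krull F Ω) (hVH : V ≤ H)
    (hn : (V.subgroupOf H).Normal) (hi : V.relIndex H = p) : ∃ X : Chi p H, X.ker = V := by
  have hcard : Nat.card (↥H ⧸ V.subgroupOf H) = p := hi
  have hZ : Nat.card (Multiplicative (ZMod p)) = p := by simp [Nat.card_eq_fintype_card]
  let e : (↥H ⧸ V.subgroupOf H) ≃* Multiplicative (ZMod p) := mulEquivOfPrimeCardEq hcard hZ
  let χ : ↥H → ZMod p := fun g => (e (g : ↥H ⧸ V.subgroupOf H)).toAdd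
  have hmul : ∀ g h, χ (g * h) = χ g + χ h := fun g h => by simp [χ]
  have hker : ∀ g, χ g = 0 ↔ (g : Ω ≃ₐ[F] Ω) ∈ V := fun g => by
    simp only [χ, toAdd_eq_zero, MulEquiv.map_eq_one_iff, QuotientGroup.eq_one_iff,
      Subgroup.mem_subgroupOf]
  have hex : ∃ g, χ g = 1 := by
    obtain ⟨g, hg⟩ := QuotientGroup.mk_surjective (e.symm (Multiplicative.ofAdd 1))
    exact ⟨g, by simp [χ, hg]⟩
  refine ⟨⟨χ, hmul, ⟨V.comap H.subtype, comap_mem_comap _ hV, fun g s hs => ?_⟩,
    hex.choose, hex.choose_spec⟩, ?_⟩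
  · rw [hmul, (hker s).2 hs, add_zero]
  · ext g
    constructor
    · intro h
      obtain ⟨hg, h'⟩ := h
      exact (hker ⟨g, hg⟩).1 h'
    · intro h
      exact ⟨hVH h, (hker ⟨g, hVH h⟩).2 h⟩

omit [IsGalois F Ω] in
/-- A `p`-group quotient has a normal subgroup of index `p` above it. -/
theorem exists_index_p_above {G : Type*} [Group G] (U : Subgroup G) [U.Normal] {m : ℕ}
    (hU : U.index = p ^ (m + 1)) : ∃ W : Subgroup G, W.Normal ∧ U ≤ W ∧ W.index = p := by
  have hp : p.Prime := Fact.out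
  have hfi : U.FiniteIndex := ⟨by rw [hU]; exact pow_ne_zero _ hp.ne_zero⟩
  have : Finite (G ⧸ U) := Subgroup.finite_quotient_of_finiteIndex
  have hc : Nat.card (G ⧸ U) = p ^ (m + 1) := hU
  obtain ⟨W₀, hW₀⟩ := Sylow.exists_subgroup_card_pow_prime (G := G ⧸ U) p (n := m)
    (by rw [hc]; exact pow_dvd_pow p (Nat.le_succ m))
  have hWi : W₀.index = p := by
    have := W₀.card_mul_index
    rw [hW₀, hc, pow_succ] at this
    exact Nat.eq_of_mul_eq_mul_left (pow_pos hp.pos m) this
  have : W₀.Normal := Subgroup.normal_of_index_eq_minFac_card (by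
    rw [hWi, hc, Nat.pow_minFac (Nat.succ_ne_zero m), hp.minFac_eq])
  refine ⟨W₀.comap (QuotientGroup.mk' U), Subgroup.Normal.comap this _, fun g hg => ?_, ?_⟩
  · rw [Subgroup.mem_comap, QuotientGroup.mk'_apply, (QuotientGroup.eq_one_iff g).2 hg]
    exact one_mem _
  · rw [Subgroup.index_comap_of_surjective _ (QuotientGroup.mk'_surjective U), hWi]

/-- The induction step from a normal level `U` to `H`: unless `U = H`, either some intermediate
level of index prime to `p` in `H` is closer to `U`, or the kernel of some character of `H` is. -/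
theorem eq_or_exists_closer_level {H U : Subgroup (Ω ≃ₐ[F] Ω)} (hUH : U ≤ H)
    (hUL : U ∈ krull F Ω) (hUn : U.Normal) :
    U = H ∨ (∃ V, U ≤ V ∧ V ≤ H ∧ V ∈ krull F Ω ∧ U.relIndex V < U.relIndex H ∧
      ¬ p ∣ V.relIndex H) ∨ ∃ X : Chi p H, U ≤ X.ker ∧ U.relIndex X.ker < U.relIndex H := by
  obtain ⟨n, hn⟩ : ∃ n, U.relIndex H = n := ⟨_, rfl⟩
  rw [hn]
  have hp : p.Prime := Fact.out
  have hUn' : (U.subgroupOf H).Normal := hUn.subgroupOf H
  have hfi : (U.subgroupOf H).FiniteIndex :=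
    ((krull F Ω).comap H.subtype).finiteIndex (comap_mem_comap _ hUL)
  have hQ : Finite (↥H ⧸ U.subgroupOf H) := Subgroup.finite_quotient_of_finiteIndex
  let P : Sylow p (↥H ⧸ U.subgroupOf H) := default
  obtain ⟨k, hk⟩ := IsPGroup.iff_card.1 P.isPGroup'
  let V' : Subgroup ↥H := P.toSubgroup.comap (QuotientGroup.mk' (U.subgroupOf H))
  let V : Subgroup (Ω ≃ₐ[F] Ω) := V'.map H.subtype
  have hVH : V ≤ H := Subgroup.map_subtype_le V'
  have hUV' : U.subgroupOf H ≤ V' := fun g hg => by
    show QuotientGroup.mk' _ g ∈ P.toSubgroup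
    rw [QuotientGroup.mk'_apply, (QuotientGroup.eq_one_iff g).2 hg]
    exact one_mem _
  have hUV : U ≤ V := fun g hg => ⟨⟨g, hUH hg⟩, hUV' hg, rfl⟩
  have hVs : V.subgroupOf H = V' := by
    ext g
    simp [V, Subgroup.mem_subgroupOf]
  have hV : V ∈ krull F Ω := (krull F Ω).mem_of_le hUL hUV
  have hVi : V.relIndex H = P.toSubgroup.index := by
    rw [Subgroup.relIndex, hVs]
    exact Subgroup.index_comap_of_surjective _ (QuotientGroup.mk'_surjective _)
  have hmul : U.relIndex V * V.relIndex H = n := by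
    rw [Subgroup.relIndex_mul_relIndex U V H hUV hVH, hn]
  have hn0 : n ≠ 0 := hn ▸ hfi.index_ne_zero
  have hcop : ¬ p ∣ V.relIndex H := hVi ▸ P.not_dvd_index
  by_cases hVn : V.relIndex H = 1
  swap
  · refine Or.inr (Or.inl ⟨V, hUV, hVH, hV, ?_, hcop⟩)
    rcases Nat.eq_zero_or_pos (U.relIndex V) with h0 | h0
    · rw [h0, zero_mul] at hmul; omega
    · calc U.relIndex V < U.relIndex V * V.relIndex H := lt_mul_of_one_lt_right h0 (by
            rcases Nat.eq_zero_or_pos (V.relIndex H) with h | h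
            · exact absurd (h ▸ dvd_zero p) hcop
            · omega)
        _ = n := hmul
  have hn' : n = p ^ k := by
    rw [← hn, Subgroup.relIndex, Subgroup.index_eq_card, ← P.toSubgroup.card_mul_index,
      ← hVi, hVn, mul_one]
    exact hk
  cases k with
  | zero =>
    exact Or.inl (le_antisymm hUH (Subgroup.relIndex_eq_one.1 (by rw [hn, hn', pow_zero])))
  | succ m =>
    obtain ⟨W', hW'n, hUW', hW'i⟩ := exists_index_p_above (U.subgroupOf H) (p := p) (m := m)
      (by rw [← hn'] ; exact hn)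
    let W : Subgroup (Ω ≃ₐ[F] Ω) := W'.map H.subtype
    have hUW : U ≤ W := fun g hg => ⟨⟨g, hUH hg⟩, hUW' hg, rfl⟩
    have hWs : W.subgroupOf H = W' := by ext g; simp [W, Subgroup.mem_subgroupOf]
    have hW : W ∈ krull F Ω := (krull F Ω).mem_of_le hUL hUW
    obtain ⟨X, hX⟩ := exists_chi_ker (p := p) hW (Subgroup.map_subtype_le W') (hWs.symm ▸ hW'n)
      (by rw [Subgroup.relIndex, hWs, hW'i])
    have hUX : U ≤ X.ker := hX.symm ▸ hUW
    refine Or.inr (Or.inr ⟨X, hUX, ?_⟩)
    have h := Subgroup.relIndex_mul_relIndex U X.ker H hUX X.ker_le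
    rw [X.ker_relIndex, hn] at h
    rcases Nat.eq_zero_or_pos (U.relIndex X.ker) with h0 | h0
    · rw [h0, zero_mul] at h; omega
    · rw [← h]; exact lt_mul_of_one_lt_right h0 hp.one_lt

end Fermat.Agent.PT
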