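import Fermat.Agent.PT.LocalGlobal

/-!
# Inner automorphisms act trivially on `H²`; independence of the representative of a place

Conjugation changes a cocycle with trivial coefficients by a coboundary, so local triviality of a
class at `(q, g)` only depends on the place that `g` defines.
-/

noncomputable section

namespace Fermat.Agent.PT

open Lv

section General

variable {k : Type*} [CommRing k] {G : Type*} [Group G] {L : Lv G}

/-- Conjugating a cocycle with trivial coefficients changes it by a coboundary. -/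
theorem conj_sub_mem_B2 {f : G × G → k} (hf : f ∈ Z2 L (triv k G)) (c : G) :
    (fun gh : G × G => f (c⁻¹ * gh.1 * c, c⁻¹ * gh.2 * c)) - f ∈ B2 L (triv k G) := by
  simpa [Representation.trivial_apply] using conjR_sub_mem_B2 hf c

end General

variable {q p : ℕ} [Fact q.Prime] [Fact p.Prime] {H : Subgroup Gam}

/-- Local triviality of a class, on cochains. -/
theorem locH2_mk2_eq_zero (g : Gam) (f : ↥(Z2 (LG.comap H.subtype) (triv (ZMod p) ↥H))) :
    locH2 q p H g (mk2 (LG.comap H.subtype) (triv (ZMod p) ↥H) f) = 0 ↔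
      ∃ y, Con1 ((LQ q).comap (stab q H g).subtype) y ∧
        d1 (triv (ZMod p) ↥(stab q H g)) y =
          pp2 (locHom q H g) (twist p g) (f : ↥H × ↥H → ZMod p) :=
  mk2_eq_zero (L := (LQ q).comap (stab q H g).subtype) (ρ := triv (ZMod p) ↥(stab q H g))
    (f := ⟨_, pp2_mem_Z2 (compat_locHom q H g) (φ := twist p g) (fun _ _ => rfl) f.2⟩)

section Transport

variable {g g' : Gam} (τ : GamQ q) {c : Gam} (hc : c ∈ H)
  (hg : g' = localGaloisToGlobal q τ * g * c)

/-- Transport between the decomposition subgroups of two representatives of a place. -/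
def stabConj : ↥(stab q H g') →* ↥(stab q H g) :=
  MonoidHom.mk' (fun σ => ⟨τ⁻¹ * σ * τ, by
      have hσ : cj q g' (σ : GamQ q) ∈ H := σ.2
      rw [cj_apply] at hσ
      rw [mem_stab, cj_apply, map_mul, map_mul, map_inv]
      generalize localGaloisToGlobal q (σ : GamQ q) = t at hσ ⊢
      rw [hg] at hσ
      have := H.mul_mem (H.mul_mem hc hσ) (H.inv_mem hc)
      convert this using 1
      group⟩)
    fun a b => Subtype.ext (by
      show τ⁻¹ * ((a : GamQ q) * b) * τ = τ⁻¹ * a * τ * (τ⁻¹ * b * τ)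
      group)

theorem compat_stabConj : Compat ((LQ q).comap (stab q H g).subtype)
    ((LQ q).comap (stab q H g').subtype) (stabConj τ hc hg) := by
  rintro U ⟨W, hW, hWU⟩
  obtain ⟨W', hW', hW'W, hn⟩ := (LQ q).exists_normal hW
  refine ⟨W', hW', fun σ hσ => hWU ?_⟩
  show τ⁻¹ * (σ : GamQ q) * τ ∈ W
  exact hW'W (by simpa using hn.conj_mem _ hσ τ⁻¹)

/-- Localisations at two representatives of a place differ by conjugation in `H`. -/
theorem locHom_stabConj (σ : ↥(stab q H g')) :
    locHom q H g' σ = (⟨c, hc⟩ : ↥H)⁻¹ * locHom q H g (stabConj τ hc hg σ) * ⟨c, hc⟩ := by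
  apply Subtype.ext
  rw [Subgroup.coe_mul, Subgroup.coe_mul, Subgroup.coe_inv, coe_locHom, coe_locHom, cj_apply,
    cj_apply]
  show _ = c⁻¹ * (g⁻¹ * localGaloisToGlobal q (τ⁻¹ * (σ : GamQ q) * τ) * g) * c
  rw [map_mul, map_mul, map_inv]
  generalize localGaloisToGlobal q (σ : GamQ q) = s
  rw [hg]
  group

end Transport

/-- Local triviality only depends on the place. -/
theorem locH2_eq_zero_of_samePlace {g g' : Gam} (τ : GamQ q) {c : Gam} (hc : c ∈ H)
    (hg : g' = localGaloisToGlobal q τ * g * c)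
    {a : H2 (LG.comap H.subtype) (triv (ZMod p) ↥H)} (ha : locH2 q p H g a = 0) :
    locH2 q p H g' a = 0 := by
  obtain ⟨⟨f, hf⟩, rfl⟩ := mk2_surjective a
  obtain ⟨w, hw, hwe⟩ := mem_B2.1 (conj_sub_mem_B2 hf (⟨c, hc⟩ : ↥H))
  rw [locH2_mk2_eq_zero] at ha
  obtain ⟨y, hy, hye⟩ := ha
  let cv := stabConj τ hc hg
  have hcv := compat_stabConj τ hc hg
  set u : ZMod p := ((cyc p).ω (localGaloisToGlobal q τ) : ZMod p) * ((cyc p).ω c : ZMod p)
  have hloc : ∀ σ : ↥(stab q H g'), locHom q H g' σ = _ := locHom_stabConj τ hc hg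
  rw [locH2_mk2_eq_zero]
  refine ⟨fun σ => ((cyc p).ω g' : ZMod p) * w (locHom q H g (cv σ)) + u * y (cv σ),
    ((hw.precomp ((compat_locHom q H g).comp hcv)).comp (((cyc p).ω g' : ZMod p) * ·)).map₂
      ((hy.precomp hcv).comp (u * ·)) (· + ·), ?_⟩
  ext ⟨σ, σ'⟩
  have e1 := congrFun hwe (locHom q H g (cv σ), locHom q H g (cv σ'))
  have e2 := congrFun hye (cv σ, cv σ')
  have e3 : ((cyc p).ω g' : ZMod p) = u * ((cyc p).ω g : ZMod p) := by
    simp only [u, hg, map_mul, Units.val_mul]
    ring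
  simp only [d1_apply, Representation.trivial_apply, Pi.sub_apply, pp2_apply, twist_apply, map_mul]
    at e1 e2 ⊢
  rw [hloc, hloc, e3]
  linear_combination u * ((cyc p).ω g : ZMod p) * e1 + u * e2

end Fermat.Agent.PT
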