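import Mathlib.Algebra.BigOperators.Group.Finset.Basic
import Mathlib.GroupTheory.GroupAction.Quotient
import Mathlib.LinearAlgebra.Pi
import Mathlib.Tactic.Group
import Mathlib.Tactic.LinearCombination
import Fermat.Agent.PT.Coh

/-!
# Induced representations and Shapiro's lemma in degree `2`

`indRep H ρ` is the induced representation on functions `G ⧸ H → M`.  The map `sh` sends
`H²(G, Ind M)` to `H²(H, M)`; a one-sided inverse `unsh` on cochains shows that it is bijective.
This is the tool behind corestriction in `Cores`.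
-/

noncomputable section

namespace Fermat.Agent.PT

open Lv

variable {k : Type*} [CommRing k] {G : Type*} [Group G] (H : Subgroup G)
variable {M : Type*} [AddCommGroup M] [Module k M] (ρ : Representation k G M)

/-- The representation induced from the restriction of `ρ` to `H`, as functions on `G ⧸ H`. -/
def indRep : Representation k G (G ⧸ H → M) where
  toFun g :=
    { toFun := fun f x => ρ g (f (g⁻¹ • x))
      map_add' := fun a b => by ext x; simp
      map_smul' := fun c a => by ext x; simp }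
  map_one' := by ext f x; simp
  map_mul' g g' := by ext f x; simp [map_mul, mul_smul]

theorem indRep_apply (g : G) (f : G ⧸ H → M) (x : G ⧸ H) :
    indRep H ρ g f x = ρ g (f (g⁻¹ • x)) := rfl

/-- A section of `G → G ⧸ H` sending the base coset to `1`. -/
def sec (x : G ⧸ H) : G :=
  haveI := Classical.dec (x = ((1 : G) : G ⧸ H))
  if x = ((1 : G) : G ⧸ H) then 1 else x.out

theorem mk_sec (x : G ⧸ H) : ((sec H x : G) : G ⧸ H) = x := by
  rw [sec]
  split_ifs with h
  · exact h.symm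
  · exact x.out_eq

theorem sec_one : sec H ((1 : G) : G ⧸ H) = 1 := by rw [sec, if_pos rfl]

theorem sec_smul_one (x : G ⧸ H) : sec H x • ((1 : G) : G ⧸ H) = x := by
  conv_rhs => rw [← mk_sec H x]
  simp

theorem sec_inv_smul (x : G ⧸ H) : (sec H x)⁻¹ • x = ((1 : G) : G ⧸ H) := by
  rw [inv_smul_eq_iff, sec_smul_one]

theorem kap_mem (x : G ⧸ H) (g : G) : (sec H x)⁻¹ * g * sec H (g⁻¹ • x) ∈ H := by
  have : (((sec H x)⁻¹ * g * sec H (g⁻¹ • x) : G) : G ⧸ H) = ((1 : G) : G ⧸ H) := by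
    rw [show (((sec H x)⁻¹ * g * sec H (g⁻¹ • x) : G) : G ⧸ H)
        = (sec H x)⁻¹ • g • ((sec H (g⁻¹ • x) : G) : G ⧸ H) by simp [mul_assoc],
      mk_sec, smul_inv_smul, sec_inv_smul]
  rw [QuotientGroup.eq, mul_one] at this
  exact inv_mem_iff.1 this

/-- The cocycle `κ(x, g) = s(x)⁻¹ g s(g⁻¹ x)` with values in `H`. -/
def kap (x : G ⧸ H) (g : G) : ↥H := ⟨_, kap_mem H x g⟩

theorem coe_kap (x : G ⧸ H) (g : G) : (kap H x g : G) = (sec H x)⁻¹ * g * sec H (g⁻¹ • x) := rfl

theorem kap_mul (x : G ⧸ H) (g g' : G) : kap H x (g * g') = kap H x g * kap H (g⁻¹ • x) g' := by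
  ext
  simp only [Subgroup.coe_mul, coe_kap, mul_inv_rev, mul_smul]
  group

theorem smul_eq_of_mem_normal {U : Subgroup G} (hU : U.Normal) (hUH : U ≤ H) {u : G} (hu : u ∈ U)
    (x : G ⧸ H) : u • x = x := by
  conv_lhs => rw [← mk_sec H x]
  conv_rhs => rw [← mk_sec H x]
  rw [MulAction.Quotient.smul_coe, QuotientGroup.eq, smul_eq_mul]
  have : (u * sec H x)⁻¹ * sec H x = (sec H x)⁻¹ * u⁻¹ * sec H x := by group
  rw [this]
  exact hUH (by simpa using hU.conj_mem _ (inv_mem hu) (sec H x)⁻¹)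

theorem kap_mul_normal {U : Subgroup G} (hU : U.Normal) (hUH : U ≤ H) (x : G ⧸ H) (g : G) {u : G}
    (hu : u ∈ U) : ∃ v : ↥H, (v : G) ∈ U ∧ kap H x (g * u) = kap H x g * v := by
  refine ⟨kap H (g⁻¹ • x) u, ?_, kap_mul H x g u⟩
  rw [coe_kap, smul_eq_of_mem_normal H hU hUH (inv_mem hu)]
  simpa using hU.conj_mem u hu (sec H (g⁻¹ • x))⁻¹

/-- The diagonal embedding `M → Ind M`. -/
def diag : M →ₗ[k] (G ⧸ H → M) where
  toFun m _ := m
  map_add' _ _ := rfl
  map_smul' _ _ := rfl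

theorem diag_equivariant (g : G) (m : M) : diag (k := k) H (ρ g m) =
    indRep H ρ g (diag (k := k) H m) :=
  rfl

section Sum

variable [Fintype (G ⧸ H)]

/-- The sum map `Ind M → M`. -/
def indSum : (G ⧸ H → M) →ₗ[k] M where
  toFun f := ∑ x, f x
  map_add' a b := by simp [Finset.sum_add_distrib]
  map_smul' c a := by simp [Finset.smul_sum]

theorem indSum_apply (f : G ⧸ H → M) : indSum (k := k) H f = ∑ x, f x := rfl

theorem indSum_equivariant (g : G) (f : G ⧸ H → M) :
    indSum (k := k) H (indRep H ρ g f) = ρ g (indSum (k := k) H f) := by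
  simp only [indSum_apply, map_sum, indRep_apply]
  exact Fintype.sum_bijective (g⁻¹ • ·) (MulAction.bijective g⁻¹) _ _ fun x => rfl

theorem indSum_diag (m : M) : indSum (k := k) H (diag (k := k) H m) = H.index • m := by
  simp [indSum_apply, diag, Subgroup.index_eq_card, Nat.card_eq_fintype_card]

end Sum

/-- Evaluation at the base coset. -/
def ev1 : (G ⧸ H → M) →ₗ[k] M := LinearMap.proj ((1 : G) : G ⧸ H)

theorem ev1_equivariant :
    Equiv' H.subtype (indRep H ρ) (ρ.comp H.subtype) (ev1 (k := k) (M := M) H) := by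
  intro h f
  simp only [ev1, LinearMap.proj_apply, indRep_apply, Subgroup.coe_subtype, MonoidHom.coe_comp,
    Function.comp_apply]
  congr 2
  rw [inv_smul_eq_iff, MulAction.Quotient.smul_coe, QuotientGroup.eq]
  simp

variable {H ρ} {L : Lv G}

/-- An induced representation is trivial on a normal subgroup of `H` acting trivially on `M`. -/
theorem indRep_eq_one {U : Subgroup G} [U.Normal] (hUH : U ≤ H) (hρ : ∀ u ∈ U, ρ u = 1) :
    ∀ u ∈ U, indRep H ρ u = 1 := fun u hu => LinearMap.ext fun φ => funext fun x => by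
  rw [indRep_apply, smul_eq_of_mem_normal H ‹U.Normal› hUH (inv_mem hu), hρ u hu]
  rfl

theorem smooth_indRep (hH : H ∈ L) (hρ : Smooth L ρ) : Smooth L (indRep H ρ) := by
  intro f
  obtain ⟨U, hU, hUH, hn⟩ := L.exists_normal hH
  have := L.finiteIndex hH
  have : Fintype (G ⧸ H) := Fintype.ofFinite _
  choose V hV hfix using hρ
  refine ⟨U ⊓ (Finset.univ : Finset (G ⧸ H)).inf (fun x => V (f x)), L.inf_mem hU
    (Finset.inf_induction L.top_mem (fun a ha b hb => L.inf_mem ha hb) (fun x _ => hV _)), ?_⟩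
  intro s hs
  ext x
  rw [indRep_apply, smul_eq_of_mem_normal H hn hUH (inv_mem hs.1)]
  exact hfix _ s ((Finset.inf_le (s := (Finset.univ : Finset (G ⧸ H)))
    (f := fun x => V (f x)) (Finset.mem_univ x)) hs.2)

variable (H ρ L)

/-- The Shapiro map on `H²`. -/
def sh : H2 L (indRep H ρ) →ₗ[k] H2 (L.comap H.subtype) (ρ.comp H.subtype) :=
  H2map (compat_comap L H.subtype) (ev1_equivariant H ρ)

/-- Lifting a cocycle of `H` to one of `G` with induced coefficients. -/
def unsh (α : ↥H × ↥H → M) (gg : G × G) (x : G ⧸ H) : M :=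
  ρ (sec H x) (α (kap H x gg.1, kap H (gg.1⁻¹ • x) gg.2))

variable {H ρ L}

theorem unsh_mem_Z2 (hH : H ∈ L) {α : ↥H × ↥H → M}
    (hα : α ∈ Z2 (L.comap H.subtype) (ρ.comp H.subtype)) :
    unsh H ρ α ∈ Z2 L (indRep H ρ) := by
  rw [mem_Z2] at hα ⊢
  constructor
  · obtain ⟨V, ⟨W, hW, hWV⟩, hV⟩ := hα.1
    obtain ⟨U, hU, hUW, hn⟩ := L.exists_normal (L.inf_mem hW hH)
    have hUH : U ≤ H := hUW.trans inf_le_right
    refine ⟨U, hU, fun g g' s hs s' hs' => ?_⟩
    ext x
    simp only [unsh]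
    obtain ⟨v, hv, e⟩ := kap_mul_normal H hn hUH x g hs
    have hgs : (g * s)⁻¹ • x = g⁻¹ • x := by
      rw [mul_inv_rev, mul_smul, smul_eq_of_mem_normal H hn hUH (inv_mem hs)]
    obtain ⟨v', hv', e'⟩ := kap_mul_normal H hn hUH (g⁻¹ • x) g' hs'
    rw [e, hgs, e']
    congr 1
    exact hV _ _ _ (hWV (show (v : G) ∈ W from (hUW hv).1)) _
      (hWV (show (v' : G) ∈ W from (hUW hv').1))
  · intro g g' j
    ext x
    simp only [unsh, Pi.add_apply, indRep_apply, ← mul_smul, ← mul_inv_rev, kap_mul]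
    have key := hα.2 (kap H x g) (kap H (g⁻¹ • x) g') (kap H ((g * g')⁻¹ • x) j)
    rw [← map_add, key, map_add]
    congr 1
    simp only [MonoidHom.coe_comp, Function.comp_apply, Subgroup.coe_subtype, coe_kap]
    rw [← Module.End.mul_apply, ← map_mul, ← Module.End.mul_apply, ← map_mul]
    congr 2
    group

theorem sh_unsh {α : ↥H × ↥H → M} :
    pp2 H.subtype (ev1 (k := k) (M := M) H) (unsh H ρ α) = α := by
  have hfix : ∀ a : ↥H, ((a : G)⁻¹ • ((1 : G) : G ⧸ H)) = ((1 : G) : G ⧸ H) := fun a => by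
    rw [inv_smul_eq_iff, MulAction.Quotient.smul_coe, QuotientGroup.eq]; simp
  ext ⟨h, h'⟩
  have e : ∀ a : ↥H, kap H ((1 : G) : G ⧸ H) (a : G) = a := fun a => by
    ext
    rw [coe_kap, hfix, sec_one]
    simp
  simp only [pp2_apply, ev1, LinearMap.proj_apply, unsh, Subgroup.coe_subtype, sec_one, map_one,
    hfix, e]
  rfl

theorem sh_surjective (hH : H ∈ L) : Function.Surjective (sh H ρ L) := by
  intro a
  obtain ⟨α, rfl⟩ := mk2_surjective a
  refine ⟨mk2 L (indRep H ρ) ⟨_, unsh_mem_Z2 hH α.2⟩, ?_⟩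
  rw [sh, H2map_mk2]
  congr 1
  exact Subtype.ext sh_unsh

/-- Shapiro's map is injective. -/
theorem sh_injective (hH : H ∈ L) (_hρ : Smooth L ρ) : Function.Injective (sh H ρ L) := by
  rw [injective_iff_map_eq_zero]
  intro a ha
  obtain ⟨⟨F, hF⟩, rfl⟩ := mk2_surjective a
  rw [sh, H2map_mk2, mk2_eq_zero] at ha
  obtain ⟨y, hy, hyF⟩ := ha
  -- first subtract the coboundary of the induced cochain of `y`
  let z : G → G ⧸ H → M := fun g x => ρ (sec H x) (y (kap H x g))
  have hz : Con1 L z := by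
    obtain ⟨V, ⟨W, hW, hWV⟩, hV⟩ := hy
    obtain ⟨U, hU, hUW, hn⟩ := L.exists_normal (L.inf_mem hW hH)
    refine ⟨U, hU, fun g s hs => ?_⟩
    ext x
    obtain ⟨v, hv, e⟩ := kap_mul_normal H hn (hUW.trans inf_le_right) x g hs
    simp only [z, e]
    congr 1
    exact hV _ _ (hWV (show (v : G) ∈ W from (hUW hv).1))
  let Y : G → G ⧸ H → M := fun g x =>
    F (sec H x, (kap H x g : G)) x - F (g, sec H (g⁻¹ • x)) x
  have hY : Con1 L Y := by
    obtain ⟨V, hV, hn', hV'⟩ := (mem_Z2.1 hF).1.exists_normal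
    obtain ⟨U, hU, hUW, hn⟩ := L.exists_normal (L.inf_mem hV hH)
    refine ⟨U, hU, fun g s hs => ?_⟩
    have hUH : U ≤ H := hUW.trans inf_le_right
    ext x
    obtain ⟨v, hv, e⟩ := kap_mul_normal H hn hUH x g hs
    have hgs : (g * s)⁻¹ • x = g⁻¹ • x := by
      rw [mul_inv_rev, mul_smul, smul_eq_of_mem_normal H hn hUH (inv_mem hs)]
    simp only [Y, e, hgs, Subgroup.coe_mul]
    have h1 := hV' (sec H x) (kap H x g : G) 1 V.one_mem (v : G) (hUW hv).1 1 V.one_mem 1 V.one_mem
    have h2 := hV' g (sec H (g⁻¹ • x)) s (hUW hs).1 1 V.one_mem 1 V.one_mem 1 V.one_mem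
    simp only [one_mul, mul_one] at h1 h2
    rw [h1, h2]
  refine mk2_eq_zero.2 ⟨z - Y, (hz.map₂ hY (· - ·)), ?_⟩
  have hc := (mem_Z2.1 hF).2
  ext ⟨g, g'⟩ x
  have hyF' := congrFun hyF (kap H x g, kap H (g⁻¹ • x) g')
  simp only [pp2_apply, ev1, LinearMap.proj_apply, Subgroup.coe_subtype, d1_apply,
    MonoidHom.coe_comp, Function.comp_apply] at hyF'
  simp only [map_sub, Pi.sub_apply, d1_apply, Pi.add_apply, indRep_apply, z, Y, kap_mul,
    ← mul_smul, ← mul_inv_rev, Subgroup.coe_mul]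
  set a := sec H x with ha
  set b := sec H (g⁻¹ • x) with hb
  set c := sec H ((g * g')⁻¹ • x) with hc'
  set κ := kap H x g with hκ
  set κ' := kap H (g⁻¹ • x) g' with hκ'
  have e1 : a * (κ : G) = g * b := by rw [hκ, coe_kap, ← ha, ← hb]; group
  have e2 : b * (κ' : G) = g' * c := by
    rw [hκ', coe_kap, ← hb, ← mul_smul, ← mul_inv_rev, ← hc']; group
  have c1 := congrFun (hc g b (κ' : G)) x
  have c2 := congrFun (hc g g' c) x
  have c3 := congrFun (hc a (κ : G) (κ' : G)) x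
  simp only [Pi.add_apply, indRep_apply] at c1 c2 c3
  have hax : a⁻¹ • x = ((1 : G) : G ⧸ H) := sec_inv_smul H x
  rw [hax, ← hyF'] at c3
  rw [e2] at c1
  rw [e1] at c3
  simp only [map_add, map_sub, ← Module.End.mul_apply, ← map_mul, e1] at c3 ⊢
  linear_combination (norm := abel) c1 - c2 - c3

end Fermat.Agent.PT
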