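import Mathlib.RepresentationTheory.Basic
import Fermat.Agent.PT.Shapiro

/-!
# Restriction and corestriction on `H²`; exactness

Restriction `res`, corestriction `cores` (Shapiro's isomorphism followed by the sum map), and the
exactness of `H²` in the middle for a linearly split short exact sequence of representations.
-/

noncomputable section

namespace Fermat.Agent.PT

open Lv

variable {k : Type*} [CommRing k] {G : Type*} [Group G] {L : Lv G}
variable {M : Type*} [AddCommGroup M] [Module k M] {ρ : Representation k G M}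
variable {P : Type*} [AddCommGroup P] [Module k P] {π : Representation k G P}
variable {N : Type*} [AddCommGroup N] [Module k N] {ν : Representation k G N}

variable (L ρ) in
/-- Restriction to a subgroup. -/
def res (H : Subgroup G) : H2 L ρ →ₗ[k] H2 (L.comap H.subtype) (ρ.comp H.subtype) :=
  H2map (compat_comap L H.subtype) (φ := LinearMap.id) (fun _ _ => rfl)

theorem res_mk2 (H : Subgroup G) (x : ↥(Z2 L ρ)) :
    res L ρ H (mk2 L ρ x) =
      mk2 (L.comap H.subtype) (ρ.comp H.subtype) ⟨pp2 H.subtype LinearMap.id x,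
      pp2_mem_Z2 (compat_comap L H.subtype) (φ := LinearMap.id) (fun _ _ => rfl) x.2⟩ := rfl

theorem H2push_comp (φ : M →ₗ[k] P) (hφ : ∀ g m, φ (ρ g m) = π g (φ m)) (ψ : P →ₗ[k] N)
    (hψ : ∀ g m, ψ (π g m) = ν g (ψ m)) (a : H2 L ρ) :
    H2push L π ν ψ hψ (H2push L ρ π φ hφ a) =
      H2push L ρ ν (ψ ∘ₗ φ) (fun g m => by simp [hφ, hψ]) a := by
  obtain ⟨x, rfl⟩ := mk2_surjective a
  rfl

theorem H2push_eq_of_eq {φ φ' : M →ₗ[k] P} (hφ : ∀ g m, φ (ρ g m) = π g (φ m))
    (hφ' : ∀ g m, φ' (ρ g m) = π g (φ' m)) (h : φ = φ') (a : H2 L ρ) :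
    H2push L ρ π φ hφ a = H2push L ρ π φ' hφ' a := by subst h; rfl

theorem H2push_id (a : H2 L ρ) :
    H2push L ρ ρ LinearMap.id (fun _ _ => rfl) a = a := by
  obtain ⟨x, rfl⟩ := mk2_surjective a
  rfl

variable (H : Subgroup G)

theorem sh_push_diag (a : H2 L ρ) :
    sh H ρ L (H2push L ρ (indRep H ρ) (diag (k := k) H) (diag_equivariant H ρ) a) =
      res L ρ H a := by
  obtain ⟨x, rfl⟩ := mk2_surjective a
  rfl

section Cores

variable {H} (hH : H ∈ L) (hρ : Smooth L ρ) [Fintype (G ⧸ H)]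

/-- Shapiro's isomorphism. -/
def shEquiv : H2 L (indRep H ρ) ≃ₗ[k] H2 (L.comap H.subtype) (ρ.comp H.subtype) :=
  LinearEquiv.ofBijective (sh H ρ L) ⟨sh_injective hH hρ, sh_surjective hH⟩

/-- Corestriction. -/
def cores : H2 (L.comap H.subtype) (ρ.comp H.subtype) →ₗ[k] H2 L ρ :=
  H2push L (indRep H ρ) ρ (indSum (k := k) H) (indSum_equivariant H ρ) ∘ₗ
    (shEquiv hH hρ).symm.toLinearMap

theorem cores_sh (b : H2 L (indRep H ρ)) :
    cores hH hρ (sh H ρ L b) =
      H2push L (indRep H ρ) ρ (indSum (k := k) H) (indSum_equivariant H ρ) b := by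
  simp [cores, show sh H ρ L b = shEquiv hH hρ b from rfl]

theorem cores_res (a : H2 L ρ) : cores hH hρ (res L ρ H a) = H.index • a := by
  rw [← sh_push_diag, cores_sh, H2push_comp]
  obtain ⟨x, rfl⟩ := mk2_surjective a
  rw [← map_nsmul, H2push_mk2]
  congr 1
  ext g
  simp [indSum_diag]

/-- Postcomposition on induced modules. -/
def indMap (φ : M →ₗ[k] P) : (G ⧸ H → M) →ₗ[k] (G ⧸ H → P) where
  toFun f x := φ (f x)
  map_add' a b := by ext; simp
  map_smul' c a := by ext; simp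

theorem push_cores (hπ : Smooth L π) (φ : M →ₗ[k] P) (hφ : ∀ g m, φ (ρ g m) = π g (φ m))
    (c : H2 (L.comap H.subtype) (ρ.comp H.subtype)) :
    H2push L ρ π φ hφ (cores hH hρ c) =
      cores hH hπ (H2push (L.comap H.subtype) (ρ.comp H.subtype) (π.comp H.subtype) φ
        (fun g m => hφ g m) c) := by
  obtain ⟨b, rfl⟩ := sh_surjective hH c
  have hi : ∀ g f, indMap (H := H) φ (indRep H ρ g f) = indRep H π g (indMap (H := H) φ f) := by
    intro g f; ext x; simp [indMap, indRep_apply, hφ]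
  have : H2push (L.comap H.subtype) (ρ.comp H.subtype) (π.comp H.subtype) φ
      (fun g m => hφ g m) (sh H ρ L b) =
      sh H π L (H2push L (indRep H ρ) (indRep H π) (indMap (H := H) φ) hi b) := by
    obtain ⟨x, rfl⟩ := mk2_surjective b
    rfl
  rw [this, cores_sh, cores_sh, H2push_comp, H2push_comp]
  refine H2push_eq_of_eq _ _ ?_ b
  ext f
  simp [indMap, indSum_apply]

end Cores

/-- Exactness at the middle term, for a linearly split short exact sequence. -/
theorem exists_of_push_eq_zero (i : N →ₗ[k] P) (hi : ∀ g m, i (ν g m) = π g (i m))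
    (ψ : P →ₗ[k] M) (hψ : ∀ g m, ψ (π g m) = ρ g (ψ m)) (s : M →ₗ[k] P) (hs : ∀ m, ψ (s m) = m)
    (r : P →ₗ[k] N) (hr : ∀ n, r (i n) = n) (hker : ∀ x, ψ x = 0 → i (r x) = x)
    (hπ : Smooth L π) (a : H2 L π) (ha : H2push L π ρ ψ hψ a = 0) :
    ∃ b, H2push L ν π i hi b = a := by
  obtain ⟨⟨x, hx⟩, rfl⟩ := mk2_surjective a
  rw [H2push_mk2, mk2_eq_zero] at ha
  obtain ⟨y, hy, hyx⟩ := ha
  have hy' : Con1 L (fun g => s (y g)) := hy.comp s
  let z : G × G → P := x - d1 π (fun g => s (y g))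
  have hz : z ∈ Z2 L π := sub_mem hx (d1_mem_Z2 hπ hy')
  have hψz : ∀ gg, ψ (z gg) = 0 := fun gg => by
    have := congrFun hyx gg
    simp only [z, Pi.sub_apply, map_sub, sub_eq_zero]
    refine this.symm.trans ?_
    rw [d1_apply, d1_apply, map_add, map_sub, hψ, hs, hs, hs]
  have hinj : Function.Injective i := fun a b h => by rw [← hr a, h, hr]
  have hb : (fun gg => r (z gg)) ∈ Z2 L ν := by
    rw [mem_Z2] at hz ⊢
    refine ⟨hz.1.comp r, fun g h j => hinj ?_⟩
    simp only [map_add, hi, hker _ (hψz _)]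
    exact hz.2 g h j
  refine ⟨mk2 L ν ⟨_, hb⟩, ?_⟩
  rw [H2push_mk2, eq_comm, mk2_eq_mk2]
  refine ⟨fun g => s (y g), hy', ?_⟩
  ext gg
  simp only [Pi.sub_apply, hker _ (hψz gg)]
  simp [z]

end Fermat.Agent.PT
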