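import Mathlib.Algebra.BigOperators.Group.Finset.Sigma
import Fermat.Agent.PT.Cores
import Fermat.Agent.PT.Places

/-!
# The decomposition of a restricted corestriction along the places

The Mackey decomposition: restricting a corestricted class to the decomposition group at `q`
gives the sum over the places above `q` of the local corestrictions of the localisations.
-/

noncomputable section

namespace Fermat.Agent.PT

open Lv

variable (q : ℕ) [Fact q.Prime] {p : ℕ} [Fact p.Prime]
variable {M : Type} [AddCommGroup M] [Module (ZMod p) M] (ρ : Representation (ZMod p) Gam M)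
variable {H : Subgroup Gam}

/-- The coefficients at a place. -/
abbrev repQ : Representation (ZMod p) (GamQ q) M := ρ.comp (localGaloisToGlobal q)

theorem locR_equivariant (g : Gam) :
    Equiv' (locHom q H g) (ρ.comp H.subtype) ((repQ q ρ).comp (stab q H g).subtype) (ρ g) := by
  intro σ m
  show ρ g (ρ (locHom q H g σ : Gam) m) = ρ (localGaloisToGlobal q (σ : GamQ q)) (ρ g m)
  rw [← Module.End.mul_apply, ← map_mul, coe_locHom, cj_apply, ← Module.End.mul_apply, ← map_mul]
  congr 2
  group

variable (H) in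
/-- Localisation with coefficients in a representation of the global group. -/
def locR (g : Gam) : H2 (LG.comap H.subtype) (ρ.comp H.subtype) →ₗ[ZMod p]
    H2 ((LQ q).comap (stab q H g).subtype) ((repQ q ρ).comp (stab q H g).subtype) :=
  H2map (compat_locHom q H g) (φ := ρ g) (locR_equivariant q ρ g)

/-- The orbit of a place inside the cosets. -/
def orbMap (g : Gam) : GamQ q ⧸ stab q H g → Gam ⧸ H :=
  Quotient.lift (fun τ => ((localGaloisToGlobal q τ * g : Gam) : Gam ⧸ H)) fun a b hab => by
    rw [QuotientGroup.eq]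
    have h := QuotientGroup.leftRel_apply.1 hab
    rw [mem_stab, cj_apply, map_mul, map_inv] at h
    convert h using 1
    group

theorem orbMap_mk (g : Gam) (τ : GamQ q) :
    orbMap q g ((τ : GamQ q ⧸ stab q H g)) = ((localGaloisToGlobal q τ * g : Gam) : Gam ⧸ H) := rfl

theorem orbMap_smul (g : Gam) (τ : GamQ q) (x : GamQ q ⧸ stab q H g) :
    orbMap q g (τ • x) = localGaloisToGlobal q τ • orbMap q g x := by
  induction x using QuotientGroup.induction_on with | _ a => ?_
  show ((localGaloisToGlobal q (τ * a) * g : Gam) : Gam ⧸ H) = _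
  rw [map_mul, mul_assoc]
  rfl

/-- The component of an induced module at a place. -/
def compPl (g : Gam) : (Gam ⧸ H → M) →ₗ[ZMod p] (GamQ q ⧸ stab q H g → M) where
  toFun F x := F (orbMap q g x)
  map_add' _ _ := rfl
  map_smul' _ _ := rfl

theorem compPl_equivariant (g : Gam) :
    Equiv' (localGaloisToGlobal q) (indRep H ρ) (indRep (stab q H g) (repQ q ρ))
      (compPl q (M := M) g) := by
  intro τ F
  ext x
  show ρ (localGaloisToGlobal q τ) (F ((localGaloisToGlobal q τ)⁻¹ • orbMap q g x)) =
    ρ (localGaloisToGlobal q τ) (F (orbMap q g (τ⁻¹ • x)))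
  rw [orbMap_smul, map_inv]

theorem orbSigma_bijective :
    Function.Bijective
      (fun x : Σ v : Pl q H, GamQ q ⧸ stab q H v.rep => orbMap q x.1.rep x.2) := by
  constructor
  · rintro ⟨v, x⟩ ⟨w, y⟩ h
    induction x using QuotientGroup.induction_on with | _ a => ?_
    induction y using QuotientGroup.induction_on with | _ b => ?_
    have h' : (localGaloisToGlobal q a * v.rep)⁻¹ * (localGaloisToGlobal q b * w.rep) ∈ H :=
      QuotientGroup.eq.1 h
    have hvw : v = w := by
      rw [← v.mk_rep, ← w.mk_rep, Pl.mk_eq]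
      exact ⟨b⁻¹ * a, _, h', by rw [map_mul, map_inv]; group⟩
    subst hvw
    refine congrArg (Sigma.mk v) (QuotientGroup.eq.2 ?_)
    rw [mem_stab, cj_apply, map_mul, map_inv]
    convert h' using 1
    group
  · intro y
    induction y using QuotientGroup.induction_on with | _ γ => ?_
    obtain ⟨τ, h, hh, e⟩ := (Pl.samePlace_rep (q := q) (H := H) γ).symm
    refine ⟨⟨Pl.mk γ, (τ : GamQ q ⧸ stab q H (Pl.mk γ : Pl q H).rep)⟩, ?_⟩
    refine QuotientGroup.eq.2 ?_
    generalize (Pl.mk γ : Pl q H).rep = w at e ⊢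
    rw [e]
    convert hh using 1
    group

variable {q ρ}

theorem sum_compPl [Fintype (Gam ⧸ H)] [Fintype (Pl q H)]
    [∀ v : Pl q H, Fintype (GamQ q ⧸ stab q H v.rep)] (F : Gam ⧸ H → M) :
    indSum (k := ZMod p) H F =
      ∑ v : Pl q H, indSum (k := ZMod p) (stab q H v.rep) (compPl q (p := p) v.rep F) := by
  simp only [indSum_apply, compPl, LinearMap.coe_mk, AddHom.coe_mk]
  rw [← Fintype.sum_sigma fun x : Σ v : Pl q H, GamQ q ⧸ stab q H v.rep =>
    F (orbMap q x.1.rep x.2)]
  exact (Fintype.sum_bijective _ (orbSigma_bijective q (H := H)) _ _ fun _ => rfl).symm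

/-- The component of a Shapiro class at a place is the localisation. -/
theorem sh_compPl (g : Gam) (B : H2 LG (indRep H ρ)) :
    sh (stab q H g) (repQ q ρ) (LQ q)
        (H2map (compat_local q) (compPl_equivariant q ρ g) B) =
      locR q ρ H g (sh H ρ LG B) := by
  obtain ⟨⟨f, hf⟩, rfl⟩ := mk2_surjective B
  obtain ⟨y, hy, hye⟩ := mem_B2.1 (conjR_sub_mem_B2 hf g)
  refine (mk2_eq_mk2 (L := (LQ q).comap (stab q H g).subtype)
    (ρ := (repQ q ρ).comp (stab q H g).subtype)
    (f := ⟨_, pp2_mem_Z2 (compat_comap (LQ q) (stab q H g).subtype)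
      (ev1_equivariant (stab q H g) (repQ q ρ))
      (pp2_mem_Z2 (compat_local q) (compPl_equivariant q ρ g) hf)⟩)
    (f' := ⟨_, pp2_mem_Z2 (compat_locHom q H g) (locR_equivariant q ρ g)
      (pp2_mem_Z2 (compat_comap LG H.subtype) (ev1_equivariant H ρ) hf)⟩)).2
    ⟨fun σ => -y (localGaloisToGlobal q (σ : GamQ q)) (g : Gam ⧸ H), ?_, ?_⟩
  · exact (hy.precomp ((compat_local q).comp (compat_comap (LQ q) (stab q H g).subtype))).comp
      fun F => -F (g : Gam ⧸ H)
  · ext ⟨σ, σ'⟩
    have hfix : (localGaloisToGlobal q (σ : GamQ q))⁻¹ • (g : Gam ⧸ H) = (g : Gam ⧸ H) := by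
      refine QuotientGroup.eq.2 ?_
      have h2 : cj q g (σ : GamQ q) ∈ H := σ.2
      rw [cj_apply] at h2
      beta_reduce
      convert h2 using 1
      rw [smul_eq_mul]
      group
    have e := congrFun (congrFun hye
      (localGaloisToGlobal q (σ : GamQ q), localGaloisToGlobal q (σ' : GamQ q))) (g : Gam ⧸ H)
    simp only [d1_apply, Pi.add_apply, Pi.sub_apply, indRep_apply, map_neg, MonoidHom.coe_comp,
      Function.comp_apply, Subgroup.coe_subtype, Subgroup.coe_mul, map_mul, hfix] at e ⊢
    rw [show g⁻¹ • (g : Gam ⧸ H) = ((1 : Gam) : Gam ⧸ H) from by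
      rw [MulAction.Quotient.smul_coe, smul_eq_mul, inv_mul_cancel]] at e
    simp only [pp2_apply, ev1, LinearMap.proj_apply, Subgroup.coe_subtype, coe_locHom, cj_apply]
    have hev : (compPl q (p := p) g (f (localGaloisToGlobal q (σ : GamQ q),
        localGaloisToGlobal q (σ' : GamQ q)))) ((1 : GamQ q) : GamQ q ⧸ stab q H g) =
        f (localGaloisToGlobal q (σ : GamQ q), localGaloisToGlobal q (σ' : GamQ q))
          (g : Gam ⧸ H) := by
      show f _ (orbMap q g _) = _
      rw [orbMap_mk, map_one, one_mul]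
    rw [hev]
    rw [eq_sub_iff_add_eq] at e ⊢
    rw [← e]
    abel

/-- Restriction of a corestriction to a decomposition group. -/
theorem local_cores (hH : H ∈ LG) (hρ : Smooth LG ρ) (hρq : Smooth (LQ q) (repQ q ρ))
    [Fintype (Gam ⧸ H)] [Fintype (Pl q H)]
    [∀ v : Pl q H, Fintype (GamQ q ⧸ stab q H v.rep)]
    (a : H2 (LG.comap H.subtype) (ρ.comp H.subtype)) :
    H2map (ρ := ρ) (ρ' := repQ q ρ) (compat_local q) (φ := LinearMap.id) (fun _ _ => rfl)
        (cores hH hρ a) =
      ∑ v : Pl q H, cores (stab_mem q v.rep hH) hρq (locR q ρ H v.rep a) := by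
  obtain ⟨B, rfl⟩ := sh_surjective hH a
  simp only [← sh_compPl, cores_sh]
  obtain ⟨⟨f, hf⟩, rfl⟩ := mk2_surjective B
  simp only [H2map_mk2, H2push_mk2, ← map_sum]
  refine congrArg (mk2 (LQ q) (repQ q ρ)) (Subtype.ext ?_)
  ext gg
  simp only [AddSubmonoidClass.coe_finsetSum, Finset.sum_apply]
  exact sum_compPl (f (localGaloisToGlobal q gg.1, localGaloisToGlobal q gg.2))

end Fermat.Agent.PT
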