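import Mathlib.RingTheory.Polynomial.Cyclotomic.Eval
import Mathlib.RingTheory.Polynomial.Cyclotomic.Roots
import Mathlib.RingTheory.RootsOfUnity.AlgebraicallyClosed
import Mathlib.RingTheory.ZMod.UnitsCyclic
import Fermat.Agent.PT.Mackey

/-!
# The `p`-cyclotomic tower inside `ℚ̄`

The cyclotomic character modulo `p ^ n` is surjective and `p` is totally ramified in the tower
`Hm p m` of the fields of `p ^ (m + 1)`-th roots of unity; so each layer is local at `p`.
-/

noncomputable section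

namespace Fermat.Agent.PT

open Lv Polynomial

local notation "Qb" => AlgebraicClosure ℚ

variable (p : ℕ) [Fact p.Prime]

/-- A compatible system of roots of unity of `p`-power order. -/
def zet : ℕ → Qbˣ
  | 0 => 1
  | 1 => (cyc p).ζ
  | n + 2 => (Cyc.exists_root (Ω := Qb) (Fact.out : p.Prime).pos (zet (n + 1))).choose

theorem zet_succ_pow : ∀ n, zet p (n + 1) ^ p = zet p n
  | 0 => (cyc p).prim.pow_eq_one
  | n + 1 => (Cyc.exists_root (Ω := Qb) (Fact.out : p.Prime).pos (zet p (n + 1))).choose_spec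

theorem zet_pow_pow : ∀ n, zet p n ^ p ^ n = 1
  | 0 => by simp [zet]
  | n + 1 => by rw [pow_succ', pow_mul, zet_succ_pow, zet_pow_pow n]

theorem zet_primitive (n : ℕ) : IsPrimitiveRoot (zet p n) (p ^ n) := by
  cases n with
  | zero => rw [pow_zero]; exact IsPrimitiveRoot.one
  | succ n =>
    have h : zet p (n + 1) ^ p ^ n = (cyc p).ζ := by
      induction n with
      | zero => rw [pow_zero, pow_one]; rfl
      | succ n ih => rw [pow_succ', pow_mul, zet_succ_pow, ih]
    have ho : orderOf (zet p (n + 1)) = p ^ (n + 1) := orderOf_eq_prime_pow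
      (fun h1 => (cyc p).prim.ne_one
        (Fact.out : p.Prime).one_lt (h.symm.trans h1)) (zet_pow_pow p _)
    rw [← ho]
    exact IsPrimitiveRoot.orderOf _

/-- The cyclotomic character modulo `p ^ n`. -/
def cyK (n : ℕ) : Gam →* (ZMod (p ^ n))ˣ :=
  haveI : NeZero (p ^ n) := ⟨pow_ne_zero _ (Fact.out : p.Prime).ne_zero⟩
  MonoidHom.mk'
    (fun σ => modularCyclotomicCharacter Qb
      (HasEnoughRootsOfUnity.natCard_rootsOfUnity Qb (p ^ n)) (σ : Qb ≃+* Qb))
    fun a b => by rw [← map_mul]; rfl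

theorem cyK_spec (n : ℕ) (g : Gam) : g • zet p n = zet p n ^ (cyK p n g : ZMod (p ^ n)).val := by
  have : NeZero (p ^ n) := ⟨pow_ne_zero _ (Fact.out : p.Prime).ne_zero⟩
  exact Units.ext (modularCyclotomicCharacter.spec (n := p ^ n) Qb _ (g : Qb ≃+* Qb)
    (by rw [mem_rootsOfUnity]; exact zet_pow_pow p n))

theorem cyK_eq {n : ℕ} {g : Gam} {j : ℕ} (h : g • zet p n = zet p n ^ j) :
    (cyK p n g : ZMod (p ^ n)) = (j : ZMod (p ^ n)) := by
  have : NeZero (p ^ n) := ⟨pow_ne_zero _ (Fact.out : p.Prime).ne_zero⟩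
  rw [cyK_spec] at h
  have h2 := (pow_inj_mod (x := zet p n)).1 h
  rw [← (zet_primitive p n).eq_orderOf, Nat.mod_eq_of_lt (ZMod.val_lt _)] at h2
  rw [← ZMod.natCast_zmod_val (cyK p n g : ZMod (p ^ n)), h2, ZMod.natCast_mod]

theorem cyK_eq_one_iff {n : ℕ} {g : Gam} : cyK p n g = 1 ↔ g • zet p n = zet p n := by
  have : NeZero (p ^ n) := ⟨pow_ne_zero _ (Fact.out : p.Prime).ne_zero⟩
  constructor
  · intro h
    rw [cyK_spec, h]
    rcases Nat.eq_zero_or_pos n with rfl | hn
    · simp [zet]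
    · have : Fact (1 < p ^ n) := ⟨Nat.one_lt_pow hn.ne' (Fact.out : p.Prime).one_lt⟩
      simp [ZMod.val_one]
  · intro h
    refine Units.ext ?_
    rw [cyK_eq p (j := 1) (by rw [pow_one]; exact h)]
    simp

theorem zet_apply_eq_pow (n : ℕ) (σ : Gam) :
    σ (zet p n : Qb) = (zet p n : Qb) ^ (cyK p n σ : ZMod (p ^ n)).val := by
  rw [← Units.val_pow_eq_pow_val, ← cyK_spec]
  rfl

theorem isIntegral_zet (n : ℕ) : IsIntegral ℤ (zet p n : Qb) :=
  IsIntegral.of_pow (pow_pos (Fact.out : p.Prime).pos n) (by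
    rw [← Units.val_pow_eq_pow_val, zet_pow_pow, Units.val_one]; exact isIntegral_one)

/-- The subgroup fixing the roots of unity of order `p ^ (m + 1)`. -/
def Hm (m : ℕ) : Subgroup Gam := (cyK p (m + 1)).ker

variable {p}

theorem mem_Hm {m : ℕ} {g : Gam} : g ∈ Hm p m ↔ g • zet p (m + 1) = zet p (m + 1) := by
  rw [Hm, MonoidHom.mem_ker, cyK_eq_one_iff]

theorem Hm_mem (m : ℕ) : Hm p m ∈ LG := by
  obtain ⟨U, hU, h⟩ := exists_level_fixing_units (F := ℚ) (zet p (m + 1))
  exact LG.mem_of_le hU fun g hg => mem_Hm.2 (h g hg)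

instance Hm_normal (m : ℕ) : (Hm p m).Normal := MonoidHom.normal_ker _

theorem Hm_succ_le (m : ℕ) : Hm p (m + 1) ≤ Hm p m := fun g hg => by
  rw [mem_Hm] at hg ⊢
  conv_lhs => rw [← zet_succ_pow p (m + 1)]
  rw [smul_pow', hg, zet_succ_pow]

theorem Hm_muFix : ∀ m, (cyc p).MuFix (Hm p m)
  | 0 => fun g hg => by
    have h := mem_Hm.1 hg
    rw [show zet p (0 + 1) = (cyc p).ζ from rfl, (cyc p).act] at h
    have h1 : (cyc p).mu ((cyc p).ω g : ZMod p) = (cyc p).mu 1 := by
      rw [Cyc.mu, Cyc.mu, ZMod.val_one, pow_one]; exact h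
    exact Units.ext ((cyc p).mu_injective h1)
  | m + 1 => fun g hg => Hm_muFix m g (Hm_succ_le m hg)

theorem zet_mem_rootU (m : ℕ) : zet p (m + 2) ∈ Cyc.rootU p (Hm p m) := fun h => by
  rw [zet_succ_pow]
  exact mem_Hm.1 h.2

/-- The cyclotomic character is surjective. -/
theorem cyK_surjective (n : ℕ) (a : (ZMod (p ^ n))ˣ) : ∃ g : Gam, cyK p n g = a := by
  have : NeZero (p ^ n) := ⟨pow_ne_zero _ (Fact.out : p.Prime).ne_zero⟩
  have hpos : 0 < p ^ n := pow_pos (Fact.out : p.Prime).pos n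
  have h0 : IsPrimitiveRoot (zet p n : Qb) (p ^ n) :=
    (zet_primitive p n).map_of_injective (f := Units.coeHom Qb) Units.val_injective
  have h1 := h0.pow_of_coprime _ (ZMod.val_coe_unit_coprime a)
  have hmin : minpoly ℚ ((zet p n : Qb) ^ (a : ZMod (p ^ n)).val) = minpoly ℚ (zet p n : Qb) := by
    rw [← cyclotomic_eq_minpoly_rat h1 hpos, ← cyclotomic_eq_minpoly_rat h0 hpos]
  obtain ⟨g, hg⟩ := MulAction.mem_orbit_iff.1
    ((Normal.minpoly_eq_iff_mem_orbit (F := ℚ) Qb (x := (zet p n : Qb) ^ (a : ZMod (p ^ n)).val)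
      (y := (zet p n : Qb))).1 hmin)
  refine ⟨g, Units.ext ?_⟩
  rw [cyK_eq p (g := g) (j := (a : ZMod (p ^ n)).val) (Units.ext (by simpa using hg)),
    ZMod.natCast_zmod_val]

theorem Hm_index (m : ℕ) : (Hm p m).index = (p ^ (m + 1)).totient := by
  have : NeZero (p ^ (m + 1)) := ⟨pow_ne_zero _ (Fact.out : p.Prime).ne_zero⟩
  rw [Hm, Subgroup.index_ker, MonoidHom.range_eq_top.2 (cyK_surjective (m + 1)), Subgroup.card_top,
    Nat.card_eq_fintype_card, ZMod.card_units_eq_totient]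

/-- Some element of each layer is not in the next one. -/
theorem exists_mem_Hm_notMem_succ (m : ℕ) : ∃ g, g ∈ Hm p m ∧ g ∉ Hm p (m + 1) := by
  by_contra! h
  have e : Hm p m = Hm p (m + 1) := le_antisymm h (Hm_succ_le m)
  have h2 := congrArg Subgroup.index e
  rw [Hm_index, Hm_index, Nat.totient_prime_pow_succ Fact.out,
    Nat.totient_prime_pow_succ Fact.out] at h2
  have hp := (Fact.out : p.Prime).two_le
  have hpos : 0 < p ^ m := pow_pos (by omega) m
  have := Nat.eq_of_mul_eq_mul_right (by omega : 0 < p - 1) h2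
  rw [pow_succ] at this
  nlinarith

/-! ### The prime `p` -/

theorem nq_one_sub_zet_pow (n : ℕ) {i : ℕ} (hi : i.Coprime (p ^ (n + 1))) :
    nq p 1 (1 - (zet p (n + 1) : Qb) ^ i) = nq p 1 (1 - (zet p (n + 1) : Qb)) := by
  set ζ : Qb := (zet p (n + 1) : Qb)
  have hζ : IsPrimitiveRoot ζ (p ^ (n + 1)) :=
    (zet_primitive p (n + 1)).map_of_injective (f := Units.coeHom Qb) Units.val_injective
  have hint : IsIntegral ℤ ζ := isIntegral_zet p (n + 1)
  have key : ∀ (μ : Qb), IsIntegral ℤ μ → ∀ j, nq p 1 (1 - μ ^ j) ≤ nq p 1 (1 - μ) := by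
    intro μ hμ j
    rw [← mul_neg_geom_sum μ j, nq_mul]
    exact mul_le_of_le_one_right (nq_nonneg _ _)
      (nq_le_one_of_isIntegral 1 (IsIntegral.sum _ fun l _ => hμ.pow l))
  refine le_antisymm (key ζ hint i) ?_
  obtain ⟨j, -, hj⟩ := Nat.exists_mul_mod_eq_one_of_coprime hi
    (Nat.one_lt_pow (Nat.succ_ne_zero n) (Fact.out : p.Prime).one_lt)
  have e : (ζ ^ i) ^ j = ζ := by
    rw [← pow_mul, pow_eq_pow_mod _ hζ.pow_eq_one, hj, pow_one]
  have := key _ (hint.pow i) j
  rwa [e] at this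

theorem nq_one_sub_zet_totient (n : ℕ) :
    nq p 1 (1 - (zet p (n + 1) : Qb)) ^ (p ^ (n + 1)).totient = (p : ℝ)⁻¹ := by
  have hζ : IsPrimitiveRoot (zet p (n + 1) : Qb) (p ^ (n + 1)) :=
    (zet_primitive p (n + 1)).map_of_injective (f := Units.coeHom Qb) Units.val_injective
  have : NeZero (p ^ (n + 1)) := ⟨pow_ne_zero _ (Fact.out : p.Prime).ne_zero⟩
  have h : (p : Qb) = ∏ μ ∈ primitiveRoots (p ^ (n + 1)) Qb, (1 - μ) := by
    have e := eval_one_cyclotomic_prime_pow (R := Qb) (p := p) n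
    rw [cyclotomic_eq_prod_X_sub_primitiveRoots hζ, eval_prod] at e
    rw [← e]
    simp
  have h1 : nq p 1 (p : Qb) = (p : ℝ)⁻¹ := by
    rw [← Rat.cast_natCast, nq_ratCast, Rat.cast_natCast, Padic.norm_p]
  rw [← h1, h]
  simp only [nq, map_prod, norm_prod]
  rw [Finset.prod_eq_pow_card (b := nq p 1 (1 - (zet p (n + 1) : Qb))) fun μ hμ => ?_,
    hζ.card_primitiveRoots]
  · rfl
  obtain ⟨i, -, hi, rfl⟩ := (hζ.isPrimitiveRoot_iff).1 (isPrimitiveRoot_of_mem_primitiveRoots hμ)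
  exact nq_one_sub_zet_pow n hi

/-- `p` is totally ramified in the cyclotomic tower. -/
theorem stab_index_p (m : ℕ) : (stab p (Hm p m) 1).index = (p ^ (m + 1)).totient := by
  have hp : p.Prime := Fact.out
  have hS : stab p (Hm p m) 1 ∈ LQ p := stab_mem p 1 (Hm_mem m)
  have := finiteDimensional_fixedField hS
  set x : Qb := 1 - (zet p (m + 1) : Qb)
  have hx0 : x ≠ 0 := fun h => by
    have := nq_one_sub_zet_totient (p := p) m
    rw [show (1 : Qb) - (zet p (m + 1) : Qb) = x from rfl, h, nq_zero,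
      zero_pow (Nat.totient_pos.2 (pow_pos hp.pos _)).ne'] at this
    exact (inv_pos.2 (by exact_mod_cast hp.pos : (0 : ℝ) < p)).ne this
  have hfix : padicEmbedding p x ∈ IntermediateField.fixedField (stab p (Hm p m) 1) := by
    rintro ⟨τ, hτ⟩
    show τ (padicEmbedding p x) = padicEmbedding p x
    rw [← padicEmbedding_localGaloisToGlobal]
    rw [mem_stab, cj_apply, inv_one, one_mul, mul_one, mem_Hm] at hτ
    simp only [x, map_sub, map_one]
    exact congrArg (fun z : Qbˣ => 1 - padicEmbedding p (z : Qb)) hτ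
  have hu : padicEmbedding p x ≠ 0 := fun h => hx0
    ((padicEmbedding p).toRingHom.injective (h.trans (map_zero _).symm))
  obtain ⟨e, he⟩ := exists_ord (IntermediateField.fixedField (stab p (Hm p m) 1))
    (Units.mk0 ⟨_, hfix⟩ fun h => hu (congrArg Subtype.val h))
  rw [finrank_fixedField hS] at he
  set d := (stab p (Hm p m) 1).index
  set φ := (p ^ (m + 1)).totient
  have he' : nq p 1 x ^ d = (p : ℝ) ^ (-e) := he
  have h1 : nq p 1 x ^ φ = (p : ℝ)⁻¹ := nq_one_sub_zet_totient m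
  have h2 : ((p : ℝ) ^ (-e)) ^ φ = (p : ℝ) ^ (-(d : ℤ)) := by
    rw [← he', ← pow_mul, mul_comm, pow_mul, h1, inv_pow, zpow_neg, zpow_natCast]
  rw [← zpow_natCast, ← zpow_mul] at h2
  have h3 := (zpow_right_strictMono₀ (by exact_mod_cast hp.one_lt : (1 : ℝ) < p)).injective h2
  have hdiv : φ ∣ d := by
    have : (φ : ℤ) ∣ (d : ℤ) := ⟨e, by linarith [h3]⟩
    exact_mod_cast this
  have hle : d ≤ φ := by
    show d ≤ (p ^ (m + 1)).totient
    rw [← Hm_index (p := p) m]
    have hfi := LG.finiteIndex (Hm_mem (p := p) m)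
    show (stab p (Hm p m) 1).index ≤ _
    rw [stab, Subgroup.index_comap]
    exact Nat.le_of_dvd (Nat.pos_of_ne_zero hfi.index_ne_zero)
      (Subgroup.relIndex_dvd_index_of_normal _ _)
  have hd0 : 0 < d := Nat.pos_of_ne_zero ((LQ p).finiteIndex hS).index_ne_zero
  exact le_antisymm hle (Nat.le_of_dvd hd0 hdiv)

/-- Every element of the group is local at `p` modulo each layer. -/
theorem exists_local_p (m : ℕ) (σ : Gam) :
    ∃ τ : GamQ p, (localGaloisToGlobal p τ)⁻¹ * σ ∈ Hm p m := by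
  have := LG.finiteIndex (Hm_mem (p := p) m)
  have : Finite (Gam ⧸ Hm p m) := Subgroup.finite_quotient_of_finiteIndex
  have hinj : Function.Injective (orbMap p (H := Hm p m) 1) := by
    intro x y h
    induction x using QuotientGroup.induction_on with | _ a => ?_
    induction y using QuotientGroup.induction_on with | _ b => ?_
    rw [orbMap_mk, orbMap_mk, QuotientGroup.eq, mul_one, mul_one] at h
    refine QuotientGroup.eq.2 ?_
    rw [mem_stab, cj_apply, inv_one, one_mul, mul_one, map_mul, map_inv]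
    exact h
  have hcard : Nat.card (GamQ p ⧸ stab p (Hm p m) 1) = Nat.card (Gam ⧸ Hm p m) := by
    rw [← Subgroup.index_eq_card, ← Subgroup.index_eq_card, stab_index_p, Hm_index]
  obtain ⟨x, hx⟩ := ((Nat.bijective_iff_injective_and_card _).2 ⟨hinj, hcard⟩).2 (σ : Gam ⧸ Hm p m)
  induction x using QuotientGroup.induction_on with | _ a => ?_
  rw [orbMap_mk, mul_one, QuotientGroup.eq] at hx
  exact ⟨a, hx⟩

end Fermat.Agent.PT
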