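import Mathlib.Data.Nat.Factorization.Basic
import Mathlib.Data.Rat.Lemmas
import Mathlib.NumberTheory.Padics.PadicIntegers
import Mathlib.NumberTheory.Padics.PadicNorm
import Mathlib.NumberTheory.Padics.PadicNumbers
import Mathlib.RingTheory.ZMod.UnitsCyclic

/-!
# The character `r ↦ (unit part of r)^(p-1) mod p^n` on rational numbers

The character `psi` is trivial on rationals close to `1` and is computed by the exponents of the
primes `≠ p`; applied to norms from cyclotomic layers it is the bridge to reciprocity.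
-/

noncomputable section

namespace Fermat.Agent.PT

variable (p n : ℕ) [hp : Fact p.Prime]

/-- The character `psi` on natural numbers: the `(p - 1)`-th power, modulo `p ^ n`, of the part
prime to `p`. -/
def psiNat (k : ℕ) : (ZMod (p ^ n))ˣ :=
  if h : k = 0 then 1
  else ZMod.unitOfCoprime (ordCompl[p] k)
    ((Nat.coprime_ordCompl hp.out h).pow_left n).symm ^ (p - 1)

theorem psiNat_val {k : ℕ} (h : k ≠ 0) :
    ((psiNat p n k : (ZMod (p ^ n))ˣ) : ZMod (p ^ n)) = (ordCompl[p] k : ℕ) ^ (p - 1) := by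
  rw [psiNat, dif_neg h, Units.val_pow_eq_pow_val, ZMod.coe_unitOfCoprime]

theorem psiNat_of_not_dvd {k : ℕ} (h : ¬ p ∣ k) :
    ((psiNat p n k : (ZMod (p ^ n))ˣ) : ZMod (p ^ n)) = (k : ZMod (p ^ n)) ^ (p - 1) := by
  have hk : k ≠ 0 := by rintro rfl; exact h (dvd_zero p)
  rw [psiNat_val p n hk, Nat.factorization_eq_zero_of_not_dvd h, pow_zero, Nat.div_one]

theorem psiNat_one : psiNat p n 1 = 1 :=
  Units.ext (by rw [psiNat_of_not_dvd p n hp.out.not_dvd_one]; simp)

theorem psiNat_mul {a b : ℕ} (ha : a ≠ 0) (hb : b ≠ 0) :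
    psiNat p n (a * b) = psiNat p n a * psiNat p n b := by
  refine Units.ext ?_
  rw [Units.val_mul, psiNat_val p n ha, psiNat_val p n hb, psiNat_val p n (mul_ne_zero ha hb),
    ← mul_pow, ← Nat.cast_mul, Nat.ordCompl_mul]

theorem psiNat_pow {a : ℕ} (ha : a ≠ 0) (j : ℕ) : psiNat p n (a ^ j) = psiNat p n a ^ j := by
  induction j with
  | zero => rw [pow_zero, pow_zero, psiNat_one]
  | succ j ih => rw [pow_succ, psiNat_mul p n (pow_ne_zero _ ha) ha, ih, pow_succ]

theorem psiNat_self : psiNat p n p = 1 := by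
  refine Units.ext ?_
  rw [psiNat_val p n hp.out.ne_zero, Nat.Prime.factorization_self hp.out, pow_one,
    Nat.div_self hp.out.pos]
  simp

/-- The `(p - 1)`-th power of the unit part of a rational number, modulo `p ^ n`. -/
def psi (r : ℚ) : (ZMod (p ^ n))ˣ := psiNat p n r.num.natAbs * (psiNat p n r.den)⁻¹

theorem psi_natCast (k : ℕ) : psi p n (k : ℚ) = psiNat p n k := by
  simp [psi, psiNat_one]

theorem psi_eq {r : ℚ} (hr : r ≠ 0) {a : ℤ} {b : ℕ} (hb : b ≠ 0) (h : r * b = a) :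
    psi p n r = psiNat p n a.natAbs * (psiNat p n b)⁻¹ := by
  have hnum : r.num.natAbs ≠ 0 := Int.natAbs_ne_zero.2 (Rat.num_ne_zero.2 hr)
  have ha : a ≠ 0 := by
    rintro rfl
    simp [hr, hb] at h
  have e : r.num * b = a * r.den := by
    have h1 : (r.num : ℚ) * b = a * r.den := by
      rw [← h, ← Rat.mul_den_eq_num r]; ring
    exact_mod_cast h1
  have e' : r.num.natAbs * b = a.natAbs * r.den := by
    simpa [Int.natAbs_mul] using congrArg Int.natAbs e
  have e2 := congrArg (psiNat p n) e'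
  rw [psiNat_mul p n hnum hb, psiNat_mul p n (Int.natAbs_ne_zero.2 ha) r.den_nz] at e2
  rw [psi, mul_inv_eq_iff_eq_mul, mul_right_comm, eq_mul_inv_iff_mul_eq, e2]

theorem psi_mul {r s : ℚ} (hr : r ≠ 0) (hs : s ≠ 0) : psi p n (r * s) = psi p n r * psi p n s := by
  rw [psi_eq p n (mul_ne_zero hr hs) (mul_ne_zero r.den_nz s.den_nz)
    (a := r.num * s.num) (by push_cast; rw [← Rat.mul_den_eq_num r, ← Rat.mul_den_eq_num s]; ring),
    Int.natAbs_mul, psiNat_mul p n (Int.natAbs_ne_zero.2 (Rat.num_ne_zero.2 hr))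
      (Int.natAbs_ne_zero.2 (Rat.num_ne_zero.2 hs)), psiNat_mul p n r.den_nz s.den_nz, psi, psi,
    mul_inv, mul_mul_mul_comm]

theorem psi_one : psi p n 1 = 1 := by simpa [psiNat_one] using psi_natCast p n 1

theorem psi_pow {r : ℚ} (hr : r ≠ 0) (j : ℕ) : psi p n (r ^ j) = psi p n r ^ j := by
  induction j with
  | zero => rw [pow_zero, pow_zero, psi_one]
  | succ j ih => rw [pow_succ, psi_mul p n (pow_ne_zero _ hr) hr, ih, pow_succ]

/-- `psiNat` of a nonzero number as a product over a set of primes containing its prime factors. -/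
theorem psiNat_eq_prod (T : Finset ℕ) : ∀ {k : ℕ}, k ≠ 0 → k.primeFactors ⊆ T →
    (∀ q ∈ T, q.Prime) → psiNat p n k = ∏ q ∈ T, psiNat p n q ^ k.factorization q := by
  intro k hk hT hTp
  have hk' : k = ∏ q ∈ T, q ^ k.factorization q := by
    conv_lhs => rw [← Nat.prod_factorization_pow_eq_self hk]
    refine Finsupp.prod_of_support_subset _ hT _ fun q _ => pow_zero q
  have key : ∀ s : Finset ℕ, (∀ q ∈ s, q ≠ 0) → (∏ q ∈ s, q ^ k.factorization q) ≠ 0 ∧
      psiNat p n (∏ q ∈ s, q ^ k.factorization q) = ∏ q ∈ s, psiNat p n q ^ k.factorization q := by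
    intro s
    induction s using Finset.induction with
    | empty => simp [psiNat_one]
    | insert q s hq ih =>
      intro hs
      obtain ⟨h0, h1⟩ := ih fun x hx => hs x (Finset.mem_insert_of_mem hx)
      have hq0 := pow_ne_zero (k.factorization q) (hs q (Finset.mem_insert_self q s))
      rw [Finset.prod_insert hq, Finset.prod_insert hq]
      exact ⟨mul_ne_zero hq0 h0, by
        rw [psiNat_mul p n hq0 h0, psiNat_pow p n (hs q (Finset.mem_insert_self q s)), h1]⟩
  conv_lhs => rw [hk']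
  exact (key T fun q hq => (hTp q hq).ne_zero).2

/-- All primes but one contribute trivially. -/
theorem psi_eq_single {r : ℚ} (hr : r ≠ 0) {q₀ : ℕ} (hq₀ : q₀.Prime)
    (h : ∀ q : ℕ, q.Prime → q ≠ p → q ≠ q₀ → psiNat p n q ^ padicValRat q r = 1) :
    psi p n r = psiNat p n q₀ ^ padicValRat q₀ r := by
  set a := r.num.natAbs
  set b := r.den
  have ha : a ≠ 0 := Int.natAbs_ne_zero.2 (Rat.num_ne_zero.2 hr)
  set T := a.primeFactors ∪ b.primeFactors
  have hT : ∀ q ∈ T, q.Prime := fun q hq => by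
    rcases Finset.mem_union.1 hq with h | h <;> exact Nat.prime_of_mem_primeFactors h
  rw [psi, psiNat_eq_prod p n T ha Finset.subset_union_left hT,
    psiNat_eq_prod p n T r.den_nz Finset.subset_union_right hT, ← Finset.prod_inv_distrib,
    ← Finset.prod_mul_distrib]
  have e : ∀ q : ℕ, q.Prime → psiNat p n q ^ padicValRat q r =
      psiNat p n q ^ a.factorization q * (psiNat p n q ^ b.factorization q)⁻¹ := fun q hq => by
    rw [padicValRat_def, padicValInt, ← Nat.factorization_def _ hq, ← Nat.factorization_def _ hq,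
      zpow_sub, zpow_natCast, zpow_natCast]
  rw [e q₀ hq₀]
  refine Finset.prod_eq_single q₀ (fun q hq hne => ?_) fun hq => ?_
  · by_cases hqp : q = p
    · subst hqp; simp [psiNat_self]
    · rw [← e q (hT q hq)]; exact h q (hT q hq) hqp hne
  · simp only [T, Finset.mem_union, not_or, ← Nat.support_factorization,
      Finsupp.notMem_support_iff] at hq
    rw [hq.1, hq.2, pow_zero, inv_one, mul_one]

/-- Criterion of triviality by the exponents of the primes. -/
theorem psi_eq_one {r : ℚ} (hr : r ≠ 0)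
    (h : ∀ q : ℕ, q.Prime → q ≠ p → psiNat p n q ^ padicValRat q r = 1) : psi p n r = 1 := by
  rw [psi_eq_single p n hr hp.out fun q hq hqp _ => h q hq hqp, psiNat_self, one_zpow]

/-- Rationals close to `1`. -/
theorem psi_eq_one_of_norm (hodd : p ≠ 2) {r : ℚ}
    (hlt : ‖((r : ℚ) : ℚ_[p]) - 1‖ ≤ (p : ℝ) ^ (-(n + 1 : ℕ) : ℤ)) : psi p (n + 1) r = 1 := by
  have hp1 : (1 : ℝ) < p := by exact_mod_cast hp.out.one_lt
  have hsmall : (p : ℝ) ^ (-(n + 1 : ℕ) : ℤ) < 1 := zpow_lt_one_of_neg₀ hp1 (by omega)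
  have h1 : ‖(r : ℚ_[p])‖ = 1 := by
    have e : (r : ℚ_[p]) = ((r : ℚ_[p]) - 1) + 1 := by ring
    rw [e, Padic.add_eq_max_of_ne (by rw [norm_one]; exact (hlt.trans_lt hsmall).ne), norm_one]
    exact max_eq_right (hlt.trans hsmall.le)
  have hr : r ≠ 0 := by rintro rfl; simp at h1
  have he : (r : ℚ_[p]) * (r.den : ℚ_[p]) = (r.num : ℚ_[p]) := by
    exact_mod_cast congrArg (fun x : ℚ => (x : ℚ_[p])) (Rat.mul_den_eq_num r)
  have hden : ¬ p ∣ r.den := fun h => by
    have hn : ¬ (p : ℤ) ∣ r.num := fun h' => by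
      have : p ∣ Nat.gcd r.num.natAbs r.den := Nat.dvd_gcd (Int.natCast_dvd.1 h') h
      rw [r.reduced] at this
      exact hp.out.not_dvd_one this
    have h3 : ‖(r.den : ℚ_[p])‖ < 1 := Padic.norm_natCast_lt_one_iff.2 h
    have h4 : ‖(r.num : ℚ_[p])‖ = 1 :=
      le_antisymm (Padic.norm_int_le_one _) (not_lt.1 fun h' =>
        hn ((Padic.norm_intCast_lt_one_iff).1 h'))
    rw [← he, norm_mul, h1, one_mul] at h4
    exact h3.ne h4
  have hdn : ‖(r.den : ℚ_[p])‖ = 1 :=
    Padic.norm_natCast_eq_one_iff.2 (hp.out.coprime_iff_not_dvd.2 hden)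
  have hdvd : (p : ℤ) ^ (n + 1) ∣ r.num - r.den := by
    rw [← Padic.norm_int_le_pow_iff_dvd]
    push_cast
    rw [← he, ← sub_one_mul, norm_mul, hdn, mul_one]
    exact hlt
  have hnum : ¬ p ∣ r.num.natAbs := fun h => hden (by
    have h2 := dvd_sub (Int.natCast_dvd.2 h)
      ((dvd_pow_self (p : ℤ) (Nat.succ_ne_zero n)).trans hdvd)
    rw [sub_sub_cancel] at h2
    exact Int.natCast_dvd_natCast.1 h2)
  refine mul_inv_eq_one.2 (Units.ext ?_)
  rw [psiNat_of_not_dvd _ _ hnum, psiNat_of_not_dvd _ _ hden]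
  have e : ((r.num : ℤ) : ZMod (p ^ (n + 1))) = ((r.den : ℤ) : ZMod (p ^ (n + 1))) := by
    rw [← sub_eq_zero, ← Int.cast_sub, ZMod.intCast_zmod_eq_zero_iff_dvd]
    exact_mod_cast hdvd
  have heven : Even (p - 1) := hp.out.even_sub_one hodd
  calc ((r.num.natAbs : ℕ) : ZMod (p ^ (n + 1))) ^ (p - 1)
      = (((r.num.natAbs : ℤ) ^ (p - 1) : ℤ) : ZMod (p ^ (n + 1))) := by
        rw [Int.cast_pow, Int.cast_natCast]
    _ = (((r.num) ^ (p - 1) : ℤ) : ZMod (p ^ (n + 1))) := by
        rw [Int.natCast_natAbs, heven.pow_abs]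
    _ = _ := by push_cast; rw [e]; norm_cast

/-- The value of `psi` on the norm of `1 + p` from a layer has order `p`. -/
theorem psi_one_add_self (hodd : p ≠ 2) (m : ℕ) :
    psi p (m + 2) (((1 + p : ℕ) : ℚ) ^ (p ^ (m + 1)).totient) ≠ 1 ∧
      psi p (m + 2) (((1 + p : ℕ) : ℚ) ^ (p ^ (m + 1)).totient) ^ p = 1 := by
  have hnd : ¬ p ∣ 1 + p := fun h => hp.out.not_dvd_one ((Nat.dvd_add_left dvd_rfl).1 h)
  have hne : ((1 + p : ℕ) : ℚ) ≠ 0 := by positivity
  have ho : orderOf (1 + p : ZMod (p ^ (m + 1 + 1))) = p ^ (m + 1) :=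
    ZMod.orderOf_one_add_prime hp.out hodd (m + 1)
  have key : ∀ j, ((psi p (m + 2) (((1 + p : ℕ) : ℚ) ^ (p ^ (m + 1)).totient) ^ j :
      (ZMod (p ^ (m + 2)))ˣ) : ZMod (p ^ (m + 2))) =
      (1 + p : ZMod (p ^ (m + 2))) ^ ((p - 1) * (p ^ m * (p - 1) * j)) := fun j => by
    rw [psi_pow p _ hne, psi_natCast, ← pow_mul, Units.val_pow_eq_pow_val,
      psiNat_of_not_dvd _ _ hnd, ← pow_mul, Nat.totient_prime_pow_succ hp.out]
    push_cast
    rfl
  constructor
  · intro h
    have h1 := key 1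
    rw [pow_one, h, Units.val_one] at h1
    have h2 := orderOf_dvd_of_pow_eq_one h1.symm
    rw [show (m + 2) = (m + 1 + 1) from rfl] at h2
    rw [ho, mul_one, show (p - 1) * (p ^ m * (p - 1)) = p ^ m * ((p - 1) * (p - 1)) by ring,
      pow_succ, Nat.mul_dvd_mul_iff_left (pow_pos hp.out.pos m)] at h2
    rcases hp.out.dvd_mul.1 h2 with h3 | h3 <;>
      exact absurd (Nat.le_of_dvd (Nat.sub_pos_of_lt hp.out.one_lt) h3)
        (not_le.2 (Nat.sub_lt hp.out.pos one_pos))
  · refine Units.ext ?_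
    rw [key p, Units.val_one]
    refine orderOf_dvd_iff_pow_eq_one.1 ?_
    show orderOf (1 + p : ZMod (p ^ (m + 1 + 1))) ∣ _
    rw [ho]
    exact ⟨(p - 1) * (p - 1), by ring⟩

end Fermat.Agent.PT
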