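import Mathlib.GroupTheory.Coset.Card
import Fermat.Agent.PT.Cyclo
import Fermat.Agent.PT.GlobalInputs
import Fermat.Agent.PT.Psi

/-!
# The places of the cyclotomic layers, and norms to `ℚ`

Frobenius and inertia in the cyclotomic tower, and the exponent of a prime `q` in the norm to
`ℚ` of an element of a layer as a sum over the places above `q`.
-/

noncomputable section

namespace Fermat.Agent.PT

open Lv Polynomial

local notation "Qb" => AlgebraicClosure ℚ

variable {p q : ℕ} [Fact p.Prime] [Fact q.Prime]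

instance neZero_primePow (k : ℕ) : NeZero (p ^ k) := ⟨pow_ne_zero _ (Fact.out : p.Prime).ne_zero⟩

/-- Decomposition elements are local modulo any level. -/
theorem exists_local_of_decomposition {H : Subgroup Gam} (hH : H ∈ LG) {σ : Gam}
    (hσ : σ ∈ (padicPlace q).decompositionSubgroup ℚ) :
    ∃ τ : GamQ q, (localGaloisToGlobal q τ)⁻¹ * σ ∈ H := by
  have hle : ∀ x : Qb, nq q σ x ≤ 1 ↔ nq q 1 x ≤ 1 := fun x => by
    have h : nq q σ x ≤ 1 ↔ σ x ∈ padicPlace q := (mem_padicPlace_iff _).symm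
    rw [h, Gal.mem_decomposition_iff.1 hσ x, mem_padicPlace_iff]
    rfl
  have he : (absPl (q := q) (H := H) σ).IsEquiv (absPl (q := q) (H := H) 1) := by
    intro x y
    rw [absPl_apply, absPl_apply, absPl_apply, absPl_apply]
    by_cases hy : (y : Qb) = 0
    · rw [hy, nq_zero, nq_zero]
      constructor <;> intro h <;>
        · by_contra hx
          have hx0 : (x : Qb) ≠ 0 := fun h0 => hx (by rw [h0, nq_zero])
          exact h.not_gt (nq_pos _ hx0)
    · have h := hle ((x : Qb) * (y : Qb)⁻¹)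
      rwa [nq_mul, nq_mul, nq_inv, nq_inv, ← div_eq_mul_inv, ← div_eq_mul_inv,
        div_le_one (nq_pos _ hy), div_le_one (nq_pos _ hy)] at h
  obtain ⟨-, hnq⟩ := eq_of_isEquiv_absPl he
  obtain ⟨τ, h, hh, e⟩ := samePlace_of_nq_eq hH (g := 1) (g' := σ) fun x hx => (hnq x hx).symm
  exact ⟨τ, by rw [e, mul_one, inv_mul_cancel_left]; exact hh⟩

theorem zet_congr_eq (hqp : q ≠ p) {A : ValuationSubring Qb} (hA : A.LiesOverPrime q) {n a b : ℕ}
    (h : (zet p n : Qb) ^ a - (zet p n : Qb) ^ b ∈ A.nonunits) :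
    zet p n ^ a = zet p n ^ b := by
  have h1 : ∀ c : ℕ, ((zet p n : Qb) ^ c) ^ p ^ n = 1 := fun c => by
    rw [← pow_mul, mul_comm, pow_mul, ← Units.val_pow_eq_pow_val, zet_pow_pow, Units.val_one,
      one_pow]
  have hint : ∀ c : ℕ, IsIntegral ℤ ((zet p n : Qb) ^ c) := (isIntegral_zet p n).pow
  have hnd : ¬ q ∣ p ^ n := fun hd => hqp ((Nat.prime_dvd_prime_iff_eq Fact.out Fact.out).1
    ((Fact.out : q.Prime).dvd_of_dvd_pow hd))
  exact Units.ext (by
    rw [Units.val_pow_eq_pow_val, Units.val_pow_eq_pow_val]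
    exact Gal.eq_of_congruent_roots (f := (X ^ (p ^ n) - 1 : ℤ[X]))
      (fun z : ℤ => by simp) (Gal.mem_of_isIntegral (hint b))
      (Gal.mem_of_isIntegral (hint a)) (by simp [h1]) (by simp [h1])
      (Gal.natCast_mul_pow_ne_zero (Fact.out : q.Prime) hA hnd (h1 b)) h)

/-- Inertia away from `p` fixes the tower. -/
theorem inN_Hm (hqp : q ≠ p) (m : ℕ) : InN q (Hm p m) := fun A hA σ hσ => by
  obtain ⟨hD, hI⟩ := Gal.mem_inertia_iff.1 hσ
  have h1 := hI _ (Gal.mem_of_isIntegral (isIntegral_zet p (m + 1)))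
  rw [mem_Hm, cyK_spec]
  rw [zet_apply_eq_pow] at h1
  have := zet_congr_eq (n := m + 1) (a := (cyK p (m + 1) σ : ZMod (p ^ (m + 1))).val) (b := 1) hqp
    hA (by rw [pow_one]; exact h1)
  rwa [pow_one] at this

/-- The value of the cyclotomic character at a Frobenius. -/
theorem exists_frob (hqp : q ≠ p) (k : ℕ) :
    ∃ τ : GamQ q, (cyK p (k + 1) (localGaloisToGlobal q τ) : ZMod (p ^ (k + 1))) = q ∧
      ∀ τ' : GamQ q, ∃ i : ℕ,
        cyK p (k + 1) (localGaloisToGlobal q τ') = cyK p (k + 1) (localGaloisToGlobal q τ) ^ i := by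
  obtain ⟨σ, hσ⟩ := Gal.exists_isFrobeniusAt (A := padicPlace q) (Fact.out : q.Prime)
    padicPlace_liesOverPrime
  obtain ⟨hσD, hσF⟩ := Gal.isFrobeniusAt_iff.1 hσ
  obtain ⟨τ, hτ⟩ := exists_local_of_decomposition (Hm_mem (p := p) k) hσD
  obtain ⟨d, hpow, -⟩ := exists_residue_count (Hm_mem (p := p) k) (inN_Hm hqp k) hσ
  have hK : cyK p (k + 1) (localGaloisToGlobal q τ) = cyK p (k + 1) σ := by
    have h : cyK p (k + 1) ((localGaloisToGlobal q τ)⁻¹ * σ) = 1 := hτ
    rwa [map_mul, map_inv, inv_mul_eq_one] at h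
  refine ⟨τ, ?_, fun τ' => ?_⟩
  · rw [hK]
    refine cyK_eq p ?_
    have h1 := hσF _ (Gal.mem_of_isIntegral (isIntegral_zet p (k + 1)))
    rw [zet_apply_eq_pow] at h1
    rw [cyK_spec]
    exact zet_congr_eq hqp padicPlace_liesOverPrime h1
  · obtain ⟨i, hi⟩ := hpow τ'
    refine ⟨i, ?_⟩
    have h : cyK p (k + 1) ((σ ^ i)⁻¹ * localGaloisToGlobal q τ') = 1 := hi
    rw [map_mul, map_inv, map_pow, inv_mul_eq_one] at h
    rw [hK, h]

theorem cyK_succ {n : ℕ} {g : Gam} {j : ℕ} (h : (cyK p (n + 1) g : ZMod (p ^ (n + 1))) = j) :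
    (cyK p n g : ZMod (p ^ n)) = j := by
  refine cyK_eq p ?_
  have h1 : g • zet p (n + 1) = zet p (n + 1) ^ j := by
    rw [cyK_spec, h, ZMod.val_natCast,
      ← pow_eq_pow_mod j (zet_primitive p (n + 1)).pow_eq_one]
  conv_lhs => rw [← zet_succ_pow p n]
  rw [smul_pow', h1, ← pow_mul, mul_comm, pow_mul, zet_succ_pow]

/-! ### Norms to `ℚ` -/

/-- Elements with the same character act alike. -/
theorem smul_eq_of_cyK {m : ℕ} {x : Qbˣ} (hx : x ∈ fixU (Hm p m)) {g g' : Gam}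
    (h : cyK p (m + 1) g = cyK p (m + 1) g') : g • x = g' • x := by
  have hm : g⁻¹ * g' ∈ Hm p m := by
    show cyK p (m + 1) (g⁻¹ * g') = 1
    rw [map_mul, map_inv, h, inv_mul_cancel]
  have := hx ⟨_, hm⟩
  rw [Subtype.coe_mk, mul_smul, inv_smul_eq_iff] at this
  exact this.symm

theorem smul_mem_fixU {H : Subgroup Gam} [H.Normal] {x : Qbˣ} (hx : x ∈ fixU H) (g : Gam) :
    g • x ∈ fixU H := fun h =>
  Units.ext (apply_fixed_of_normal (fun n hn => congrArg Units.val (hx ⟨n, hn⟩)) g h h.2)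

variable (p) in
/-- A lift of a unit modulo `p ^ (m + 1)`. -/
def liftK (m : ℕ) (b : (ZMod (p ^ (m + 1)))ˣ) : Gam := (cyK_surjective (m + 1) b).choose

theorem cyK_liftK (m : ℕ) (b : (ZMod (p ^ (m + 1)))ˣ) : cyK p (m + 1) (liftK p m b) = b :=
  (cyK_surjective (m + 1) b).choose_spec

variable (p) in
/-- The norm to `ℚ`. -/
def cyN (m : ℕ) : Qbˣ →* Qbˣ :=
  MonoidHom.mk' (fun x => ∏ b : (ZMod (p ^ (m + 1)))ˣ, liftK p m b • x) fun x y => by
    simp only [smul_mul', Finset.prod_mul_distrib]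

theorem cyN_apply (m : ℕ) (x : Qbˣ) :
    cyN p m x = ∏ b : (ZMod (p ^ (m + 1)))ˣ, liftK p m b • x := rfl

theorem exists_ratCast_cyN {m : ℕ} {x : Qbˣ} (hx : x ∈ fixU (Hm p m)) :
    ∃ r : ℚ, (r : Qb) = (cyN p m x : Qb) := by
  have hfix : ∀ g : Gam, g • cyN p m x = cyN p m x := fun g => by
    rw [cyN_apply, Finset.smul_prod']
    refine Fintype.prod_bijective (cyK p (m + 1) g * ·) (Group.mulLeft_bijective _) _ _ fun b => ?_
    rw [← mul_smul]
    exact smul_eq_of_cyK hx (by rw [map_mul, cyK_liftK, cyK_liftK])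
  have hmem : (cyN p m x : Qb) ∈ (⊥ : IntermediateField ℚ Qb) := by
    rw [← InfiniteGalois.fixedField_fixingSubgroup (⊥ : IntermediateField ℚ Qb)]
    exact fun g => congrArg Units.val (hfix g)
  obtain ⟨r, hr⟩ := IntermediateField.mem_bot.1 hmem
  exact ⟨r, hr⟩

open scoped Classical in
variable (p) in
/-- The norm as a rational number. -/
def cyR (m : ℕ) (x : Qbˣ) : ℚ :=
  if h : x ∈ fixU (Hm p m) then (exists_ratCast_cyN h).choose else 1

theorem cyR_spec {m : ℕ} {x : Qbˣ} (hx : x ∈ fixU (Hm p m)) :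
    (cyR p m x : Qb) = (cyN p m x : Qb) := by
  rw [cyR, dif_pos hx]
  exact (exists_ratCast_cyN hx).choose_spec

theorem cyR_ne_zero {m : ℕ} {x : Qbˣ} (hx : x ∈ fixU (Hm p m)) : cyR p m x ≠ 0 := fun h => by
  have := cyR_spec hx
  rw [h, Rat.cast_zero] at this
  exact (cyN p m x).ne_zero this.symm

theorem cyR_mul {m : ℕ} {x y : Qbˣ} (hx : x ∈ fixU (Hm p m)) (hy : y ∈ fixU (Hm p m)) :
    cyR p m (x * y) = cyR p m x * cyR p m y := by
  apply Rat.cast_injective (α := Qb)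
  rw [Rat.cast_mul, cyR_spec hx, cyR_spec hy, cyR_spec (mul_mem hx hy), map_mul, Units.val_mul]

theorem cyR_pow {m : ℕ} {x : Qbˣ} (hx : x ∈ fixU (Hm p m)) (j : ℕ) :
    cyR p m (x ^ j) = cyR p m x ^ j := by
  apply Rat.cast_injective (α := Qb)
  rw [Rat.cast_pow, cyR_spec hx, cyR_spec (pow_mem hx j), map_pow, Units.val_pow_eq_pow_val]

theorem fixU_of_ratCast {H : Subgroup Gam} {x : Qbˣ} {r : ℚ} (h : (x : Qb) = r) : x ∈ fixU H :=
  fun g => Units.ext (by
    show (g : Gam) (x : Qb) = x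
    rw [h, map_ratCast])

theorem cyR_ratCast (m : ℕ) {x : Qbˣ} {r : ℚ} (h : (x : Qb) = r) :
    cyR p m x = r ^ (p ^ (m + 1)).totient := by
  apply Rat.cast_injective (α := Qb)
  rw [cyR_spec (fixU_of_ratCast h), cyN_apply, Units.coe_prod,
    Finset.prod_eq_pow_card (b := (r : Qb)) fun b _ => ?_, Finset.card_univ,
    ZMod.card_units_eq_totient, Rat.cast_pow]
  show liftK p m b (x : Qb) = _
  rw [h, map_ratCast]

theorem nq_cyR (g : Gam) {m : ℕ} {x : Qbˣ} (hx : x ∈ fixU (Hm p m)) :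
    nq q g (cyR p m x : Qb) =
      ∏ b : (ZMod (p ^ (m + 1)))ˣ, nq q g ((liftK p m b • x : Qbˣ) : Qb) := by
  rw [cyR_spec hx, cyN_apply, Units.coe_prod]
  simp only [nq, map_prod, norm_prod]

theorem nq_smul (g h : Gam) (x : Qbˣ) : nq q g ((h • x : Qbˣ) : Qb) = nq q (g * h) (x : Qb) := rfl

/-- The exponent of `q` in the norm as a sum over the orbits of Frobenius, the places above `q`. -/
theorem exists_padicValRat_cyR_eq_sum (hqp : q ≠ p) (m : ℕ) {τ : GamQ q} {c : (ZMod (p ^ (m + 1)))ˣ}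
    (hc : cyK p (m + 1) (localGaloisToGlobal q τ) = c) {x : Qbˣ} (hx : x ∈ fixU (Hm p m)) :
    ∃ F : (ZMod (p ^ (m + 1)))ˣ ⧸ Subgroup.zpowers c → ℤ,
      (∀ Q, nq q (liftK p m Q.out) (x : Qb) = (q : ℝ) ^ F Q) ∧
      padicValRat q (cyR p m x) = -((orderOf c : ℤ) * ∑ Q, F Q) := by
  classical
  have hval : ∀ g : Gam, ∃ e : ℤ, nq q g (x : Qb) = (q : ℝ) ^ e := fun g =>
    exists_nq_eq_zpow (Hm_mem m) (inN_Hm hqp m)
      (fun n hn => congrArg Units.val (hx ⟨n, hn⟩)) x.ne_zero g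
  choose e he using hval
  refine ⟨fun Q => e (liftK p m Q.out), fun Q => he _, ?_⟩
  have hinv : ∀ b, ∀ u ∈ Subgroup.zpowers c,
      nq q (liftK p m (b * u)) (x : Qb) = nq q (liftK p m b) (x : Qb) := by
    rintro b _ ⟨j, rfl⟩
    show nq q 1 ((liftK p m (b * c ^ j) • x : Qbˣ) : Qb) = _
    rw [smul_eq_of_cyK hx (g' := localGaloisToGlobal q (τ ^ j) * liftK p m b)
      (by rw [cyK_liftK, map_mul, map_zpow, map_zpow, hc, cyK_liftK, mul_comm]), nq_smul, one_mul,
      nq_left]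
  have hr0 := cyR_ne_zero hx
  have hq1 : (1 : ℝ) < q := by exact_mod_cast (Fact.out : q.Prime).one_lt
  have h1 : (q : ℝ) ^ (-padicValRat q (cyR p m x)) =
      ∏ b : (ZMod (p ^ (m + 1)))ˣ, nq q (liftK p m b) (x : Qb) := by
    have h := nq_cyR (q := q) 1 hx
    simp only [nq_smul, one_mul] at h
    rw [← h, nq_ratCast, Padic.eq_padicNorm, padicNorm.eq_zpow_of_nonzero hr0]
    push_cast
    rfl
  rw [← (Subgroup.groupEquivQuotientProdSubgroup (s := Subgroup.zpowers c)).symm.prod_comp,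
    Fintype.prod_prod_type] at h1
  have h2 : ∀ (Q : (ZMod (p ^ (m + 1)))ˣ ⧸ Subgroup.zpowers c) (u : Subgroup.zpowers c),
      nq q (liftK p m (Subgroup.groupEquivQuotientProdSubgroup.symm (Q, u))) (x : Qb) =
        (q : ℝ) ^ e (liftK p m Q.out) := fun Q u => by
    rw [← he]
    have hmem : Q.out⁻¹ * Subgroup.groupEquivQuotientProdSubgroup.symm (Q, u) ∈
        Subgroup.zpowers c := by
      refine QuotientGroup.eq.1 (Q.out_eq.trans ?_)
      exact (congrArg Prod.fst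
        (Subgroup.groupEquivQuotientProdSubgroup.apply_symm_apply (Q, u))).symm
    have := hinv Q.out _ hmem
    rwa [mul_inv_cancel_left] at this
  simp only [h2, Finset.prod_const, Finset.card_univ, Fintype.card_zpowers] at h1
  have h3 : ∀ s : Finset ((ZMod (p ^ (m + 1)))ˣ ⧸ Subgroup.zpowers c),
      ∏ Q ∈ s, ((q : ℝ) ^ e (liftK p m Q.out)) ^ orderOf c =
        (q : ℝ) ^ ((orderOf c : ℤ) * ∑ Q ∈ s, e (liftK p m Q.out)) := by
    intro s
    induction s using Finset.induction with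
    | empty => simp
    | insert a s ha ih =>
      rw [Finset.prod_insert ha, Finset.sum_insert ha, ih, mul_add, zpow_add₀ (by positivity),
        ← zpow_natCast ((q : ℝ) ^ e (liftK p m a.out)) (orderOf c), ← zpow_mul,
        mul_comm (e (liftK p m a.out))]
  rw [h3] at h1
  have h4 := (zpow_right_strictMono₀ hq1).injective h1
  linarith

end Fermat.Agent.PT
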