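import Fermat.Agent.PT.Conj
import Fermat.Agent.PT.GlobalInputs

/-!
# The Hasse principle for `H²(k, μ_p)`

Given the global inputs, a class in `H²(H, μ_p)` of a number field containing `μ_p` that is
locally trivial at every place is zero (`eq_zero_of_local`).
-/

noncomputable section

namespace Fermat.Agent.PT

open Lv

variable {q p : ℕ} [Fact q.Prime] [Fact p.Prime]

/-! ### Restriction in a local layer of degree `p` -/

/-- A class restricts to zero in a local layer of degree `p`. -/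
theorem local_resI_eq_zero (hodd : p ≠ 2) {C : Cyc ℚ_[q] (PadicAlgCl q) p}
    {H : Subgroup (GamQ q)} (hH : H ∈ LQ q) (hμ : C.MuFix H) (X : Chi p H)
    (a : H2 ((LQ q).comap H.subtype) (triv (ZMod p) ↥H)) :
    resI (LQ q) (ZMod p) X.ker_le a = 0 :=
  Local.resI_ker_eq_zero hodd hH hμ X a
    (Local.isSym hodd (X.ker_mem_krull hH) (hμ.anti X.ker_le) _)

/-! ### Localisation of a character -/

section LocChi

variable {H : Subgroup Gam} (X : Chi p H) (g : Gam)

theorem Chi.stab_ker_iff {τ : GamQ q} :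
    τ ∈ stab q X.ker g ↔ ∃ h : τ ∈ stab q H g, X.χ (locHom q H g ⟨τ, h⟩) = 0 :=
  ⟨fun h => ⟨X.ker_le h, X.mem_ker.1 h⟩, fun ⟨_, h⟩ => X.mem_ker.2 h⟩

/-- A character which is nonzero at a place gives a local character. -/
theorem Chi.exists_local (hne : ¬ stab q H g ≤ stab q X.ker g) :
    ∃ Y : Chi p (stab q H g),
      (∀ τ, Y.χ τ = X.χ (locHom q H g τ)) ∧ Y.ker = stab q X.ker g := by
  obtain ⟨τ, hτ, hτ'⟩ := SetLike.not_le_iff_exists.1 hne
  have h0 : X.χ (locHom q H g ⟨τ, hτ⟩) ≠ 0 := fun h => hτ' ((X.stab_ker_iff g).2 ⟨hτ, h⟩)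
  let f : ↥(stab q H g) → ZMod p := fun σ => X.χ (locHom q H g σ)
  have hf : ∀ a b, f (a * b) = f a + f b := fun a b => by simp only [f, _root_.map_mul, X.map_mul]
  have hpow : ∀ (n : ℕ) a, f (a ^ n) = n * f a := fun n a => by
    induction n with
    | zero => simp [f, X.map_one]
    | succ n ih => rw [pow_succ, hf, ih]; push_cast; ring
  let Y : Chi p (stab q H g) :=
    { χ := f
      map_mul := hf
      con := X.con.precomp (compat_locHom q H g)
      σ := ⟨τ, hτ⟩ ^ ((f ⟨τ, hτ⟩)⁻¹).val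
      χ_σ := by rw [hpow, ZMod.natCast_zmod_val, inv_mul_cancel₀ h0] }
  refine ⟨Y, fun _ => rfl, ?_⟩
  ext σ
  rw [X.stab_ker_iff g]
  exact Iff.rfl

end LocChi

/-- A class of `H` restricts to zero at every place above a nonsplit place of a degree `p` layer. -/
theorem locH2_resI_eq_zero (hodd : p ≠ 2) {H : Subgroup Gam} (hH : H ∈ LG)
    (hμ : (cyc p).MuFix H) (X : Chi p H) (g : Gam) (hne : ¬ stab q H g ≤ stab q X.ker g)
    (a : H2 (LG.comap H.subtype) (triv (ZMod p) ↥H)) :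
    locH2 q p X.ker g (resI LG (ZMod p) X.ker_le a) = 0 := by
  obtain ⟨Y, -, hY⟩ := X.exists_local g hne
  rw [locH2_resI]
  have h := local_resI_eq_zero hodd (stab_mem q g hH) (muFix_stab q p g hμ) Y
    (locH2 q p H g a)
  have key : ∀ {V W : Subgroup (GamQ q)} (hV : V ≤ stab q H g) (hW : W ≤ stab q H g), V = W →
      resI (LQ q) (ZMod p) hV (locH2 q p H g a) = 0 →
      resI (LQ q) (ZMod p) hW (locH2 q p H g a) = 0 := by
    rintro V W hV hW rfl h
    exact h
  exact key _ _ hY h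

/-! ### Local triviality everywhere -/

variable {H : Subgroup Gam}

theorem LocZero.at_mk {r : Nat.Primes} {g : Gam}
    {a : H2 (LG.comap H.subtype) (triv (ZMod p) ↥H)} (h : LocZero (Plc.mk r g : Plc H) a) :
    locH2 (r : ℕ) p H g a = 0 := by
  obtain ⟨τ, c, hc, e⟩ := (Pl.samePlace_rep (q := (r : ℕ)) (H := H) g).symm
  exact locH2_eq_zero_of_samePlace τ hc e h

theorem LocZero.of_at {r : Nat.Primes} {g : Gam}
    {a : H2 (LG.comap H.subtype) (triv (ZMod p) ↥H)} (h : locH2 (r : ℕ) p H g a = 0) :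
    LocZero (Plc.mk r g : Plc H) a := by
  obtain ⟨τ, c, hc, e⟩ := Pl.samePlace_rep (q := (r : ℕ)) (H := H) g
  exact locH2_eq_zero_of_samePlace τ hc e h

theorem LocZero.resI {V : Subgroup Gam} (hVH : V ≤ H)
    {a : H2 (LG.comap H.subtype) (triv (ZMod p) ↥H)} (h : ∀ v : Plc H, LocZero v a) (w : Plc V) :
    LocZero w (PT.resI LG (ZMod p) hVH a) := by
  show locH2 _ p V w.2.rep _ = 0
  rw [locH2_resI, LocZero.at_mk (r := w.1) (g := w.2.rep) (h _), map_zero]

variable (GI : GlobalInputs p)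
include GI

/-- A locally trivial class dying on the kernel of a character is zero. -/
theorem eq_zero_of_local_of_resI_ker (hH : H ∈ LG) (hμ : (cyc p).MuFix H) (X : Chi p H)
    (a : H2 (LG.comap H.subtype) (triv (ZMod p) ↥H))
    (hres : resI LG (ZMod p) X.ker_le a = 0) (h : ∀ v : Plc H, LocZero v a) : a = 0 := by
  obtain ⟨s, hs, hXs⟩ := Cyc.exists_root_chi hμ X
  obtain ⟨r, e⟩ := Cyc.exists_sym_add_eq_zero hμ X (s := ⟨s, hs⟩) hXs hres
  have hsym : Cyc.sym H hμ r ⟨s, hs⟩ = 0 := by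
    refine GI.sym_eq_zero_of_local hH hμ _ _ fun v => ?_
    have h1 := congrArg (locH2 (v.1 : ℕ) p H v.2.rep) e
    rw [map_add, map_zero, h v, zero_add] at h1
    exact h1
  rwa [hsym, add_zero] at e

/-- The Hasse principle by induction on the index of a splitting level. -/
theorem eq_zero_of_local_aux : ∀ (n : ℕ) (H : Subgroup Gam) (_ : H ∈ LG)
    (_ : (cyc p).MuFix H) (U : Subgroup Gam) (hUH : U ≤ H) (_ : U ∈ LG) (_ : U.Normal)
    (_ : U.relIndex H = n) (a : H2 (LG.comap H.subtype) (triv (ZMod p) ↥H)),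
    resI LG (ZMod p) hUH a = 0 → (∀ v : Plc H, LocZero v a) → a = 0 := by
  intro n
  induction n using Nat.strong_induction_on with
  | _ n ih => ?_
  intro H hH hμ U hUH hUL hUn hn a ha hloc
  rcases eq_or_exists_closer_level (p := p) hUH hUL hUn with
    rfl | ⟨V, hUV, hVH, hV, hlt, hcop⟩ | ⟨X, hUX, hlt⟩
  · rwa [resI_self] at ha
  · rw [hn] at hlt
    have hz := ih _ hlt V hV (hμ.anti hVH) U hUV hUL hUn rfl (resI LG (ZMod p) hVH a)
      (by rw [resI_resI]; exact ha) (LocZero.resI hVH hloc)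
    exact resI_injective (ZMod p) hV hVH (isUnit_iff_ne_zero.2
      (by rwa [Ne, ZMod.natCast_eq_zero_iff])) (hz.trans (map_zero _).symm)
  · rw [hn] at hlt
    have hXL : X.ker ∈ LG := X.ker_mem_krull hH
    exact eq_zero_of_local_of_resI_ker GI hH hμ X a (ih _ hlt X.ker hXL (hμ.anti X.ker_le) U hUX
      hUL hUn rfl _ (by rw [resI_resI]; exact ha) (LocZero.resI X.ker_le hloc)) hloc

/-- The Hasse principle. -/
theorem eq_zero_of_local (hH : H ∈ LG) (hμ : (cyc p).MuFix H)
    (a : H2 (LG.comap H.subtype) (triv (ZMod p) ↥H)) (h : ∀ v : Plc H, LocZero v a) : a = 0 := by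
  obtain ⟨U, hUH, hU, hUn, ha⟩ := exists_normal_resI_eq_zero (ZMod p) hH a
  exact eq_zero_of_local_aux GI _ H hH hμ U hUH hU hUn rfl a ha h

end Fermat.Agent.PT
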