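import Mathlib.Analysis.Normed.Group.Ultra
import Fermat.Agent.PT.CycloPlaces
import Fermat.Agent.PT.GlobalH2

/-!
# Where a cyclotomic symbol can be nontrivial

The symbol with the root of unity defining the next cyclotomic layer is never bad at `p` alone,
nor at a single inert place away from `p`; this yields the reciprocity law in `Recip`.
-/

noncomputable section

namespace Fermat.Agent.PT

open Lv

local notation "Qb" => AlgebraicClosure ℚ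

variable {p q : ℕ} [Fact p.Prime] [Fact q.Prime]

variable (p) in
/-- The root of unity defining the next layer, as a radical. -/
def cyU (m : ℕ) : ↥(Cyc.rootU p (Hm p m)) := ⟨zet p (m + 2), zet_mem_rootU m⟩

/-- The symbol with the root of unity defining the next layer. -/
def cyS (m : ℕ) (r : ↥(Cyc.rootU p (Hm p m))) :
    H2 (LG.comap (Hm p m).subtype) (triv (ZMod p) ↥(Hm p m)) :=
  Cyc.sym (Hm p m) (Hm_muFix m) r (cyU p m)

theorem kum_cyU_eq_zero_iff {m : ℕ} (g : ↥(Hm p m)) :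
    (cyc p).kum (Hm p m) (cyU p m) g = 0 ↔ (g : Gam) ∈ Hm p (m + 1) := by
  rw [Cyc.kum_eq_zero_iff (cyU p m).2, mem_Hm]
  rfl

theorem exists_kum_cyU_ne_zero (m : ℕ) : ∃ g, (cyc p).kum (Hm p m) (cyU p m) g ≠ 0 := by
  obtain ⟨g, hg, hg'⟩ := exists_mem_Hm_notMem_succ (p := p) m
  exact ⟨⟨g, hg⟩, fun h => hg' ((kum_cyU_eq_zero_iff _).1 h)⟩

variable (p) in
/-- The character of the next layer. -/
def cyX (m : ℕ) : Chi p (Hm p m) :=
  Cyc.chiOf (Hm_muFix m) (cyU p m).2 (exists_kum_cyU_ne_zero m)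

theorem cyX_chi (m : ℕ) (g : ↥(Hm p m)) : (cyX p m).χ g = (cyc p).kum (Hm p m) (cyU p m) g := rfl

theorem cyS_mul (m : ℕ) (r r' : ↥(Cyc.rootU p (Hm p m))) :
    cyS m (r * r') = cyS m r + cyS m r' := Cyc.sym_mul_left _ r r' _

theorem cyS_pow (m : ℕ) (r : ↥(Cyc.rootU p (Hm p m))) (i : ℕ) : cyS m (r ^ i) = i • cyS m r :=
  Cyc.sym_pow_left _ r _ i

theorem cyS_inv (m : ℕ) (r : ↥(Cyc.rootU p (Hm p m))) : cyS m r⁻¹ = -cyS m r := by
  rw [eq_neg_iff_add_eq_zero, ← cyS_mul, inv_mul_cancel]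
  exact Cyc.sym_one_left _ _

omit [Fact p.Prime] in
theorem rootU_pow_fixU {H : Subgroup Gam} (r : ↥(Cyc.rootU p H)) :
    (r : Qbˣ) ^ p ∈ fixU H := fun h => r.2 h

omit [Fact p.Prime] in
theorem norm_nrm {H : Subgroup (GamQ q)} (Y : Chi p H) (y : (PadicAlgCl q)ˣ) :
    ‖(Y.nrm y : PadicAlgCl q)‖ = ‖(y : PadicAlgCl q)‖ ^ p := by
  rw [Chi.nrm, Units.coe_prod, norm_prod, Finset.prod_eq_pow_card (b := ‖(y : PadicAlgCl q)‖)
    fun i _ => ?_, Finset.card_range]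
  exact congrArg NNReal.toReal (nnnorm_padicAlgCl_algEquiv q _ _)

/-- If a symbol is good at an unramified place where the radical of `b` moves, the value of the
`p`-th power of `a` there is the `p`-th power of a value. -/
theorem exists_nq_eq_zpow_mul_of_good {N V U : Subgroup Gam} (hN : N ∈ LG) [N.Normal]
    (hI : InN q N) (hNV : N ≤ V) (hVU : V ≤ U) (hμ : (cyc p).MuFix U) (a b : ↥(Cyc.rootU p U))
    (hb : ∀ u : ↥U, (u : Gam) ∈ V → (cyc p).kum U b u = 0) (g : Gam)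
    (h : locH2 q p U g (Cyc.sym U hμ a b) = 0) {σ : ↥(stab q U g)}
    (hσ : (cyc p).kum U b (locHom q U g σ) ≠ 0) :
    ∃ j : ℤ, nq q g (((a : Qbˣ) ^ p : Qbˣ) : Qb) = (q : ℝ) ^ ((p : ℤ) * j) := by
  have hμ' := muFix_stab q p g hμ
  let s : ↥(Cyc.rootU p (stab q U g)) := ⟨_, embU_mem_rootU q p g b.2⟩
  have hs : ∃ σ', (cycLoc q p).kum (stab q U g) s σ' ≠ 0 :=
    ⟨σ, by rw [kum_loc q p g b.2]; exact mul_ne_zero (Units.ne_zero _) hσ⟩
  let Y := Cyc.chiOf hμ' s.2 hs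
  rw [locH2_sym_eq_zero_iff q p g hμ] at h
  obtain ⟨y, hy, hye⟩ := (Cyc.sym_eq_zero_iff hμ' Y (s := s) (fun _ => rfl)
    ⟨_, embU_mem_rootU q p g a.2⟩).1 h
  have hyfix : y ∈ fixU (stab q V g) := fun σ' => by
    refine hy ⟨σ', stab_mono q g hVU σ'.2⟩ ?_
    show (cycLoc q p).kum (stab q U g) s _ = 0
    rw [kum_loc q p g b.2, hb (locHom q U g ⟨σ', stab_mono q g hVU σ'.2⟩) σ'.2, mul_zero]
  obtain ⟨j, hj⟩ := exists_norm_zpow_of_fixed hN hI hNV g hyfix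
  have h1 : ‖(y : PadicAlgCl q)‖ ^ p = nq q g (((a : Qbˣ) ^ p : Qbˣ) : Qb) := by
    rw [← norm_nrm Y y, hye]
    show ‖((embU q (g • (a : Qbˣ)) ^ p : (PadicAlgCl q)ˣ) : PadicAlgCl q)‖ = _
    rw [← map_pow, ← smul_pow']
    rfl
  exact ⟨j, by rw [← h1, hj, ← zpow_natCast, ← zpow_mul, mul_comm]⟩

theorem psiNat_val_of_ne (hqp : q ≠ p) (n : ℕ) :
    ((psiNat p n q : (ZMod (p ^ n))ˣ) : ZMod (p ^ n)) = (q : ZMod (p ^ n)) ^ (p - 1) :=
  psiNat_of_not_dvd p n fun h => hqp ((Nat.prime_dvd_prime_iff_eq Fact.out Fact.out).1 h).symm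

/-! ### At a prime different from `p` -/

section Away

variable {m : ℕ} {τ : GamQ q}
  (hτ : (cyK p (m + 1 + 1) (localGaloisToGlobal q τ) : ZMod (p ^ (m + 1 + 1))) = q)
include hτ

omit hτ in
theorem cyK_pow_mem {σ : Gam} {d : ℕ} (hd : cyK p (m + 1) σ ^ d = 1) : σ ^ d ∈ Hm p m := by
  show cyK p (m + 1) (σ ^ d) = 1
  rw [map_pow, hd]

theorem natCast_pow_mul_prime :
    (q : ZMod (p ^ (m + 2))) ^ (orderOf (cyK p (m + 1) (localGaloisToGlobal q τ)) * p) = 1 := by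
  set σ := localGaloisToGlobal q τ
  set d := orderOf (cyK p (m + 1) σ)
  have hd : σ ^ d ∈ Hm p m := cyK_pow_mem (pow_orderOf_eq_one _)
  have h0 : (cyc p).kum (Hm p m) (cyU p m) (⟨σ ^ d, hd⟩ ^ p) = 0 := by
    rw [Cyc.kum_pow (Hm_muFix m) (cyU p m).2, ZMod.natCast_self, zero_mul]
  have h1 : cyK p (m + 1 + 1) ((σ ^ d) ^ p) = 1 := (kum_cyU_eq_zero_iff _).1 h0
  rw [map_pow, map_pow, ← pow_mul] at h1
  have h2 := congrArg Units.val h1
  rwa [Units.val_pow_eq_pow_val, hτ, Units.val_one] at h2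

theorem psiNat_pow_mul_prime (hqp : q ≠ p) :
    psiNat p (m + 2) q ^ (orderOf (cyK p (m + 1) (localGaloisToGlobal q τ)) * p) = 1 := by
  refine Units.ext ?_
  rw [Units.val_pow_eq_pow_val, psiNat_val_of_ne hqp, ← pow_mul, mul_comm, pow_mul,
    natCast_pow_mul_prime hτ, one_pow, Units.val_one]

theorem not_mem_Hm_succ (hqp : q ≠ p)
    (hne : psiNat p (m + 2) q ^ orderOf (cyK p (m + 1) (localGaloisToGlobal q τ)) ≠ 1) :
    localGaloisToGlobal q τ ^ orderOf (cyK p (m + 1) (localGaloisToGlobal q τ)) ∉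
      Hm p (m + 1) := by
  intro h
  have h1 : cyK p (m + 1 + 1) (localGaloisToGlobal q τ ^
      orderOf (cyK p (m + 1) (localGaloisToGlobal q τ))) = 1 := h
  rw [map_pow] at h1
  have h2 := congrArg Units.val h1
  rw [Units.val_pow_eq_pow_val, hτ, Units.val_one] at h2
  refine hne (Units.ext ?_)
  rw [Units.val_pow_eq_pow_val, psiNat_val_of_ne hqp, ← pow_mul, mul_comm, pow_mul, h2, one_pow,
    Units.val_one]

theorem psiNat_pow_ne_one (hqp : q ≠ p) (hq1 : (q : ZMod (p ^ (m + 1))) ^ (p - 1) = 1)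
    (hq2 : (q : ZMod (p ^ (m + 2))) ^ (p - 1) ≠ 1) :
    psiNat p (m + 2) q ^ orderOf (cyK p (m + 1) (localGaloisToGlobal q τ)) ≠ 1 := by
  have hp : p.Prime := Fact.out
  intro h1
  set d := orderOf (cyK p (m + 1) (localGaloisToGlobal q τ))
  have hd : d ∣ p - 1 := orderOf_dvd_of_pow_eq_one (Units.ext (by
    rw [Units.val_pow_eq_pow_val, cyK_succ hτ, hq1, Units.val_one]))
  refine hq2 ?_
  rw [← psiNat_val_of_ne hqp]
  have hp' : psiNat p (m + 2) q ^ p = 1 := by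
    refine Units.ext ?_
    obtain ⟨k, hk⟩ := hd
    rw [Units.val_pow_eq_pow_val, psiNat_val_of_ne hqp, ← pow_mul, hk,
      show d * k * p = d * p * k by ring, pow_mul, natCast_pow_mul_prime hτ, one_pow,
      Units.val_one]
  have hcop : Nat.Coprime p d := hp.coprime_iff_not_dvd.2 fun h => absurd
    (Nat.le_of_dvd (Nat.sub_pos_of_lt hp.one_lt) (h.trans hd))
    (not_le.2 (Nat.sub_lt hp.pos one_pos))
  have h2 : psiNat p (m + 2) q = 1 := by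
    have := pow_gcd_eq_one.2 ⟨hp', h1⟩
    rwa [hcop, pow_one] at this
  rw [h2, Units.val_one]

/-- At a place where the next layer does not split, a good symbol has exponent divisible by `p`. -/
theorem dvd_of_good (hqp : q ≠ p)
    (hne : psiNat p (m + 2) q ^ orderOf (cyK p (m + 1) (localGaloisToGlobal q τ)) ≠ 1)
    {r : ↥(Cyc.rootU p (Hm p m))} (g : Gam) (h : locH2 q p (Hm p m) g (cyS m r) = 0) {F : ℤ}
    (hF : nq q g (((r : Qbˣ) ^ p : Qbˣ) : Qb) = (q : ℝ) ^ F) : (p : ℤ) ∣ F := by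
  obtain ⟨d, hd⟩ : ∃ d, d = orderOf (cyK p (m + 1) (localGaloisToGlobal q τ)) := ⟨_, rfl⟩
  have := Hm_normal (p := p) m
  have := Hm_normal (p := p) (m + 1)
  have hcj : τ ^ d ∈ stab q (Hm p m) g := by
    rw [mem_stab_iff_of_normal, map_pow, hd]
    exact cyK_pow_mem (pow_orderOf_eq_one _)
  have hcj' : cj q g (τ ^ d) ∉ Hm p (m + 1) := fun hc => by
    refine not_mem_Hm_succ hτ hqp hne ?_
    rwa [← mem_stab, mem_stab_iff_of_normal, map_pow, hd] at hc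
  obtain ⟨j, hj⟩ := exists_nq_eq_zpow_mul_of_good (Hm_mem (p := p) (m + 1)) (inN_Hm hqp (m + 1))
    le_rfl (Hm_succ_le m) (Hm_muFix m) r (cyU p m) (fun u hu => (kum_cyU_eq_zero_iff u).2 hu) g h
    (σ := ⟨τ ^ d, hcj⟩) fun h0 => hcj' ((kum_cyU_eq_zero_iff _).1 h0)
  rw [hF] at hj
  exact ⟨j, (zpow_right_strictMono₀ (by exact_mod_cast (Fact.out : q.Prime).one_lt :
    (1 : ℝ) < q)).injective hj⟩

end Away

/-- A prime all of whose places are good contributes trivially to the norm. -/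
theorem psiNat_zpow_eq_one (hqp : q ≠ p) {m : ℕ} (r : ↥(Cyc.rootU p (Hm p m)))
    (h : ∀ g, locH2 q p (Hm p m) g (cyS m r) = 0) :
    psiNat p (m + 2) q ^ padicValRat q (cyR p m ((r : Qbˣ) ^ p)) = 1 := by
  obtain ⟨τ, hτ, -⟩ := exists_frob (p := p) hqp (m + 1)
  obtain ⟨F, hF, hv⟩ := exists_padicValRat_cyR_eq_sum hqp m (τ := τ) rfl (rootU_pow_fixU r)
  set d := orderOf (cyK p (m + 1) (localGaloisToGlobal q τ)) with hd
  rw [hv, zpow_neg, zpow_mul, zpow_natCast, inv_eq_one]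
  by_cases hne : psiNat p (m + 2) q ^ d = 1
  · rw [hne, one_zpow]
  obtain ⟨k, hk⟩ : (p : ℤ) ∣ ∑ Q, F Q :=
    Finset.dvd_sum fun Q _ => dvd_of_good hτ hqp hne _ (h _) (hF Q)
  rw [hk, zpow_mul, zpow_natCast, ← pow_mul, psiNat_pow_mul_prime hτ hqp, one_zpow]

/-- A symbol good away from `p` has trivial norm character. -/
theorem psi_cyR_eq_one {m : ℕ} (r : ↥(Cyc.rootU p (Hm p m)))
    (h : ∀ r' : Nat.Primes, (r' : ℕ) ≠ p → ∀ g, locH2 (r' : ℕ) p (Hm p m) g (cyS m r) = 0) :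
    psi p (m + 2) (cyR p m ((r : Qbˣ) ^ p)) = 1 :=
  psi_eq_one p _ (cyR_ne_zero (rootU_pow_fixU r)) fun q' hq' hqp =>
    haveI : Fact q'.Prime := ⟨hq'⟩
    psiNat_zpow_eq_one hqp r (h ⟨q', hq'⟩ hqp)

/-! ### At `p` -/

theorem samePlace_p (m : ℕ) (g : Gam) : SamePlace p (Hm p m) 1 g := by
  obtain ⟨τ, hτ⟩ := exists_local_p (p := p) m g
  exact ⟨τ, _, hτ, by group⟩

theorem nq_p_eq (m : ℕ) {x : Qb} (hx : ∀ h ∈ Hm p m, h x = x) (g : Gam) :
    nq p g x = nq p 1 x :=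
  nq_samePlace (samePlace_p m g) hx

theorem norm_prod_sub_one_le {K : Type*} [NormedField K] [IsUltrametricDist K] {ι : Type*}
    (s : Finset ι) (f : ι → K) {ε : ℝ} (hε0 : 0 ≤ ε) (hε : ε ≤ 1)
    (h : ∀ i ∈ s, ‖f i - 1‖ ≤ ε) : ‖(∏ i ∈ s, f i) - 1‖ ≤ ε := by
  classical
  induction s using Finset.induction with
  | empty => simpa using hε0
  | insert a s ha ih =>
    rw [Finset.prod_insert ha, show f a * (∏ i ∈ s, f i) - 1 =
      f a * ((∏ i ∈ s, f i) - 1) + (f a - 1) by ring]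
    have h1 : ‖f a‖ ≤ 1 := by
      have h2 := IsUltrametricDist.norm_add_le_max (f a - 1) 1
      rw [sub_add_cancel, norm_one] at h2
      exact h2.trans (max_le ((h a (Finset.mem_insert_self a s)).trans hε) le_rfl)
    refine (IsUltrametricDist.norm_add_le_max _ _).trans
      (max_le ?_ (h a (Finset.mem_insert_self a s)))
    rw [norm_mul]
    exact (mul_le_of_le_one_left (norm_nonneg _) h1).trans
      (ih fun i hi => h i (Finset.mem_insert_of_mem hi))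

omit [Fact p.Prime] in
theorem norm_nrm_sub_one_le {H : Subgroup (GamQ q)} (Y : Chi p H) {w : (PadicAlgCl q)ˣ} {ε : ℝ}
    (hε0 : 0 ≤ ε) (hε1 : ε ≤ 1) (hw : ‖(w : PadicAlgCl q) - 1‖ ≤ ε) :
    ‖(Y.nrm w : PadicAlgCl q) - 1‖ ≤ ε := by
  rw [Chi.nrm, Units.coe_prod]
  refine norm_prod_sub_one_le _ _ hε0 hε1 fun i _ => ?_
  have : ((((Y.σ ^ i : ↥H) : GamQ q) • w : (PadicAlgCl q)ˣ) : PadicAlgCl q) - 1 =
      ((Y.σ ^ i : ↥H) : GamQ q) ((w : PadicAlgCl q) - 1) := by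
    rw [map_sub, map_one]
    rfl
  rw [this]
  exact le_of_eq_of_le (congrArg NNReal.toReal (nnnorm_padicAlgCl_algEquiv q _ _)) hw

/-- An element of a layer close to `1` at `p` has trivial norm character. -/
theorem psi_cyR_eq_one_of_close (hodd : p ≠ 2) {m : ℕ} {t : Qbˣ} (htf : t ∈ fixU (Hm p m))
    (ht : nq p 1 ((t : Qb) - 1) ≤ (p : ℝ) ^ (-(m + 1 + 1 : ℕ) : ℤ)) :
    psi p (m + 2) (cyR p m t) = 1 := by
  set ε : ℝ := (p : ℝ) ^ (-(m + 1 + 1 : ℕ) : ℤ)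
  have hp1 : (1 : ℝ) < p := by exact_mod_cast (Fact.out : p.Prime).one_lt
  have hε0 : 0 < ε := zpow_pos (by linarith) _
  have hε1 : ε < 1 := zpow_lt_one_of_neg₀ hp1 (by omega)
  refine psi_eq_one_of_norm p (m + 1) hodd ?_
  have h2 : nq p 1 ((cyR p m t : Qb) - 1) ≤ ε := by
    show ‖padicEmbedding p ((1 : Gam) ((cyR p m t : Qb) - 1))‖ ≤ ε
    rw [AlgEquiv.one_apply, cyR_spec htf, cyN_apply, Units.coe_prod, map_sub, map_one, map_prod]
    refine norm_prod_sub_one_le _ _ hε0.le hε1.le fun b _ => ?_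
    have h3 : nq p (liftK p m b) ((t : Qb) - 1) ≤ ε := by
      rw [nq_p_eq m (fun h hh => by
        rw [map_sub, map_one]
        exact congrArg (fun z : Qbˣ => (z : Qb) - 1) (htf ⟨h, hh⟩))]
      exact ht
    rw [nq, map_sub, map_one, map_sub, map_one] at h3
    exact h3
  rw [← Rat.cast_one, ← Rat.cast_sub, nq_ratCast] at h2
  rwa [← Rat.cast_one, ← Rat.cast_sub]

/-- A symbol good at `p` has trivial norm character. -/
theorem psi_cyR_eq_one_of_p (hodd : p ≠ 2) {m : ℕ} (r : ↥(Cyc.rootU p (Hm p m)))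
    (h : locH2 p p (Hm p m) 1 (cyS m r) = 0) :
    psi p (m + 2) (cyR p m ((r : Qbˣ) ^ p)) = 1 := by
  obtain ⟨g₀, hg₀, hg₀'⟩ := exists_mem_Hm_notMem_succ (p := p) m
  obtain ⟨τ₀, hτ₀⟩ := exists_local_p (p := p) (m + 1) g₀
  have hι : localGaloisToGlobal p τ₀ ∈ Hm p m := by
    have := (Hm p m).mul_mem hg₀ ((Hm p m).inv_mem (Hm_succ_le m hτ₀))
    simpa using this
  have hι' : localGaloisToGlobal p τ₀ ∉ Hm p (m + 1) := fun hc => hg₀' (by
    have := (Hm p (m + 1)).mul_mem hc hτ₀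
    simpa using this)
  have hmem : ∀ σ : GamQ p, cj p 1 σ = localGaloisToGlobal p σ := fun σ => by
    rw [cj_apply, inv_one, one_mul, mul_one]
  have hμ := muFix_stab p p 1 (Hm_muFix (p := p) m)
  let s : ↥(Cyc.rootU p (stab p (Hm p m) 1)) := ⟨_, embU_mem_rootU p p 1 (cyU p m).2⟩
  have hkum : ∀ σ : ↥(stab p (Hm p m) 1), (cycLoc p p).kum (stab p (Hm p m) 1) s σ =
      (cyc p).kum (Hm p m) (cyU p m) (locHom p (Hm p m) 1 σ) := fun σ => by
    rw [kum_loc p p 1 (cyU p m).2, map_one, Units.val_one, one_mul]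
  have hs : ∃ σ', (cycLoc p p).kum (stab p (Hm p m) 1) s σ' ≠ 0 := by
    refine ⟨⟨τ₀, by rw [mem_stab, hmem]; exact hι⟩, fun h0 => hι' ?_⟩
    rw [hkum] at h0
    have := (kum_cyU_eq_zero_iff _).1 h0
    rwa [coe_locHom, hmem] at this
  let Y := Cyc.chiOf hμ s.2 hs
  rw [cyS, locH2_sym_eq_zero_iff p p 1 (Hm_muFix m)] at h
  obtain ⟨y, hy, hye⟩ :=
    (Cyc.sym_eq_zero_iff hμ Y (s := s) (fun _ => rfl) ⟨_, embU_mem_rootU p p 1 r.2⟩).1 h
  let X' : Chi p (Hm p m) :=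
    { cyX p m with
      σ := locHom p (Hm p m) 1 Y.σ
      χ_σ := (hkum Y.σ).symm.trans Y.χ_σ }
  have hyfix : ∀ σ' ∈ stab p (Hm p (m + 1)) 1, σ' (y : PadicAlgCl p) = y := fun σ' hσ' => by
    have h0 : Y.χ ⟨σ', stab_mono p 1 (Hm_succ_le m) hσ'⟩ = 0 := by
      show (cycLoc p p).kum (stab p (Hm p m) 1) s _ = 0
      rw [hkum, kum_cyU_eq_zero_iff]
      exact hσ'
    exact congrArg Units.val (hy _ h0)
  set ε : ℝ := (p : ℝ) ^ (-(m + 1 + 1 : ℕ) : ℤ) with hεdef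
  have hp1 : (1 : ℝ) < p := by exact_mod_cast (Fact.out : p.Prime).one_lt
  have hε0 : 0 < ε := zpow_pos (by linarith) _
  have hε1 : ε < 1 := zpow_lt_one_of_neg₀ hp1 (by omega)
  have hy0 : 0 < ‖(y : PadicAlgCl p)‖ := norm_pos_iff.2 y.ne_zero
  obtain ⟨z, hz, hze⟩ := dense_local (Hm_mem (p := p) (m + 1)) 1 hyfix (mul_pos hε0 hy0)
  have hz0 : z ≠ 0 := fun h0 => by
    rw [h0, map_zero, map_zero, zero_sub, norm_neg] at hze
    exact absurd hze (not_lt.2 (mul_le_of_le_one_left hy0.le hε1.le))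
  set zu : Qbˣ := Units.mk0 z hz0
  have hzX : X'.Fixed zu := fun u hu => Units.ext (hz _ ((kum_cyU_eq_zero_iff u).1 hu))
  have ha : X'.nrm zu ∈ fixU (Hm p m) := fun g => X'.smul_nrm hzX g
  obtain ⟨r', hr'⟩ := exists_rootU_of_fixU (p := p) ha
  have hnorm : psi p (m + 2) (cyR p m (X'.nrm zu)) = 1 := by
    have h0 : cyS m r' = 0 :=
      (Cyc.sym_eq_zero_iff (Hm_muFix m) X' (s := cyU p m) (fun _ => rfl) r').2 ⟨zu, hzX, hr'.symm⟩
    rw [← hr']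
    exact psi_cyR_eq_one r' fun _ _ g => by rw [h0, map_zero]
  set t : Qbˣ := (r : Qbˣ) ^ p / X'.nrm zu with htdef
  have htf : t ∈ fixU (Hm p m) := div_mem (rootU_pow_fixU r) ha
  rw [show ((r : Qbˣ) ^ p) = t * X'.nrm zu from (div_mul_cancel _ _).symm, cyR_mul htf ha,
    psi_mul p _ (cyR_ne_zero htf) (cyR_ne_zero ha), hnorm, mul_one]
  -- the local norm of `y / z`
  set w : (PadicAlgCl p)ˣ := y * (embU p zu)⁻¹
  have hYz : Y.nrm (embU p zu) = embU p (X'.nrm zu) := by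
    rw [Chi.nrm, Chi.nrm, map_prod]
    refine Finset.prod_congr rfl fun i _ => ?_
    rw [show X'.σ = locHom p (Hm p m) 1 Y.σ from rfl, ← map_pow, coe_locHom, hmem, embU_smul]
  have hw : Y.nrm w = embU p t := by
    have h1 : Y.nrm w * Y.nrm (embU p zu) = Y.nrm y := by
      rw [← Y.nrm_mul, inv_mul_cancel_right]
    rw [hYz, hye] at h1
    rw [htdef, map_div, eq_div_iff_mul_eq', h1]
    show (embU p ((1 : Gam) • (r : Qbˣ))) ^ p = _
    rw [one_smul, map_pow]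
  have hw1 : ‖(w : PadicAlgCl p) - 1‖ ≤ ε := by
    have hzy : ‖padicEmbedding p z‖ = ‖(y : PadicAlgCl p)‖ :=
      norm_eq_of_norm_sub_lt (lt_of_lt_of_le hze (mul_le_of_le_one_left hy0.le hε1.le))
    have e : (w : PadicAlgCl p) - 1 =
        ((y : PadicAlgCl p) - padicEmbedding p z) * (padicEmbedding p z)⁻¹ := by
      rw [sub_mul, mul_inv_cancel₀ (fun h0 => by rw [h0, norm_zero] at hzy; linarith)]
      simp [w, embU, zu]
    rw [e, norm_mul, norm_inv, hzy, norm_sub_rev, ← div_eq_mul_inv, div_le_iff₀ hy0]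
    exact hze.le
  refine psi_cyR_eq_one_of_close hodd htf ?_
  have h1 := norm_nrm_sub_one_le Y hε0.le hε1.le hw1
  rw [hw] at h1
  show ‖padicEmbedding p ((1 : Gam) ((t : Qb) - 1))‖ ≤ ε
  rw [AlgEquiv.one_apply, map_sub, map_one]
  exact h1

theorem exists_one_add_root (m : ℕ) : ∃ r₀ : ↥(Cyc.rootU p (Hm p m)),
    (((r₀ : Qbˣ) ^ p : Qbˣ) : Qb) = ((1 + p : ℕ) : ℚ) := by
  obtain ⟨r₀, h⟩ := exists_rootU_of_fixU (p := p) (H := Hm p m)
    (a := Units.mk0 (((1 + p : ℕ) : ℚ) : Qb) (by positivity)) (fixU_of_ratCast rfl)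
  exact ⟨r₀, by rw [h]; rfl⟩

theorem psi_one_add_root (hodd : p ≠ 2) {m : ℕ} {r₀ : ↥(Cyc.rootU p (Hm p m))}
    (h₀ : (((r₀ : Qbˣ) ^ p : Qbˣ) : Qb) = ((1 + p : ℕ) : ℚ)) :
    psi p (m + 2) (cyR p m ((r₀ : Qbˣ) ^ p)) ≠ 1 ∧
      psi p (m + 2) (cyR p m ((r₀ : Qbˣ) ^ p)) ^ p = 1 := by
  rw [cyR_ratCast m h₀]
  exact psi_one_add_self p hodd m

/-- `1 + p` is bad at `p`. -/
theorem one_add_bad (hodd : p ≠ 2) {m : ℕ} {r₀ : ↥(Cyc.rootU p (Hm p m))}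
    (h₀ : (((r₀ : Qbˣ) ^ p : Qbˣ) : Qb) = ((1 + p : ℕ) : ℚ)) :
    locH2 p p (Hm p m) 1 (cyS m r₀) ≠ 0 :=
  fun h => (psi_one_add_root hodd h₀).1 (psi_cyR_eq_one_of_p hodd r₀ h)

theorem locH2_one_sym {m : ℕ} (r s : ↥(Cyc.rootU p (Hm p m))) :
    locH2 q p (Hm p m) 1 (Cyc.sym (Hm p m) (Hm_muFix m) r s) =
      Cyc.sym (stab q (Hm p m) 1) (muFix_stab q p 1 (Hm_muFix m))
        ⟨_, embU_mem_rootU q p 1 r.2⟩ ⟨_, embU_mem_rootU q p 1 s.2⟩ := by
  rw [← locH2_sym q p 1 (Hm_muFix m) r s, map_one, Units.val_one, one_smul]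

/-- A symbol with trivial norm character is good at `p`. -/
theorem good_at_p (hodd : p ≠ 2) {m : ℕ} (r : ↥(Cyc.rootU p (Hm p m)))
    (hpsi : psi p (m + 2) (cyR p m ((r : Qbˣ) ^ p)) = 1) :
    locH2 p p (Hm p m) 1 (cyS m r) = 0 := by
  obtain ⟨r₀, h₀⟩ := exists_one_add_root (p := p) m
  have hb := one_add_bad hodd h₀
  obtain ⟨hb1, hb2⟩ := psi_one_add_root hodd h₀
  obtain ⟨i, hi⟩ := Local.exists_eq_nsmul_fixed hodd (stab_mem p 1 (Hm_mem (p := p) m))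
    (muFix_stab p p 1 (Hm_muFix m)) (r := ⟨_, embU_mem_rootU p p 1 r₀.2⟩)
    (s := ⟨_, embU_mem_rootU p p 1 (cyU p m).2⟩) (by rw [← locH2_one_sym]; exact hb)
    ⟨_, embU_mem_rootU p p 1 r.2⟩
  rw [← locH2_one_sym, ← locH2_one_sym] at hi
  have h2 : locH2 p p (Hm p m) 1 (cyS m (r * (r₀ ^ i)⁻¹)) = 0 := by
    rw [cyS_mul, cyS_inv, cyS_pow, map_add, map_neg, map_nsmul]
    exact (sub_eq_add_neg _ _).symm.trans (sub_eq_zero.2 hi)
  have h3 := psi_cyR_eq_one_of_p hodd _ h2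
  have e : (r : Qbˣ) ^ p =
      ((r * (r₀ ^ i)⁻¹ : ↥(Cyc.rootU p (Hm p m))) : Qbˣ) ^ p * (((r₀ : Qbˣ) ^ p) ^ i) := by
    push_cast
    rw [mul_pow, inv_pow, pow_right_comm, inv_mul_cancel_right]
  rw [e, cyR_mul (rootU_pow_fixU _) (pow_mem (rootU_pow_fixU r₀) i),
    cyR_pow (rootU_pow_fixU r₀),
    psi_mul p _ (cyR_ne_zero (rootU_pow_fixU _)) (pow_ne_zero _ (cyR_ne_zero (rootU_pow_fixU r₀))),
    psi_pow p _ (cyR_ne_zero (rootU_pow_fixU r₀)), h3, one_mul] at hpsi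
  obtain ⟨k, rfl⟩ : p ∣ i := by
    rw [← orderOf_eq_prime hb2 hb1]
    exact orderOf_dvd_of_pow_eq_one hpsi
  rw [show cyS m r = Cyc.sym (Hm p m) (Hm_muFix m) r (cyU p m) from rfl, hi,
    ← Nat.cast_smul_eq_nsmul (ZMod p), Nat.cast_mul, ZMod.natCast_self, zero_mul, zero_smul]

/-- A symbol is not bad at `p` alone. -/
theorem good_at_p_of_away (hodd : p ≠ 2) {m : ℕ} (r : ↥(Cyc.rootU p (Hm p m)))
    (h : ∀ r' : Nat.Primes, (r' : ℕ) ≠ p → ∀ g, locH2 (r' : ℕ) p (Hm p m) g (cyS m r) = 0)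
    (g : Gam) : locH2 p p (Hm p m) g (cyS m r) = 0 := by
  obtain ⟨τ, c, hc, e⟩ := samePlace_p (p := p) m g
  exact locH2_eq_zero_of_samePlace τ hc e (good_at_p hodd r (psi_cyR_eq_one r h))

/-- A symbol is not bad at a single inert place away from `p`. -/
theorem good_at_q (GI : GlobalInputs p) (hodd : p ≠ 2) (hqp : q ≠ p) {m : ℕ}
    (hq1 : (q : ZMod (p ^ (m + 1))) ^ (p - 1) = 1)
    (hq2 : (q : ZMod (p ^ (m + 2))) ^ (p - 1) ≠ 1) (r : ↥(Cyc.rootU p (Hm p m)))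
    (hother : ∀ g, ¬ SamePlace q (Hm p m) 1 g → locH2 q p (Hm p m) g (cyS m r) = 0)
    (hrest : ∀ r' : Nat.Primes, (r' : ℕ) ≠ p → (r' : ℕ) ≠ q → ∀ g,
      locH2 (r' : ℕ) p (Hm p m) g (cyS m r) = 0)
    (hP : locH2 p p (Hm p m) 1 (cyS m r) = 0) :
    locH2 q p (Hm p m) 1 (cyS m r) = 0 := by
  have hp : p.Prime := Fact.out
  obtain ⟨τ, hτ, -⟩ := exists_frob (p := p) hqp (m + 1)
  obtain ⟨τ₁, hτ₁, hgen⟩ := exists_frob (p := p) hqp m
  set c := cyK p (m + 1) (localGaloisToGlobal q τ) with hcdef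
  have hc : (c : ZMod (p ^ (m + 1))) = q := cyK_succ hτ
  have hgen' : ∀ τ', ∃ i : ℕ, cyK p (m + 1) (localGaloisToGlobal q τ') = c ^ i := by
    rw [show c = cyK p (m + 1) (localGaloisToGlobal q τ₁) from Units.ext (hc.trans hτ₁.symm)]
    exact hgen
  obtain ⟨F, hF, hv⟩ := exists_padicValRat_cyR_eq_sum hqp m (τ := τ) hcdef.symm (rootU_pow_fixU r)
  set d := orderOf c
  have hd : d ∣ p - 1 := orderOf_dvd_of_pow_eq_one (Units.ext (by
    rw [Units.val_pow_eq_pow_val, hc, hq1, Units.val_one]))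
  have hdp : psiNat p (m + 2) q ^ (d * p) = 1 := psiNat_pow_mul_prime hτ hqp
  have hne : psiNat p (m + 2) q ^ d ≠ 1 := psiNat_pow_ne_one hτ hqp hq1 hq2
  set Q₀ : (ZMod (p ^ (m + 1)))ˣ ⧸ Subgroup.zpowers c := QuotientGroup.mk 1
  have hgood : ∀ Q, Q ≠ Q₀ → (p : ℤ) ∣ F Q := fun Q hQ => by
    refine dvd_of_good hτ hqp hne _ (hother _ ?_) (hF Q)
    rintro ⟨σ, h, hh, e⟩
    obtain ⟨i, hi⟩ := hgen' σ
    have e1 : cyK p (m + 1) (liftK p m Q.out) = c ^ i := by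
      rw [e, map_mul, map_mul, map_one, mul_one, hi, show cyK p (m + 1) h = 1 from hh, mul_one]
    rw [cyK_liftK] at e1
    refine hQ (Q.out_eq.symm.trans (QuotientGroup.eq.2 ?_))
    rw [e1, mul_one]
    exact inv_mem (pow_mem (Subgroup.mem_zpowers c) i)
  obtain ⟨k, hk⟩ : (p : ℤ) ∣ F Q₀ := by
    have h1 := psi_eq_single p (m + 2) (cyR_ne_zero (rootU_pow_fixU r)) (Fact.out : q.Prime)
      fun q' hq' hqp' hne' =>
        haveI : Fact q'.Prime := ⟨hq'⟩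
        psiNat_zpow_eq_one hqp' r (hrest ⟨q', hq'⟩ hqp' hne')
    rw [psi_cyR_eq_one_of_p hodd r hP, hv, zpow_neg, zpow_mul, zpow_natCast, eq_comm,
      inv_eq_one] at h1
    have ho : orderOf (psiNat p (m + 2) q ^ d) = p :=
      orderOf_eq_prime (by rw [← pow_mul]; exact hdp) hne
    have h2 := orderOf_dvd_iff_zpow_eq_one.2 h1
    rw [ho, ← Finset.add_sum_erase _ _ (Finset.mem_univ Q₀)] at h2
    exact (dvd_add_left (Finset.dvd_sum fun Q hQ => hgood Q (Finset.ne_of_mem_erase hQ))).1 h2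
  set g := liftK p m Q₀.out
  let qP : Nat.Primes := ⟨q, Fact.out⟩
  obtain ⟨j, hj⟩ : ∃ j : ℤ, Q₀.out = c ^ j := by
    have h1 : (1 : (ZMod (p ^ (m + 1)))ˣ)⁻¹ * Q₀.out ∈ Subgroup.zpowers c :=
      QuotientGroup.eq.1 Q₀.out_eq.symm
    rw [inv_one, one_mul] at h1
    obtain ⟨j, hj⟩ := Subgroup.mem_zpowers_iff.1 h1
    exact ⟨j, hj.symm⟩
  -- remove the `p`-th power of `q`
  let qu : Qbˣ := Units.mk0 ((q : ℚ) : Qb) (by
    exact_mod_cast (Fact.out : q.Prime).ne_zero)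
  have hqu : qu ^ k ∈ fixU (Hm p m) := zpow_mem (fixU_of_ratCast rfl) k
  let c' : ↥(Cyc.rootU p (Hm p m)) :=
    ⟨qu ^ k, fun h => by rw [smul_pow']; exact congrArg (· ^ p) (hqu h)⟩
  have hc'0 : cyS m c' = 0 := Cyc.sym_eq_zero_of_left (Hm_muFix m) (cyU p m) fun h =>
    (Cyc.kum_eq_zero_iff c'.2 h).2 (hqu h)
  have hunit : nP (Plc.mk qP g : Plc (Hm p m))
      ((((r * c' : ↥(Cyc.rootU p (Hm p m))) : Qbˣ) ^ p : Qbˣ) : Qb) = 1 := by
    rw [nP_mk _ _ fun h hh => congrArg Units.val (rootU_pow_fixU (r * c') ⟨h, hh⟩),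
      Subgroup.coe_mul, mul_pow, Units.val_mul, nq_mul, hF Q₀, hk]
    show _ * nq q g (((qu ^ k) ^ p : Qbˣ) : Qb) = 1
    rw [← zpow_natCast, ← zpow_mul, Units.val_zpow_eq_zpow_val]
    show _ * ‖padicEmbedding q (g (((q : ℚ) : Qb) ^ (k * (p : ℤ))))‖ = 1
    rw [map_zpow₀, map_zpow₀, norm_zpow]
    show _ * nq q g ((q : ℚ) : Qb) ^ _ = 1
    rw [nq_ratCast, Rat.cast_natCast, Padic.norm_p, inv_zpow, mul_comm k (p : ℤ)]
    exact mul_inv_cancel₀ (zpow_ne_zero _ (Nat.cast_ne_zero.2 (Fact.out : q.Prime).ne_zero))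
  have hu1 : nP (Plc.mk qP g : Plc (Hm p m))
      ((((cyU p m : ↥(Cyc.rootU p (Hm p m))) : Qbˣ) ^ p : Qbˣ) : Qb) = 1 := by
    rw [nP_mk _ _ fun h hh => congrArg Units.val (rootU_pow_fixU (cyU p m) ⟨h, hh⟩)]
    show nq q g ((zet p (m + 2) ^ p : Qbˣ) : Qb) = 1
    have h1 : nq q g ((zet p (m + 2) ^ p : Qbˣ) : Qb) ^ p ^ (m + 1) = 1 := by
      rw [← nq_pow, ← Units.val_pow_eq_pow_val, zet_succ_pow, zet_pow_pow, Units.val_one, nq_one]
    exact (pow_eq_one_iff_of_nonneg (nq_nonneg _ _)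
      (pow_ne_zero _ hp.ne_zero)).1 h1
  have hloc := LocZero.at_mk
    (GI.locZero_units (Hm_mem m) (Hm_muFix m) (v := Plc.mk qP g) hqp (r * c') (cyU p m)
      hunit hu1)
  have h0 : locH2 q p (Hm p m) g (cyS m r) = 0 := by
    have h2 : cyS m (r * c') = cyS m r := by rw [cyS_mul, hc'0, add_zero]
    rw [← h2]
    exact hloc
  refine locH2_eq_zero_of_samePlace (τ ^ (-j))
    (c := (localGaloisToGlobal q (τ ^ (-j)) * g)⁻¹) ?_ (by group) h0
  refine (Hm p m).inv_mem ?_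
  show cyK p (m + 1) _ = 1
  rw [map_mul, map_zpow, map_zpow, cyK_liftK, ← hcdef, hj, ← zpow_add, neg_add_cancel, zpow_zero]

end Fermat.Agent.PT
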