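import Mathlib.Algebra.Field.ZMod
import Mathlib.Algebra.Module.ZMod
import Mathlib.GroupTheory.IndexNormal
import Mathlib.GroupTheory.Sylow
import Mathlib.LinearAlgebra.Basis.VectorSpace
import Mathlib.LinearAlgebra.FiniteDimensional.Basic
import Fermat.Agent.PT.Cores

/-!
# Right exactness of `H²` from surjectivity of corestriction in prime-degree layers

If corestriction `H²(H', ZMod p) → H²(H, ZMod p)` is surjective in every layer of index `p` above a
normal level `K`, then `H²` is right exact on finite `p`-torsion representations trivial on `K`.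
This is applied to local fields and to the groups `G_S`.
-/

noncomputable section

namespace Fermat.Agent.PT

open Lv

theorem Lv.comap_comap {G G' G'' : Type*} [Group G] [Group G'] [Group G''] (L : Lv G)
    (f : G' →* G) (g : G'' →* G') : (L.comap f).comap g = L.comap (f.comp g) := by
  refine SetLike.ext fun U => ⟨?_, ?_⟩
  · rintro ⟨V, ⟨W, hW, hWV⟩, hVU⟩
    exact ⟨W, hW, by rw [← Subgroup.comap_comap]; exact (Subgroup.comap_mono hWV).trans hVU⟩
  · rintro ⟨W, hW, hWU⟩
    exact ⟨W.comap f, ⟨W, hW, le_rfl⟩, by rw [Subgroup.comap_comap]; exact hWU⟩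

theorem Lv.comap_id {G : Type*} [Group G] (L : Lv G) : L.comap (MonoidHom.id G) = L :=
  SetLike.ext fun _ => Lv.mem_comap.trans <| Iff.intro
    (fun ⟨W, hW, h⟩ => L.mem_of_le hW (by rwa [Subgroup.comap_id] at h))
    (fun h => ⟨_, h, by rw [Subgroup.comap_id]⟩)

variable {p : ℕ} [Fact p.Prime]

theorem smooth_trivial {k : Type*} [CommRing k] {G : Type*} [Group G] (L : Lv G)
    (V : Type*) [AddCommGroup V] [Module k V] : Smooth L (Representation.trivial k G V) :=
  fun _ => ⟨⊤, L.top_mem, fun _ _ => rfl⟩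

variable (p) in
/-- Corestriction is surjective for trivial `ZMod p` coefficients in every layer of index `p` above
the normal level `K`. -/
def CoresSurj {G : Type} [Group G] (L : Lv G) (K : Subgroup G) : Prop :=
  ∀ (G' : Type) [Group G'] (j : G' →* G), Function.Injective j → K ≤ j.range →
    (∃ m, (K.comap j).index = p ^ m) →
    ∀ (L' : Lv G'), L' = L.comap j →
    ∀ (U : Subgroup G') [Fintype (G' ⧸ U)], U.Normal → U.index = p → K.comap j ≤ U →
    ∀ hU : U ∈ L',
      Function.Surjective
        (cores (ρ := Representation.trivial (ZMod p) G' (ZMod p)) hU (smooth_trivial L' _))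

variable (p) in
/-- `H²` is right exact on finite representations trivial on `K`. -/
def RightExact {G : Type} [Group G] (L : Lv G) (K : Subgroup G) : Prop :=
  ∀ (P : Type) [AddCommGroup P] [Module (ZMod p) P] [Finite P]
    (M : Type) [AddCommGroup M] [Module (ZMod p) M] [Finite M]
    (π : Representation (ZMod p) G P) (ρ : Representation (ZMod p) G M),
    (∀ g ∈ K, π g = 1) → (∀ g ∈ K, ρ g = 1) →
    ∀ (ψ : P →ₗ[ZMod p] M) (hψ : ∀ g m, ψ (π g m) = ρ g (ψ m)),
      Function.Surjective ψ → Function.Surjective (H2push L π ρ ψ hψ)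

/-- A surjection of `ZMod p`-modules has a linear section. -/
theorem exists_section {P M : Type*} [AddCommGroup P] [Module (ZMod p) P] [AddCommGroup M]
    [Module (ZMod p) M] (ψ : P →ₗ[ZMod p] M) (hψ : Function.Surjective ψ) :
    ∃ s : M →ₗ[ZMod p] P, ∀ m, ψ (s m) = m := by
  obtain ⟨s, hs⟩ := ψ.exists_rightInverse_of_surjective (LinearMap.range_eq_top.2 hψ)
  exact ⟨s, fun m => LinearMap.congr_fun hs m⟩

/-- `H²` is right exact on trivial representations. -/
theorem rightExact_top {G : Type} [Group G] (L : Lv G) : RightExact p L ⊤ := by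
  intro P _ _ _ M _ _ _ π ρ hπ hρ ψ hψ hs a
  obtain ⟨s, hs⟩ := exists_section ψ hs
  refine ⟨H2push L ρ π s (fun g m => by
    rw [hπ g trivial, hρ g trivial]; rfl) a, ?_⟩
  rw [H2push_comp, H2push_eq_of_eq _ (φ' := LinearMap.id) (fun _ _ => rfl)
    (LinearMap.ext hs), H2push_id]

/-- The hypothesis passes to an intermediate subgroup. -/
theorem CoresSurj.subgroupOf {G : Type} [Group G] {L : Lv G} {K : Subgroup G}
    (hCS : CoresSurj p L K) {U : Subgroup G} (hKU : K ≤ U) :
    CoresSurj p (L.comap U.subtype) (K.subgroupOf U) := by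
  intro G' _ j hj hKj hm L' hL' V _ hV1 hV2 hV3 hV
  refine hCS G' (U.subtype.comp j) (Subtype.val_injective.comp hj) ?_ ?_ L'
    (hL'.trans (Lv.comap_comap L _ _)) V hV1 hV2 ?_ hV
  · intro g hg
    obtain ⟨a, ha⟩ := hKj (show (⟨g, hKU hg⟩ : ↥U) ∈ K.subgroupOf U from hg)
    exact ⟨a, by simp [ha]⟩
  · rw [← Subgroup.comap_comap]; exact hm
  · rw [← Subgroup.comap_comap]; exact hV3

/-- Right exactness makes the sum map from an induced module surjective on `H²`. -/
theorem RightExact.push_indSum_surjective {G : Type} [Group G] {L : Lv G} {K U : Subgroup G}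
    [K.Normal] [Fintype (G ⧸ U)] (hRE : RightExact p L K) (hKU : K ≤ U)
    {M : Type} [AddCommGroup M] [Module (ZMod p) M] [Finite M]
    {ρ : Representation (ZMod p) G M} (hρ : ∀ g ∈ K, ρ g = 1) :
    Function.Surjective
      (H2push L (indRep U ρ) ρ (indSum (k := ZMod p) U) (indSum_equivariant U ρ)) := by
  classical
  refine hRE (G ⧸ U → M) M (indRep U ρ) ρ (indRep_eq_one hKU hρ) hρ _
    (indSum_equivariant U ρ) fun m => ⟨Pi.single ((1 : G) : G ⧸ U) m, ?_⟩
  simp [indSum_apply]

/-- A fixed vector for the action of a finite `p`-group. -/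
theorem exists_fixed_ne_zero {G : Type} [Group G] {K : Subgroup G} [K.Normal] {m : ℕ}
    (hK : K.index = p ^ m) {M : Type} [AddCommGroup M] [Module (ZMod p) M] [Finite M]
    [Nontrivial M] (ρ : Representation (ZMod p) G M) (hρ : ∀ g ∈ K, ρ g = 1) :
    ∃ v : M, v ≠ 0 ∧ ∀ g, ρ g v = v := by
  let ρ' : G ⧸ K →* Module.End (ZMod p) M := QuotientGroup.lift K ρ (fun g hg => hρ g hg)
  let act : MulAction (G ⧸ K) M :=
    { smul := fun g v => ρ' g v
      one_smul := fun v => show ρ' 1 v = v by rw [map_one]; rfl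
      mul_smul := fun g g' v => show ρ' (g * g') v = ρ' g (ρ' g' v) by rw [map_mul]; rfl }
  have hG : IsPGroup p (G ⧸ K) := IsPGroup.of_card (n := m) (by rwa [← Subgroup.index_eq_card])
  have hfix : (0 : M) ∈ MulAction.fixedPoints (G ⧸ K) M := fun g => map_zero (ρ' g)
  have hdvd : p ∣ Nat.card M := by
    obtain ⟨v, hv⟩ := exists_ne (0 : M)
    refine (addOrderOf_eq_prime (x := v) (p := p) ?_ hv) ▸ addOrderOf_dvd_natCard v
    rw [← Nat.cast_smul_eq_nsmul (ZMod p), ZMod.natCast_self, zero_smul]
  obtain ⟨v, hv, hne⟩ := hG.exists_fixed_point_of_prime_dvd_card_of_fixed_point M hdvd hfix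
  exact ⟨v, fun h => hne h.symm, fun g => hv (g : G ⧸ K)⟩

section Layer

variable {G : Type} [Group G] {L : Lv G} {K U : Subgroup G} [Fintype (G ⧸ U)]

/-- Surjectivity of corestriction for arbitrary coefficients in one layer. -/
theorem cores_surjective_of_layer [K.Normal] {m : ℕ} (hK : K.index = p ^ m) (hKL : K ∈ L)
    (hU : U ∈ L)
    (hRU : RightExact p (L.comap U.subtype) (K.subgroupOf U))
    (hline : Function.Surjective
      (cores (ρ := Representation.trivial (ZMod p) G (ZMod p)) hU (smooth_trivial L _)))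
    (M : Type) [AddCommGroup M] [Module (ZMod p) M] [Finite M]
    (ρ : Representation (ZMod p) G M) (hρ : ∀ g ∈ K, ρ g = 1) :
    Function.Surjective (cores (ρ := ρ) hU (smooth_of_le hKL hρ)) := by
  suffices ∀ (n : ℕ) (M : Type) [AddCommGroup M] [Module (ZMod p) M] [Finite M]
      (ρ : Representation (ZMod p) G M) (hρ : ∀ g ∈ K, ρ g = 1), Nat.card M ≤ n →
      Function.Surjective (cores (ρ := ρ) hU (smooth_of_le hKL hρ)) from
    this _ M ρ hρ le_rfl
  intro n
  induction n with
  | zero => intro M _ _ _ ρ hρ h; exact absurd h (by simp [Nat.card_pos.ne'])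
  | succ n ih =>
    intro M _ _ _ ρ hρ hn a
    by_cases hM : Subsingleton M
    · refine ⟨0, ?_⟩
      obtain ⟨x, rfl⟩ := mk2_surjective a
      rw [map_zero, eq_comm, mk2_eq_zero]
      exact ⟨0, Lv.con1_const 0, funext fun _ => Subsingleton.elim _ _⟩
    · have : Nontrivial M := not_subsingleton_iff_nontrivial.1 hM
      obtain ⟨v, hv0, hv⟩ := exists_fixed_ne_zero hK ρ hρ
      let W : Submodule (ZMod p) M := (ZMod p) ∙ v
      have hW : ∀ g, W ≤ W.comap (ρ g) := fun g x hx => by
        obtain ⟨c, rfl⟩ := Submodule.mem_span_singleton.1 hx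
        simp only [Submodule.mem_comap, map_smul, hv]
        exact Submodule.smul_mem _ _ (Submodule.mem_span_singleton_self v)
      let ρ'' := ρ.quotient W hW
      have hρ'' : ∀ g ∈ K, ρ'' g = 1 := fun g hg => by
        ext x
        simp [ρ'', Representation.quotient, hρ g hg]
      let i : ZMod p →ₗ[ZMod p] M := LinearMap.toSpanSingleton (ZMod p) M v
      have hi : ∀ g c, i (Representation.trivial (ZMod p) G (ZMod p) g c) =
          ρ g (i c) := fun g c => by
        simp [i, hv]
      have hψ : ∀ g x, W.mkQ (ρ g x) = ρ'' g (W.mkQ x) := fun g x => rfl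
      have : Finite (M ⧸ W) := Finite.of_surjective _ (Submodule.mkQ_surjective W)
      have hcard : Nat.card (M ⧸ W) ≤ n := by
        have h1 := Submodule.card_eq_card_quotient_mul_card W
        have h2 : 2 ≤ Nat.card W := by
          have : Nontrivial W := ⟨⟨⟨v, Submodule.mem_span_singleton_self v⟩, 0,
            fun h => hv0 (congrArg Subtype.val h)⟩⟩
          exact Finite.one_lt_card
        have h3 : 0 < Nat.card (M ⧸ W) := Nat.card_pos
        nlinarith
      obtain ⟨b'', hb''⟩ := ih (M ⧸ W) ρ'' hρ'' hcard (H2push L ρ ρ'' W.mkQ hψ a)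
      obtain ⟨b, hb⟩ := hRU M (M ⧸ W) (ρ.comp U.subtype) (ρ''.comp U.subtype)
        (fun g hg => hρ _ hg) (fun g hg => hρ'' _ hg) W.mkQ (fun g x => hψ g x)
        (Submodule.mkQ_surjective W) b''
      obtain ⟨s, hs⟩ := exists_section W.mkQ (Submodule.mkQ_surjective W)
      obtain ⟨r, hr⟩ := i.exists_leftInverse_of_injective (LinearMap.ker_eq_bot.2
        (smul_left_injective (ZMod p) hv0))
      have hker : ∀ x, W.mkQ x = 0 → i (r x) = x := fun x hx => by
        rw [Submodule.mkQ_apply, Submodule.Quotient.mk_eq_zero] at hx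
        obtain ⟨c, rfl⟩ := Submodule.mem_span_singleton.1 hx
        exact congrArg i (LinearMap.congr_fun hr c)
      obtain ⟨c, hc⟩ := exists_of_push_eq_zero i hi W.mkQ hψ s hs r
        (fun c => LinearMap.congr_fun hr c) hker (smooth_of_le hKL hρ)
        (a - cores hU (smooth_of_le hKL hρ) b)
        (by rw [map_sub, push_cores (hπ := smooth_of_le hKL hρ'') (φ := W.mkQ) (hφ := hψ)]
            rw [hb, hb'', sub_self])
      obtain ⟨d, rfl⟩ := hline c
      refine ⟨b + H2push (L.comap U.subtype) _ (ρ.comp U.subtype) i (fun g m => hi g m) d, ?_⟩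
      rw [map_add, ← push_cores (hρ := smooth_trivial L _) (hφ := hi), hc, add_sub_cancel]

end Layer

/-- Right exactness when the quotient by the level is a `p`-group. -/
theorem rightExact_of_pGroup (n : ℕ) : ∀ (G : Type) [Group G] (L : Lv G) (K : Subgroup G),
    K.Normal → K ∈ L → K.index = p ^ n → CoresSurj p L K → RightExact p L K := by
  induction n with
  | zero =>
    intro G _ L K _ _ hK _
    rw [pow_zero, Subgroup.index_eq_one] at hK
    subst hK
    exact rightExact_top L
  | succ n ih =>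
    intro G _ L K hKn hKL hK hCS
    have hp : p.Prime := Fact.out
    have := L.finiteIndex hKL
    have : Finite (G ⧸ K) := Subgroup.finite_quotient_of_finiteIndex
    have hcard : Nat.card (G ⧸ K) = p ^ (n + 1) := by rw [← Subgroup.index_eq_card, hK]
    obtain ⟨Q, hQ⟩ := Sylow.exists_subgroup_card_pow_prime (G := G ⧸ K) p (n := n)
      (by rw [hcard]; exact pow_dvd_pow p n.le_succ)
    have hQi : Q.index = p := by
      have := Q.card_mul_index
      rw [hQ, hcard, pow_succ] at this
      exact Nat.eq_of_mul_eq_mul_left (pow_pos hp.pos n) this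
    have hQn : Q.Normal := Subgroup.normal_of_index_eq_minFac_card (by
      rw [hQi, hcard, hp.pow_minFac (Nat.succ_ne_zero n)])
    let U := Q.comap (QuotientGroup.mk' K)
    have hUn : U.Normal := hQn.comap _
    have hKU : K ≤ U := (QuotientGroup.ker_mk' K).symm.le.trans (MonoidHom.ker_le_comap _ _)
    have hUi : U.index = p := by
      rw [Subgroup.index_comap_of_surjective _ (QuotientGroup.mk'_surjective K), hQi]
    have hU : U ∈ L := L.mem_of_le hKL hKU
    have : U.FiniteIndex := L.finiteIndex hU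
    have : Fintype (G ⧸ U) := Fintype.ofFinite _
    have hKUi : (K.subgroupOf U).index = p ^ n := by
      have := Subgroup.relIndex_mul_index hKU
      rw [hUi, hK, pow_succ] at this
      exact Nat.eq_of_mul_eq_mul_right hp.pos this
    have hRU : RightExact p (L.comap U.subtype) (K.subgroupOf U) :=
      ih ↥U _ _ (hKn.subgroupOf U) (comap_mem_comap _ hKL) hKUi (hCS.subgroupOf hKU)
    have hline := hCS G (MonoidHom.id G) (fun a b h => h) (fun g _ => ⟨g, rfl⟩)
      ⟨n + 1, by rwa [Subgroup.comap_id]⟩ L (Lv.comap_id L).symm U hUn hUi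
      (by rwa [Subgroup.comap_id]) hU
    intro P _ _ _ M _ _ _ π ρ hπ hρ ψ hψ hs a
    obtain ⟨b, rfl⟩ := cores_surjective_of_layer hK hKL hU hRU hline M ρ hρ a
    obtain ⟨b', rfl⟩ := hRU P M (π.comp U.subtype) (ρ.comp U.subtype) (fun g hg => hπ _ hg)
      (fun g hg => hρ _ hg) ψ (fun g m => hψ g m) hs b
    exact ⟨cores hU (smooth_of_le hKL hπ) b', push_cores ..⟩

/-- Right exactness of `H²` on representations trivial on a normal level. -/
theorem rightExact {G : Type} [Group G] (L : Lv G) (K : Subgroup G) (hKn : K.Normal) (hKL : K ∈ L)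
    (hCS : CoresSurj p L K) : RightExact p L K := by
  have hp : p.Prime := Fact.out
  have := L.finiteIndex hKL
  have : Finite (G ⧸ K) := Subgroup.finite_quotient_of_finiteIndex
  let Q : Sylow p (G ⧸ K) := default
  obtain ⟨n, hn⟩ := IsPGroup.iff_card.1 Q.isPGroup'
  let V := (Q : Subgroup (G ⧸ K)).comap (QuotientGroup.mk' K)
  have hKV : K ≤ V := (QuotientGroup.ker_mk' K).symm.le.trans (MonoidHom.ker_le_comap _ _)
  have hV : V ∈ L := L.mem_of_le hKL hKV
  have : V.FiniteIndex := L.finiteIndex hV
  have : Fintype (G ⧸ V) := Fintype.ofFinite _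
  have hVi : V.index = (Q : Subgroup (G ⧸ K)).index :=
    Subgroup.index_comap_of_surjective _ (QuotientGroup.mk'_surjective K)
  have hKVi : (K.subgroupOf V).index = p ^ n := by
    have h1 := Subgroup.relIndex_mul_index hKV
    have h2 := (Q : Subgroup (G ⧸ K)).card_mul_index
    rw [hVi, Subgroup.index_eq_card K, ← h2, hn] at h1
    exact Nat.eq_of_mul_eq_mul_right (Nat.pos_of_ne_zero Subgroup.FiniteIndex.index_ne_zero) h1
  have hRV : RightExact p (L.comap V.subtype) (K.subgroupOf V) :=
    rightExact_of_pGroup n ↥V _ _ (hKn.subgroupOf V) (comap_mem_comap _ hKL) hKVi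
      (hCS.subgroupOf hKV)
  intro P _ _ _ M _ _ _ π ρ hπ hρ ψ hψ hs a
  obtain ⟨b, hb⟩ := hRV P M (π.comp V.subtype) (ρ.comp V.subtype) (fun g hg => hπ _ hg)
    (fun g hg => hρ _ hg) ψ (fun g m => hψ g m) hs (res L ρ V a)
  have hne : (V.index : ZMod p) ≠ 0 := by
    rw [hVi, Ne, ZMod.natCast_eq_zero_iff]
    exact Q.not_dvd_index
  refine ⟨(V.index : ZMod p)⁻¹ • cores hV (smooth_of_le hKL hπ) b, ?_⟩
  rw [map_smul, push_cores (hπ := smooth_of_le hKL hρ), hb, cores_res,
    ← Nat.cast_smul_eq_nsmul (ZMod p), inv_smul_smul₀ hne]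

end Fermat.Agent.PT
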