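import Fermat.Agent.PT.KummerCount

/-!
# The divisor outside `S` of a cochain whose coboundary is a cocycle of `G_S`

A cochain of the absolute group with coboundary in `G_S` has a well-defined order modulo `p` at
every place outside `S`; when all these orders vanish
it is a cochain of `G_S`.
-/

noncomputable section

namespace Fermat.Agent.PT

open Lv

open scoped Pointwise

local notation "Qb" => AlgebraicClosure ℚ

variable {p : ℕ} [Fact p.Prime] {S : Finset Nat.Primes} {H : Subgroup Gam}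

variable (S H) in
/-- Cochains of the absolute group whose coboundary is a cocycle of `G_S`. -/
def preS : Submodule (ZMod p) (↥H → ZMod p) :=
  C1 (LGH H) ⊓ (Z2 (LSH S H) (triv (ZMod p) ↥H)).comap (d1 (triv (ZMod p) ↥H))

theorem mem_preS {y : ↥H → ZMod p} :
    y ∈ preS (p := p) S H ↔
      Con1 (LGH H) y ∧ d1 (triv (ZMod p) ↥H) y ∈ Z2 (LSH S H) (triv (ZMod p) ↥H) := Iff.rfl

/-- `y` differs from a Kummer cochain of order `e` by an unramified cochain at `(r, g)`. -/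
def IsOrdAt (H : Subgroup Gam) (y : ↥H → ZMod p) (r : Nat.Primes) (g : Gam) (e : ZMod p) : Prop :=
  ∃ N ∈ LG, N.Normal ∧ InN (r : ℕ) N ∧ N ≤ H ∧ ∃ ρ : ↥(Cyc.rootU p H),
    (∀ x s : ↥(stab (r : ℕ) H g), (s : GamQ (r : ℕ)) ∈ stab (r : ℕ) N g →
      y (locHom (r : ℕ) H g (x * s)) - (cyc p).kum H ρ (locHom (r : ℕ) H g (x * s)) =
        y (locHom (r : ℕ) H g x) - (cyc p).kum H ρ (locHom (r : ℕ) H g x)) ∧
    (lv (r : ℕ) g ((ρ : Qbˣ) ^ p) : ZMod p) = e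

variable (hH : H ∈ LS S)
include hH

theorem isOrdAt_kum {r : Nat.Primes} (hr : r ∉ S) (ρ : ↥(Cyc.rootU p H)) (g : Gam) :
    IsOrdAt H ((cyc p).kum H ρ) r g (lv (r : ℕ) g ((ρ : Qbˣ) ^ p) : ZMod p) := by
  obtain ⟨N, hN, hn, hNH, hI⟩ := mem_LS.1 hH
  exact ⟨N, hN, hn, hI r hr, hNH, ρ, fun x s _ => by rw [sub_self, sub_self], rfl⟩

theorem IsOrdAt.add {y y' : ↥H → ZMod p} {r : Nat.Primes} (hr : r ∉ S) {g : Gam} {e e' : ZMod p}
    (h : IsOrdAt H y r g e) (h' : IsOrdAt H y' r g e') : IsOrdAt H (y + y') r g (e + e') := by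
  obtain ⟨N, hN, hn, hI, hNH, ρ, hy, rfl⟩ := h
  obtain ⟨N', hN', hn', hI', hNH', ρ', hy', rfl⟩ := h'
  refine ⟨N ⊓ N', LG.inf_mem hN hN', inferInstance, fun A hA => le_inf (hI A hA) (hI' A hA),
    inf_le_left.trans hNH, ρ * ρ', fun x s hs => ?_, ?_⟩
  · simp only [Pi.add_apply, Subgroup.coe_mul, Cyc.kum_mul (C := cyc p) ρ.2 ρ'.2]
    linear_combination hy x s (stab_mono _ g inf_le_left hs) +
      hy' x s (stab_mono _ g inf_le_right hs)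
  · rw [Subgroup.coe_mul, mul_pow, lv_mul hH hr (fun h => ρ.2 h) (fun h => ρ'.2 h), Int.cast_add]

theorem IsOrdAt.neg {y : ↥H → ZMod p} {r : Nat.Primes} (hr : r ∉ S) {g : Gam} {e : ZMod p}
    (h : IsOrdAt H y r g e) : IsOrdAt H (-y) r g (-e) := by
  obtain ⟨N, hN, hn, hI, hNH, ρ, hy, rfl⟩ := h
  refine ⟨N, hN, hn, hI, hNH, ρ⁻¹, fun x s hs => ?_, ?_⟩
  · simp only [Pi.neg_apply, Subgroup.coe_inv, Cyc.kum_inv (C := cyc p) ρ.2]
    linear_combination -hy x s hs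
  · rw [Subgroup.coe_inv, inv_pow, lv_inv hH hr (fun h => ρ.2 h), Int.cast_neg]

omit hH in
theorem isOrdAt_of_const {y : ↥H → ZMod p} {r : Nat.Primes} (g : Gam) {N : Subgroup Gam}
    (hN : N ∈ LG) [hn : N.Normal] (hI : InN (r : ℕ) N) (hNH : N ≤ H)
    (hy : ∀ (x s : ↥H), (s : Gam) ∈ N → y (x * s) = y x) : IsOrdAt H y r g 0 := by
  refine ⟨N, hN, hn, hI, hNH, 1, fun x s hs => ?_, ?_⟩
  · simp only [Subgroup.coe_one, Cyc.kum_one, sub_zero]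
    rw [map_mul]
    exact hy _ _ hs
  · rw [Subgroup.coe_one, one_pow, lv_one, Int.cast_zero]

/-- The order is unique. -/
theorem IsOrdAt.unique (_hodd : p ≠ 2) {y : ↥H → ZMod p} {r : Nat.Primes} (hr : r ∉ S) {g : Gam}
    {e e' : ZMod p} (h : IsOrdAt H y r g e) (h' : IsOrdAt H y r g e') : e = e' := by
  rw [← sub_eq_zero]
  obtain ⟨N, hN, hn, hI, hNH, ρ, hy, hlv⟩ := h.add hH hr (h'.neg hH hr)
  rw [← sub_eq_add_neg] at hlv
  rw [← hlv, ZMod.intCast_zmod_eq_zero_iff_dvd]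
  have hk : ∀ s : ↥(stab (r : ℕ) H g), (s : GamQ (r : ℕ)) ∈ stab (r : ℕ) N g →
      (cyc p).kum H ρ (locHom (r : ℕ) H g s) = 0 := fun s hs => by
    have h1 := hy 1 s hs
    simp only [Pi.add_apply, Pi.neg_apply, add_neg_cancel, zero_sub, one_mul, map_one, neg_inj]
      at h1
    rw [h1]
    exact (Cyc.kum_eq_zero_iff ρ.2 _).2 (one_smul _ _)
  have hmem := embU_mem_rootU (r : ℕ) p g ρ.2
  have hfix : embU (r : ℕ) (g • (ρ : Qbˣ)) ∈ fixU (stab (r : ℕ) N g) := fun τ => by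
    have hτ : (τ : GamQ (r : ℕ)) ∈ stab (r : ℕ) H g := stab_mono _ g hNH τ.2
    refine (Cyc.kum_eq_zero_iff (C := cycLoc (r : ℕ) p) hmem ⟨τ, hτ⟩).1 ?_
    rw [kum_loc (r : ℕ) p g ρ.2, hk ⟨τ, hτ⟩ τ.2, mul_zero]
  obtain ⟨m, hm⟩ := exists_norm_zpow_of_fixed hN hI le_rfl g hfix
  refine ⟨m, lv_eq ?_⟩
  rw [Units.val_pow_eq_pow_val, nq_pow, mul_comm, zpow_mul, zpow_natCast]
  exact congrArg (· ^ p) hm

variable (hμ : (cyc p).MuFix H)
include hμ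

/-- Changing the representative of a place. -/
theorem IsOrdAt.of_samePlace {y : ↥H → ZMod p} (hy : y ∈ preS (p := p) S H) {r : Nat.Primes}
    (hr : r ∉ S) {g g' : Gam} (hs : SamePlace (r : ℕ) H g g') {e : ZMod p}
    (h : IsOrdAt H y r g e) : IsOrdAt H y r g' e := by
  obtain ⟨τ, c, hc, hg'⟩ := hs
  obtain ⟨N, hN, hn, hI, hNH, ρ, hyρ, rfl⟩ := h
  obtain ⟨⟨U, ⟨W, hW, hWU⟩, hcon⟩, -⟩ := mem_Z2.1 (mem_preS.1 hy).2
  obtain ⟨N₂, hN₂, hn₂, hN₂W, hI₂⟩ := mem_LS.1 ((LS S).inf_mem hW hH)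
  refine ⟨N ⊓ N₂, LG.inf_mem hN hN₂, inferInstance, fun A hA => le_inf (hI A hA) (hI₂ r hr A hA),
    inf_le_left.trans hNH, ρ, fun x s hs => ?_,
      by rw [lv_samePlace ⟨τ, c, hc, hg'⟩ (fun h => ρ.2 h)]⟩
  set d := d1 (triv (ZMod p) ↥H) y with hd
  have hmul : ∀ a b : ↥H, y (a * b) = y a + y b - d (a, b) := fun a b => by
    simp only [hd, d1_apply, Representation.trivial_apply]; ring
  let cH : ↥H := ⟨c, hc⟩
  let cv := stabConj τ hc hg'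
  have hloc : ∀ z, locHom (r : ℕ) H g' z = cH⁻¹ * locHom (r : ℕ) H g (cv z) * cH :=
    locHom_stabConj τ hc hg'
  have hk : ∀ u : ↥H, (cyc p).kum H ρ (cH⁻¹ * u * cH) = (cyc p).kum H ρ u := fun u => by
    have h1 := Cyc.kum_hom hμ ρ.2 (cH⁻¹ * u) cH
    have h2 := Cyc.kum_hom hμ ρ.2 cH⁻¹ u
    have h3 := Cyc.kum_hom hμ ρ.2 cH⁻¹ cH
    rw [inv_mul_cancel, (Cyc.kum_eq_zero_iff ρ.2 1).2 (one_smul _ _)] at h3
    linear_combination h1 + h2 - h3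
  set u := locHom (r : ℕ) H g (cv x)
  set v := locHom (r : ℕ) H g (cv s)
  have hsN : ∀ {M : Subgroup Gam}, M.Normal → (s : GamQ (r : ℕ)) ∈ stab (r : ℕ) M g' →
      (v : Gam) ∈ M := fun {M} hM hsM => by
    have h1 : (locHom (r : ℕ) H g' s : Gam) ∈ M := hsM
    rw [hloc, Subgroup.coe_mul, Subgroup.coe_mul, Subgroup.coe_inv] at h1
    have := hM.conj_mem _ h1 c
    simpa [cH, mul_assoc] using this
  have hv2 : v ∈ U := hWU (hN₂W (hsN hn₂ (stab_mono _ g' inf_le_right hs))).1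
  have hyv := hyρ (cv x) (cv s)
    (show (v : Gam) ∈ N from hsN hn (stab_mono _ g' inf_le_left hs))
  rw [map_mul] at hyv
  have hd1 : d (cH⁻¹, u * v) = d (cH⁻¹, u) := by
    have := hcon cH⁻¹ u 1 U.one_mem v hv2
    rwa [mul_one] at this
  have hd2 : d (cH⁻¹ * (u * v), cH) = d (cH⁻¹ * u, cH) := by
    have := hcon (cH⁻¹ * u) cH v hv2 1 U.one_mem
    rwa [mul_one, mul_assoc] at this
  rw [hloc, hloc, map_mul cv, map_mul, hk, hk, hmul, hmul cH⁻¹, hmul (cH⁻¹ * u), hmul cH⁻¹ u,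
    hd1, hd2]
  linear_combination hyv

omit hμ in
theorem isOrdAt_of_LS {y : ↥H → ZMod p} (hy : Con1 (LSH S H) y) {r : Nat.Primes} (hr : r ∉ S)
    (g : Gam) : IsOrdAt H y r g 0 := by
  obtain ⟨U, ⟨W, hW, hWU⟩, h⟩ := hy
  obtain ⟨N, hN, hn, hNW, hI⟩ := mem_LS.1 ((LS S).inf_mem hW hH)
  exact isOrdAt_of_const g hN (hI r hr) (hNW.trans inf_le_right)
    fun x s hs => h x s (hWU (hNW hs).1)

/-- An order exists. -/
theorem exists_isOrdAt (hodd : p ≠ 2) {y : ↥H → ZMod p} (hy : y ∈ preS (p := p) S H)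
    {r : Nat.Primes} (hr : r ∉ S) (g : Gam) : ∃ e, IsOrdAt H y r g e := by
  obtain ⟨hyc, hdy⟩ := mem_preS.1 hy
  obtain ⟨⟨U, ⟨W, hW, hWU⟩, hc⟩, -⟩ := mem_Z2.1 hdy
  obtain ⟨N, hN, hn, hNW, hI⟩ := mem_LS.1 ((LS S).inf_mem hW hH)
  have hNH : N ≤ H := hNW.trans inf_le_right
  let l := locHom (r : ℕ) H g
  let a : ↥(stab (r : ℕ) H g) → ↥(stab (r : ℕ) H g) → ZMod p := fun x z =>
    d1 (triv (ZMod p) ↥H) y (l x, l z)
  obtain ⟨N', hN', hn', hI', hN'N, ζ, hζc, hζ⟩ := exists_unram_cochain (p := p) hN (hI r hr) hNH g a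
    (fun x z w => by
      simp only [a, d1_apply, Representation.trivial_apply, map_mul, mul_assoc]
      ring)
    (fun x z s t hs ht => by
      simp only [a, map_mul]
      exact hc _ _ _ (hWU (hNW (show (l s : Gam) ∈ N from hs)).1) _
        (hWU (hNW (show (l t : Gam) ∈ N from ht)).1))
  have hst := LG.mem_of_le hN' (hN'N.trans hNH)
  let h : ↥(stab (r : ℕ) H g) → ZMod p := fun x => ((cyc p).ω g : ZMod p) * (y (l x) - ζ x)
  have hh : h ∈ Z1 ((LQ (r : ℕ)).comap (stab (r : ℕ) H g).subtype)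
      (triv (ZMod p) ↥(stab (r : ℕ) H g)) := by
    refine mem_Z1_triv.2 ⟨?_, fun x z => ?_⟩
    · obtain ⟨U₁, hU₁, h₁⟩ := hyc.precomp (compat_locHom (r : ℕ) H g)
      refine ⟨U₁ ⊓ (stab (r : ℕ) N' g).subgroupOf (stab (r : ℕ) H g),
        Lv.inf_mem _ hU₁ (subgroupOf_mem (stab_mem _ _ hN')), fun x s hs => ?_⟩
      have e : y (l (x * s)) = y (l x) := h₁ x s hs.1
      simp only [h, e, hζc x s hs.2]
    · have e := hζ x z
      simp only [a, d1_apply, Representation.trivial_apply] at e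
      simp only [h, map_mul]
      linear_combination ((cyc p).ω g : ZMod p) * e
  obtain ⟨r₁, hr₁⟩ := exists_root_hom (muFix_stab (r : ℕ) p g hμ) hh
  obtain ⟨z, hz, w, hw, e, -⟩ := exists_global_approx (p := p) hodd (LS_le_LG hH) g
    (a := (r₁ : (PadicAlgCl (r : ℕ))ˣ) ^ p) (fun τ => r₁.2 τ)
  obtain ⟨ρ, hρ⟩ := Cyc.exists_root (Ω := Qb) (Fact.out : p.Prime).pos z
  have hρm : ρ ∈ Cyc.rootU p H := fun u => by rw [hρ]; exact hz u
  refine ⟨_, N', hN', hn', hI', hN'N.trans hNH, ⟨ρ, hρm⟩, fun x s hs => ?_, rfl⟩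
  have hkum : ∀ x, h x = ((cyc p).ω g : ZMod p) * (cyc p).kum H ρ (l x) := fun x => by
    have hem := embU_mem_rootU (r : ℕ) p g hρm
    have hwm : w ∈ Cyc.rootU p (stab (r : ℕ) H g) := fun u => by rw [smul_pow', hw u]
    rw [hr₁, kum_congr (muFix_stab (r : ℕ) p g hμ) r₁.2 (mul_mem hem hwm)
      (by rw [e, mul_pow, ← map_pow, ← smul_pow', hρ]),
      Cyc.kum_mul hem hwm, kum_eq_zero_of_fixU hw, Pi.zero_apply,
      add_zero, kum_loc (r : ℕ) p g hρm]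
  have hcancel : ∀ x, y (l x) - (cyc p).kum H ρ (l x) = ζ x := fun x => by
    have h1 : ((cyc p).ω g : ZMod p) * (y (l x) - ζ x) =
        ((cyc p).ω g : ZMod p) * (cyc p).kum H ρ (l x) := hkum x
    linear_combination mul_left_cancel₀ (Units.ne_zero _) h1
  rw [hcancel, hcancel, hζc x s hs]

omit hμ in
/-- A cochain of order zero everywhere is a cochain of `G_S`. -/
theorem con1_LS_of_ord_zero (hpS : pP p ∈ S) {y : ↥H → ZMod p} (hy : y ∈ preS (p := p) S H)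
    (h : ∀ (r : Nat.Primes), r ∉ S → ∀ g, IsOrdAt H y r g 0) : Con1 (LSH S H) y := by
  obtain ⟨hyc, hdy⟩ := mem_preS.1 hy
  obtain ⟨⟨U, ⟨W, hW, hWU⟩, hc⟩, -⟩ := mem_Z2.1 hdy
  obtain ⟨U₁, ⟨W₁, hW₁, hW₁U⟩, h₁⟩ := hyc
  obtain ⟨M, hM, hMW, hMn⟩ := LG.exists_normal (LG.inf_mem hW₁ (LS_le_LG hH))
  have hd : ∀ x s : ↥H, y (x * s) = y x + y s - d1 (triv (ZMod p) ↥H) y (x, s) := fun x s => by
    simp only [d1_apply, Representation.trivial_apply]; ring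
  let K : Subgroup Gam :=
    { carrier := {σ | ∃ hσ : σ ∈ H, ∀ x : ↥H, y (x * ⟨σ, hσ⟩) = y x}
      one_mem' := ⟨H.one_mem, fun x => congrArg y (mul_one x)⟩
      mul_mem' := fun {a b} ⟨ha, ha'⟩ ⟨hb, hb'⟩ => ⟨H.mul_mem ha hb, fun x => by
        rw [show (⟨a * b, H.mul_mem ha hb⟩ : ↥H) = ⟨a, ha⟩ * ⟨b, hb⟩ from rfl, ← mul_assoc, hb',
          ha']⟩
      inv_mem' := fun {a} ⟨ha, ha'⟩ => ⟨H.inv_mem ha, fun x => by
        rw [← ha' (x * ⟨a⁻¹, H.inv_mem ha⟩), mul_assoc,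
          show (⟨a⁻¹, H.inv_mem ha⟩ : ↥H) * ⟨a, ha⟩ = 1 from Subtype.ext (inv_mul_cancel a),
          mul_one]⟩ }
  have hKLG : K ∈ LG := LG.mem_of_le hM fun σ hσ =>
    ⟨(hMW hσ).2, fun x => h₁ x ⟨σ, (hMW hσ).2⟩ (hW₁U (hMW hσ).1)⟩
  refine ⟨K.subgroupOf H, ⟨K, mem_LS_of_inertia hKLG fun r hr A hA σ hσ => ?_, fun _ hs => hs⟩,
    fun x s hs => ?_⟩
  swap
  · obtain ⟨_, h2⟩ := hs
    exact h2 x
  have hrp : (r : ℕ) ≠ p := fun e => hr (by rwa [show r = pP p from Subtype.ext e])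
  have hσH : σ ∈ H := InN_of_mem_LS hH hr A hA hσ
  obtain ⟨γ, hγ⟩ := Gal.exists_smul_eq (A := padicPlace (r : ℕ)) (B := A) r.2
    padicPlace_liesOverPrime hA
  have hσ' : γ⁻¹ * σ * γ ∈ (padicPlace (r : ℕ)).inertiaSubgroupIn ℚ := by
    have := Gal.conj_mem_inertia (A := A) hσ γ⁻¹
    rw [← hγ, inv_smul_smul] at this
    simpa using this
  obtain ⟨N, hN, hn, hI, hNH, ρ, hρ, he⟩ := h r hr γ⁻¹
  -- the root is fixed by inertia
  have hρσ : σ • (ρ : Qbˣ) = (ρ : Qbˣ) :=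
    inertia_fixes_of_dvd_lv hH hr hrp hσ hγ (fun h => ρ.2 h)
      ((ZMod.intCast_zmod_eq_zero_iff_dvd _ _).1 he)
  -- replace inertia by a local element
  obtain ⟨U₂, hU₂, hU₂ρ⟩ := exists_level_fixing_units (F := ℚ) (ρ : Qbˣ)
  obtain ⟨M', hM', hM'le, hM'n⟩ := LG.exists_normal (LG.inf_mem (LG.inf_mem hM hN) hU₂)
  obtain ⟨τ, hτ⟩ := exists_local_of_decomposition (q := (r : ℕ)) hM'
    (Gal.mem_inertia_iff.1 hσ').1
  have hm : σ⁻¹ * cj (r : ℕ) γ⁻¹ τ ∈ M' := by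
    have h2 := hM'n.conj_mem _ (M'.inv_mem hτ) γ
    rw [cj_apply]
    convert h2 using 1
    group
  have hcN : cj (r : ℕ) γ⁻¹ τ ∈ N := by
    have hσN : σ ∈ N := hI A hA hσ
    have h2 := N.mul_mem hσN (hM'le hm).1.2
    rwa [mul_inv_cancel_left] at h2
  set σH : ↥H := ⟨σ, hσH⟩
  set cH : ↥H := ⟨cj (r : ℕ) γ⁻¹ τ, hNH hcN⟩
  have hy1 : y cH = y σH := by
    have hmem : ((σH⁻¹ * cH : ↥H) : Gam) ∈ W₁ ⊓ H := hMW (hM'le hm).1.1
    have hmem' : σH⁻¹ * cH ∈ W₁.comap H.subtype := hmem.1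
    have := h₁ σH _ (hW₁U hmem')
    rwa [mul_inv_cancel_left] at this
  have hk1 : (cyc p).kum H ρ cH = 0 := by
    refine (Cyc.kum_eq_zero_iff ρ.2 cH).2 ?_
    show cj (r : ℕ) γ⁻¹ τ • (ρ : Qbˣ) = ρ
    rw [← mul_inv_cancel_left σ (cj (r : ℕ) γ⁻¹ τ), mul_smul, hU₂ρ _ (hM'le hm).2, hρσ]
  have hyσ : y σH = y 1 := by
    have h2 := hρ 1 ⟨τ, hNH hcN⟩ hcN
    rw [one_mul, map_one, show locHom (r : ℕ) H γ⁻¹ ⟨τ, hNH hcN⟩ = cH from rfl, hk1,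
      (Cyc.kum_eq_zero_iff ρ.2 1).2 (one_smul _ _), sub_zero, sub_zero, hy1] at h2
    exact h2
  refine ⟨hσH, fun x => ?_⟩
  have hσU : σH ∈ U := hWU (InN_of_mem_LS hW hr A hA hσ)
  have e1 : d1 (triv (ZMod p) ↥H) y (x, σH) = d1 (triv (ZMod p) ↥H) y (x, 1) := by
    have := hc x 1 1 U.one_mem σH hσU
    rwa [mul_one, one_mul] at this
  rw [hd, e1, hyσ]
  simp only [d1_apply, Representation.trivial_apply, mul_one]
  ring

end Fermat.Agent.PT
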