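import Mathlib.LinearAlgebra.Dual.Lemmas
import Mathlib.LinearAlgebra.FiniteDimensional.Basic
import Fermat.Agent.PT.OrdMap

/-!
# An upper bound for the dimension of `H²(G_S, μ_p)`

For a level `H` of `G_S` fixing `μ_p`, with fixed field `F`, the dimension of `H²(G_S(F), μ_p)` is
less than the number of places of `F` over `S` plus that of a space of homomorphisms trivial at
`S`.  This is
the counting input for surjectivity of corestriction in `GlobalSurj`.
-/

noncomputable section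

namespace Fermat.Agent.PT

open Lv Module

local notation "Qb" => AlgebraicClosure ℚ

variable {p : ℕ} [Fact p.Prime]

theorem two_finrank_le_of_isotropic {k P : Type*} [Field k] [AddCommGroup P] [Module k P]
    [FiniteDimensional k P] (B : P →ₗ[k] P →ₗ[k] k) (hB : ∀ x, (∀ y, B x y = 0) → x = 0)
    (L : Submodule k P) (hL : ∀ x ∈ L, ∀ y ∈ L, B x y = 0) :
    2 * finrank k L ≤ finrank k P := by
  have h := Subspace.finrank_add_finrank_dualAnnihilator_eq L
  let φ : L →ₗ[k] L.dualAnnihilator := (B ∘ₗ L.subtype).codRestrict _ fun x =>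
    (Submodule.mem_dualAnnihilator _).2 fun y hy => hL x x.2 y hy
  have hφ : Function.Injective φ := (injective_iff_map_eq_zero φ).2 fun x hx =>
    Subtype.ext (hB x (LinearMap.congr_fun (congrArg Subtype.val hx)))
  have := LinearMap.finrank_le_finrank_of_injective hφ
  omega

section Places

variable (S : Finset Nat.Primes) (H : Subgroup Gam)

/-- The places over a finite set of primes. -/
abbrev PlS : Type := Σ r : ↥S, Pl ((r : Nat.Primes) : ℕ) H

/-- The places outside a finite set of primes. -/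
abbrev PlO : Type := {v : Plc H // v.1 ∉ S}

variable {S H}

/-- A place over `S` as a place. -/
def PlS.val (v : PlS S H) : Plc H := ⟨v.1, v.2⟩

theorem finite_PlS (hH : H ∈ LG) : Finite (PlS S H) :=
  have : ∀ r : ↥S, Finite (Pl ((r : Nat.Primes) : ℕ) H) := fun _ => finite_pl hH
  inferInstance

theorem natCard_PlS [∀ r : Nat.Primes, Fintype (Pl (r : ℕ) H)] :
    Nat.card (PlS S H) = ∑ r ∈ S, Fintype.card (Pl (r : ℕ) H) := by
  rw [Nat.card_eq_fintype_card, Fintype.card_sigma]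
  exact Finset.sum_coe_sort S fun r => Fintype.card (Pl (r : ℕ) H)

theorem ncard_placesOver : (placesOver H S).ncard = Nat.card (PlS S H) := by
  rw [← Nat.card_coe_set_eq]
  exact Nat.card_congr
    { toFun := fun v => ⟨⟨v.1.1, v.2⟩, v.1.2⟩
      invFun := fun v => ⟨v.val, v.1.2⟩
      left_inv := fun _ => rfl
      right_inv := fun _ => rfl }

/-- The indices of the decomposition subgroups above a prime sum to the index. -/
theorem sum_stab_index (r : Nat.Primes) (hH : H ∈ LG) [Fintype (Pl (r : ℕ) H)] :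
    ∑ v : Pl (r : ℕ) H, (stab (r : ℕ) H v.rep).index = H.index := by
  have : ∀ v : Pl (r : ℕ) H, Finite (GamQ (r : ℕ) ⧸ stab (r : ℕ) H v.rep) := fun v =>
    haveI := (LQ (r : ℕ)).finiteIndex (stab_mem (r : ℕ) v.rep hH)
    Subgroup.finite_quotient_of_finiteIndex
  rw [Subgroup.index_eq_card H, ← Nat.card_eq_of_bijective _ (orbSigma_bijective (r : ℕ) (H := H)),
    Nat.card_sigma]
  exact Finset.sum_congr rfl fun v _ => Subgroup.index_eq_card _

/-- A homomorphism killed at a place is killed at every embedding of the place. -/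
theorem hom_locHom_eq_zero {q : ℕ} [Fact q.Prime] {f : ↥H → ZMod p}
    (hf : ∀ a b, f (a * b) = f b + f a) {g g' : Gam} (hs : SamePlace q H g g')
    (h : ∀ x, f (locHom q H g x) = 0) (x : ↥(stab q H g')) : f (locHom q H g' x) = 0 := by
  obtain ⟨τ, c, hc, hg'⟩ := hs
  have h1 := hf (⟨c, hc⟩ : ↥H)⁻¹ ⟨c, hc⟩
  have h0 : f 1 = 0 := by simpa using hf 1 1
  rw [inv_mul_cancel, h0] at h1
  rw [locHom_stabConj τ hc hg', hf, hf, h]
  linear_combination -h1

end Places

/-- The Kummer homomorphisms locally trivial at `S` and unramified outside. -/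
def sha1H (S : Finset Nat.Primes) (H : Subgroup Gam) : Submodule (ZMod p) (↥H → ZMod p) where
  carrier := {f | f ∈ Z1 (LSH S H) (triv (ZMod p) ↥H) ∧
    ∀ r ∈ S, ∀ (g : Gam) x, f (locHom ((r : Nat.Primes) : ℕ) H g x) = 0}
  add_mem' := fun {a b} ha hb => ⟨add_mem ha.1 hb.1, fun r hr g x => by
    rw [Pi.add_apply, ha.2 r hr g x, hb.2 r hr g x, add_zero]⟩
  zero_mem' := ⟨zero_mem _, fun _ _ _ _ => rfl⟩
  smul_mem' := fun c a ha => ⟨Submodule.smul_mem _ c ha.1, fun r hr g x => by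
    rw [Pi.smul_apply, ha.2 r hr g x, smul_zero]⟩

section Ord

variable {S : Finset Nat.Primes} {H : Subgroup Gam} (hodd : p ≠ 2) (hH : H ∈ LS S)
  (hμ : (cyc p).MuFix H)

/-- The value of the divisor outside `S` at a place. -/
def ordV (y : ↥(preS (p := p) S H)) (v : PlO S H) : ZMod p :=
  (exists_isOrdAt hH hμ hodd y.2 v.2 v.1.2.rep).choose

theorem ordV_spec (y : ↥(preS (p := p) S H)) (v : PlO S H) :
    IsOrdAt H (y : ↥H → ZMod p) v.1.1 v.1.2.rep (ordV hodd hH hμ y v) :=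
  (exists_isOrdAt hH hμ hodd y.2 v.2 v.1.2.rep).choose_spec

theorem ordV_eq {y : ↥(preS (p := p) S H)} {v : PlO S H} {e : ZMod p}
    (h : IsOrdAt H (y : ↥H → ZMod p) v.1.1 v.1.2.rep e) : ordV hodd hH hμ y v = e :=
  IsOrdAt.unique (S := S) hH hodd v.2 (ordV_spec hodd hH hμ y v) h

theorem ordV_add (y y' : ↥(preS (p := p) S H)) (v : PlO S H) :
    ordV hodd hH hμ (y + y') v = ordV hodd hH hμ y v + ordV hodd hH hμ y' v := by
  refine ordV_eq hodd hH hμ ?_
  have h := IsOrdAt.add (S := S) hH v.2 (ordV_spec hodd hH hμ y v) (ordV_spec hodd hH hμ y' v)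
  exact h

/-- The divisor outside `S`, additively. -/
def ordA : ↥(preS (p := p) S H) →+ (PlO S H → ZMod p) :=
  AddMonoidHom.mk' (fun y v => ordV hodd hH hμ y v) fun y y' => by
    ext v
    exact ordV_add hodd hH hμ y y' v

/-- The divisor outside `S`. -/
def ordL : ↥(preS (p := p) S H) →ₗ[ZMod p] (PlO S H → ZMod p) :=
  (ordA hodd hH hμ).toZModLinearMap p

theorem ordL_eq {y : ↥(preS (p := p) S H)} {v : PlO S H} {e : ZMod p}
    (h : IsOrdAt H (y : ↥H → ZMod p) v.1.1 v.1.2.rep e) : ordL hodd hH hμ y v = e :=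
  ordV_eq hodd hH hμ h

theorem Z1_le_preS : Z1 (LGH H) (triv (ZMod p) ↥H) ≤ preS (p := p) S H := fun f hf => by
  refine mem_preS.2 ⟨hf.1, ?_⟩
  rw [LinearMap.mem_ker.1 hf.2]
  exact zero_mem _

include hodd hH hμ in
theorem isOrdAt_all {y : ↥(preS (p := p) S H)} (h : ordL hodd hH hμ y = 0) (r : Nat.Primes)
    (hr : r ∉ S) (g : Gam) : IsOrdAt H (y : ↥H → ZMod p) r g 0 := by
  obtain ⟨e, he⟩ := exists_isOrdAt hH hμ hodd y.2 hr (Pl.mk g : Pl (r : ℕ) H).rep
  have h1 : ordL hodd hH hμ y ⟨⟨r, Pl.mk g⟩, hr⟩ = e := ordL_eq hodd hH hμ he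
  rw [h, Pi.zero_apply] at h1
  subst h1
  exact IsOrdAt.of_samePlace hH hμ y.2 hr (Pl.samePlace_rep g).symm he

end Ord

/-- Local homomorphisms at an embedding. -/
abbrev homQ (H : Subgroup Gam) (r : Nat.Primes) (g : Gam) :
    Submodule (ZMod p) (↥(stab (r : ℕ) H g) → ZMod p) :=
  Z1 ((LQ (r : ℕ)).comap (stab (r : ℕ) H g).subtype) (triv (ZMod p) ↥(stab (r : ℕ) H g))

/-- Restriction of a homomorphism to a decomposition subgroup. -/
def homLoc (H : Subgroup Gam) (r : Nat.Primes) (g : Gam) :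
    ↥(Z1 (LGH H) (triv (ZMod p) ↥H)) →ₗ[ZMod p] ↥(homQ (p := p) H r g) :=
  ((pp1 (locHom (r : ℕ) H g) LinearMap.id) ∘ₗ
    (Z1 (LGH H) (triv (ZMod p) ↥H)).subtype).codRestrict _ fun f =>
      pp1_mem_Z1 (compat_locHom _ H g) (φ := LinearMap.id) (fun _ _ => rfl) f.2

section Pairing

variable (lam : ∀ q : Nat.Primes, H2 (LQ (q : ℕ)) (muQ p (q : ℕ)) →ₗ[ZMod p] ZMod p)
variable {H : Subgroup Gam} (hHG : H ∈ LG) (hμ : (cyc p).MuFix H) (r : Nat.Primes) (g : Gam)

/-- The value of the invariant of a cup product at a place. -/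
def pairVal (x y : ↥(homQ (p := p) H r g)) : ZMod p :=
  haveI := (LQ (r : ℕ)).finiteIndex (stab_mem (r : ℕ) g hHG)
  letI : Fintype (GamQ (r : ℕ) ⧸ stab (r : ℕ) H g) := Fintype.ofFinite _
  ((cyc p).ω g : ZMod p) * lam r (coresTriv (stab_mem (r : ℕ) g hHG) (muFix_stab (r : ℕ) p g hμ)
    (cup11 ((LQ (r : ℕ)).comap (stab (r : ℕ) H g).subtype) x y))

theorem pairVal_add_left (x x' y : ↥(homQ (p := p) H r g)) :
    pairVal lam hHG hμ r g (x + x') y =
      pairVal lam hHG hμ r g x y + pairVal lam hHG hμ r g x' y := by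
  unfold pairVal
  rw [cup11_add_left, map_add, map_add, mul_add]

theorem pairVal_add_right (x y y' : ↥(homQ (p := p) H r g)) :
    pairVal lam hHG hμ r g x (y + y') =
      pairVal lam hHG hμ r g x y + pairVal lam hHG hμ r g x y' := by
  unfold pairVal
  rw [cup11_add_right, map_add, map_add, mul_add]

theorem pairVal_smul_left (c : ZMod p) (x y : ↥(homQ (p := p) H r g)) :
    pairVal lam hHG hμ r g (c • x) y = c * pairVal lam hHG hμ r g x y := by
  unfold pairVal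
  rw [cup11_smul_left, map_smul, map_smul, smul_eq_mul, mul_left_comm]

theorem pairVal_smul_right (c : ZMod p) (x y : ↥(homQ (p := p) H r g)) :
    pairVal lam hHG hμ r g x (c • y) = c * pairVal lam hHG hμ r g x y := by
  unfold pairVal
  rw [cup11_smul_right, map_smul, map_smul, smul_eq_mul, mul_left_comm]

/-- The local cup product pairing. -/
def pairL : ↥(homQ (p := p) H r g) →ₗ[ZMod p] ↥(homQ (p := p) H r g) →ₗ[ZMod p] ZMod p :=
  LinearMap.mk₂ (ZMod p) (pairVal lam hHG hμ r g)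
    (pairVal_add_left lam hHG hμ r g) (pairVal_smul_left lam hHG hμ r g)
    (pairVal_add_right lam hHG hμ r g) (pairVal_smul_right lam hHG hμ r g)

theorem exists_pairL_ne_zero (hodd : p ≠ 2) (hlam : ∀ q, Function.Bijective (lam q))
    {x : ↥(homQ (p := p) H r g)} (hx : x ≠ 0) : ∃ y, pairL lam hHG hμ r g x y ≠ 0 := by
  obtain ⟨y, hy⟩ :=
    exists_cup11_ne_zero hodd (stab_mem (r : ℕ) g hHG) (muFix_stab (r : ℕ) p g hμ) x hx
  have := (LQ (r : ℕ)).finiteIndex (stab_mem (r : ℕ) g hHG)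
  let _ : Fintype (GamQ (r : ℕ) ⧸ stab (r : ℕ) H g) := Fintype.ofFinite _
  refine ⟨y, fun h => hy ?_⟩
  refine (coresTriv_bijective hodd (stab_mem (r : ℕ) g hHG) (muFix_stab (r : ℕ) p g hμ)).1 ?_
  rw [map_zero]
  exact (hlam r).1 (((mul_eq_zero.1 h).resolve_left (Units.ne_zero _)).trans
    (map_zero (lam r)).symm)

theorem invP_cup {S : Finset Nat.Primes} (f f' : ↥(Z1 (LGH H) (triv (ZMod p) ↥H)))
    (hf : (f : ↥H → ZMod p) ∈ Z1 (LSH S H) (triv (ZMod p) ↥H))
    (hf' : (f' : ↥H → ZMod p) ∈ Z1 (LSH S H) (triv (ZMod p) ↥H)) :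
    invP lam hHG hμ r g (infS p S H (cup11 (LSH S H) ⟨_, hf⟩ ⟨_, hf'⟩)) =
      pairL lam hHG hμ r g (homLoc H r g f) (homLoc H r g f') := by
  have := (LQ (r : ℕ)).finiteIndex (stab_mem (r : ℕ) g hHG)
  let _ : Fintype (GamQ (r : ℕ) ⧸ stab (r : ℕ) H g) := Fintype.ofFinite _
  show lam r (coresTriv (stab_mem (r : ℕ) g hHG) (muFix_stab (r : ℕ) p g hμ)
    (locH2 (r : ℕ) p H g (infS p S H (cup11 (LSH S H) ⟨_, hf⟩ ⟨_, hf'⟩)))) =
      ((cyc p).ω g : ZMod p) * _
  rw [← smul_eq_mul, ← map_smul, ← map_smul]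
  refine congrArg _ (congrArg _ ?_)
  rw [cup11, cup11, infS_mk2, ← map_smul]
  exact mk2_congr (funext fun _ => rfl)

end Pairing

/-- The homomorphisms of `G_S` modulo those trivial at `S` form an isotropic space. -/
theorem exists_local_split (hodd : p ≠ 2)
    (lam : ∀ q : Nat.Primes, H2 (LQ (q : ℕ)) (muQ p (q : ℕ)) →ₗ[ZMod p] ZMod p)
    (hlam : ∀ q, Function.Bijective (lam q))
    (hrec : ∀ (S : Finset Nat.Primes) (z : H2 LG (muG p)),
      (∀ q, q ∉ S → locQ p (q : ℕ) z = 0) → ∑ q ∈ S, lam q (locQ p (q : ℕ) z) = 0)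
    {S : Finset Nat.Primes} {H : Subgroup Gam} (hpS : pP p ∈ S) (hH : H ∈ LS S)
    (hμ : (cyc p).MuFix H) (D : Submodule (ZMod p) ↥(Z1 (LGH H) (triv (ZMod p) ↥H)))
    [FiniteDimensional (ZMod p) D]
    (hD : ∀ f ∈ D, ((f : ↥(Z1 (LGH H) (triv (ZMod p) ↥H))) : ↥H → ZMod p) ∈
      Z1 (LSH S H) (triv (ZMod p) ↥H)) :
    ∃ W : Submodule (ZMod p) (↥H → ZMod p), W ≤ sha1H S H ∧ FiniteDimensional (ZMod p) W ∧
      2 * finrank (ZMod p) D ≤ 2 * finrank (ZMod p) W + 2 * Nat.card (PlS S H) + H.index := by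
  classical
  have hHG : H ∈ LG := LS_le_LG hH
  have hfinPl : ∀ r : Nat.Primes, Finite (Pl (r : ℕ) H) := fun r => finite_pl hHG
  let _ : ∀ r : Nat.Primes, Fintype (Pl (r : ℕ) H) := fun r => Fintype.ofFinite _
  let Loc : ↥D →ₗ[ZMod p] ((v : PlS S H) → ↥(homQ (p := p) H v.1.1 v.2.rep)) :=
    LinearMap.pi fun v => homLoc H v.1.1 v.2.rep ∘ₗ D.subtype
  have hfin : ∀ v : PlS S H, Module.Finite (ZMod p) ↥(homQ (p := p) H v.1.1 v.2.rep) := fun v =>
    (finrank_homLocal hodd (stab_mem _ _ hHG) (muFix_stab _ p _ hμ)).1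
  let B : ((v : PlS S H) → ↥(homQ (p := p) H v.1.1 v.2.rep)) →ₗ[ZMod p]
      ((v : PlS S H) → ↥(homQ (p := p) H v.1.1 v.2.rep)) →ₗ[ZMod p] ZMod p :=
    ∑ v : PlS S H, (pairL lam hHG hμ v.1.1 v.2.rep).compl₁₂ (LinearMap.proj v) (LinearMap.proj v)
  have hBapply : ∀ x y, B x y = ∑ v : PlS S H, pairL lam hHG hμ v.1.1 v.2.rep (x v) (y v) :=
    fun x y => by simp [B, LinearMap.sum_apply]
  have hnd : ∀ x, (∀ y, B x y = 0) → x = 0 := fun x hx => by
    funext v
    by_contra hne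
    obtain ⟨f', hf'⟩ := exists_pairL_ne_zero lam hHG hμ v.1.1 v.2.rep hodd hlam hne
    have h1 := hx (Pi.single v f')
    rw [hBapply, Finset.sum_eq_single v (fun w _ hw => ?_)
      (fun h => absurd (Finset.mem_univ _) h), Pi.single_eq_same] at h1
    · exact hf' h1
    · rw [Pi.single_eq_of_ne hw, map_zero]
  have hiso : ∀ x ∈ LinearMap.range Loc, ∀ y ∈ LinearMap.range Loc, B x y = 0 := by
    rintro _ ⟨f, rfl⟩ _ ⟨f', rfl⟩
    have h1 := sum_invP (S := S) lam hrec hHG hμ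
      (infS p S H (cup11 (LSH S H) ⟨_, hD f.1 f.2⟩ ⟨_, hD f'.1 f'.2⟩))
      fun r hr g => locH2_infS_eq_zero hH hr g _
    rw [hBapply, Fintype.sum_sigma, ← h1, ← Finset.sum_coe_sort S]
    refine Finset.sum_congr rfl fun r _ => Finset.sum_congr rfl fun v _ => ?_
    rw [invP_cup lam hHG hμ r.1 v.rep f.1 f'.1 (hD f.1 f.2) (hD f'.1 f'.2)]
    rfl
  have hPdim : finrank (ZMod p) ((v : PlS S H) → ↥(homQ (p := p) H v.1.1 v.2.rep)) =
      2 * Nat.card (PlS S H) + H.index := by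
    rw [Module.finrank_pi_fintype, Finset.sum_congr rfl fun v _ =>
      (finrank_homLocal hodd (stab_mem _ _ hHG) (muFix_stab _ p _ hμ)).2, Finset.sum_add_distrib,
      Finset.sum_const, Finset.card_univ, Nat.card_eq_fintype_card, smul_eq_mul, mul_comm,
      Fintype.sum_sigma, Finset.sum_eq_single (⟨pP p, hpS⟩ : ↥S) (fun r _ hr => ?_)
      (fun h => absurd (Finset.mem_univ _) h)]
    · congr 1
      refine Eq.trans (Finset.sum_congr rfl fun v _ => if_pos rfl) ?_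
      exact sum_stab_index (pP p) hHG
    · exact Finset.sum_eq_zero fun v _ => if_neg fun h => hr (Subtype.ext (Subtype.ext h))
  have h1 := two_finrank_le_of_isotropic B hnd (LinearMap.range Loc) hiso
  have h2 := LinearMap.finrank_range_add_finrank_ker Loc
  rw [hPdim] at h1
  let j : ↥(LinearMap.ker Loc) →ₗ[ZMod p] (↥H → ZMod p) :=
    (Z1 (LGH H) (triv (ZMod p) ↥H)).subtype ∘ₗ D.subtype ∘ₗ (LinearMap.ker Loc).subtype
  have hj : Function.Injective j := fun a b hab => Subtype.ext (Subtype.ext (Subtype.ext hab))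
  refine ⟨LinearMap.range j, ?_, inferInstance, ?_⟩
  · rintro _ ⟨f, rfl⟩
    refine ⟨hD f.1.1 f.1.2, fun r hr g x => ?_⟩
    refine hom_locHom_eq_zero (fun a b => (mem_Z1_triv.1 f.1.1.2).2 a b)
      (Pl.samePlace_rep g).symm (fun z => ?_) x
    exact congrFun (congrArg Subtype.val
      (congrFun (LinearMap.mem_ker.1 f.2) ⟨⟨r, hr⟩, Pl.mk g⟩)) z
  · rw [LinearMap.finrank_range_of_inj hj]
    omega

/-- Adding Kummer homomorphisms of uniformisers removes the divisor outside a full set of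
places. -/
theorem exists_ord_correction (hodd : p ≠ 2) {S : Finset Nat.Primes} {H : Subgroup Gam}
    (hH : H ∈ LS S) (hμ : (cyc p).MuFix H) {S' : Finset Nat.Primes}
    (hfull : SFull H (placesOver H S')) (y : ↥(preS (p := p) S H)) :
    ∃ f : ↥(Z1 (LGH H) (triv (ZMod p) ↥H)), ∀ w : PlO S H, w.1 ∉ placesOver H S' →
      ordL hodd hH hμ (y + Submodule.inclusion Z1_le_preS f) w = 0 := by
  classical
  have hHG : H ∈ LG := LS_le_LG hH
  set ord := ordL hodd hH hμ
  let incl : ↥(Z1 (LGH H) (triv (ZMod p) ↥H)) →ₗ[ZMod p] ↥(preS (p := p) S H) :=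
    Submodule.inclusion Z1_le_preS
  obtain ⟨U, ⟨W, hW, hWU⟩, hcon⟩ := (mem_preS.1 y.2).1
  obtain ⟨M, hM, hMW, hMn⟩ := LG.exists_normal (LG.inf_mem hW hHG)
  obtain ⟨S₁, hMS₁⟩ := exists_mem_LS hM
  have hzero : ∀ v : PlO S H, v.1.1 ∉ S₁ → ord y v = 0 := fun v hv =>
    ordL_eq hodd hH hμ (isOrdAt_of_const v.1.2.rep hM (InN_of_mem_LS hMS₁ hv)
      (hMW.trans inf_le_right) fun x s hs => hcon x s (hWU (hMW hs).1))
  have hFfin : {v : PlO S H | v.1.1 ∈ S₁ ∧ v.1 ∉ placesOver H S'}.Finite := by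
    have := finite_PlS (S := S₁) hHG
    refine (Set.finite_range fun w : PlS S₁ H => PlS.val w).preimage
      Subtype.val_injective.injOn |>.subset fun v hv => ⟨⟨⟨v.1.1, hv.1⟩, v.1.2⟩, rfl⟩
  set F := hFfin.toFinset
  -- a uniformiser for every auxiliary place
  have hc : ∀ v : PlO S H, v.1 ∉ placesOver H S' → ∃ f : ↥(Z1 (LGH H) (triv (ZMod p) ↥H)),
      ∀ w : PlO S H, w.1 ∉ placesOver H S' → ord (incl f) w = if w = v then -1 else 0 :=
    fun v hv => by
    obtain ⟨c, hc, hcv, hc'⟩ := hfull v.1 hv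
    obtain ⟨ρ, hρ⟩ := exists_rootU_of_fixU (p := p) hc
    refine ⟨⟨_, kum_mem_Z1_triv hμ ρ⟩, fun w hw => ?_⟩
    rw [ordL_eq hodd hH hμ (y := incl ⟨_, kum_mem_Z1_triv hμ ρ⟩)
      (isOrdAt_kum hH w.2 ρ w.1.2.rep), hρ]
    split_ifs with hwv
    · subst hwv
      rw [lv_eq (k := -1) (by rw [zpow_neg_one]; exact hcv), Int.cast_neg, Int.cast_one]
    · rw [lv_eq (k := 0) (by
        rw [zpow_zero]
        exact hc' w.1 hw fun e => hwv (Subtype.ext e)), Int.cast_zero]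
  choose! cf hcf using hc
  set e' := ord y + ∑ v ∈ F, ord y v • ord (incl (cf v)) with he
  have he' : ∀ w : PlO S H, w.1 ∉ placesOver H S' → e' w = 0 := fun w hw => by
    simp only [e', Pi.add_apply, Finset.sum_apply, Pi.smul_apply, smul_eq_mul]
    by_cases hwF : w ∈ F
    · rw [Finset.sum_eq_single w (fun v hv hne => ?_) (fun h => absurd hwF h)]
      · rw [hcf w hw w hw, if_pos rfl]; ring
      · rw [hcf v (hFfin.mem_toFinset.1 hv).2 w hw, if_neg (Ne.symm hne), mul_zero]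
    · rw [Finset.sum_eq_zero fun v hv => ?_, add_zero,
        hzero w fun h => hwF (hFfin.mem_toFinset.2 ⟨h, hw⟩)]
      rw [hcf v (hFfin.mem_toFinset.1 hv).2 w hw, if_neg (fun e => hwF (by rwa [e])), mul_zero]
  refine ⟨∑ v ∈ F, ord y v • cf v, fun w hw => ?_⟩
  rw [← he' w hw]
  simp only [e', incl, map_add, map_sum, map_smul]

/-- The `T`-units give a space of Kummer homomorphisms whose dimension is half the index plus the
number of places in `T`. -/
theorem exists_unit_homs (GI : GlobalInputs p) {H : Subgroup Gam} (hHG : H ∈ LG)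
    (hμ : (cyc p).MuFix H) {T : Set (Plc H)} (hT : T.Finite) :
    ∃ E' : Submodule (ZMod p) ↥(Z1 (LGH H) (triv (ZMod p) ↥H)),
      (∀ f : ↥E', ∃ ρ : ↥(Cyc.rootU p H), (ρ : Qbˣ) ^ p ∈ eT H T ∧
        ((f.1 : ↥(Z1 (LGH H) (triv (ZMod p) ↥H))) : ↥H → ZMod p) = (cyc p).kum H ρ) ∧
      Module.Finite (ZMod p) ↥E' ∧ finrank (ZMod p) ↥E' = H.index / 2 + T.ncard := by
  have hp : p.Prime := Fact.out
  have heT : eT H T ≤ fixU H := fun x hx => hx.1
  let eh : Additive ↥(eT H T) →+ ↥(Z1 (LGH H) (triv (ZMod p) ↥H)) :=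
    (kumAdd (C := cyc p) (V := H) hμ).comp (MonoidHom.toAdditive (Subgroup.inclusion heT))
  let E' : Submodule (ZMod p) ↥(Z1 (LGH H) (triv (ZMod p) ↥H)) :=
    AddSubgroup.toZModSubmodule p eh.range
  have hEmem : ∀ f : ↥E', ∃ ρ : ↥(Cyc.rootU p H), (ρ : Qbˣ) ^ p ∈ eT H T ∧
      ((f.1 : ↥(Z1 (LGH H) (triv (ZMod p) ↥H))) : ↥H → ZMod p) = (cyc p).kum H ρ := by
    rintro ⟨f, a, rfl⟩
    obtain ⟨ρ, hρ⟩ := exists_rootU_of_fixU (p := p) a.toMul.2.1
    exact ⟨ρ, hρ ▸ a.toMul.2, kumAdd_apply hμ _ ρ hρ⟩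
  have hkerE : eh.ker = (mulHom p (Additive ↥(eT H T))).range := by
    ext a
    rw [AddMonoidHom.mem_ker]
    constructor
    · intro h
      obtain ⟨ρ, hρ⟩ := exists_rootU_of_fixU (p := p) a.toMul.2.1
      have h0 := kumAdd_apply hμ (MonoidHom.toAdditive (Subgroup.inclusion heT) a) ρ hρ
      rw [show kumAdd (C := cyc p) (V := H) hμ (MonoidHom.toAdditive (Subgroup.inclusion heT) a) = 0
        from h, Submodule.coe_zero] at h0
      refine mem_range_of_kum_eq_zero (C := cyc p) (V := H) (a := a.toMul) hρ (fun h' => ?_)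
        (congrFun h0.symm)
      refine ⟨fun g => (Cyc.kum_eq_zero_iff ρ.2 g).1 (h' g), fun v hv => ?_⟩
      refine (pow_eq_one_iff_of_nonneg (nq_nonneg _ _) hp.ne_zero).1 ?_
      rw [← nq_pow, ← Units.val_pow_eq_pow_val, hρ]
      exact a.toMul.2.2 v hv
    · rintro ⟨b, rfl⟩
      refine Subtype.ext ?_
      show ((kumAdd (C := cyc p) (V := H) hμ
        (MonoidHom.toAdditive (Subgroup.inclusion heT) (p • b))) : ↥H → ZMod p) = 0
      rw [map_nsmul, map_nsmul, Submodule.coe_smul_of_tower, ← Nat.cast_smul_eq_nsmul (ZMod p),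
        ZMod.natCast_self, zero_smul]
  refine ⟨E', hEmem, finrank_of_card ?_⟩
  obtain ⟨hf, hv⟩ := GI.hq_eT hHG hμ hT
  have hc : Nat.card ↥E' = (mulHom p (Additive ↥(eT H T))).range.index := by
    rw [← hkerE, AddSubgroup.index_ker]
    rfl
  have hk : Nat.card (mulHom p (Additive ↥(eT H T))).ker = p := by
    refine card_ker_mulHom (C := cyc p) fun z => ⟨fun g => Cyc.smul_mu_of_muFix hμ g z,
      fun v _ => ?_⟩
    refine (pow_eq_one_iff_of_nonneg (nq_nonneg _ _) hp.ne_zero).1 ?_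
    rw [← nq_pow, ← Units.val_pow_eq_pow_val, (cyc p).mu_pow, Units.val_one, nq_one]
  rw [hq, hk, div_eq_iff (by exact_mod_cast hp.ne_zero), ← zpow_add_one₀
    (by exact_mod_cast hp.ne_zero : (p : ℚ) ≠ 0), sub_add_cancel] at hv
  rw [hc]
  have h2 : ((mulHom p (Additive ↥(eT H T))).range.index : ℚ) =
      ((p ^ (H.index / 2 + T.ncard) : ℕ) : ℚ) := by
    rw [hv, Nat.cast_pow, ← zpow_natCast (p : ℚ)]
    congr 1
  exact_mod_cast h2

/-- As the invariants at the places over `S` sum to zero, `H²(G_S, μ_p)` has dimension less than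
the number of these places plus that of the common kernel of the invariants. -/
theorem finrank_H2_add_one_le (lam : ∀ q : Nat.Primes, H2 (LQ (q : ℕ)) (muQ p (q : ℕ)) →ₗ[ZMod p]
      ZMod p)
    (hrec : ∀ (S : Finset Nat.Primes) (z : H2 LG (muG p)),
      (∀ q, q ∉ S → locQ p (q : ℕ) z = 0) → ∑ q ∈ S, lam q (locQ p (q : ℕ) z) = 0)
    {S : Finset Nat.Primes} {H : Subgroup Gam} (hpS : pP p ∈ S) (hH : H ∈ LS S)
    (hμ : (cyc p).MuFix H)
    (hfin : FiniteDimensional (ZMod p) ↥(LinearMap.ker (LinearMap.pi fun v : PlS S H =>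
      invP lam (LS_le_LG hH) hμ v.1 v.2.rep ∘ₗ infS p S H))) :
    FiniteDimensional (ZMod p) (H2 (LSH S H) (triv (ZMod p) ↥H)) ∧
      finrank (ZMod p) (H2 (LSH S H) (triv (ZMod p) ↥H)) + 1 ≤ Nat.card (PlS S H) +
        finrank (ZMod p) ↥(LinearMap.ker (LinearMap.pi fun v : PlS S H =>
          invP lam (LS_le_LG hH) hμ v.1 v.2.rep ∘ₗ infS p S H)) := by
  classical
  have hHG : H ∈ LG := LS_le_LG hH
  have hfinPl : ∀ r : Nat.Primes, Finite (Pl (r : ℕ) H) := fun r => finite_pl hHG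
  let _ : ∀ r : Nat.Primes, Fintype (Pl (r : ℕ) H) := fun r => Fintype.ofFinite _
  let invS : H2 (LSH S H) (triv (ZMod p) ↥H) →ₗ[ZMod p] (PlS S H → ZMod p) :=
    LinearMap.pi fun v => invP lam hHG hμ v.1 v.2.rep ∘ₗ infS p S H
  have : FiniteDimensional (ZMod p) ↥(LinearMap.ker invS) := hfin
  let tot : (PlS S H → ZMod p) →ₗ[ZMod p] ZMod p := ∑ v, LinearMap.proj v
  have htot : ∀ x, tot x = ∑ v, x v := fun x => by simp [tot]
  have hrg : LinearMap.range invS ≤ LinearMap.ker tot := by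
    rintro _ ⟨a, rfl⟩
    rw [LinearMap.mem_ker, htot, Fintype.sum_sigma]
    refine Eq.trans ?_ (sum_invP (S := S) lam hrec hHG hμ (infS p S H a)
      fun r hr g => locH2_infS_eq_zero hH hr g _)
    exact Finset.sum_coe_sort S fun r => ∑ v : Pl (r : ℕ) H, invP lam hHG hμ r v.rep (infS p S H a)
  have hsurj : LinearMap.range tot = ⊤ := LinearMap.range_eq_top.2 fun z =>
    ⟨Pi.single (⟨⟨pP p, hpS⟩, Pl.mk 1⟩ : PlS S H) z, by rw [htot]; simp⟩
  have h7 := LinearMap.finrank_range_add_finrank_ker tot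
  rw [hsurj, finrank_top, finrank_self, Module.finrank_pi, ← Nat.card_eq_fintype_card] at h7
  have h8 := Submodule.finrank_mono hrg
  have hQfin2 : Module.Finite (ZMod p)
      (H2 (LSH S H) (triv (ZMod p) ↥H) ⧸ LinearMap.ker invS) :=
    Module.Finite.equiv invS.quotKerEquivRange.symm
  have hfd : FiniteDimensional (ZMod p) (H2 (LSH S H) (triv (ZMod p) ↥H)) :=
    Module.Finite.of_submodule_quotient (LinearMap.ker invS)
  refine ⟨hfd, ?_⟩
  have h9 := LinearMap.finrank_range_add_finrank_ker invS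
  show _ + 1 ≤ _ + finrank (ZMod p) ↥(LinearMap.ker invS)
  omega

section PreClass

variable {S : Finset Nat.Primes} {H : Subgroup Gam}

variable (S H) in
/-- The class in `H²(G_S, μ_p)` of the coboundary of a cochain in `preS`. -/
def preClass : ↥(preS (p := p) S H) →ₗ[ZMod p] H2 (LSH S H) (triv (ZMod p) ↥H) :=
  mk2 (LSH S H) (triv (ZMod p) ↥H) ∘ₗ
    ((d1 (triv (ZMod p) ↥H)).comp (preS (p := p) S H).subtype).codRestrict _ fun y => y.2.2

/-- The class is trivial exactly when the divisor is that of a homomorphism. -/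
theorem ker_preClass (hodd : p ≠ 2) (hpS : pP p ∈ S) (hH : H ∈ LS S) (hμ : (cyc p).MuFix H) :
    LinearMap.ker (preClass (p := p) S H) = LinearMap.ker
      ((LinearMap.range (ordL hodd hH hμ ∘ₗ Submodule.inclusion Z1_le_preS)).mkQ ∘ₗ
        ordL hodd hH hμ) := by
  set ord := ordL hodd hH hμ
  let incl : ↥(Z1 (LGH H) (triv (ZMod p) ↥H)) →ₗ[ZMod p] ↥(preS (p := p) S H) :=
    Submodule.inclusion Z1_le_preS
  ext y
  rw [LinearMap.mem_ker, LinearMap.mem_ker]
  constructor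
  · intro h
    obtain ⟨w, hw, hwe⟩ := (mk2_eq_zero (L := LSH S H) (ρ := triv (ZMod p) ↥H)).1 h
    have hw' : w ∈ preS (p := p) S H := mem_preS.2 ⟨con1_LG_of_LS hw, by
      rw [hwe]; exact y.2.2⟩
    have hf : (y : ↥H → ZMod p) - w ∈ Z1 (LGH H) (triv (ZMod p) ↥H) := by
      refine ⟨(sub_mem (mem_preS.1 y.2).1 (con1_LG_of_LS hw) :
        (y : ↥H → ZMod p) - w ∈ C1 (LGH H)), LinearMap.mem_ker.2 ?_⟩
      rw [map_sub, hwe]
      exact sub_self _
    refine (Submodule.Quotient.mk_eq_zero _).2 ⟨⟨_, hf⟩, ?_⟩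
    have h0 : ord ⟨w, hw'⟩ = 0 := funext fun v =>
      ordL_eq hodd hH hμ (isOrdAt_of_LS hH hw v.2 _)
    show ord (incl ⟨_, hf⟩) = ord y
    rw [show incl ⟨_, hf⟩ = y - ⟨w, hw'⟩ from Subtype.ext rfl, map_sub, h0, sub_zero]
  · intro h
    obtain ⟨f, hf⟩ := (Submodule.Quotient.mk_eq_zero _).1 h
    have h0 : ord (y - incl f) = 0 := by rw [map_sub, sub_eq_zero]; exact hf.symm
    refine (mk2_eq_zero (L := LSH S H) (ρ := triv (ZMod p) ↥H)).2
      ⟨((y - incl f : ↥(preS (p := p) S H)) : ↥H → ZMod p),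
        con1_LS_of_ord_zero hH hpS (y - incl f).2 (isOrdAt_all hodd hH hμ h0), ?_⟩
    show d1 (triv (ZMod p) ↥H) ((y : ↥H → ZMod p) - (f : ↥H → ZMod p)) = _
    rw [map_sub, LinearMap.mem_ker.1 f.2.2, sub_zero]
    rfl

/-- A class killed by all invariants over `S` is that of a coboundary. -/
theorem ker_invP_le_range_preClass (GI : GlobalInputs p) (hodd : p ≠ 2)
    (lam : ∀ q : Nat.Primes, H2 (LQ (q : ℕ)) (muQ p (q : ℕ)) →ₗ[ZMod p] ZMod p)
    (hlam : ∀ q, Function.Bijective (lam q)) (hH : H ∈ LS S) (hμ : (cyc p).MuFix H) :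
    LinearMap.ker (LinearMap.pi fun v : PlS S H =>
        invP lam (LS_le_LG hH) hμ v.1 v.2.rep ∘ₗ infS p S H) ≤
      LinearMap.range (preClass (p := p) S H) := by
  have hHG : H ∈ LG := LS_le_LG hH
  intro a ha
  obtain ⟨⟨f, hf⟩, rfl⟩ := mk2_surjective a
  have hz : infS p S H (mk2 (LSH S H) (triv (ZMod p) ↥H) ⟨f, hf⟩) = 0 := by
    refine eq_zero_of_local GI hHG hμ _ fun v => ?_
    by_cases hv : v.1 ∈ S
    · exact (invP_eq_zero lam hodd hlam hHG hμ v.1 v.2.rep _).1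
        (congrFun (LinearMap.mem_ker.1 ha) ⟨⟨v.1, hv⟩, v.2⟩)
    · exact locH2_infS_eq_zero hH hv _ _
  rw [infS_mk2, mk2_eq_zero] at hz
  obtain ⟨y, hy, hye⟩ := hz
  have e : d1 (triv (ZMod p) ↥H) y = f := hye
  refine ⟨⟨y, mem_preS.2 ⟨hy, by rw [e]; exact hf⟩⟩, ?_⟩
  exact congrArg (mk2 (LSH S H) (triv (ZMod p) ↥H)) (Subtype.ext e)

end PreClass

variable (GI : GlobalInputs p) (hodd : p ≠ 2)
  (lam : ∀ q : Nat.Primes, H2 (LQ (q : ℕ)) (muQ p (q : ℕ)) →ₗ[ZMod p] ZMod p)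
  (hlam : ∀ q, Function.Bijective (lam q))
  (hrec : ∀ (S : Finset Nat.Primes) (z : H2 LG (muG p)),
    (∀ q, q ∉ S → locQ p (q : ℕ) z = 0) → ∑ q ∈ S, lam q (locQ p (q : ℕ) z) = 0)
include GI hodd hlam hrec

/-- The dimension of `H²(G_S, μ_p)` is bounded by the places over `S` and `Ш¹`. -/
theorem exists_dim_bound {S : Finset Nat.Primes} {H : Subgroup Gam} (hpS : pP p ∈ S)
    (hH : H ∈ LS S) (hμ : (cyc p).MuFix H) :
    ∃ W : Submodule (ZMod p) (↥H → ZMod p), W ≤ sha1H S H ∧ FiniteDimensional (ZMod p) W ∧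
      FiniteDimensional (ZMod p) (H2 (LSH S H) (triv (ZMod p) ↥H)) ∧
      finrank (ZMod p) (H2 (LSH S H) (triv (ZMod p) ↥H)) + 1 ≤
        Nat.card (PlS S H) + finrank (ZMod p) W := by
  classical
  have hp : p.Prime := Fact.out
  have hHG : H ∈ LG := LS_le_LG hH
  have hfinPl : ∀ r : Nat.Primes, Finite (Pl (r : ℕ) H) := fun r => finite_pl hHG
  let _ : ∀ r : Nat.Primes, Fintype (Pl (r : ℕ) H) := fun r => Fintype.ofFinite _
  obtain ⟨S', hSS', hH', hfull⟩ := GI.exists_sFull hHG S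
  set T := S' \ S with hTdef
  set ord := ordL hodd hH hμ
  let incl : ↥(Z1 (LGH H) (triv (ZMod p) ↥H)) →ₗ[ZMod p] ↥(preS (p := p) S H) :=
    Submodule.inclusion Z1_le_preS
  let Div : Submodule (ZMod p) (PlO S H → ZMod p) := LinearMap.range (ord ∘ₗ incl)
  let Psi := Div.mkQ ∘ₗ ord
  let Xi := preClass (p := p) S H
  -- the two maps have the same kernel
  have hker : LinearMap.ker Xi = LinearMap.ker Psi := ker_preClass hodd hpS hH hμ
  -- extension by zero from the auxiliary places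
  let ext : (PlS T H → ZMod p) →ₗ[ZMod p] (PlO S H → ZMod p) :=
    { toFun := fun x v => if h : v.1.1 ∈ T then x ⟨⟨v.1.1, h⟩, v.1.2⟩ else 0
      map_add' := fun x x' => funext fun v => by
        simp only [Pi.add_apply]; split_ifs <;> simp
      map_smul' := fun c x => funext fun v => by
        simp only [Pi.smul_apply, RingHom.id_apply]; split_ifs <;> simp }
  let Lm := Div.mkQ ∘ₗ ext
  have hsupp : ∀ e : PlO S H → ZMod p, (∀ v, v.1.1 ∉ T → e v = 0) →
      e = ext (fun w => e ⟨⟨w.1, w.2⟩, (Finset.mem_sdiff.1 w.1.2).2⟩) := fun e he => by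
    funext v
    show e v = dite _ _ _
    split_ifs with h
    · rfl
    · exact he v h
  have hout : ∀ v : PlO S H, v.1.1 ∉ T → v.1 ∉ placesOver H S' := fun v hv hv' =>
    hv (Finset.mem_sdiff.2 ⟨hv', v.2⟩)
  have hrange : LinearMap.range Psi ≤ LinearMap.range Lm := by
    rintro _ ⟨y, rfl⟩
    obtain ⟨f, hf⟩ := exists_ord_correction hodd hH hμ hfull y
    set e' := ord (y + incl f) with he
    have he' : ∀ v : PlO S H, v.1.1 ∉ T → e' v = 0 := fun v hv => hf v (hout v hv)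
    refine ⟨fun w => e' ⟨⟨w.1, w.2⟩, (Finset.mem_sdiff.1 w.1.2).2⟩, ?_⟩
    show Div.mkQ (ext _) = Div.mkQ (ord y)
    rw [← hsupp e' he']
    refine (Submodule.Quotient.eq _).2 ⟨f, ?_⟩
    rw [he, map_add, add_sub_cancel_left]
    rfl
  obtain ⟨E', hEmem, hEfin, hEdim⟩ :=
    exists_unit_homs GI hHG hμ (finite_placesOver hHG S')
  set s := Nat.card (PlS S H) with hsdef
  set t := Nat.card (PlS T H) with htdef
  have hst : (placesOver H S').ncard = s + t := by
    rw [ncard_placesOver, hsdef, htdef, natCard_PlS, natCard_PlS, natCard_PlS, hTdef,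
      ← Finset.sum_sdiff hSS', add_comm]
  rw [hst] at hEdim
  -- divisors of these homomorphisms
  let toT : (PlO S H → ZMod p) →ₗ[ZMod p] (PlS T H → ZMod p) :=
    LinearMap.funLeft (ZMod p) (ZMod p)
      fun w => (⟨⟨w.1, w.2⟩, (Finset.mem_sdiff.1 w.1.2).2⟩ : PlO S H)
  let DIV : ↥E' →ₗ[ZMod p] (PlS T H → ZMod p) := toT ∘ₗ ord ∘ₗ incl ∘ₗ E'.subtype
  have hordE : ∀ (f : ↥E') (v : PlO S H), v.1.1 ∉ T → ord (incl f.1) v = 0 := fun f v hv => by
    obtain ⟨ρ, hρE, hρ⟩ := hEmem f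
    have h1 := isOrdAt_kum hH v.2 ρ v.1.2.rep
    rw [← hρ] at h1
    rw [ordL_eq hodd hH hμ (y := incl f.1) h1,
      lv_eq (k := 0) (by rw [zpow_zero]; exact hρE.2 _ (hout v hv)), Int.cast_zero]
  have hDIVker : LinearMap.range DIV ≤ LinearMap.ker Lm := by
    rintro _ ⟨f, rfl⟩
    rw [LinearMap.mem_ker]
    show Div.mkQ (ext (fun w => ord (incl f.1) _)) = 0
    rw [← hsupp _ (hordE f)]
    exact (Submodule.Quotient.mk_eq_zero _).2 ⟨f.1, rfl⟩
  -- the everywhere unramified ones, seen locally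
  let D : Submodule (ZMod p) ↥E' := LinearMap.ker DIV
  have hDLS : ∀ f : ↥D, ((f.1.1 : ↥(Z1 (LGH H) (triv (ZMod p) ↥H))) : ↥H → ZMod p) ∈
      Z1 (LSH S H) (triv (ZMod p) ↥H) := fun f => by
    refine ⟨con1_LS_of_ord_zero hH hpS (incl f.1.1).2
      (isOrdAt_all hodd hH hμ (y := incl f.1.1) ?_), f.1.1.2.2⟩
    funext v
    by_cases hv : v.1.1 ∈ T
    · exact congrFun (LinearMap.mem_ker.1 f.2) ⟨⟨v.1.1, hv⟩, v.1.2⟩
    · exact hordE f.1 v hv
  let D' : Submodule (ZMod p) ↥(Z1 (LGH H) (triv (ZMod p) ↥H)) := D.map E'.subtype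
  have hD' : finrank (ZMod p) ↥D' = finrank (ZMod p) ↥D :=
    (Submodule.equivMapOfInjective E'.subtype E'.injective_subtype D).finrank_eq.symm
  obtain ⟨W, hW, hWfin, hWdim⟩ := exists_local_split hodd lam hlam hrec hpS hH hμ D'
    (fun f hf => by
      obtain ⟨f₀, hf₀, rfl⟩ := Submodule.mem_map.1 hf
      exact hDLS ⟨f₀, hf₀⟩)
  refine ⟨W, hW, hWfin, ?_⟩
  have h1 := LinearMap.finrank_range_add_finrank_ker DIV
  have h3 := LinearMap.finrank_range_add_finrank_ker Lm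
  rw [Module.finrank_pi, ← Nat.card_eq_fintype_card, ← htdef] at h3
  rw [hEdim] at h1
  rw [hD'] at hWdim
  have h4 := Submodule.finrank_mono hDIVker
  have hQfin : FiniteDimensional (ZMod p) ↥(LinearMap.range Psi) :=
    Submodule.finiteDimensional_of_le hrange
  have h5 := Submodule.finrank_mono hrange
  -- the kernel of the invariants
  let invS : H2 (LSH S H) (triv (ZMod p) ↥H) →ₗ[ZMod p] (PlS S H → ZMod p) :=
    LinearMap.pi fun v => invP lam hHG hμ v.1 v.2.rep ∘ₗ infS p S H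
  have hK : LinearMap.ker invS ≤ LinearMap.range Xi :=
    ker_invP_le_range_preClass GI hodd lam hlam hH hμ
  let eXP : ↥(LinearMap.range Xi) ≃ₗ[ZMod p] ↥(LinearMap.range Psi) :=
    Xi.quotKerEquivRange.symm.trans ((Submodule.quotEquivOfEq _ _ hker).trans Psi.quotKerEquivRange)
  have : FiniteDimensional (ZMod p) ↥(LinearMap.range Xi) := eXP.symm.finiteDimensional
  have hKfin : FiniteDimensional (ZMod p) ↥(LinearMap.ker invS) :=
    Submodule.finiteDimensional_of_le hK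
  have h6 := Submodule.finrank_mono hK
  rw [eXP.finrank_eq] at h6
  obtain ⟨hfd, h9⟩ := finrank_H2_add_one_le lam hrec hpS hH hμ hKfin
  refine ⟨hfd, ?_⟩
  change finrank (ZMod p) ↥(LinearMap.range DIV) + finrank (ZMod p) ↥D = _ at h1
  change _ ≤ _ + finrank (ZMod p) ↥(LinearMap.ker invS) at h9
  omega

end Fermat.Agent.PT
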