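import Mathlib.LinearAlgebra.Dual.Defs
import Mathlib.RingTheory.Finiteness.Basic
import Fermat.Agent.PT.Cores

/-!
# Maps between induced modules used by the duality pairings

The functional on an induced module attached to a cochain and a functional, its behaviour along
change of level, and the test vectors and intermediate modules used in the duality proof.
-/

noncomputable section

namespace Fermat.Agent.PT

variable {k : Type*} [CommRing k] {G : Type*} [Group G] (χ : Representation k G k)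
variable {M : Type*} [AddCommGroup M] [Module k M] (ρ : Representation k G M)
variable {N : Type*} [AddCommGroup N] [Module k N] {ν : Representation k G N}

theorem chr_mul (g : G) (a z : k) : χ g (a * z) = a * χ g z := map_smul (χ g) a z

theorem chr_apply_eq (g : G) (z : k) : χ g z = z * χ g 1 := by
  conv_lhs => rw [← mul_one z, chr_mul]

/-- The twisted dual representation. -/
abbrev dualR : Representation k G (M →ₗ[k] k) := Representation.linHom ρ χ

theorem dualR_apply (g : G) (f : M →ₗ[k] k) (m : M) :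
    dualR χ ρ g f m = χ g (f (ρ g⁻¹ m)) := rfl

theorem dualR_smul_apply (g : G) (f : M →ₗ[k] k) (m : M) :
    dualR χ ρ g f (ρ g m) = χ g (f m) := by
  rw [dualR_apply, ← Module.End.mul_apply, ← map_mul, inv_mul_cancel, map_one]
  rfl

section Sec

variable (U : Subgroup G)

theorem exists_sec_smul (g : G) (x : G ⧸ U) :
    ∃ u ∈ U, sec U (g • x) = g * sec U x * u := by
  refine ⟨(g * sec U x)⁻¹ * sec U (g • x), QuotientGroup.eq.1 ?_, by group⟩
  rw [mk_sec, ← smul_eq_mul, ← MulAction.Quotient.smul_coe, mk_sec]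

variable [Fintype (G ⧸ U)]

/-- The functional on an induced module attached to a cochain and a functional. -/
def PsiMap (b : M →ₗ[k] k) (c : G → M →ₗ[k] k) : (G ⧸ U → M) →ₗ[k] k :=
  ∑ x, (b + c (sec U x)).comp (LinearMap.proj x)

theorem PsiMap_apply (b : M →ₗ[k] k) (c : G → M →ₗ[k] k) (φ : G ⧸ U → M) :
    PsiMap U b c φ = ∑ x, (b (φ x) + c (sec U x) (φ x)) := by
  simp [PsiMap, LinearMap.sum_apply]

theorem PsiMap_add (b b' : M →ₗ[k] k) (c c' : G → M →ₗ[k] k) :
    PsiMap U (b + b') (c + c') = PsiMap U b c + PsiMap U b' c' := by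
  refine LinearMap.ext fun φ => ?_
  simp only [LinearMap.add_apply, PsiMap_apply, Pi.add_apply, ← Finset.sum_add_distrib]
  exact Finset.sum_congr rfl fun x _ => by abel

theorem PsiMap_smul (a : k) (b : M →ₗ[k] k) (c : G → M →ₗ[k] k) :
    PsiMap U (a • b) (a • c) = a • PsiMap U b c := by
  refine LinearMap.ext fun φ => ?_
  simp only [LinearMap.smul_apply, PsiMap_apply, Pi.smul_apply, Finset.smul_sum, smul_add]

theorem PsiMap_zero_right (b : M →ₗ[k] k) :
    PsiMap U b 0 = b ∘ₗ indSum (k := k) U := by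
  refine LinearMap.ext fun φ => ?_
  simp [PsiMap_apply, indSum_apply]

theorem PsiMap_of_indSum (b : M →ₗ[k] k) (c : G → M →ₗ[k] k) {φ : G ⧸ U → M}
    (hφ : indSum (k := k) U φ = 0) : PsiMap U b c φ = PsiMap U 0 c φ := by
  rw [indSum_apply] at hφ
  simp [PsiMap_apply, Finset.sum_add_distrib, ← map_sum, hφ]

theorem PsiMap_indMap (ψ : N →ₗ[k] M) (b : M →ₗ[k] k) (c : G → M →ₗ[k] k) :
    PsiMap U b c ∘ₗ indMap (H := U) ψ = PsiMap U (b ∘ₗ ψ) fun g => c g ∘ₗ ψ := by
  refine LinearMap.ext fun φ => ?_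
  simp [PsiMap_apply, indMap]

variable {U} {χ ρ} {c : G → M →ₗ[k] k}
variable (hc : ∀ g h, c (g * h) = dualR χ ρ g (c h) + c g) (hU : ∀ g, ∀ u ∈ U, c (g * u) = c g)
include hc hU

omit [Fintype (G ⧸ U)] in
theorem c_sec_smul (g : G) (x : G ⧸ U) :
    c (sec U (g • x)) = dualR χ ρ g (c (sec U x)) + c g := by
  obtain ⟨u, hu, e⟩ := exists_sec_smul U g x
  rw [e, hU _ u hu, hc]

/-- On functions of sum zero the functional is global. -/
theorem PsiMap_zero_equivariant (g : G) {φ : G ⧸ U → M} (hφ : indSum (k := k) U φ = 0) :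
    PsiMap U 0 c (indRep U ρ g φ) = χ g (PsiMap U 0 c φ) := by
  rw [indSum_apply] at hφ
  simp only [PsiMap_apply, LinearMap.zero_apply, zero_add, map_sum]
  refine (Fintype.sum_bijective (g • ·) (MulAction.bijective g)
    (fun x => c (sec U (g • x)) (indRep U ρ g φ (g • x))) _ fun x => rfl).symm.trans ?_
  simp only [indRep_apply, inv_smul_smul, c_sec_smul hc hU, LinearMap.add_apply, dualR_smul_apply,
    Finset.sum_add_distrib, ← map_sum, hφ, map_zero, add_zero]

/-- The functional is equivariant for a group on which `c` is the coboundary of `b`. -/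
theorem PsiMap_equivariant (b : M →ₗ[k] k) {G' : Type*} [Group G'] (f : G' →* G)
    (hb : ∀ τ, c (f τ) = dualR χ ρ (f τ) b - b) (τ : G') (φ : G ⧸ U → M) :
    PsiMap U b c (indRep U ρ (f τ) φ) = χ (f τ) (PsiMap U b c φ) := by
  simp only [PsiMap_apply, map_sum]
  refine (Fintype.sum_bijective (f τ • ·) (MulAction.bijective (f τ))
    (fun x => b (indRep U ρ (f τ) φ (f τ • x)) +
      c (sec U (f τ • x)) (indRep U ρ (f τ) φ (f τ • x))) _ fun x => rfl).symm.trans ?_
  refine Finset.sum_congr rfl fun x _ => ?_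
  simp only [indRep_apply, inv_smul_smul, c_sec_smul hc hU, hb, LinearMap.add_apply,
    LinearMap.sub_apply, dualR_smul_apply, map_add]
  abel

end Sec

/-! ### Change of level -/

section Fib

variable {U U' : Subgroup G} (h : U' ≤ U) [Fintype (G ⧸ U')]

open scoped Classical in
/-- The sum along the fibres of `G ⧸ U' → G ⧸ U`. -/
def fibSum : (G ⧸ U' → M) →ₗ[k] (G ⧸ U → M) where
  toFun φ x := ∑ z, if Subgroup.quotientMapOfLE h z = x then φ z else 0
  map_add' a b := by
    funext x
    simp only [Pi.add_apply, ← Finset.sum_add_distrib]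
    exact Finset.sum_congr rfl fun z _ => by split_ifs <;> simp
  map_smul' a b := by
    funext x
    simp only [Pi.smul_apply, RingHom.id_apply, Finset.smul_sum, smul_ite, smul_zero]

omit [Fintype (G ⧸ U')] in
theorem quotientMapOfLE_smul (g : G) (z : G ⧸ U') :
    Subgroup.quotientMapOfLE h (g • z) = g • Subgroup.quotientMapOfLE h z := by
  induction z using QuotientGroup.induction_on with | _ a => ?_
  rfl

theorem fibSum_equivariant (g : G) (φ : G ⧸ U' → M) :
    fibSum (k := k) h (indRep U' ρ g φ) = indRep U ρ g (fibSum (k := k) h φ) := by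
  funext x
  simp only [fibSum, LinearMap.coe_mk, AddHom.coe_mk, indRep_apply, map_sum]
  refine Fintype.sum_bijective (g⁻¹ • ·) (MulAction.bijective g⁻¹) _ _ fun z => ?_
  by_cases hz : Subgroup.quotientMapOfLE h z = x
  · rw [if_pos hz, if_pos (by rw [quotientMapOfLE_smul, hz])]
  · rw [if_neg hz, if_neg fun h' => hz (MulAction.injective g⁻¹ (by
      simpa [quotientMapOfLE_smul] using h')), map_zero]

variable [Fintype (G ⧸ U)]

theorem sum_fibSum {P : Type*} [AddCommGroup P] [Module k P] (F : G ⧸ U → M →ₗ[k] P)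
    (φ : G ⧸ U' → M) :
    ∑ x, F x (fibSum (k := k) h φ x) = ∑ z, F (Subgroup.quotientMapOfLE h z) (φ z) := by
  classical
  simp only [fibSum, LinearMap.coe_mk, AddHom.coe_mk, map_sum]
  rw [Finset.sum_comm]
  refine Finset.sum_congr rfl fun z _ => ?_
  rw [Finset.sum_eq_single (Subgroup.quotientMapOfLE h z) (fun x _ hx => ?_)
    (fun hn => absurd (Finset.mem_univ _) hn), if_pos rfl]
  rw [if_neg (Ne.symm hx), map_zero]

theorem indSum_fibSum :
    indSum (k := k) U ∘ₗ fibSum (k := k) (M := M) h = indSum (k := k) U' :=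
  LinearMap.ext fun φ => sum_fibSum h (fun _ => (LinearMap.id : M →ₗ[k] M)) φ

theorem PsiMap_fibSum (b : M →ₗ[k] k) {c : G → M →ₗ[k] k} (hU : ∀ g, ∀ u ∈ U, c (g * u) = c g) :
    PsiMap U b c ∘ₗ fibSum (k := k) h = PsiMap U' b c := by
  refine LinearMap.ext fun φ => ?_
  rw [LinearMap.comp_apply, PsiMap_apply, PsiMap_apply]
  refine (sum_fibSum h (fun x => b + c (sec U x)) φ).trans (Finset.sum_congr rfl fun z _ => ?_)
  obtain ⟨u, hu, e⟩ : ∃ u ∈ U, sec U (Subgroup.quotientMapOfLE h z) = sec U' z * u :=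
    ⟨(sec U' z)⁻¹ * sec U (Subgroup.quotientMapOfLE h z), QuotientGroup.eq.1 (by
      rw [mk_sec]
      exact congrArg (Subgroup.quotientMapOfLE h) (mk_sec U' z)), by group⟩
  rw [e, hU _ u hu]
  rfl

end Fib

/-! ### Test vectors and coordinates -/

section Test

variable {U : Subgroup G} {χ ρ} (hρ : ∀ u ∈ U, ρ u = 1) (hχ : ∀ u ∈ U, χ u = 1)

/-- Scalar functions to functions along the orbit of `m`. -/
def epsMap (χ : Representation k G k) (ρ : Representation k G M) (m : M) :
    (G ⧸ U → k) →ₗ[k] (G ⧸ U → M) where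
  toFun φ x := χ (sec U x)⁻¹ (φ x) • ρ (sec U x) m
  map_add' a b := by funext x; simp [map_add, add_smul]
  map_smul' a b := by funext x; simp [chr_mul, mul_smul]

/-- A functional to the coordinates in an induced module. -/
def coordMap (χ : Representation k G k) (ρ : Representation k G M) (f : M →ₗ[k] k) :
    (G ⧸ U → M) →ₗ[k] (G ⧸ U → k) where
  toFun φ x := χ (sec U x) (f (ρ (sec U x)⁻¹ (φ x)))
  map_add' a b := by funext x; simp [map_add]
  map_smul' a b := by funext x; simp [chr_mul]

include hρ hχ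

theorem epsMap_equivariant (m : M) (g : G) (φ : G ⧸ U → k) :
    epsMap (U := U) χ ρ m (indRep U χ g φ) = indRep U ρ g (epsMap (U := U) χ ρ m φ) := by
  funext x
  obtain ⟨u, hu, e⟩ := exists_sec_smul U g (g⁻¹ • x)
  rw [smul_inv_smul] at e
  simp only [epsMap, LinearMap.coe_mk, AddHom.coe_mk, indRep_apply, map_smul, e, mul_inv_rev,
    map_mul, hρ u hu, hχ _ (inv_mem hu), Module.End.mul_apply, Module.End.one_apply]
  rw [← Module.End.mul_apply (χ g⁻¹), ← map_mul, inv_mul_cancel, map_one, Module.End.one_apply]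

theorem coordMap_equivariant (f : M →ₗ[k] k) (g : G) (φ : G ⧸ U → M) :
    coordMap (U := U) χ ρ f (indRep U ρ g φ) = indRep U χ g (coordMap (U := U) χ ρ f φ) := by
  funext x
  obtain ⟨u, hu, e⟩ := exists_sec_smul U g (g⁻¹ • x)
  rw [smul_inv_smul] at e
  simp only [coordMap, LinearMap.coe_mk, AddHom.coe_mk, indRep_apply, e, mul_inv_rev,
    map_mul, hχ u hu, hρ _ (inv_mem hu), Module.End.mul_apply, Module.End.one_apply]
  rw [← Module.End.mul_apply (ρ g⁻¹), ← map_mul, inv_mul_cancel, map_one, Module.End.one_apply]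

omit hρ hχ

variable [Fintype (G ⧸ U)]

/-- The weight of a coset in the functional on test vectors. -/
def wt (χ : Representation k G k) (ρ : Representation k G M) (b : M →ₗ[k] k) (c : G → M →ₗ[k] k)
    (m : M) (x : G ⧸ U) : k :=
  χ (sec U x)⁻¹ (b (ρ (sec U x) m) + c (sec U x) (ρ (sec U x) m))

theorem PsiMap_epsMap (b : M →ₗ[k] k) (c : G → M →ₗ[k] k) (m : M) (φ : G ⧸ U → k) :
    PsiMap U b c (epsMap (U := U) χ ρ m φ) = ∑ x, φ x * wt χ ρ b c m x := by
  rw [PsiMap_apply]
  refine Finset.sum_congr rfl fun x _ => ?_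
  simp only [epsMap, wt, LinearMap.coe_mk, AddHom.coe_mk, map_smul, smul_eq_mul]
  rw [← mul_add, chr_apply_eq χ _ (φ x), chr_apply_eq χ _ (_ + _)]
  ring

omit [Fintype (G ⧸ U)] in
/-- The weight is constant along the orbits. -/
theorem wt_smul {b : M →ₗ[k] k} {c : G → M →ₗ[k] k}
    (hc : ∀ g h, c (g * h) = dualR χ ρ g (c h) + c g) (hU : ∀ g, ∀ u ∈ U, c (g * u) = c g)
    (hρ : ∀ u ∈ U, ρ u = 1) (hχ : ∀ u ∈ U, χ u = 1)
    {g : G} (hb : c g = dualR χ ρ g b - b) (m : M) (x : G ⧸ U) :
    wt χ ρ b c m (g • x) = wt χ ρ b c m x := by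
  obtain ⟨u, hu, e⟩ := exists_sec_smul U g x
  simp only [wt, e, hU _ u hu, hc, hb, mul_inv_rev, map_mul, hρ u hu, hχ _ (inv_mem hu),
    Module.End.mul_apply, Module.End.one_apply, LinearMap.add_apply, LinearMap.sub_apply,
    dualR_smul_apply, map_add, map_sub]
  have hi : ∀ z, χ g⁻¹ (χ g z) = z := fun z => by
    rw [← Module.End.mul_apply, ← map_mul, inv_mul_cancel, map_one, Module.End.one_apply]
  rw [hi, hi]
  abel

end Test

/-! ### The intermediate induced module -/

section Layer

variable {U V H : Subgroup G} [U.Normal] (hUV : U ≤ V) (hVH : V ≤ H)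

/-- A coset of `V` above a coset of `H`, twisted by a coset of `U`. -/
def layerPt (x : G ⧸ U) (y : G ⧸ H) : G ⧸ V :=
  sec U x • ((sec H ((sec U x)⁻¹ • y) : G) : G ⧸ V)

include hUV hVH

theorem layerPt_smul (g : G) (x : G ⧸ U) (y : G ⧸ H) :
    layerPt (V := V) (g • x) (g • y) = g • layerPt (V := V) x y := by
  obtain ⟨u, hu, e⟩ := exists_sec_smul U g x
  have hy : (sec U (g • x))⁻¹ • g • y = (sec U x)⁻¹ • y := by
    rw [e, smul_smul, show (g * sec U x * u)⁻¹ * g = u⁻¹ * (sec U x)⁻¹ by group, mul_smul,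
      smul_eq_of_mem_normal H ‹U.Normal› (hUV.trans hVH) (inv_mem hu)]
  rw [layerPt, hy, e, mul_smul, mul_smul,
    smul_eq_of_mem_normal V ‹U.Normal› hUV hu]
  rfl

omit hUV [U.Normal] in
theorem quotientMapOfLE_layerPt (x : G ⧸ U) (y : G ⧸ H) :
    Subgroup.quotientMapOfLE hVH (layerPt (V := V) x y) = y := by
  rw [layerPt, quotientMapOfLE_smul]
  show sec U x • ((sec H ((sec U x)⁻¹ • y) : G) : G ⧸ H) = y
  rw [mk_sec, smul_inv_smul]

omit hUV hVH

variable [Fintype (G ⧸ U)] [Fintype (G ⧸ H)]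

open scoped Classical in
/-- The intermediate induced module between two levels. -/
def layerMap : (G ⧸ U → G ⧸ H → M) →ₗ[k] (G ⧸ V → M) where
  toFun φ z := ∑ x, ∑ y, if layerPt (V := V) x y = z then φ x y else 0
  map_add' a b := by
    funext z
    simp only [Pi.add_apply, ← Finset.sum_add_distrib]
    exact Finset.sum_congr rfl fun x _ => Finset.sum_congr rfl fun y _ => by split_ifs <;> simp
  map_smul' a b := by
    funext z
    simp only [Pi.smul_apply, RingHom.id_apply, Finset.smul_sum, smul_ite, smul_zero]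

include hUV hVH

theorem layerMap_equivariant (g : G) (φ : G ⧸ U → G ⧸ H → M) :
    layerMap (k := k) (V := V) (indRep U (indRep H ρ) g φ) =
      indRep V ρ g (layerMap (k := k) (V := V) φ) := by
  funext z
  simp only [layerMap, LinearMap.coe_mk, AddHom.coe_mk, indRep_apply, map_sum]
  refine Fintype.sum_bijective (g⁻¹ • ·) (MulAction.bijective g⁻¹) _ _ fun x => ?_
  refine Fintype.sum_bijective (g⁻¹ • ·) (MulAction.bijective g⁻¹) _ _ fun y => ?_
  by_cases hz : layerPt (V := V) x y = z
  · rw [if_pos hz, if_pos (by rw [layerPt_smul hUV hVH, hz])]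
  · rw [if_neg hz, if_neg fun h' => hz (MulAction.injective g⁻¹ (by
      simpa [layerPt_smul hUV hVH] using h')), map_zero]

omit hUV [U.Normal] in
theorem fibSum_layerMap [Fintype (G ⧸ V)] :
    fibSum (k := k) hVH ∘ₗ layerMap (k := k) (M := M) (U := U) (V := V) (H := H) =
      indSum (k := k) U := by
  classical
  refine LinearMap.ext fun φ => funext fun y => ?_
  rw [LinearMap.comp_apply, indSum_apply, Finset.sum_apply]
  simp only [fibSum, layerMap, LinearMap.coe_mk, AddHom.coe_mk]
  have e : ∀ z : G ⧸ V, (if Subgroup.quotientMapOfLE hVH z = y then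
      ∑ x, ∑ y', (if layerPt (V := V) x y' = z then φ x y' else 0) else 0) =
      ∑ x, ∑ y', if layerPt (V := V) x y' = z then
        (if Subgroup.quotientMapOfLE hVH z = y then φ x y' else 0) else 0 := fun z => by
    split_ifs <;> simp
  rw [Finset.sum_congr rfl fun z _ => e z, Finset.sum_comm]
  refine Finset.sum_congr rfl fun x _ => ?_
  rw [Finset.sum_comm, Finset.sum_eq_single y (fun y' _ hy' => ?_)
    (fun hn => absurd (Finset.mem_univ _) hn)]
  · rw [Fintype.sum_ite_eq, if_pos (quotientMapOfLE_layerPt hVH x y)]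
  · rw [Fintype.sum_ite_eq, if_neg (by rw [quotientMapOfLE_layerPt hVH]; exact hy')]

end Layer

end Fermat.Agent.PT
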