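import Fermat.Agent.PT.LocalLine

/-!
# Restriction and corestriction of global classes with values in `μ_p`, seen locally

Corestriction of classes of a level to `ℚ`, and its localisation as the sum over the places
above each prime.
-/

noncomputable section

namespace Fermat.Agent.PT

open Lv

local notation "Qb" => AlgebraicClosure ℚ

variable {p q : ℕ} [Fact p.Prime] [Fact q.Prime] {H : Subgroup Gam}

theorem muG_comp (hμ : (cyc p).MuFix H) : (muG p).comp H.subtype = triv (ZMod p) ↥H :=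
  Cyc.rep_comp_eq_triv (C := cyc p) hμ

/-- Restriction of a global class. -/
def glRes (hμ : (cyc p).MuFix H) :
    H2 LG (muG p) →ₗ[ZMod p] H2 (LG.comap H.subtype) (triv (ZMod p) ↥H) :=
  (H2eq _ (muG_comp hμ)).toLinearMap ∘ₗ res LG (muG p) H

/-- Corestriction to the global group. -/
def glCores [Fintype (Gam ⧸ H)] (hH : H ∈ LG) (hμ : (cyc p).MuFix H) :
    H2 (LG.comap H.subtype) (triv (ZMod p) ↥H) →ₗ[ZMod p] H2 LG (muG p) :=
  cores hH (smooth_muG p) ∘ₗ (H2eq _ (muG_comp hμ)).symm.toLinearMap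

theorem locQ_mk2 (f : ↥(Z2 LG (muG p))) :
    locQ p q (mk2 LG (muG p) f) = mk2 (LQ q) (muQ p q)
      ⟨pp2 (localGaloisToGlobal q) LinearMap.id (f : Gam × Gam → ZMod p),
        pp2_mem_Z2 (compat_local q) (φ := LinearMap.id) (fun _ _ => rfl) f.2⟩ := rfl

theorem locH2_mk2 (g : Gam) (f : ↥(Z2 (LG.comap H.subtype) (triv (ZMod p) ↥H))) :
    locH2 q p H g (mk2 (LG.comap H.subtype) (triv (ZMod p) ↥H) f) =
      mk2 ((LQ q).comap (stab q H g).subtype) (triv (ZMod p) ↥(stab q H g))
        ⟨pp2 (locHom q H g) (twist p g) (f : ↥H × ↥H → ZMod p),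
          pp2_mem_Z2 (compat_locHom q H g) (φ := twist p g) (fun _ _ => rfl) f.2⟩ := rfl

theorem locR_mk2 (g : Gam) (f : ↥(Z2 (LG.comap H.subtype) ((muG p).comp H.subtype))) :
    locR q (muG p) H g (mk2 (LG.comap H.subtype) ((muG p).comp H.subtype) f) =
      mk2 ((LQ q).comap (stab q H g).subtype) ((muQ p q).comp (stab q H g).subtype)
        ⟨pp2 (locHom q H g) (muG p g) (f : ↥H × ↥H → ZMod p),
          pp2_mem_Z2 (compat_locHom q H g) (locR_equivariant q (muG p) g) f.2⟩ := rfl

/-- Localisation commutes with restriction. -/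
theorem locH2_glRes (hμ : (cyc p).MuFix H) (g : Gam) (z : H2 LG (muG p)) :
    locH2 q p H g (glRes hμ z) = resTriv (muFix_stab q p g hμ) (locQ p q z) := by
  obtain ⟨⟨f, hf⟩, rfl⟩ := mk2_surjective z
  obtain ⟨y, hy, hye⟩ := mem_B2.1 (conjR_sub_mem_B2 hf g)
  simp only [glRes, resTriv, LinearMap.comp_apply, LinearEquiv.coe_coe, res_mk2, locQ_mk2,
    H2eq_mk2, locH2_mk2]
  refine mk2_eq_mk2.2 ⟨fun σ => y (localGaloisToGlobal q (σ : GamQ q)),
    hy.precomp ((compat_local q).comp (compat_comap (LQ q) (stab q H g).subtype)), ?_⟩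
  ext ⟨a, b⟩
  have e := congrFun hye
    (localGaloisToGlobal q (a : GamQ q), localGaloisToGlobal q (b : GamQ q))
  have hω : ((cyc p).ω (localGaloisToGlobal q (a : GamQ q)) : ZMod p) = 1 :=
    congrArg Units.val (muFix_stab q p g hμ a a.2)
  simp only [d1_apply, Pi.sub_apply, Cyc.rep_apply, Representation.trivial_apply, pp2_apply,
    LinearMap.id_apply, twist_apply, coe_locHom, cj_apply, Subgroup.coe_subtype, map_mul,
    Subgroup.coe_mul, hω, one_mul] at e ⊢
  exact e

/-- The two localisation maps agree on classes of a level fixing the roots of unity. -/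
theorem locR_eq_locH2 (hμ : (cyc p).MuFix H) (g : Gam)
    (a : H2 (LG.comap H.subtype) (triv (ZMod p) ↥H)) :
    H2eq _ (muQ_comp (muFix_stab q p g hμ)) (locR q (muG p) H g ((H2eq _ (muG_comp hμ)).symm a)) =
      locH2 q p H g a := by
  obtain ⟨f, rfl⟩ := mk2_surjective a
  simp only [H2eq_symm_mk2, locR_mk2, locH2_mk2, H2eq_mk2]
  refine mk2_congr (funext fun ⟨a, b⟩ => ?_)
  simp only [pp2_apply, twist_apply]
  exact Cyc.rep_apply (C := cyc p) g _

/-- A corestricted class localises to the sum over the places. -/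
theorem locQ_glCores (hH : H ∈ LG) (hμ : (cyc p).MuFix H) [Fintype (Gam ⧸ H)] [Fintype (Pl q H)]
    [∀ v : Pl q H, Fintype (GamQ q ⧸ stab q H v.rep)]
    (a : H2 (LG.comap H.subtype) (triv (ZMod p) ↥H)) :
    locQ p q (glCores hH hμ a) =
      ∑ v : Pl q H, coresTriv (stab_mem q v.rep hH) (muFix_stab q p v.rep hμ)
        (locH2 q p H v.rep a) := by
  rw [glCores, LinearMap.comp_apply, locQ, LinearEquiv.coe_coe,
    local_cores hH (smooth_muG p) (smooth_muQ p q)]
  refine Finset.sum_congr rfl fun v _ => ?_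
  rw [coresTriv, LinearMap.comp_apply, LinearEquiv.coe_coe, ← locR_eq_locH2 hμ,
    LinearEquiv.symm_apply_apply]

/-- A class good at all places above `q` corestricts to a class good at `q`. -/
theorem locQ_glCores_eq_zero (hH : H ∈ LG) (hμ : (cyc p).MuFix H) [Fintype (Gam ⧸ H)]
    (a : H2 (LG.comap H.subtype) (triv (ZMod p) ↥H))
    (h : ∀ g, locH2 q p H g a = 0) : locQ p q (glCores hH hμ a) = 0 := by
  have := finite_pl (q := q) hH
  let _ : Fintype (Pl q H) := Fintype.ofFinite _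
  have hfi : ∀ v : Pl q H, (stab q H v.rep).FiniteIndex := fun v =>
    (LQ q).finiteIndex (stab_mem q v.rep hH)
  let _ : ∀ v : Pl q H, Fintype (GamQ q ⧸ stab q H v.rep) := fun v => Fintype.ofFinite _
  rw [locQ_glCores hH hμ]
  exact Finset.sum_eq_zero fun v _ => by rw [h, map_zero]

/-- A class bad at a single place above `q` corestricts to a class bad at `q`. -/
theorem locQ_glCores_ne_zero (hodd : p ≠ 2) (hH : H ∈ LG) (hμ : (cyc p).MuFix H)
    [Fintype (Gam ⧸ H)] (a : H2 (LG.comap H.subtype) (triv (ZMod p) ↥H)) (g₀ : Gam)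
    (hbad : locH2 q p H g₀ a ≠ 0)
    (h : ∀ g, ¬ SamePlace q H g₀ g → locH2 q p H g a = 0) :
    locQ p q (glCores hH hμ a) ≠ 0 := by
  classical
  have := finite_pl (q := q) hH
  let _ : Fintype (Pl q H) := Fintype.ofFinite _
  have hfi : ∀ v : Pl q H, (stab q H v.rep).FiniteIndex := fun v =>
    (LQ q).finiteIndex (stab_mem q v.rep hH)
  let _ : ∀ v : Pl q H, Fintype (GamQ q ⧸ stab q H v.rep) := fun v => Fintype.ofFinite _
  rw [locQ_glCores hH hμ, Finset.sum_eq_single (Pl.mk g₀ : Pl q H) (fun v _ hv => ?_)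
    (fun h' => absurd (Finset.mem_univ _) h')]
  · intro h0
    have h1 := (coresTriv_bijective hodd _ _).1 (h0.trans (map_zero _).symm)
    obtain ⟨τ, c, hc, e⟩ := (Pl.samePlace_rep (q := q) (H := H) g₀).symm
    exact hbad (locH2_eq_zero_of_samePlace τ hc e h1)
  · rw [h _ fun hs => hv ((Pl.mk_rep v).symm.trans (Pl.mk_eq.2 hs.symm)), map_zero]

end Fermat.Agent.PT
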