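import Fermat.Agent.PT.PTData

/-!
# The pairing with `H²(G_S, M)` is perfect modulo constants

The pairing of `PTData` is nondegenerate on the right and its left kernel consists of the pairs
of constants: first for induced modules, then in general by pullback along an embedding.
-/

noncomputable section

namespace Fermat.Agent.PT

open Lv Module

variable {p : ℕ} [Fact p.Prime] {S : Finset Nat.Primes}
variable {M : Type} [AddCommGroup M] [Module (ZMod p) M] {ρ : Representation (ZMod p) Gam M}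
variable {N : Type} [AddCommGroup N] [Module (ZMod p) N] {ν : Representation (ZMod p) Gam N}

/-! ### Pullback and constants -/

theorem dualR_comp (ψ : N →ₗ[ZMod p] M) (hψ : ∀ g n, ψ (ν g n) = ρ g (ψ n)) (g : Gam)
    (f : M →ₗ[ZMod p] ZMod p) :
    dualR (muG p) ρ g f ∘ₗ ψ = dualR (muG p) ν g (f ∘ₗ ψ) := by
  refine LinearMap.ext fun n => ?_
  simp only [LinearMap.comp_apply, dualR_apply, hψ]

/-- Pullback of pairs along an equivariant map. -/
def pullA (ψ : N →ₗ[ZMod p] M) (hψ : ∀ g n, ψ (ν g n) = ρ g (ψ n)) :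
    ↥(pairsA S ρ) →ₗ[ZMod p] ↥(pairsA S ν) where
  toFun a := ⟨(fun g => a.1.1 g ∘ₗ ψ, fun q => a.1.2 q ∘ₗ ψ),
    mem_Z1.2 ⟨(mem_Z1.1 a.2.1).1.comp (fun f => f ∘ₗ ψ), fun g h => by
      show a.1.1 (g * h) ∘ₗ ψ = dualR (muG p) ν g (a.1.1 h ∘ₗ ψ) + a.1.1 g ∘ₗ ψ
      rw [(mem_Z1.1 a.2.1).2 g h, LinearMap.add_comp, dualR_comp ψ hψ]⟩,
    fun q τ => by
      show a.1.1 _ ∘ₗ ψ = _
      rw [a.2.2 q τ, LinearMap.sub_comp, dualR_comp ψ hψ]⟩
  map_add' a a' := Subtype.ext (Prod.ext (funext fun g => LinearMap.add_comp _ _ _)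
    (funext fun q => LinearMap.add_comp _ _ _))
  map_smul' c a := Subtype.ext (Prod.ext (funext fun g => LinearMap.smul_comp _ _ _)
    (funext fun q => LinearMap.smul_comp _ _ _))

/-- The pair of a constant. -/
def constA (hn : Nice S ρ) (m₀ : M →ₗ[ZMod p] ZMod p) : ↥(pairsA S ρ) :=
  ⟨(fun g => dualR (muG p) ρ g m₀ - m₀, fun _ => m₀), by
    obtain ⟨K, hK, -, hμ, hρ⟩ := hn
    refine mem_Z1.2 ⟨⟨K, hK, fun g u hu => ?_⟩, fun g h => ?_⟩
    · have h1 : dualR (muG p) ρ u = 1 := LinearMap.ext fun f => LinearMap.ext fun m => by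
        rw [dualR_apply, hρ _ (inv_mem hu), muG_eq_one hμ u hu]
        rfl
      simp only [map_mul, h1, mul_one]
    · simp only [map_mul, Module.End.mul_apply, map_sub]
      abel, fun q τ => rfl⟩

theorem pullA_constA (hn : Nice S ρ) (hnν : Nice S ν) (ψ : N →ₗ[ZMod p] M)
    (hψ : ∀ g n, ψ (ν g n) = ρ g (ψ n)) (m₀ : M →ₗ[ZMod p] ZMod p) :
    pullA ψ hψ (constA hn m₀) = constA hnν (m₀ ∘ₗ ψ) := by
  refine Subtype.ext (Prod.ext (funext fun g => ?_) rfl)
  show (dualR (muG p) ρ g m₀ - m₀) ∘ₗ ψ = _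
  rw [LinearMap.sub_comp, dualR_comp ψ hψ]
  rfl

variable (D : PTData p S)

variable [Finite M] [Finite N] in
/-- Naturality of the pairing. -/
theorem phiA_pullA (hn : Nice S ρ) (hnν : Nice S ν) (ψ : N →ₗ[ZMod p] M)
    (hψ : ∀ g n, ψ (ν g n) = ρ g (ψ n)) (a : ↥(pairsA S ρ)) (α : H2 (LS S) ν) :
    phiA D hnν (pullA ψ hψ a) α = phiA D hn a (H2push (LS S) ν ρ ψ hψ α) := by
  classical
  obtain ⟨K, hK, -, -, hν⟩ := id hnν
  obtain ⟨U, hD, hUK, -, hU⟩ := exists_adm D hn a hK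
  have := hD.normal
  have := (LS S).finiteIndex hD.mem
  let _ : Fintype (Gam ⧸ U) := Fintype.ofFinite _
  have hνU : ∀ u ∈ U, ν u = 1 := fun u hu => hν u (hUK hu)
  obtain ⟨B, rfl⟩ := push_indSum_surjective D.gi D.hodd D.lam D.hlam D.hrec D.hpS hD.mem hνU
    hD.muFix α
  have hU' : ∀ g, ∀ u ∈ U, (pullA ψ hψ a).1.1 (g * u) = (pullA ψ hψ a).1.1 g := fun g u hu =>
    congrArg (fun f => f ∘ₗ ψ) (hU g u hu)
  have e : H2push (LS S) ν ρ ψ hψ
      (H2push (LS S) (indRep U ν) ν (indSum (k := ZMod p) U) (indSum_equivariant U ν) B) =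
      H2push (LS S) (indRep U ρ) ρ (indSum (k := ZMod p) U) (indSum_equivariant U ρ)
        (H2push (LS S) (indRep U ν) (indRep U ρ) (indMap (H := U) ψ)
          (indMap_equivariant ν ψ hψ) B) := by
    rw [H2push_comp, H2push_comp]
    refine H2push_eq_of_eq _ _ (LinearMap.ext fun φ => ?_) B
    simp [indMap, indSum_apply]
  rw [e, phiA_spec D hnν _ U hD.mem hU', phiA_spec D hn _ U hD.mem hU,
    rawF_indMap D.lam ψ hψ a (pullA ψ hψ a) (fun _ => rfl) (fun _ => rfl) hU hU']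

variable [Finite M]

/-- The pairing with locally invariant functionals. -/
theorem phiA_of_fst_eq_zero (hn : Nice S ρ) (a : ↥(pairsA S ρ)) (ha : a.1.1 = 0)
    (hinv : ∀ q : ↥S, Equiv' (localGaloisToGlobal ((q : Nat.Primes) : ℕ)) ρ
      (muQ p ((q : Nat.Primes) : ℕ)) (a.1.2 q)) (α : H2 (LS S) ρ) :
    phiA D hn a α = ∑ q : ↥S, D.lam q (H2map (compat_LS (q : Nat.Primes)) (hinv q) α) := by
  classical
  obtain ⟨U, hD, -, hρ, hU⟩ := exists_adm D hn a (LS S).top_mem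
  have := hD.normal
  have := (LS S).finiteIndex hD.mem
  let _ : Fintype (Gam ⧸ U) := Fintype.ofFinite _
  obtain ⟨B, rfl⟩ := push_indSum_surjective D.gi D.hodd D.lam D.hlam D.hrec D.hpS hD.mem hρ
    hD.muFix α
  rw [phiA_spec D hn _ U hD.mem hU]
  obtain ⟨x, rfl⟩ := mk2_surjective B
  rw [rawF_mk2]
  refine Finset.sum_congr rfl fun q _ => congrArg (D.lam q) ?_
  refine mk2_congr (funext fun st => ?_)
  show PsiMap U (a.1.2 q) a.1.1 _ = _
  rw [ha, PsiMap_zero_right]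
  rfl

/-- Constants pair to zero. -/
theorem phiA_constA (hn : Nice S ρ) (m₀ : M →ₗ[ZMod p] ZMod p) (α : H2 (LS S) ρ) :
    phiA D hn (constA hn m₀) α = 0 := by
  classical
  obtain ⟨U, hD, -, hρ, hU⟩ := exists_adm D hn (constA hn m₀) (LS S).top_mem
  have := hD.normal
  have := (LS S).finiteIndex hD.mem
  let _ : Fintype (Gam ⧸ U) := Fintype.ofFinite _
  obtain ⟨B, rfl⟩ := push_indSum_surjective D.gi D.hodd D.lam D.hlam D.hrec D.hpS hD.mem hρ
    hD.muFix α
  rw [phiA_spec D hn _ U hD.mem hU]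
  let Θ : (Gam ⧸ U → M) →ₗ[ZMod p] ZMod p :=
    indSum (k := ZMod p) U ∘ₗ coordMap (U := U) (muG p) ρ m₀
  have hΘ : ∀ g φ, Θ (indRep U ρ g φ) = muG p g (Θ φ) := fun g φ => by
    simp only [Θ, LinearMap.comp_apply]
    rw [coordMap_equivariant hρ (muG_eq_one hD.muFix), indSum_equivariant]
  have h1 := D.hrec S (infG S (H2push (LS S) (indRep U ρ) (muG p) Θ hΘ B))
    fun r hr => locQ_infG_eq_zero D.hpS hr _
  rw [← h1, ← Finset.sum_coe_sort S]
  obtain ⟨x, rfl⟩ := mk2_surjective B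
  rw [rawF_mk2]
  refine Finset.sum_congr rfl fun q _ => congrArg (D.lam q) ?_
  simp only [H2push_mk2, infG_mk2, locQ_mk2]
  refine mk2_congr (funext fun st => ?_)
  refine (PsiMap_apply U _ _ _).trans (Finset.sum_congr rfl fun x _ => ?_)
  show m₀ _ + (dualR (muG p) ρ (sec U x) m₀ - m₀) _ = _
  rw [LinearMap.sub_apply, add_sub_cancel, dualR_apply]
  rfl

/-- The left kernel consists of constants. -/
theorem eq_constA_of_phiA_eq_zero (hn : Nice S ρ) (a : ↥(pairsA S ρ)) (h : phiA D hn a = 0) :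
    ∃ m₀, a = constA hn m₀ := by
  classical
  obtain ⟨U, hD, -, hρ, hU⟩ := exists_adm D hn a (LS S).top_mem
  have := hD.normal
  have := (LS S).finiteIndex hD.mem
  let _ : Fintype (Gam ⧸ U) := Fintype.ofFinite _
  obtain ⟨m₀, hb, hc⟩ := eq_const_of_rawF_eq_zero D.gi D.hodd D.lam D.hlam D.hrec D.hpS hD hρ a hU
    fun B => by rw [← phiA_spec D hn a U hD.mem hU, h, LinearMap.zero_apply]
  exact ⟨m₀, Subtype.ext (Prod.ext (funext hc) (funext hb))⟩

/-! ### Induced modules -/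

theorem nice_muG_ind {U : Subgroup Gam} [U.Normal] (hU : U ∈ LS S) (hμ : (cyc p).MuFix U) :
    Nice S (indRep U (muG p)) :=
  ⟨U, hU, inferInstance, hμ, indRep_eq_one le_rfl (muG_eq_one hμ)⟩

omit [Finite M] in
theorem nice_ind {U : Subgroup Gam} [U.Normal] (hU : U ∈ LS S) (hμ : (cyc p).MuFix U)
    (hρ : ∀ u ∈ U, ρ u = 1) : Nice S (indRep U ρ) :=
  ⟨U, hU, inferInstance, hμ, indRep_eq_one le_rfl hρ⟩

omit [Finite M] in
theorem sum_eps_coord {U : Subgroup Gam} {ι : Type*} [Fintype ι] (b : Basis ι (ZMod p) M) :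
    (∑ i, (epsMap (U := U) (muG p) ρ (b i)).comp (coordMap (U := U) (muG p) ρ (b.coord i))) =
      LinearMap.id := by
  refine LinearMap.ext fun φ => funext fun x => ?_
  simp only [LinearMap.sum_apply, Finset.sum_apply, LinearMap.comp_apply, LinearMap.id_apply,
    epsMap, coordMap, LinearMap.coe_mk, AddHom.coe_mk, Basis.coord_apply]
  have hi : ∀ z, muG p (sec U x)⁻¹ (muG p (sec U x) z) = z := fun z => by
    rw [← Module.End.mul_apply, ← map_mul, inv_mul_cancel, map_one, Module.End.one_apply]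
  simp only [hi, ← map_smul, ← map_sum, b.sum_repr]
  rw [← Module.End.mul_apply, ← map_mul, mul_inv_cancel, map_one, Module.End.one_apply]

omit [Finite M] in
theorem H2push_sum {G : Type*} [Group G] {L : Lv G} {P Q : Type*} [AddCommGroup P]
    [Module (ZMod p) P] [AddCommGroup Q] [Module (ZMod p) Q] {π : Representation (ZMod p) G P}
    {κ : Representation (ZMod p) G Q} {ι : Type*} [Fintype ι] (φ : ι → P →ₗ[ZMod p] Q)
    (hφ : ∀ i g m, φ i (π g m) = κ g (φ i m)) (φs : P →ₗ[ZMod p] Q)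
    (hφs : ∀ g m, φs (π g m) = κ g (φs m)) (e : (∑ i, φ i) = φs) (a : H2 L π) :
    H2push L π κ φs hφs a = ∑ i, H2push L π κ (φ i) (hφ i) a := by
  obtain ⟨x, rfl⟩ := mk2_surjective a
  simp only [H2push_mk2, ← map_sum]
  refine mk2_congr (funext fun g => ?_)
  simp [← e]

/-- Duality for induced modules. -/
theorem ind_facts {U : Subgroup Gam} [U.Normal] [Fintype (Gam ⧸ U)]
    (hU : U ∈ LS S) (hμ : (cyc p).MuFix U) (hρ : ∀ u ∈ U, ρ u = 1) :
    FiniteDimensional (ZMod p) (H2 (LS S) (indRep U ρ)) ∧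
      ∀ α, (∀ a, phiA D (nice_ind hU hμ hρ) a α = 0) → α = 0 := by
  classical
  obtain ⟨U', hD', -, -, hfd, hU'⟩ :=
    indH_facts D.gi D.hodd D.lam D.hlam D.hrec D.hpS hU hμ (LS S).top_mem
  have := (LS S).finiteIndex hD'.mem
  let _ : Fintype (Gam ⧸ U') := Fintype.ofFinite _
  obtain ⟨hsurj, hrep⟩ := hU'
  have : Module.Finite (ZMod p) M := Module.Finite.of_finite
  let b := Module.finBasis (ZMod p) M
  have hχ := muG_eq_one hμ
  let co := fun i => H2push (LS S) (indRep U ρ) (indRep U (muG p))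
    (coordMap (U := U) (muG p) ρ (b.coord i)) (coordMap_equivariant hρ hχ _)
  let ep := fun i => H2push (LS S) (indRep U (muG p)) (indRep U ρ)
    (epsMap (U := U) (muG p) ρ (b i)) (epsMap_equivariant hρ hχ _)
  have hid : ∀ α, ∑ i, ep i (co i α) = α := fun α => by
    conv_rhs => rw [← H2push_id α]
    rw [H2push_sum (fun i => (epsMap (U := U) (muG p) ρ (b i)).comp
      (coordMap (U := U) (muG p) ρ (b.coord i))) (fun i g m => by
        simp only [LinearMap.comp_apply]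
        rw [coordMap_equivariant hρ hχ, epsMap_equivariant hρ hχ]) _ _ (sum_eps_coord b) α]
    exact Finset.sum_congr rfl fun i _ => H2push_comp _ _ _ _ α
  refine ⟨Module.Finite.of_surjective (∑ i, ep i ∘ₗ LinearMap.proj i)
    (fun α => ⟨fun i => co i α, by simpa using hid α⟩), fun α hα => ?_⟩
  rw [← hid α]
  refine Finset.sum_eq_zero fun i _ => ?_
  suffices co i α = 0 by rw [this, map_zero]
  refine (Module.forall_dual_apply_eq_zero_iff (ZMod p) _).1 fun φ => ?_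
  obtain ⟨a, haU, ha⟩ := hrep φ
  obtain ⟨B, hB⟩ := hsurj (co i α)
  rw [← hB, ← ha B, ← phiA_spec D (nice_muG_ind hU hμ) a U' hD'.mem haU, hB,
    ← phiA_pullA D (nice_muG_ind hU hμ) (nice_ind hU hμ hρ)]
  exact hα _

theorem exists_eq_of_right_nondegenerate {K A V : Type*} [Field K] [AddCommGroup A] [Module K A]
    [AddCommGroup V] [Module K V] [FiniteDimensional K V] (T : A →ₗ[K] V →ₗ[K] K)
    (h : ∀ v, (∀ a, T a v = 0) → v = 0) (φ : V →ₗ[K] K) : ∃ a, T a = φ := by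
  have hinj : Function.Injective T.flip := (injective_iff_map_eq_zero _).2 fun v hv =>
    h v fun a => LinearMap.congr_fun hv a
  have h1 : (LinearMap.range T).dualCoannihilator = ⊥ := by
    rw [eq_bot_iff]
    intro v hv
    exact (Submodule.mem_bot K).2 (h v fun a => (Submodule.mem_dualCoannihilator _).1 hv _ ⟨a, rfl⟩)
  have h2 := Subspace.dualCoannihilator_dualAnnihilator_eq (W := LinearMap.range T)
  rw [h1, Submodule.dualAnnihilator_bot] at h2
  exact LinearMap.mem_range.1 (h2 ▸ Submodule.mem_top)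

/-! ### The general case -/

/-- The pairing is nondegenerate on the right. -/
theorem phiA_right (hn : Nice S ρ) (α : H2 (LS S) ρ) (hα : ∀ a, phiA D hn a α = 0) : α = 0 := by
  classical
  obtain ⟨U, hD, -, hρ, -⟩ := exists_adm D hn (0 : ↥(pairsA S ρ)) (LS S).top_mem
  have := hD.normal
  have := (LS S).finiteIndex hD.mem
  let _ : Fintype (Gam ⧸ U) := Fintype.ofFinite _
  obtain ⟨hfd, hright⟩ := ind_facts D hD.mem hD.muFix hρ
  let hnP := nice_ind hD.mem hD.muFix hρ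
  obtain ⟨α₀, rfl⟩ := push_indSum_surjective D.gi D.hodd D.lam D.hlam D.hrec D.hpS hD.mem hρ
    hD.muFix α
  let ψ := indSum (k := ZMod p) (M := M) U
  let i := (LinearMap.ker ψ).subtype
  have hi : ∀ g n, i (kerRep U ρ g n) = indRep U ρ g (i n) := fun g n => coe_kerRep U ρ g n
  have hnN : Nice S (kerRep U ρ) := ⟨U, hD.mem, hD.normal, hD.muFix, fun u hu =>
    LinearMap.ext fun n => Subtype.ext (by
      rw [coe_kerRep, indRep_eq_one le_rfl hρ u hu]; rfl)⟩
  let I := H2push (LS S) (kerRep U ρ) (indRep U ρ) i hi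
  suffices α₀ ∈ LinearMap.range I by
    obtain ⟨β, rfl⟩ := this
    obtain ⟨x, rfl⟩ := mk2_surjective β
    simp only [I, H2push_mk2]
    rw [mk2_eq_zero]
    refine ⟨0, Lv.con1_const 0, funext fun st => ?_⟩
    rw [map_zero]
    exact (LinearMap.mem_ker.1 ((x : Gam × Gam → ↥(LinearMap.ker ψ)) st).2).symm
  refine (Subspace.forall_mem_dualAnnihilator_apply_eq_zero_iff _ α₀).1 fun φ hφ => ?_
  obtain ⟨a₀, rfl⟩ := exists_eq_of_right_nondegenerate (phiA D hnP) hright φ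
  rw [Submodule.mem_dualAnnihilator] at hφ
  obtain ⟨n₀, hn₀⟩ := eq_constA_of_phiA_eq_zero D hnN (pullA i hi a₀) (LinearMap.ext fun β => by
    rw [phiA_pullA D hnP hnN i hi]
    exact hφ _ ⟨β, rfl⟩)
  set t : ↥S := ⟨pP p, D.hpS⟩
  set a₁ := a₀ - constA hnP (a₀.1.2 t) with ha₁
  have hkill : pullA i hi a₁ = 0 := by
    have : n₀ = a₀.1.2 t ∘ₗ i := (congrFun (congrArg
        (fun z : ↥(pairsA S (kerRep U ρ)) => z.1.2) hn₀) t).symm
    rw [ha₁]
    exact ((pullA i hi).map_sub _ _).trans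
      (sub_eq_zero.2 (by rw [pullA_constA hnP hnN i hi, hn₀, this]))
  let s : M →ₗ[ZMod p] (Gam ⧸ U → M) :=
    LinearMap.single (ZMod p) (fun _ => M) ((1 : Gam) : Gam ⧸ U)
  have hs : ∀ m, ψ (s m) = m := fun m => by simp [ψ, s, indSum_apply]
  have hfac : ∀ f : (Gam ⧸ U → M) →ₗ[ZMod p] ZMod p, f ∘ₗ i = 0 → (f ∘ₗ s) ∘ₗ ψ = f :=
    fun f hf => LinearMap.ext fun φ => by
      have h1 := LinearMap.congr_fun hf ⟨φ - s (ψ φ),
        by rw [LinearMap.mem_ker, map_sub, hs, sub_self]⟩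
      rw [LinearMap.comp_apply, LinearMap.zero_apply] at h1
      simp only [i, Submodule.subtype_apply, map_sub, sub_eq_zero] at h1
      exact h1.symm
  have hc0 : ∀ g, a₁.1.1 g ∘ₗ i = 0 := fun g =>
    congrFun (congrArg (fun z : ↥(pairsA S (kerRep U ρ)) => z.1.1) hkill) g
  have hb0 : ∀ q, a₁.1.2 q ∘ₗ i = 0 := fun q =>
    congrFun (congrArg (fun z : ↥(pairsA S (kerRep U ρ)) => z.1.2) hkill) q
  have hinj : ∀ f f' : M →ₗ[ZMod p] ZMod p, f ∘ₗ ψ = f' ∘ₗ ψ → f = f' := fun f f' h =>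
    LinearMap.ext fun m => by
      have := LinearMap.congr_fun h (s m)
      simpa [hs] using this
  have hψe := indSum_equivariant U ρ (k := ZMod p)
  let a' : ↥(pairsA S ρ) := ⟨(fun g => a₁.1.1 g ∘ₗ s, fun q => a₁.1.2 q ∘ₗ s), by
    refine mem_Z1.2 ⟨(mem_Z1.1 a₁.2.1).1.comp (fun f => f ∘ₗ s), fun g h => hinj _ _ ?_⟩
    rw [hfac _ (hc0 _), LinearMap.add_comp, dualR_comp ψ hψe, hfac _ (hc0 _), hfac _ (hc0 _)]
    exact (mem_Z1.1 a₁.2.1).2 g h, fun q τ => hinj _ _ (by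
      show (a₁.1.1 _ ∘ₗ s) ∘ₗ ψ = _
      rw [hfac _ (hc0 _), LinearMap.sub_comp, dualR_comp ψ hψe, hfac _ (hb0 _)]
      exact a₁.2.2 q τ)⟩
  have hpull : pullA ψ hψe a' = a₁ :=
    Subtype.ext (Prod.ext (funext fun g => hfac _ (hc0 g)) (funext fun q => hfac _ (hb0 q)))
  have h0 : phiA D hnP a₁ α₀ = 0 := by
    rw [← hpull, phiA_pullA D hn hnP ψ hψe]
    exact hα a'
  rw [ha₁, (phiA D hnP).map_sub, LinearMap.sub_apply, phiA_constA, sub_zero] at h0
  exact h0

end Fermat.Agent.PT
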