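import Fermat.Agent.PT.LayerMoving

/-!
# Classes of `G_S` with invariants at two given places

For two places over `S` there is a class of `G_S` with invariants `1`, `-1` there and `0`
elsewhere (`exists_pair_LS`).  These classes serve as test classes for the global pairing.
-/

noncomputable section

namespace Fermat.Agent.PT

open Lv

local notation "Qb" => AlgebraicClosure ℚ

variable {p : ℕ} [Fact p.Prime] {S : Finset Nat.Primes} {U : Subgroup Gam}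

/-- A class good at a place where the character is nontrivial has divisible exponent. -/
theorem dvd_lv_of_good (hμ : (cyc p).MuFix U)
    (a b : ↥(Cyc.rootU p U))
    {V : Subgroup Gam} (hV : V ∈ LS S) (hVU : V ≤ U)
    (hb : ∀ u : ↥U, (u : Gam) ∈ V → (cyc p).kum U b u = 0)
    {r : Nat.Primes} (hr : r ∉ S) (g : Gam)
    (hgood : locH2 (r : ℕ) p U g (Cyc.sym U hμ a b) = 0)
    {σ : ↥(stab (r : ℕ) U g)} (hσ : (cyc p).kum U b (locHom (r : ℕ) U g σ) ≠ 0) :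
    (p : ℤ) ∣ lv (r : ℕ) g ((a : Qbˣ) ^ p) := by
  obtain ⟨N, hN, hNn, hNV, hI⟩ := mem_LS.1 hV
  obtain ⟨j, hj⟩ := exists_nq_eq_zpow_mul_of_good hN (hI r hr) hNV hVU hμ a b hb g hgood hσ
  exact ⟨j, lv_eq hj⟩

section Divisor

variable {x : Qbˣ} (hx : x ∈ fixU U) (χ : ↥U → ZMod p)
  (hχ : ∀ g h, χ (g * h) = χ g + χ h)
  (hgood : ∀ r : Nat.Primes, r ∉ S → ∀ (g : Gam) (σ : ↥(stab (r : ℕ) U g)),
    χ (locHom (r : ℕ) U g σ) * (lv (r : ℕ) g x : ZMod p) = 0)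
include hx hχ hgood

/-- A function on the places of the kernel with prescribed variation. -/
theorem exists_exponents :
    ∃ e : Nat.Primes → Gam → ZMod p, ∀ r : Nat.Primes, r ∉ S →
      (∀ (τ : GamQ (r : ℕ)) g, e r (localGaloisToGlobal (r : ℕ) τ * g) = e r g) ∧
      (∀ (g : Gam) (h : ↥U), e r (g * h) = e r g - χ h * (lv (r : ℕ) g x : ZMod p)) ∧
      ((∀ g, lv (r : ℕ) g x = 0) → ∀ g, e r g = 0) := by
  have hdec : ∀ (r : Nat.Primes) (g : Gam), ∃ (τ : GamQ (r : ℕ)) (h : ↥U),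
      g = localGaloisToGlobal (r : ℕ) τ * (Pl.mk g : Pl (r : ℕ) U).rep * h := fun r g => by
    obtain ⟨τ, c, hc, e⟩ := (Pl.samePlace_rep (q := (r : ℕ)) (H := U) g).symm
    exact ⟨τ, ⟨c, hc⟩, e⟩
  choose tau hh hg using hdec
  refine ⟨fun r g => -χ (hh r g) * (lv (r : ℕ) (Pl.mk g : Pl (r : ℕ) U).rep x : ZMod p),
    fun r hr => ?_⟩
  have key : ∀ (g : Gam) (g0 : Gam) (τ : GamQ (r : ℕ)) (h : ↥U),
      (Pl.mk g : Pl (r : ℕ) U).rep = g0 → g = localGaloisToGlobal (r : ℕ) τ * g0 * h →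
      χ (hh r g) * (lv (r : ℕ) g0 x : ZMod p) = χ h * (lv (r : ℕ) g0 x : ZMod p) := by
    intro g g0 τ h hrep he
    have h2 := hg r g
    rw [hrep] at h2
    rw [h2] at he
    have hm : (tau r g)⁻¹ * τ ∈ stab (r : ℕ) U g0 := by
      rw [mem_stab, cj_apply, map_mul, map_inv]
      have h3 : g0⁻¹ *
          ((localGaloisToGlobal (r : ℕ) (tau r g))⁻¹ * localGaloisToGlobal (r : ℕ) τ) * g0
          = (hh r g : Gam) * (h : Gam)⁻¹ := by
        generalize localGaloisToGlobal (r : ℕ) (tau r g) = t,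
          localGaloisToGlobal (r : ℕ) τ = t' at he
        have h4 : t' * g0 = t * g0 * (hh r g : Gam) * (h : Gam)⁻¹ := by
          rw [he, mul_inv_cancel_right]
        rw [mul_assoc, mul_assoc, h4]
        group
      rw [h3]
      exact mul_mem (hh r g).2 (inv_mem h.2)
    have e : hh r g = locHom (r : ℕ) U g0 ⟨_, hm⟩ * h := by
      refine Subtype.ext ?_
      rw [Subgroup.coe_mul, coe_locHom, cj_apply, map_mul, map_inv]
      generalize localGaloisToGlobal (r : ℕ) (tau r g) = t, localGaloisToGlobal (r : ℕ) τ = t' at he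
      have h4 : t' * g0 = t * g0 * (hh r g : Gam) * (h : Gam)⁻¹ := by rw [he, mul_inv_cancel_right]
      rw [mul_assoc g0⁻¹, mul_assoc t⁻¹, h4]
      group
    rw [e, hχ, add_mul, hgood r hr g0, zero_add]
  refine ⟨fun τ g => ?_, fun g h => ?_, fun h0 g => by simp [h0]⟩
  · beta_reduce
    have hp1 : (Pl.mk (localGaloisToGlobal (r : ℕ) τ * g) : Pl (r : ℕ) U) = Pl.mk g :=
      (Pl.mk_eq.2 ⟨τ, 1, one_mem _, by rw [mul_one]⟩).symm
    simp only [hp1, neg_mul, neg_inj]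
    refine key (localGaloisToGlobal (r : ℕ) τ * g) (Pl.mk g : Pl (r : ℕ) U).rep (τ * tau r g)
      (hh r g) (congrArg Pl.rep hp1) ?_
    rw [map_mul, mul_assoc, mul_assoc]
    exact congrArg (localGaloisToGlobal (r : ℕ) τ * ·) ((hg r g).trans (mul_assoc _ _ _))
  · beta_reduce
    have hp1 : (Pl.mk (g * h) : Pl (r : ℕ) U) = Pl.mk g :=
      (Pl.mk_eq.2 ⟨1, h, h.2, by rw [map_one, one_mul]⟩).symm
    have hl : lv (r : ℕ) g x = lv (r : ℕ) (Pl.mk g : Pl (r : ℕ) U).rep x :=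
      (lv_samePlace (Pl.samePlace_rep g) hx).symm
    have hk := key (g * h) (Pl.mk g : Pl (r : ℕ) U).rep (tau r g) (hh r g * h)
      (congrArg Pl.rep hp1) (by
        rw [Subgroup.coe_mul, ← mul_assoc]; exact congrArg (· * (h : Gam)) (hg r g))
    simp only [hp1, hl]
    rw [neg_mul, hk, hχ]
    ring

end Divisor

/-- The radical whose conjugates correct the exponents of `x`. -/
theorem exists_corrector (hpS : pP p ∈ S) (hU : U ∈ LS S)
    (hμ : (cyc p).MuFix U) {V : Subgroup Gam} (hV : V ∈ LS S) (hVU : V ≤ U)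
    (a b : ↥(Cyc.rootU p U)) (hker : ∀ u : ↥U, (cyc p).kum U b u = 0 ↔ (u : Gam) ∈ V)
    (hgood : ∀ r : Nat.Primes, r ∉ S → ∀ g, locH2 (r : ℕ) p U g (Cyc.sym U hμ a b) = 0) :
    ∃ L ∈ LS S, L.Normal ∧ L ≤ V ∧ ∃ β ∈ fixU L, ∀ r : Nat.Primes, r ∉ S → ∀ (g : Gam) (h : ↥U),
      (p : ℤ) ∣
        lv (r : ℕ) g (((a : Qbˣ) ^ p) ^ ((cyc p).kum U b h).val * (((h : Gam) • β) / β)) := by
  classical
  set x := (a : Qbˣ) ^ p
  have hx : x ∈ fixU U := rootU_pow_fixU a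
  obtain ⟨e, he⟩ := exists_exponents (p := p) (S := S) hx ((cyc p).kum U b)
    (fun g h => Cyc.kum_hom hμ b.2 g h) (fun r hr g σ => by
      by_cases hσ : (cyc p).kum U b (locHom (r : ℕ) U g σ) = 0
      · rw [hσ, zero_mul]
      · rw [(ZMod.intCast_zmod_eq_zero_iff_dvd _ p).2 (dvd_lv_of_good hμ a b hV hVU
          (fun u hu => (hker u).2 hu) hr g (hgood r hr g) hσ), mul_zero])
  obtain ⟨T₀, hT₀⟩ := exists_lv_support x
  let T := T₀ \ S
  have hplace : ∀ r : Nat.Primes, r ∉ S → ∀ g g', SamePlace (r : ℕ) V g g' → e r g' = e r g := by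
    rintro r hr g _ ⟨τ, c, hc, rfl⟩
    obtain ⟨he1, he2, -⟩ := he r hr
    rw [he2 _ ⟨c, hVU hc⟩, he1, (hker ⟨c, hVU hc⟩).2 hc, zero_mul, sub_zero]
  have hfin : ∀ r : Nat.Primes, Finite (Pl (r : ℕ) V) := fun r => finite_pl (LS_le_LG hV)
  let _ : ∀ r : Nat.Primes, Fintype (Pl (r : ℕ) V) := fun r => Fintype.ofFinite _
  have hP : ∀ P : (Σ r : ↥T, Pl ((r : Nat.Primes) : ℕ) V), ∃ L ∈ LS S, ∃ β ∈ fixU L,
      ∀ r' : Nat.Primes, r' ∉ S → ∀ g,
        ((Plc.mk r' g : Plc V) = Plc.mk P.1.1 P.2.rep → (lv (r' : ℕ) g β : ZMod p) = 1) ∧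
        ((Plc.mk r' g : Plc V) ≠ Plc.mk P.1.1 P.2.rep → (lv (r' : ℕ) g β : ZMod p) = 0) := fun P =>
    exists_unit_divisor hpS hV (Finset.mem_sdiff.1 P.1.2).2 P.2.rep
  choose L hL β hβ hβv using hP
  obtain ⟨L', hL', hL'le, hL'n⟩ := (LS S).exists_normal ((LS S).inf_mem hV
    (Finset.inf_induction (s := (Finset.univ : Finset (Σ r : ↥T, Pl ((r : Nat.Primes) : ℕ) V)))
      (f := L) (p := fun W => W ∈ LS S) (LS S).top_mem (fun a ha b hb => (LS S).inf_mem ha hb)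
      fun P _ => hL P))
  have hfix : ∀ P, β P ∈ fixU L' := fun P u =>
    hβ P ⟨u, Finset.inf_le (f := L) (Finset.mem_univ P) (hL'le u.2).2⟩
  let ex : (Σ r : ↥T, Pl ((r : Nat.Primes) : ℕ) V) → ℕ := fun P => (e P.1.1 P.2.rep).val
  refine ⟨L', hL', hL'n, hL'le.trans inf_le_left, ∏ P, β P ^ ex P,
    Subgroup.prod_mem _ fun P _ => pow_mem (hfix P) _, fun r hr g h => ?_⟩
  set βt := ∏ P, β P ^ ex P with hβt
  have hβtfix : βt ∈ fixU L' := Subgroup.prod_mem _ fun P _ => pow_mem (hfix P) _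
  have hlvt : ∀ g, (lv (r : ℕ) g βt : ZMod p) = e r g := by
    intro g
    have hsum : ∀ s : Finset (Σ r : ↥T, Pl ((r : Nat.Primes) : ℕ) V),
        (lv (r : ℕ) g (∏ P ∈ s, β P ^ ex P) : ZMod p) =
          ∑ P ∈ s, e P.1.1 P.2.rep * (lv (r : ℕ) g (β P) : ZMod p) := by
      intro s
      induction s using Finset.induction with
      | empty => simp [lv_one]
      | insert P s hPs ih =>
        rw [Finset.prod_insert hPs, Finset.sum_insert hPs, lv_mul hL' hr (pow_mem (hfix P) _)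
          (Subgroup.prod_mem _ fun P _ => pow_mem (hfix P) _), lv_pow hL' hr (hfix P),
          Int.cast_add, Int.cast_mul, ih, Int.cast_natCast, ZMod.natCast_zmod_val]
    rw [hβt, hsum]
    by_cases hrT : r ∈ T
    · rw [Finset.sum_eq_single (⟨⟨r, hrT⟩, Pl.mk g⟩ : Σ r : ↥T, Pl ((r : Nat.Primes) : ℕ) V)
        (fun P _ hne => ?_) (fun hn => absurd (Finset.mem_univ _) hn)]
      · rw [((hβv ⟨⟨r, hrT⟩, Pl.mk g⟩ r hr g).1 (congrArg (Sigma.mk r)
          (Pl.mk_rep (Pl.mk g : Pl (r : ℕ) V)).symm)), mul_one]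
        exact hplace r hr g _ (Pl.samePlace_rep g)
      · rw [(hβv P r hr g).2 fun hc => hne ?_, mul_zero]
        obtain ⟨⟨r', hr'⟩, P⟩ := P
        obtain rfl : r = r' := congrArg Sigma.fst hc
        have h2 : (Pl.mk g : Pl (r : ℕ) V) = Pl.mk P.rep := eq_of_heq (Sigma.mk.inj_iff.1 hc).2
        rw [h2, Pl.mk_rep]
    · rw [(he r hr).2.2 (fun g => hT₀ r (fun h => hrT (Finset.mem_sdiff.2 ⟨h, hr⟩)) g) g]
      refine Finset.sum_eq_zero fun P _ => ?_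
      rw [(hβv P r hr g).2 fun hc => hrT ?_, mul_zero]
      have : r = P.1.1 := congrArg Sigma.fst hc
      rw [this]
      exact P.1.2
  rw [← ZMod.intCast_zmod_eq_zero_iff_dvd]
  obtain ⟨M, hM, hMle, hMn⟩ := (LS S).exists_normal ((LS S).inf_mem hL' hU)
  have hxM : x ∈ fixU M := fun u => hx ⟨u, (hMle u.2).2⟩
  have hβM : βt ∈ fixU M := fun u => hβtfix ⟨u, (hMle u.2).1⟩
  have hsM : (h : Gam) • βt ∈ fixU M := smul_mem_fixU hβM _
  rw [lv_mul hM hr (pow_mem hxM _) (div_mem hsM hβM), lv_pow hM hr hxM, div_eq_mul_inv,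
    lv_mul hM hr hsM (inv_mem hβM), lv_inv hM hr hβM,
    show lv (r : ℕ) g ((h : Gam) • βt) = lv (r : ℕ) (g * h) βt from by
      by_cases hex : ∃ k : ℤ, nq (r : ℕ) (g * h) (βt : Qb) = ((r : ℕ) : ℝ) ^ k
      · obtain ⟨k, hk⟩ := hex
        rw [lv_eq hk, lv_eq (by rw [nq_smul]; exact hk)]
      · exact absurd ⟨_, nq_eq_zpow_lv hM hr hβM _⟩ hex]
  push_cast
  rw [ZMod.natCast_zmod_val, hlvt, hlvt, (he r hr).2.1]
  ring

section Lift

theorem mk2_add_eq_zero {k : Type*} [CommRing k] {G : Type*} [Group G] {L : Lv G} {M : Type*}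
    [AddCommGroup M] [Module k M] {ρ : Representation k G M} (x y : ↥(Z2 L ρ))
    (h : (fun i => (y : G × G → M) i + (x : G × G → M) i) ∈ B2 L ρ) :
    mk2 L ρ x + mk2 L ρ y = 0 := by
  rw [← map_add, mk2_eq_zero, ← mem_B2]
  convert h using 1
  funext i
  exact add_comm _ _

variable {V : Subgroup Gam}

/-- A symbol good outside `S` is a class of `G_S`. -/
theorem exists_infS_eq_neg_sym (hpS : pP p ∈ S) (hU : U ∈ LS S)
    (hμ : (cyc p).MuFix U) (hV : V ∈ LS S) (hVU : V ≤ U)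
    (a b : ↥(Cyc.rootU p U)) (hker : ∀ u : ↥U, (cyc p).kum U b u = 0 ↔ (u : Gam) ∈ V)
    (hb : ∃ g, (cyc p).kum U b g ≠ 0)
    (hgood : ∀ r : Nat.Primes, r ∉ S → ∀ g, locH2 (r : ℕ) p U g (Cyc.sym U hμ a b) = 0) :
    ∃ f : H2 (LSH S U) (triv (ZMod p) ↥U), infS p S U f = -Cyc.sym U hμ a b := by
  classical
  obtain ⟨L, hL, hLn, hLV, β, hβ, hdiv⟩ := exists_corrector hpS hU hμ hV hVU a b hker hgood
  let X := Cyc.chiOf hμ b.2 hb
  set x := (a : Qbˣ) ^ p with hxdef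
  have hx : x ∈ fixU U := rootU_pow_fixU a
  let Vf : ↥U → Qbˣ := fun h => x ^ (X.χ h).val * ((h : Gam) • β / β)
  have hχL : ∀ u : ↥U, (u : Gam) ∈ L → X.χ u = 0 := fun u hu => (hker u).2 (hLV hu)
  have hVconst : ∀ (h u : ↥U), (u : Gam) ∈ L → Vf (h * u) = Vf h := fun h u hu => by
    simp only [Vf, X.map_mul, hχL u hu, add_zero, Subgroup.coe_mul, mul_smul,
      hβ ⟨u, hu⟩]
  have hVfix : ∀ h : ↥U, Vf h ∈ fixU L := fun h =>
    mul_mem (pow_mem (show x ∈ fixU L from fun u => hx ⟨u, hVU (hLV u.2)⟩) _)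
      (div_mem (smul_mem_fixU hβ _) hβ)
  have hroot : ∀ h : ↥U, ∃ w : Qbˣ, w ^ p = Vf h ∧ ∃ W ∈ LS S, W ≤ L ∧ ∀ u ∈ W, u • w = w := by
    intro h
    obtain ⟨w, hw⟩ := Cyc.exists_root (Ω := Qb) (Fact.out : p.Prime).pos (Vf h)
    exact ⟨w, hw, exists_level_root hL hpS (by rw [hw]; exact hVfix h)
      fun r hr g => by rw [hw]; exact hdiv r hr g h⟩
  choose w hw Wl hWl _ hWfix using hroot
  let Ls := L.subgroupOf U
  have := LG.finiteIndex (LS_le_LG hL)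
  have hLsfin : Ls.FiniteIndex := inferInstanceAs (L.subgroupOf U).FiniteIndex
  let _ : Fintype (↥U ⧸ Ls) := Fintype.ofFinite _
  let W : ↥U → Qbˣ := fun h => w (h : ↥U ⧸ Ls).out
  have hWp : ∀ h, W h ^ p = Vf h := fun h => by
    obtain ⟨u, hu⟩ := QuotientGroup.mk_out_eq_mul Ls h
    show w (h : ↥U ⧸ Ls).out ^ p = _
    rw [hw, hu, hVconst _ _ u.2]
  obtain ⟨M, hM, hMle, hMn⟩ := (LS S).exists_normal ((LS S).inf_mem hL
    (Finset.inf_induction (s := (Finset.univ : Finset (↥U ⧸ Ls))) (f := fun c => Wl c.out)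
      (p := fun W => W ∈ LS S) (LS S).top_mem (fun a ha b hb => (LS S).inf_mem ha hb)
      fun c _ => hWl _))
  have hMW : ∀ (u : ↥U), (u : Gam) ∈ M → ∀ h, (u : Gam) • W h = W h := fun u hu h =>
    hWfix _ _ (Finset.inf_le (f := fun c : ↥U ⧸ Ls => Wl c.out) (Finset.mem_univ _) (hMle hu).2)
  have hMc : ∀ (h u : ↥U), (u : Gam) ∈ M → W (h * u) = W h := fun h u hu => by
    show w _ = w _
    rw [show ((h * u : ↥U) : ↥U ⧸ Ls) = (h : ↥U ⧸ Ls) from
      (QuotientGroup.eq.2 (show h⁻¹ * (h * u) ∈ Ls by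
        rw [inv_mul_cancel_left]; exact (hMle hu).1)).symm]
  let E : ↥U × ↥U → Qbˣ := fun hk =>
    X.carry x hk / ((hk.1 : Gam) • W hk.2 * W hk.1 / W (hk.1 * hk.2))
  have hcarry : ∀ h k : ↥U, X.carry x (h, k) ^ p * x ^ (X.χ (h * k)).val =
      x ^ (X.χ k).val * x ^ (X.χ h).val := fun h k => by
    rw [X.map_mul h k, Chi.carry]
    simp only
    split_ifs with hc
    · rw [← pow_add, ← pow_add]
      congr 1
      have := ZMod.val_add_val_of_le hc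
      omega
    · simp only [not_le] at hc
      rw [one_pow, one_mul, ← pow_add, ZMod.val_add_of_lt hc, add_comm]
  have hEp : ∀ hk, E hk ^ p = 1 := fun ⟨h, k⟩ => by
    simp only [E, div_pow, mul_pow, ← smul_pow', hWp, Vf]
    rw [div_eq_one, eq_div_iff_mul_eq', smul_mul', smul_pow', hx h, smul_div', ← mul_smul,
      ← Subgroup.coe_mul, ← mul_assoc, hcarry]
    apply Additive.ofMul.injective
    simp only [div_eq_mul_inv, ofMul_mul, ofMul_inv]
    abel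
  let f : ↥U × ↥U → ZMod p := fun hk => (cyc p).lg (E hk)
  have hfcon : Con2 (LSH S U) f := by
    refine ⟨M.subgroupOf U, subgroupOf_mem (H := U) hM, fun h k s hs t ht => ?_⟩
    have hst : ((k⁻¹ * s * k * t : ↥U) : Gam) ∈ M := by
      simp only [Subgroup.coe_mul, Subgroup.coe_inv]
      exact mul_mem (by simpa using hMn.conj_mem _ hs (k : Gam)⁻¹) ht
    have e : h * s * (k * t) = h * k * (k⁻¹ * s * k * t) := by group
    simp only [f, E, hMc _ _ hs, hMc _ _ ht, e, hMc _ _ hst, Subgroup.coe_mul, mul_smul,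
      hMW s hs, Chi.carry, X.map_mul, hχL s (hMle hs).1, hχL t (hMle ht).1, add_zero]
  have hE : ∀ hk, (cyc p).mu (f hk) = E hk := fun hk => (cyc p).mu_lg (hEp hk)
  have hWc : Con1 (LGH U) W :=
    ⟨M.subgroupOf U, subgroupOf_mem (H := U) (LS_le_LG hM), fun h s hs => hMc h s hs⟩
  have hrC : ∀ h : ↥U, (h : Gam) • (a : Qbˣ) ^ p = (a : Qbˣ) ^ p := a.2
  -- the difference is a coboundary
  have hB : (fun hk => Cyc.symC (cyc p) U a b hk + f hk) ∈ B2 (LGH U) (triv (ZMod p) ↥U) := by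
    rw [← Cyc.rep_comp_eq_triv hμ]
    refine Cyc.mem_B2_of_isCobU ⟨fun h => (a : Qbˣ) ^ (X.χ h).val / W h,
      (X.con_root _).map₂ hWc (· / ·), fun g h => ?_⟩
    have h1 := X.mu_cup (C := cyc p) hrC g h
    rw [← hxdef, show X.cup ((cyc p).kum U a) (g, h) = Cyc.symC (cyc p) U a b (g, h) from rfl] at h1
    beta_reduce
    rw [(cyc p).mu_add, hE, eq_div_of_mul_eq' h1]
    simp only [E]
    rw [smul_div']
    apply Additive.ofMul.injective
    simp only [div_eq_mul_inv, ofMul_mul, ofMul_inv]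
    abel
  have hfz : f ∈ Z2 (LSH S U) (triv (ZMod p) ↥U) := by
    refine ⟨(hfcon : f ∈ C2 (k := ZMod p) (LSH S U)), LinearMap.mem_ker.2 ?_⟩
    obtain ⟨y, -, hy⟩ := mem_B2.1 hB
    have h1 := d2_d1 (triv (ZMod p) ↥U) y
    rw [hy, show (fun hk => Cyc.symC (cyc p) U a b hk + f hk) = Cyc.symC (cyc p) U a b + f from rfl,
      map_add, LinearMap.mem_ker.1 (Cyc.symC_mem_Z2 hμ a.2 b.2).2, zero_add] at h1
    exact h1
  refine ⟨mk2 (LSH S U) (triv (ZMod p) ↥U) ⟨f, hfz⟩, ?_⟩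
  rw [eq_neg_iff_add_eq_zero]
  refine Eq.trans (congrArg (· + Cyc.sym U hμ a b)
    (infS_mk2 (p := p) (S := S) (H := U) ⟨f, hfz⟩)) ?_
  exact mk2_add_eq_zero _ _ hB

end Lift

/-- Classes of `G_S` with opposite invariants at two places and no other. -/
theorem exists_pair_LS (GI : GlobalInputs p) (hodd : p ≠ 2)
    (lam : ∀ q : Nat.Primes, H2 (LQ (q : ℕ)) (muQ p (q : ℕ)) →ₗ[ZMod p] ZMod p)
    (hlam : ∀ q, Function.Bijective (lam q))
    (hrec : ∀ (S : Finset Nat.Primes) (z : H2 LG (muG p)),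
      (∀ q, q ∉ S → locQ p (q : ℕ) z = 0) → ∑ q ∈ S, lam q (locQ p (q : ℕ) z) = 0)
    (hpS : pP p ∈ S) {j : ℕ} [U.Normal] (hU : U ∈ LS S) (hμ : (cyc p).MuFix U) (hUj : U ≤ Hm p j)
    (hns : ∀ r ∈ S, ∃ τ : GamQ ((r : Nat.Primes) : ℕ), localGaloisToGlobal (r : ℕ) τ ∈ U ∧
      localGaloisToGlobal (r : ℕ) τ ∉ Hm p (j + 1))
    (v w : PlS S U) (hvw : v ≠ w) :
    ∃ a : H2 (LSH S U) (triv (ZMod p) ↥U),
      invP lam (LS_le_LG hU) hμ v.1 v.2.rep (infS p S U a) = 1 ∧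
      invP lam (LS_le_LG hU) hμ w.1 w.2.rep (infS p S U a) = -1 ∧
      ∀ u, u ≠ v → u ≠ w → invP lam (LS_le_LG hU) hμ u.1 u.2.rep (infS p S U a) = 0 := by
  classical
  have hUG := LS_le_LG hU
  let b : ↥(Cyc.rootU p U) := ⟨zet p (j + 2), Cyc.rootU_mono hUj (zet_mem_rootU j)⟩
  have hker : ∀ u : ↥U, (cyc p).kum U b u = 0 ↔ (u : Gam) ∈ U ⊓ Hm p (j + 1) := fun u => by
    rw [Cyc.kum_eq_zero_iff b.2]
    exact ⟨fun h => ⟨u.2, mem_Hm.2 h⟩, fun h => mem_Hm.1 h.2⟩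
  have hbad : ∀ t : PlS S U, ∃ a, ¬ LocZero t.val (Cyc.sym U hμ a b) := by
    intro t
    obtain ⟨⟨r, hr⟩, P⟩ := t
    obtain ⟨g, hgP⟩ : ∃ g, g = P.rep := ⟨_, rfl⟩
    obtain ⟨τ, hτU, hτH⟩ := hns r hr
    have hτs : τ ∈ stab (r : ℕ) U g := (mem_stab_iff_of_normal _ _ g).2 hτU
    have hμ' := muFix_stab (r : ℕ) p g hμ
    obtain ⟨al, hal⟩ := Local.exists_sym_ne_zero_left (C := cycLoc (r : ℕ) p) hodd
      (stab_mem (r : ℕ) g hUG) hμ' ⟨_, embU_mem_rootU (r : ℕ) p g b.2⟩ ⟨⟨τ, hτs⟩, by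
        rw [kum_loc (r : ℕ) p g b.2]
        refine mul_ne_zero (Units.ne_zero _) fun h0 => hτH ?_
        have h1 := ((hker _).1 h0).2
        have := Hm_normal (p := p) (j + 1)
        rw [coe_locHom] at h1
        exact (mem_stab_iff_of_normal _ _ g).1 h1⟩
    obtain ⟨z, hz, u, hu, he, -⟩ := exists_global_approx (p := p) hodd hUG g
      (a := (al : (PadicAlgCl (r : ℕ))ˣ) ^ p) (fun σ => al.2 σ)
    obtain ⟨a, ha⟩ := exists_rootU_of_fixU (p := p) hz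
    refine ⟨a, fun h0 => hal ?_⟩
    rw [← ((locH2_sym_eq_zero_iff (r : ℕ) p g hμ a b).1 (by rw [hgP]; exact h0))]
    refine mk2_congr (funext fun σ => ?_)
    have hu' : u ∈ Cyc.rootU p (stab (r : ℕ) U g) := fun σ => by rw [smul_pow', hu σ]
    simp only [Cyc.symC]
    rw [kum_congr hμ' al.2 (mul_mem (embU_mem_rootU (r : ℕ) p g a.2) hu')
      (by rw [he, mul_pow, ← map_pow, ← smul_pow', ha]),
      Cyc.kum_mul (embU_mem_rootU (r : ℕ) p g a.2) hu', congrFun (kum_eq_zero_of_fixU hu),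
      Pi.zero_apply, add_zero]
  have hval : Function.Injective (PlS.val : PlS S U → Plc U) := fun t t' h => by
    obtain ⟨⟨r, hr⟩, P⟩ := t
    obtain ⟨⟨r', hr'⟩, P'⟩ := t'
    obtain rfl : r = r' := congrArg Sigma.fst h
    obtain rfl : P = P' := eq_of_heq (Sigma.mk.inj_iff.1 h).2
    rfl
  obtain ⟨a, hothers, hnot⟩ :=
    GI.exists_pair hUG hμ b v.val w.val (hval.ne hvw) (hbad v) (hbad w)
  have hgood : ∀ r : Nat.Primes, r ∉ S → ∀ g, locH2 (r : ℕ) p U g (Cyc.sym U hμ a b) = 0 := by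
    intro r hr g
    refine LocZero.at_mk (hothers _ (fun h => hr ?_) fun h => hr ?_)
    · rw [show r = (v.1 : Nat.Primes) from congrArg Sigma.fst h]; exact v.1.2
    · rw [show r = (w.1 : Nat.Primes) from congrArg Sigma.fst h]; exact w.1.2
  obtain ⟨τ, hτU, hτH⟩ := hns v.1 v.1.2
  obtain ⟨f, hf⟩ := exists_infS_eq_neg_sym hpS hU hμ
    ((LS S).inf_mem hU (Hm_mem_LS hpS (j + 1))) inf_le_left a b hker
    ⟨⟨_, hτU⟩, fun h0 => hτH ((hker _).1 h0).2⟩ hgood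
  have hinv : ∀ t : PlS S U, invP lam hUG hμ t.1 t.2.rep (infS p S U f) = 0 ↔
      LocZero t.val (Cyc.sym U hμ a b) := fun t => by
    rw [invP_eq_zero lam hodd hlam hUG hμ, hf, map_neg, neg_eq_zero]
    rfl
  have h0 : ∀ t, t ≠ v → t ≠ w → invP lam hUG hμ t.1 t.2.rep (infS p S U f) = 0 := fun t h1 h2 =>
    (hinv t).2 (hothers _ (hval.ne h1) (hval.ne h2))
  have hfin : ∀ r : Nat.Primes, Finite (Pl (r : ℕ) U) := fun r => finite_pl hUG
  let _ : ∀ r : Nat.Primes, Fintype (Pl (r : ℕ) U) := fun r => Fintype.ofFinite _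
  have hsum : invP lam hUG hμ v.1 v.2.rep (infS p S U f) +
      invP lam hUG hμ w.1 w.2.rep (infS p S U f) = 0 := by
    have h1 := sum_invP (S := S) lam hrec hUG hμ (infS p S U f)
      fun r hr g => locH2_infS_eq_zero hU hr g f
    rw [← Finset.sum_coe_sort S, ← Fintype.sum_sigma'] at h1
    rw [Fintype.sum_eq_add v w hvw fun t ht => h0 t ht.1 ht.2] at h1
    exact h1
  have hvne : invP lam hUG hμ v.1 v.2.rep (infS p S U f) ≠ 0 := fun h1 => by
    rw [h1, zero_add] at hsum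
    exact hnot ⟨(hinv v).1 h1, (hinv w).1 hsum⟩
  refine ⟨(invP lam hUG hμ v.1 v.2.rep (infS p S U f))⁻¹ • f, ?_, ?_, fun t h1 h2 => ?_⟩
  · rw [map_smul, map_smul, smul_eq_mul, inv_mul_cancel₀ hvne]
  · rw [map_smul, map_smul, smul_eq_mul, eq_neg_of_add_eq_zero_right hsum, mul_neg,
      inv_mul_cancel₀ hvne]
  · rw [map_smul, map_smul, h0 t h1 h2, smul_zero]

end Fermat.Agent.PT
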