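import Fermat.Agent.PT.DualMaps
import Fermat.Agent.PT.Lifting

/-!
# The pairing with a class lifted to an induced module

`rawF` pairs a pair (cocycle in the twisted dual with local trivialisations at `S`) with a class
of an induced module, as a weighted sum of local invariants; it only depends on the corestricted
class, by reciprocity.
-/

noncomputable section

namespace Fermat.Agent.PT

open Lv

variable {p : ℕ} [Fact p.Prime] {S : Finset Nat.Primes}

theorem compat_LS (r : Nat.Primes) :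
    Compat (LS S) (LQ (r : ℕ)) (localGaloisToGlobal (r : ℕ)) := fun U hU =>
  compat_local (r : ℕ) U (LS_le_LG hU)

theorem compat_LS_LG : Compat (LS S) LG (MonoidHom.id Gam) := compat_id fun _ hU => LS_le_LG hU

theorem muG_eq_one {U : Subgroup Gam} (hμ : (cyc p).MuFix U) : ∀ u ∈ U, muG p u = 1 :=
  Cyc.rep_eq_one hμ

section Kernel

variable {k : Type*} [CommRing k] {G : Type*} [Group G] (U : Subgroup G) [Fintype (G ⧸ U)]
variable {M : Type*} [AddCommGroup M] [Module k M] (ρ : Representation k G M)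

/-- The functions of sum zero in an induced module. -/
def kerRep : Representation k G ↥(LinearMap.ker (indSum (k := k) (M := M) U)) where
  toFun g := (indRep U ρ g).restrict fun f hf => by
    rw [LinearMap.mem_ker] at hf ⊢
    rw [indSum_equivariant, hf, map_zero]
  map_one' := LinearMap.ext fun f => Subtype.ext (LinearMap.congr_fun (map_one (indRep U ρ)) f.1)
  map_mul' g h := LinearMap.ext fun f =>
    Subtype.ext (LinearMap.congr_fun (map_mul (indRep U ρ) g h) f.1)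

theorem coe_kerRep (g : G) (f : ↥(LinearMap.ker (indSum (k := k) (M := M) U))) :
    (kerRep U ρ g f : G ⧸ U → M) = indRep U ρ g f := rfl

end Kernel

section Raw

variable {M : Type} [AddCommGroup M] [Module (ZMod p) M]

/-- Cocycles in the dual with local trivialisations at `S`. -/
def pairsA (S : Finset Nat.Primes) (ρ : Representation (ZMod p) Gam M) :
    Submodule (ZMod p) ((Gam → M →ₗ[ZMod p] ZMod p) × (↥S → M →ₗ[ZMod p] ZMod p)) where
  carrier := {a | a.1 ∈ Z1 (LS S) (dualR (muG p) ρ) ∧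
    ∀ (q : ↥S) (τ : GamQ ((q : Nat.Primes) : ℕ)), a.1 (localGaloisToGlobal _ τ) =
      dualR (muG p) ρ (localGaloisToGlobal _ τ) (a.2 q) - a.2 q}
  add_mem' := fun {a a'} h h' => ⟨add_mem h.1 h'.1, fun q τ => by
    simp only [Prod.fst_add, Prod.snd_add, Pi.add_apply, map_add, h.2 q τ, h'.2 q τ]
    abel⟩
  zero_mem' := ⟨zero_mem _, fun q τ => by simp⟩
  smul_mem' := fun c a h => ⟨Submodule.smul_mem _ c h.1, fun q τ => by
    simp only [Prod.smul_fst, Prod.smul_snd, Pi.smul_apply, map_smul, h.2 q τ, smul_sub]⟩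

variable {ρ : Representation (ZMod p) Gam M} {U : Subgroup Gam} [Fintype (Gam ⧸ U)]

theorem psi_equiv (a : ↥(pairsA S ρ)) (hU : ∀ g, ∀ u ∈ U, a.1.1 (g * u) = a.1.1 g) (q : ↥S) :
    Equiv' (localGaloisToGlobal ((q : Nat.Primes) : ℕ)) (indRep U ρ) (muQ p ((q : Nat.Primes) : ℕ))
      (PsiMap U (a.1.2 q) a.1.1) := fun τ φ =>
  PsiMap_equivariant (χ := muG p) (mem_Z1.1 a.2.1).2 hU (a.1.2 q)
    (localGaloisToGlobal ((q : Nat.Primes) : ℕ)) (a.2.2 q) τ φ

variable (lam : ∀ q : Nat.Primes, H2 (LQ (q : ℕ)) (muQ p (q : ℕ)) →ₗ[ZMod p] ZMod p)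

/-- The pairing of a pair with a class of an induced module. -/
def rawF (a : ↥(pairsA S ρ)) (hU : ∀ g, ∀ u ∈ U, a.1.1 (g * u) = a.1.1 g) :
    H2 (LS S) (indRep U ρ) →ₗ[ZMod p] ZMod p :=
  ∑ q : ↥S, lam q ∘ₗ H2map (compat_LS (q : Nat.Primes)) (psi_equiv a hU q)

theorem rawF_mk2 (a : ↥(pairsA S ρ)) (hU : ∀ g, ∀ u ∈ U, a.1.1 (g * u) = a.1.1 g)
    (x : ↥(Z2 (LS S) (indRep U ρ))) :
    rawF lam a hU (mk2 (LS S) (indRep U ρ) x) = ∑ q : ↥S, lam q
      (mk2 (LQ ((q : Nat.Primes) : ℕ)) (muQ p ((q : Nat.Primes) : ℕ))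
        ⟨pp2 (localGaloisToGlobal ((q : Nat.Primes) : ℕ)) (PsiMap U (a.1.2 q) a.1.1)
          (x : Gam × Gam → Gam ⧸ U → M), pp2_mem_Z2 (compat_LS (q : Nat.Primes))
            (psi_equiv a hU q) x.2⟩) := by
  simp only [rawF, LinearMap.sum_apply, LinearMap.comp_apply, H2map_mk2]

theorem rawF_add (a a' : ↥(pairsA S ρ)) (hU : ∀ g, ∀ u ∈ U, a.1.1 (g * u) = a.1.1 g)
    (hU' : ∀ g, ∀ u ∈ U, a'.1.1 (g * u) = a'.1.1 g)
    (hs : ∀ g, ∀ u ∈ U, (a + a').1.1 (g * u) = (a + a').1.1 g)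
    (B : H2 (LS S) (indRep U ρ)) :
    rawF lam (a + a') hs B = rawF lam a hU B + rawF lam a' hU' B := by
  obtain ⟨x, rfl⟩ := mk2_surjective B
  simp only [rawF_mk2, ← Finset.sum_add_distrib, ← map_add]
  refine Finset.sum_congr rfl fun q _ => congrArg (lam q) (mk2_congr (funext fun st => ?_))
  exact LinearMap.congr_fun (PsiMap_add U (a.1.2 q) (a'.1.2 q) a.1.1 a'.1.1)
    ((x : Gam × Gam → Gam ⧸ U → M) _)

theorem rawF_smul (c : ZMod p) (a : ↥(pairsA S ρ))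
    (hU : ∀ g, ∀ u ∈ U, a.1.1 (g * u) = a.1.1 g)
    (hs : ∀ g, ∀ u ∈ U, (c • a).1.1 (g * u) = (c • a).1.1 g) (B : H2 (LS S) (indRep U ρ)) :
    rawF lam (c • a) hs B = c • rawF lam a hU B := by
  obtain ⟨x, rfl⟩ := mk2_surjective B
  simp only [rawF_mk2, Finset.smul_sum, ← map_smul]
  refine Finset.sum_congr rfl fun q _ => congrArg (lam q) (mk2_congr (funext fun st => ?_))
  exact LinearMap.congr_fun (PsiMap_smul U c (a.1.2 q) a.1.1)
    ((x : Gam × Gam → Gam ⧸ U → M) _)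

/-- Compatibility with refinement of the level. -/
theorem rawF_fibSum {U' : Subgroup Gam} [Fintype (Gam ⧸ U')] (h : U' ≤ U) (a : ↥(pairsA S ρ))
    (hU : ∀ g, ∀ u ∈ U, a.1.1 (g * u) = a.1.1 g)
    (hU' : ∀ g, ∀ u ∈ U', a.1.1 (g * u) = a.1.1 g) (B : H2 (LS S) (indRep U' ρ)) :
    rawF lam a hU (H2push (LS S) (indRep U' ρ) (indRep U ρ) (fibSum (k := ZMod p) h)
      (fibSum_equivariant ρ h) B) = rawF lam a hU' B := by
  obtain ⟨x, rfl⟩ := mk2_surjective B
  rw [H2push_mk2, rawF_mk2, rawF_mk2]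
  refine Finset.sum_congr rfl fun q _ => congrArg (lam q) (mk2_congr (funext fun st => ?_))
  exact LinearMap.congr_fun (PsiMap_fibSum (M := M) h (a.1.2 q) hU)
    ((x : Gam × Gam → Gam ⧸ U' → M) _)

omit [Fintype (Gam ⧸ U)] in
theorem indMap_equivariant {N : Type} [AddCommGroup N] [Module (ZMod p) N]
    (ν : Representation (ZMod p) Gam N) (ψ : N →ₗ[ZMod p] M)
    (hψ : ∀ g n, ψ (ν g n) = ρ g (ψ n)) (g : Gam) (φ : Gam ⧸ U → N) :
    indMap (H := U) ψ (indRep U ν g φ) = indRep U ρ g (indMap (H := U) ψ φ) := by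
  funext x
  exact hψ _ _

/-- Naturality in the module. -/
theorem rawF_indMap {N : Type} [AddCommGroup N] [Module (ZMod p) N]
    {ν : Representation (ZMod p) Gam N} (ψ : N →ₗ[ZMod p] M)
    (hψ : ∀ g n, ψ (ν g n) = ρ g (ψ n)) (a : ↥(pairsA S ρ)) (a' : ↥(pairsA S ν))
    (h1 : ∀ g, a'.1.1 g = a.1.1 g ∘ₗ ψ) (h2 : ∀ q, a'.1.2 q = a.1.2 q ∘ₗ ψ)
    (hU : ∀ g, ∀ u ∈ U, a.1.1 (g * u) = a.1.1 g)
    (hU' : ∀ g, ∀ u ∈ U, a'.1.1 (g * u) = a'.1.1 g) (B : H2 (LS S) (indRep U ν)) :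
    rawF lam a hU (H2push (LS S) (indRep U ν) (indRep U ρ) (indMap (H := U) ψ)
      (indMap_equivariant ν ψ hψ) B) = rawF lam a' hU' B := by
  obtain ⟨x, rfl⟩ := mk2_surjective B
  rw [H2push_mk2, rawF_mk2, rawF_mk2]
  refine Finset.sum_congr rfl fun q _ => congrArg (lam q) (mk2_congr (funext fun st => ?_))
  refine (LinearMap.congr_fun (PsiMap_indMap (N := N) U ψ (a.1.2 q) a.1.1)
    ((x : Gam × Gam → Gam ⧸ U → N) _)).trans ?_
  rw [← h2 q, ← funext h1]
  rfl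

end Raw

/-! ### Reciprocity -/

/-- A class of `G_S` as a class of the absolute group, with values in `μ_p`. -/
def infG (S : Finset Nat.Primes) : H2 (LS S) (muG p) →ₗ[ZMod p] H2 LG (muG p) :=
  H2map (ρ := muG p) (ρ' := muG p) (compat_LS_LG (S := S)) (φ := LinearMap.id) (fun _ _ => rfl)

theorem infG_mk2 (f : ↥(Z2 (LS S) (muG p))) :
    infG S (mk2 (LS S) (muG p) f) = mk2 LG (muG p)
      ⟨pp2 (MonoidHom.id Gam) LinearMap.id (f : Gam × Gam → ZMod p),
        pp2_mem_Z2 (compat_LS_LG (S := S)) (φ := LinearMap.id) (fun _ _ => rfl) f.2⟩ := rfl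

/-- Classes of `G_S` are trivial outside `S`. -/
theorem locQ_infG_eq_zero (hpS : pP p ∈ S) {r : Nat.Primes} (hr : r ∉ S) (z : H2 (LS S) (muG p)) :
    locQ p (r : ℕ) (infG S z) = 0 := by
  refine resTriv_injective (stab_mem (r : ℕ) 1 (Hm_mem (p := p) 0))
    (muFix_stab (r : ℕ) p 1 (Hm_muFix 0)) (not_dvd_stab_index 1) ?_
  rw [map_zero, ← locH2_glRes (Hm_muFix (p := p) 0)]
  have e : glRes (Hm_muFix (p := p) 0) (infG S z) =
      infS p S (Hm p 0)
      (H2eq (LSH S (Hm p 0)) (muG_comp (Hm_muFix (p := p) 0)) (res (LS S) (muG p) (Hm p 0) z)) := by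
    obtain ⟨f, rfl⟩ := mk2_surjective z
    simp only [infG_mk2, glRes, LinearMap.comp_apply, LinearEquiv.coe_coe, res_mk2, H2eq_mk2,
      infS_mk2]
    rfl
  rw [e]
  exact locH2_infS_eq_zero (Hm_mem_LS hpS 0) hr 1 _

section Kill

variable {M : Type} [AddCommGroup M] [Module (ZMod p) M] {ρ : Representation (ZMod p) Gam M}
variable {U : Subgroup Gam} [Fintype (Gam ⧸ U)]
variable (lam : ∀ q : Nat.Primes, H2 (LQ (q : ℕ)) (muQ p (q : ℕ)) →ₗ[ZMod p] ZMod p)

/-- The pairing only depends on the corestricted class. -/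
theorem rawF_eq_zero_of_push (hrec : ∀ (S : Finset Nat.Primes) (z : H2 LG (muG p)),
      (∀ q, q ∉ S → locQ p (q : ℕ) z = 0) → ∑ q ∈ S, lam q (locQ p (q : ℕ) z) = 0)
    (hpS : pP p ∈ S) (hUL : U ∈ LS S) (hρ : Smooth (LS S) ρ) (a : ↥(pairsA S ρ))
    (hU : ∀ g, ∀ u ∈ U, a.1.1 (g * u) = a.1.1 g) (B : H2 (LS S) (indRep U ρ))
    (hB : H2push (LS S) (indRep U ρ) ρ (indSum (k := ZMod p) U) (indSum_equivariant U ρ) B = 0) :
    rawF lam a hU B = 0 := by
  classical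
  let ψ := indSum (k := ZMod p) (M := M) U
  let s : M →ₗ[ZMod p] (Gam ⧸ U → M) := LinearMap.single (ZMod p) (fun _ => M) ((1 : Gam) : Gam ⧸ U)
  have hs : ∀ m, ψ (s m) = m := fun m => by simp [ψ, s, indSum_apply]
  let r : (Gam ⧸ U → M) →ₗ[ZMod p] ↥(LinearMap.ker ψ) :=
    (LinearMap.id - s ∘ₗ ψ).codRestrict _ fun x => by simp [hs]
  obtain ⟨β, rfl⟩ := exists_of_push_eq_zero (ν := kerRep U ρ) (LinearMap.ker ψ).subtype
    (fun g n => coe_kerRep U ρ g n) ψ (indSum_equivariant U ρ) s hs r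
    (fun n => Subtype.ext (by simp [r]))
    (fun x hx => by simp [r, hx]) (smooth_indRep hUL hρ) B hB
  let Θ : ↥(LinearMap.ker ψ) →ₗ[ZMod p] ZMod p :=
    PsiMap U 0 a.1.1 ∘ₗ (LinearMap.ker ψ).subtype
  have hΘ : ∀ g n, Θ (kerRep U ρ g n) = muG p g (Θ n) := fun g n =>
    PsiMap_zero_equivariant (χ := muG p) (mem_Z1.1 a.2.1).2 hU g (LinearMap.mem_ker.1 n.2)
  have h1 := hrec S (infG S (H2push (LS S) (kerRep U ρ) (muG p) Θ hΘ β))
    fun r hr => locQ_infG_eq_zero hpS hr _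
  rw [← h1, ← Finset.sum_coe_sort S]
  obtain ⟨x, rfl⟩ := mk2_surjective β
  refine ((congrArg (rawF lam a hU) (H2push_mk2 _ _ x)).trans (rawF_mk2 lam a hU _)).trans ?_
  refine Finset.sum_congr rfl fun q _ => congrArg (lam q) ?_
  simp only [H2push_mk2, infG_mk2, locQ_mk2]
  refine mk2_congr (funext fun st => ?_)
  exact PsiMap_of_indSum U (a.1.2 q) a.1.1
    (LinearMap.mem_ker.1 ((x : Gam × Gam → ↥(LinearMap.ker ψ)) _).2)

/-! ### Test classes -/

omit [Fintype (Gam ⧸ U)] in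
theorem orbMap_eq_smul {q : ℕ} [Fact q.Prime] (g : Gam) (τ : GamQ q) :
    orbMap q g ((τ : GamQ q ⧸ stab q U g)) = localGaloisToGlobal q τ • (g : Gam ⧸ U) := rfl

variable (hρ : ∀ u ∈ U, ρ u = 1) (hμ : (cyc p).MuFix U)
include hρ

/-- The pairing on test classes is a weighted sum of invariants. -/
theorem rawF_eps [∀ r : Nat.Primes, Fintype (Pl (r : ℕ) U)] (hUL : U ∈ LS S) (a : ↥(pairsA S ρ))
    (hU : ∀ g, ∀ u ∈ U, a.1.1 (g * u) = a.1.1 g) (m : M)
    (B : H2 (LS S) (indRep U (muG p))) :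
    rawF lam a hU (H2push (LS S) (indRep U (muG p)) (indRep U ρ)
        (epsMap (U := U) (muG p) ρ m) (epsMap_equivariant hρ (muG_eq_one hμ) m) B) =
      ∑ q : ↥S, ∑ v : Pl ((q : Nat.Primes) : ℕ) U,
        wt (muG p) ρ (a.1.2 q) a.1.1 m (v.rep : Gam ⧸ U) *
          invP lam (LS_le_LG hUL) hμ q v.rep
            (infS p S U (H2eq _ (muG_comp hμ) (sh U (muG p) (LS S) B))) := by
  classical
  have hUG := LS_le_LG hUL
  obtain ⟨⟨x, hx⟩, rfl⟩ := mk2_surjective B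
  rw [H2push_mk2, rawF_mk2]
  refine Finset.sum_congr rfl fun q _ => ?_
  have hfi : ∀ v : Pl ((q : Nat.Primes) : ℕ) U, (stab ((q : Nat.Primes) : ℕ) U v.rep).FiniteIndex :=
    fun v => (LQ ((q : Nat.Primes) : ℕ)).finiteIndex (stab_mem _ v.rep hUG)
  let _ : ∀ v : Pl ((q : Nat.Primes) : ℕ) U,
      Fintype (GamQ ((q : Nat.Primes) : ℕ) ⧸ stab ((q : Nat.Primes) : ℕ) U v.rep) := fun v =>
    Fintype.ofFinite _
  let xG : ↥(Z2 LG (indRep U (muG p))) :=
    ⟨pp2 (MonoidHom.id Gam) LinearMap.id x,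
      pp2_mem_Z2 (compat_LS_LG (S := S)) (φ := LinearMap.id) (fun _ _ => rfl) hx⟩
  -- each summand
  have key : ∀ v : Pl ((q : Nat.Primes) : ℕ) U,
      coresTriv (stab_mem ((q : Nat.Primes) : ℕ) v.rep hUG)
        (muFix_stab ((q : Nat.Primes) : ℕ) p v.rep hμ)
        (locH2 ((q : Nat.Primes) : ℕ) p U v.rep
          (infS p S U (H2eq _ (muG_comp hμ) (sh U (muG p) (LS S)
            (mk2 (LS S) (indRep U (muG p)) ⟨x, hx⟩))))) =
      H2push (LQ ((q : Nat.Primes) : ℕ))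
        (indRep (stab ((q : Nat.Primes) : ℕ) U v.rep) (muQ p ((q : Nat.Primes) : ℕ)))
        (muQ p ((q : Nat.Primes) : ℕ)) (indSum (k := ZMod p) (stab ((q : Nat.Primes) : ℕ) U v.rep))
        (indSum_equivariant _ (muQ p ((q : Nat.Primes) : ℕ)))
        (H2map (compat_local _) (compPl_equivariant _ (muG p) v.rep)
          (mk2 LG (indRep U (muG p)) xG)) := fun v => by
    have e : infS p S U (H2eq _ (muG_comp hμ) (sh U (muG p) (LS S)
        (mk2 (LS S) (indRep U (muG p)) ⟨x, hx⟩))) =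
        H2eq _ (muG_comp hμ) (sh U (muG p) LG (mk2 LG (indRep U (muG p)) xG)) := by
      simp only [sh, H2map_mk2, H2eq_mk2, infS_mk2]
      rfl
    rw [e, ← locR_eq_locH2 hμ, LinearEquiv.symm_apply_apply, coresTriv, LinearMap.comp_apply,
      LinearEquiv.coe_coe, LinearEquiv.symm_apply_apply, ← sh_compPl, cores_sh]
  have hinv : ∀ v : Pl ((q : Nat.Primes) : ℕ) U, invP lam hUG hμ q v.rep
      (infS p S U (H2eq _ (muG_comp hμ) (sh U (muG p) (LS S)
        (mk2 (LS S) (indRep U (muG p)) ⟨x, hx⟩)))) =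
      lam q (H2push (LQ ((q : Nat.Primes) : ℕ))
        (indRep (stab ((q : Nat.Primes) : ℕ) U v.rep) (muQ p ((q : Nat.Primes) : ℕ)))
        (muQ p ((q : Nat.Primes) : ℕ)) (indSum (k := ZMod p) (stab ((q : Nat.Primes) : ℕ) U v.rep))
        (indSum_equivariant _ (muQ p ((q : Nat.Primes) : ℕ)))
        (H2map (compat_local _) (compPl_equivariant _ (muG p) v.rep)
          (mk2 LG (indRep U (muG p)) xG))) := fun v => by
    rw [← key v]
    rfl
  simp only [hinv, H2map_mk2, H2push_mk2]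
  rw [← Finset.sum_congr rfl fun v _ => smul_eq_mul (wt (muG p) ρ (a.1.2 q) a.1.1 m _) _,
    ← Finset.sum_congr rfl fun v _ => map_smul (lam q) _ _, ← map_sum]
  simp only [← map_smul]
  rw [← map_sum]
  refine congrArg (lam q) (mk2_congr (funext fun st => ?_))
  simp only [AddSubmonoidClass.coe_finsetSum, Finset.sum_apply, SetLike.val_smul, Pi.smul_apply,
    smul_eq_mul]
  refine (PsiMap_epsMap (a.1.2 q) a.1.1 m _).trans ?_
  refine Eq.trans (sum_compPl (q := ((q : Nat.Primes) : ℕ)) (p := p) (H := U) fun y =>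
      (x (localGaloisToGlobal _ st.1, localGaloisToGlobal _ st.2) y) *
        wt (muG p) ρ (a.1.2 q) a.1.1 m y) (Finset.sum_congr rfl fun v _ => ?_)
  · rw [indSum_apply, indSum_apply, Finset.mul_sum]
    refine Finset.sum_congr rfl fun y _ => ?_
    induction y using QuotientGroup.induction_on with | _ τ => ?_
    show x _ (orbMap _ v.rep _) * wt (muG p) ρ (a.1.2 q) a.1.1 m (orbMap _ v.rep _) = _ * x _ _
    rw [orbMap_eq_smul, wt_smul (χ := muG p) (mem_Z1.1 a.2.1).2 hU hρ (muG_eq_one hμ)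
      (a.2.2 q τ), mul_comm]
    rfl

end Kill

end Fermat.Agent.PT
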