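import Fermat.Agent.PT.DimBound

/-!
# Layers moved by decomposition groups; radicals with prescribed divisor outside `S`

Inside any open normal subgroup some cyclotomic layer is moved by the decomposition groups at all
primes of `S`; radicals with a prescribed divisor outside `S` modulo `p`.
-/

noncomputable section

namespace Fermat.Agent.PT

open Lv

local notation "Qb" => AlgebraicClosure ℚ

variable {p : ℕ} [Fact p.Prime]

/-! ### The layers -/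

theorem mem_Hm_pow {k : ℕ} (hk : 1 ≤ k) {g : Gam} (hg : g ∈ Hm p k) (hg' : g ∉ Hm p (k + 1)) :
    g ^ p ∈ Hm p (k + 1) ∧ g ^ p ∉ Hm p (k + 2) := by
  have hp : p.Prime := Fact.out
  have : NeZero (p ^ 2) := ⟨pow_ne_zero _ hp.ne_zero⟩
  obtain ⟨η, hη⟩ : ∃ η : Qbˣ, η = (g • zet p (k + 3)) / zet p (k + 3) := ⟨_, rfl⟩
  have h3 : g • zet p (k + 3) = η * zet p (k + 3) := by rw [hη, div_mul_cancel]
  have h2 : g • zet p (k + 2) = η ^ p * zet p (k + 2) := by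
    rw [← zet_succ_pow p (k + 2), smul_pow', h3, mul_pow]
  have h1 : η ^ p ^ 2 = 1 := by
    have h : g • zet p (k + 1) = η ^ p ^ 2 * zet p (k + 1) := by
      rw [← zet_succ_pow p (k + 1), smul_pow', h2, mul_pow, ← pow_mul, ← sq]
    rwa [mem_Hm.1 hg, eq_comm, mul_eq_right] at h
  have hη2 : g • η = η := by
    obtain ⟨i, -, hi⟩ := ((zet_primitive p 2).map_of_injective (f := Units.coeHom Qb)
      Units.val_injective).eq_pow_of_pow_eq_one (ξ := (η : Qb)) (by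
      rw [← Units.val_pow_eq_pow_val, h1, Units.val_one])
    have he : η = zet p 2 ^ i := Units.ext (by simpa using hi.symm)
    have h0 : g • zet p 2 = zet p 2 := by
      have hle : Hm p k ≤ Hm p 1 := Nat.le_induction le_rfl
        (fun n _ ih => (Hm_succ_le n).trans ih) k hk
      exact mem_Hm.1 (hle hg)
    rw [he, smul_pow', h0]
  have hpow : ∀ n, (g ^ n) • zet p (k + 3) = η ^ n * zet p (k + 3) := by
    intro n
    induction n with
    | zero => simp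
    | succ n ih => rw [pow_succ', mul_smul, ih, smul_mul', smul_pow', hη2, h3, ← mul_assoc,
        ← pow_succ]
  constructor
  · rw [mem_Hm]
    show g ^ p • zet p (k + 2) = zet p (k + 2)
    rw [← zet_succ_pow p (k + 2), smul_pow', hpow, mul_pow, ← pow_mul, ← sq, h1, one_mul]
  · intro h
    have h0 : (g ^ p) • zet p (k + 3) = zet p (k + 3) := mem_Hm.1 h
    rw [hpow, mul_eq_right] at h0
    refine hg' (mem_Hm.2 ?_)
    show g • zet p (k + 2) = zet p (k + 2)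
    rw [h2, h0, one_mul]

theorem mem_Hm_pow_iter {g : Gam} {i : ℕ} (hi : 1 ≤ i) (hg : g ∈ Hm p i) (hg' : g ∉ Hm p (i + 1)) :
    ∀ t, g ^ p ^ t ∈ Hm p (i + t) ∧ g ^ p ^ t ∉ Hm p (i + t + 1)
  | 0 => by simpa using ⟨hg, hg'⟩
  | t + 1 => by
    obtain ⟨h, h'⟩ := mem_Hm_pow_iter hi hg hg' t
    rw [pow_succ, pow_mul]
    exact mem_Hm_pow (hi.trans (Nat.le_add_right i t)) h h'

theorem mem_Hm_iff_cyK {k : ℕ} {g : Gam} : g ∈ Hm p k ↔ cyK p (k + 1) g = 1 := MonoidHom.mem_ker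

/-- At every prime the cyclotomic tower eventually moves inside any open normal subgroup. -/
theorem exists_layer_at {U : Subgroup Gam} (hU : U ∈ LG) [U.Normal] (r : Nat.Primes) :
    ∃ i, ∀ j, i ≤ j → ∃ τ : GamQ (r : ℕ), localGaloisToGlobal (r : ℕ) τ ∈ U ∧
      localGaloisToGlobal (r : ℕ) τ ∈ Hm p j ∧ localGaloisToGlobal (r : ℕ) τ ∉ Hm p (j + 1) := by
  classical
  have hp : p.Prime := Fact.out
  have := LG.finiteIndex hU
  obtain ⟨N, hNdef⟩ : ∃ N, N = U.index * (p ^ 2).totient := ⟨_, rfl⟩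
  have hN : 0 < N := hNdef ▸ Nat.mul_pos (Nat.pos_of_ne_zero Subgroup.FiniteIndex.index_ne_zero)
    (Nat.totient_pos.2 (pow_pos hp.pos 2))
  obtain ⟨ℓ, hℓ1, hℓ⟩ : ∃ ℓ : ℕ, 1 < ℓ ∧ ∀ K, ∃ τ : GamQ (r : ℕ),
      (cyK p (K + 1) (localGaloisToGlobal (r : ℕ) τ) : ZMod (p ^ (K + 1))) =
        (ℓ : ZMod (p ^ (K + 1))) := by
    by_cases hr : (r : ℕ) = p
    · obtain rfl : r = pP p := Subtype.ext hr
      refine ⟨1 + p, by have := hp.pos; omega, fun K => ?_⟩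
      obtain ⟨a, ha⟩ : ∃ a : (ZMod (p ^ (K + 1)))ˣ,
          (a : ZMod (p ^ (K + 1))) = ((1 + p : ℕ) : ZMod _) :=
        ⟨ZMod.unitOfCoprime (1 + p) ((hp.coprime_iff_not_dvd.2 fun h =>
          hp.not_dvd_one ((Nat.dvd_add_left dvd_rfl).1 h)).pow_left _).symm,
          ZMod.coe_unitOfCoprime _ _⟩
      obtain ⟨σ, hσ⟩ := cyK_surjective (K + 1) a
      obtain ⟨τ, hτ⟩ := exists_local_p (p := p) K σ
      refine ⟨τ, ?_⟩
      rw [mem_Hm_iff_cyK, map_mul, map_inv, inv_mul_eq_one] at hτ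
      exact (congrArg Units.val (hτ.trans hσ)).trans ha
    · refine ⟨r, r.2.one_lt, fun K => ?_⟩
      obtain ⟨τ, hτ, -⟩ := exists_frob (p := p) (q := (r : ℕ)) hr K
      exact ⟨τ, hτ⟩
  obtain ⟨τ, hτ⟩ := hℓ (ℓ ^ N)
  set σ := localGaloisToGlobal (r : ℕ) τ ^ N with hσdef
  have hσU : σ ∈ U := by
    rw [hσdef, hNdef, pow_mul]
    exact pow_mem (Subgroup.pow_index_mem U _) _
  have hσ1 : σ ∈ Hm p 1 := by
    rw [mem_Hm_iff_cyK, hσdef, map_pow, hNdef, mul_comm, pow_mul]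
    have : NeZero (p ^ 2) := ⟨pow_ne_zero _ hp.ne_zero⟩
    rw [ZMod.pow_totient, one_pow]
  have hσK : σ ∉ Hm p (ℓ ^ N) := fun h => by
    rw [mem_Hm_iff_cyK, hσdef, map_pow] at h
    have h1 := congrArg Units.val h
    rw [Units.val_pow_eq_pow_val, hτ, ← Nat.cast_pow, Units.val_one] at h1
    have hlt : ℓ ^ N < p ^ (ℓ ^ N + 1) :=
      lt_of_lt_of_le (Nat.lt_succ_self _) (Nat.lt_pow_self hp.one_lt).le
    have h2 := congrArg ZMod.val h1
    have : Fact (1 < p ^ (ℓ ^ N + 1)) := ⟨Nat.one_lt_pow (Nat.succ_ne_zero _) hp.one_lt⟩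
    rw [ZMod.val_natCast, Nat.mod_eq_of_lt hlt, ZMod.val_one] at h2
    exact (Nat.one_lt_pow hN.ne' hℓ1).ne' h2
  have hex : ∃ i, σ ∉ Hm p i := ⟨_, hσK⟩
  obtain ⟨i, hi⟩ : ∃ i, i + 1 = Nat.find hex := by
    refine ⟨Nat.find hex - 1, Nat.succ_pred_eq_of_pos ?_⟩
    rcases Nat.eq_zero_or_pos (Nat.find hex) with h | h
    · exact absurd (Hm_succ_le 0 hσ1) (h ▸ Nat.find_spec hex)
    · exact h
  have hi' : σ ∉ Hm p (i + 1) := hi ▸ Nat.find_spec hex
  have hiσ : σ ∈ Hm p i := not_not.1 (Nat.find_min hex (by omega))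
  have hi1 : 1 ≤ i := Nat.one_le_iff_ne_zero.2 fun h => hi' (by rw [h]; exact hσ1)
  refine ⟨i, fun j hj => ⟨τ ^ (N * p ^ (j - i)), ?_⟩⟩
  obtain ⟨t, rfl⟩ := Nat.exists_eq_add_of_le hj
  rw [map_pow, pow_mul, ← hσdef, Nat.add_sub_cancel_left]
  exact ⟨pow_mem hσU _, mem_Hm_pow_iter hi1 hiσ hi' t⟩

/-- A layer which is moved at every prime of `S` inside `U`. -/
theorem exists_layer {S : Finset Nat.Primes} {U : Subgroup Gam} (hU : U ∈ LG) [U.Normal] :
    ∃ j, ∀ r ∈ S, ∃ τ : GamQ ((r : Nat.Primes) : ℕ),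
      localGaloisToGlobal (r : ℕ) τ ∈ U ⊓ Hm p j ∧
        localGaloisToGlobal (r : ℕ) τ ∉ Hm p (j + 1) := by
  choose i hi using fun r : Nat.Primes => exists_layer_at (p := p) hU r
  refine ⟨S.sup i, fun r hr => ?_⟩
  obtain ⟨τ, h1, h2, h3⟩ := hi r _ (Finset.le_sup hr)
  exact ⟨τ, ⟨h1, h2⟩, h3⟩

theorem Hm_mem_LS {S : Finset Nat.Primes} (hpS : pP p ∈ S) (j : ℕ) : Hm p j ∈ LS S :=
  mem_LS_of_inertia (Hm_mem j) fun r hr =>
    inN_Hm (fun h => hr (by rwa [show r = pP p from Subtype.ext h])) j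

/-! ### Divisors -/

variable {S : Finset Nat.Primes} {H : Subgroup Gam}

/-- An algebraic number is a unit outside a finite set of primes. -/
theorem exists_lv_support (x : Qbˣ) :
    ∃ T : Finset Nat.Primes, ∀ r ∉ T, ∀ g, lv (r : ℕ) g x = 0 := by
  classical
  have hint : ∀ y : Qb, ∃ n : ℕ, n ≠ 0 ∧ IsIntegral ℤ ((n : Qb) * y) := fun y => by
    obtain ⟨c, hc, h⟩ := exists_zsmul_isIntegral y
    refine ⟨c.natAbs, Int.natAbs_ne_zero.2 hc, ?_⟩
    rw [zsmul_eq_mul] at h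
    rcases Int.natAbs_eq c with e | e <;> rw [e] at h
    · simpa using h
    · simpa using h.neg
  obtain ⟨n, hn0, hn⟩ := hint x
  obtain ⟨n', hn0', hn'⟩ := hint ((x⁻¹ : Qbˣ) : Qb)
  refine ⟨(n * n').primeFactors.attach.image fun q => ⟨q.1, Nat.prime_of_mem_primeFactors q.2⟩,
    fun r hr g => lv_eq ?_⟩
  have hnd : ¬ (r : ℕ) ∣ n * n' := fun hd => hr (Finset.mem_image.2
    ⟨⟨r, Nat.mem_primeFactors.2 ⟨r.2, hd, mul_ne_zero hn0 hn0'⟩⟩, Finset.mem_attach _ _,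
      Subtype.ext rfl⟩)
  have hone : ∀ m : ℕ, ¬ (r : ℕ) ∣ m → nq (r : ℕ) g (m : Qb) = 1 := fun m hm => by
    rw [show (m : Qb) = ((m : ℚ) : Qb) by simp, nq_ratCast, Rat.cast_natCast]
    exact le_antisymm (IsUltrametricDist.norm_natCast_le_one _ m) (not_lt.1 fun h =>
      hm ((Padic.norm_natCast_lt_one_iff).1 h))
  have h1 := nq_le_one_of_isIntegral (q := (r : ℕ)) g hn
  have h2 := nq_le_one_of_isIntegral (q := (r : ℕ)) g hn'
  rw [nq_mul, hone n fun h => hnd (h.mul_right _), one_mul] at h1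
  rw [nq_mul, hone n' fun h => hnd (h.mul_left _), one_mul, Units.val_inv_eq_inv_val, nq_inv,
    inv_le_one₀ (nq_pos g x.ne_zero)] at h2
  rw [zpow_zero]
  exact le_antisymm h1 h2

/-- A root of `p`-power order when the divisor outside `S` is divisible. -/
theorem exists_pow_root (hpS : pP p ∈ S) :
    ∀ (t : ℕ) {L : Subgroup Gam} (_ : L ∈ LS S) {y : Qbˣ} (_ : y ∈ fixU L)
      (d : Nat.Primes → Gam → ℤ),
      (∀ r : Nat.Primes, r ∉ S → ∀ g, lv (r : ℕ) g y = (p : ℤ) ^ t * d r g) →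
      ∃ L' ∈ LS S, ∃ z ∈ fixU L', ∀ r : Nat.Primes, r ∉ S → ∀ g, lv (r : ℕ) g z = d r g
  | 0, L, hL, y, hy, d, h => ⟨L, hL, y, hy, fun r hr g => by rw [h r hr g, pow_zero, one_mul]⟩
  | t + 1, L, hL, y, hy, d, h => by
    obtain ⟨s, hs⟩ := Cyc.exists_root (Ω := Qb) (Fact.out : p.Prime).pos y
    obtain ⟨L', hL', -, hfix⟩ := exists_level_root hL hpS (r := s) (by rw [hs]; exact hy)
      fun r hr g => by rw [hs, h r hr g, pow_succ', mul_assoc]; exact dvd_mul_right _ _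
    refine exists_pow_root hpS t hL' (y := s) (fun u => hfix u u.2) d fun r hr g => ?_
    have h1 := lv_pow hL' hr (x := s) (fun u => hfix u u.2) p g
    rw [hs, h r hr g, pow_succ', mul_assoc] at h1
    exact (mul_left_cancel₀ (Nat.cast_ne_zero.2 (Fact.out : p.Prime).ne_zero) h1).symm

/-- A radical with a single place in its divisor outside `S`, modulo `p`. -/
theorem exists_unit_divisor (hpS : pP p ∈ S) (hH : H ∈ LS S) {r : Nat.Primes} (hr : r ∉ S)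
    (g₀ : Gam) :
    ∃ L ∈ LS S, ∃ β ∈ fixU L, ∀ r' : Nat.Primes, r' ∉ S → ∀ g,
      ((Plc.mk r' g : Plc H) = Plc.mk r g₀ → (lv (r' : ℕ) g β : ZMod p) = 1) ∧
      ((Plc.mk r' g : Plc H) ≠ Plc.mk r g₀ → (lv (r' : ℕ) g β : ZMod p) = 0) := by
  classical
  have hp : p.Prime := Fact.out
  obtain ⟨c, hc, hlt, hone⟩ := exists_supported_at_place (LS_le_LG hH) r g₀
  set k := lv (r : ℕ) g₀ c
  have hk : k ≠ 0 := fun h0 => by
    have h1 := nq_eq_zpow_lv hH hr hc g₀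
    rw [show lv (r : ℕ) g₀ c = 0 from h0, zpow_zero] at h1
    exact hlt.ne h1
  obtain ⟨t, N, hN, hkN⟩ : ∃ (t : ℕ) (N : ℤ), ¬(p : ℤ) ∣ N ∧ k = (p : ℤ) ^ t * N := by
    have hf : FiniteMultiplicity (p : ℤ) k :=
      Int.finiteMultiplicity_iff.2 ⟨by simpa using hp.ne_one, hk⟩
    obtain ⟨N, hkN, hN⟩ := hf.exists_eq_pow_mul_and_not_dvd
    exact ⟨_, N, hN, hkN⟩
  have hlv : ∀ (r' : Nat.Primes), r' ∉ S → ∀ g, lv (r' : ℕ) g c =
      (p : ℤ) ^ t * if (Plc.mk r' g : Plc H) = Plc.mk r g₀ then N else 0 := by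
    intro r' _ g
    split_ifs with h
    · obtain rfl : r' = r := congrArg Sigma.fst h
      have h2 : (Pl.mk g : Pl (r' : ℕ) H) = Pl.mk g₀ := eq_of_heq (Sigma.mk.inj_iff.1 h).2
      rw [← hkN]
      exact lv_samePlace (Pl.mk_eq.1 h2.symm) hc
    · rw [mul_zero]
      exact lv_eq (by rw [zpow_zero]; exact hone r' g h)
  obtain ⟨L, hL, z, hz, hzl⟩ := exists_pow_root hpS t hH hc
    (fun r' g => if (Plc.mk r' g : Plc H) = Plc.mk r g₀ then N else 0) hlv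
  have hN0 : (N : ZMod p) ≠ 0 := fun h => hN ((ZMod.intCast_zmod_eq_zero_iff_dvd N p).1 h)
  refine ⟨L, hL, z ^ ((N : ZMod p)⁻¹).val, pow_mem hz _, fun r' hr' g => ?_⟩
  rw [lv_pow hL hr' hz, hzl r' hr' g, Int.cast_mul, Int.cast_natCast, ZMod.natCast_zmod_val]
  constructor
  · intro h
    rw [if_pos h, inv_mul_cancel₀ hN0]
  · intro h
    rw [if_neg h, Int.cast_zero, mul_zero]

end Fermat.Agent.PT
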