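import Fermat.Agent.PT.CycloSym
import Fermat.Agent.PT.Mackey

/-!
# `H²(ℚ_q, μ_p)` is a line, and corestriction onto it is bijective

`H²(ℚ_q, μ_p)` is one-dimensional and corestriction from the field of `μ_p` onto it is
bijective; `locQ` localises global classes into this line.
-/

noncomputable section

namespace Fermat.Agent.PT

open Lv

local notation "Qb" => AlgebraicClosure ℚ

section Generic

variable {k : Type*} [CommRing k] {G : Type*} [Group G] {L : Lv G}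
variable {M : Type*} [AddCommGroup M] [Module k M] {ρ π : Representation k G M}

/-- Transport along an equality of representations. -/
def H2eq (L : Lv G) (h : ρ = π) : H2 L ρ ≃ₗ[k] H2 L π := by
  subst h
  exact LinearEquiv.refl _ _

theorem H2eq_mk2 (h : ρ = π) (f : ↥(Z2 L ρ)) :
    H2eq L h (mk2 L ρ f) = mk2 L π ⟨f, h ▸ f.2⟩ := by
  subst h
  rfl

theorem H2eq_symm_mk2 (h : ρ = π) (f : ↥(Z2 L π)) :
    (H2eq L h).symm (mk2 L π f) = mk2 L ρ ⟨f, h.symm ▸ f.2⟩ := by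
  subst h
  rfl

/-- A one-dimensional space mapped onto a nonzero space is mapped injectively. -/
theorem injective_of_line {K : Type*} [Field K] {A B : Type*} [AddCommGroup A] [Module K A]
    [AddCommGroup B] [Module K B] {c : A} (hc : ∀ a, ∃ z : K, a = z • c) {f : A →ₗ[K] B}
    (hf : Function.Surjective f) (hB : ∃ b : B, b ≠ 0) : Function.Injective f := by
  rw [injective_iff_map_eq_zero]
  intro a ha
  obtain ⟨z, rfl⟩ := hc a
  by_contra hne
  obtain ⟨hz, hc0⟩ := smul_ne_zero_iff.1 hne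
  have hfc : f c = 0 := (smul_eq_zero.1 ((map_smul f z c).symm.trans ha)).resolve_left hz
  obtain ⟨b, hb⟩ := hB
  obtain ⟨a, rfl⟩ := hf b
  obtain ⟨w, rfl⟩ := hc a
  exact hb (by rw [map_smul, hfc, smul_zero])

end Generic

variable (p : ℕ) [Fact p.Prime]

/-- The global coefficients `μ_p`. -/
abbrev muG : Representation (ZMod p) Gam (ZMod p) := (cyc p).rep

variable (q : ℕ) [Fact q.Prime]

/-- The local coefficients `μ_p`. -/
abbrev muQ : Representation (ZMod p) (GamQ q) (ZMod p) := repQ q (muG p)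

theorem smooth_muG : Smooth LG (muG p) :=
  smooth_of_le (Hm_mem (p := p) 0) (Cyc.rep_eq_one (Hm_muFix 0))

theorem smooth_muQ : Smooth (LQ q) (muQ p q) :=
  smooth_of_le (stab_mem q 1 (Hm_mem (p := p) 0))
    (Cyc.rep_eq_one (C := cycLoc q p) (muFix_stab q p 1 (Hm_muFix (p := p) 0)))

/-- Localisation of a global class. -/
def locQ : H2 LG (muG p) →ₗ[ZMod p] H2 (LQ q) (muQ p q) :=
  H2map (ρ := muG p) (ρ' := muQ p q) (compat_local q) (φ := LinearMap.id) (fun _ _ => rfl)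

variable {p q}
variable {V : Subgroup (GamQ q)}

theorem muQ_comp (hμ : (cycLoc q p).MuFix V) :
    (muQ p q).comp V.subtype = triv (ZMod p) ↥V :=
  Cyc.rep_comp_eq_triv (C := cycLoc q p) hμ

theorem muQ_eq_one (hμ : (cycLoc q p).MuFix V) : ∀ u ∈ V, muQ p q u = 1 :=
  Cyc.rep_eq_one (C := cycLoc q p) hμ

/-- Restriction to a subgroup fixing the roots of unity. -/
def resTriv (hμ : (cycLoc q p).MuFix V) :
    H2 (LQ q) (muQ p q) →ₗ[ZMod p] H2 ((LQ q).comap V.subtype) (triv (ZMod p) ↥V) :=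
  (H2eq _ (muQ_comp hμ)).toLinearMap ∘ₗ res (LQ q) (muQ p q) V

/-- Corestriction from a subgroup fixing the roots of unity. -/
def coresTriv [Fintype (GamQ q ⧸ V)] (hV : V ∈ LQ q) (hμ : (cycLoc q p).MuFix V) :
    H2 ((LQ q).comap V.subtype) (triv (ZMod p) ↥V) →ₗ[ZMod p] H2 (LQ q) (muQ p q) :=
  cores hV (smooth_muQ p q) ∘ₗ (H2eq _ (muQ_comp hμ)).symm.toLinearMap

theorem resTriv_injective (hV : V ∈ LQ q) (hμ : (cycLoc q p).MuFix V) (h : ¬ p ∣ V.index) :
    Function.Injective (resTriv hμ) := by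
  have := (LQ q).finiteIndex hV
  let _ : Fintype (GamQ q ⧸ V) := Fintype.ofFinite _
  rw [injective_iff_map_eq_zero]
  intro a ha
  have h1 : coresTriv hV hμ (resTriv hμ a) = V.index • a := by
    simp [coresTriv, resTriv, cores_res]
  rw [ha, map_zero, ← Nat.cast_smul_eq_nsmul (ZMod p)] at h1
  exact (smul_eq_zero.1 h1.symm).resolve_left fun h' => h ((ZMod.natCast_eq_zero_iff _ _).1 h')

theorem not_dvd_stab_index (g : Gam) : ¬ p ∣ (stab q (Hm p 0) g).index := by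
  have hdvd : (stab q (Hm p 0) g).index ∣ p - 1 := by
    rw [stab, Subgroup.index_comap]
    refine (Subgroup.relIndex_dvd_index_of_normal _ _).trans ?_
    rw [Hm_index, Nat.totient_prime_pow_succ Fact.out, pow_zero, one_mul]
  intro h
  exact absurd (Nat.le_of_dvd (Nat.sub_pos_of_lt (Fact.out : p.Prime).one_lt) (h.trans hdvd))
    (not_le.2 (Nat.sub_lt (Fact.out : p.Prime).pos one_pos))

variable (p q) in
/-- Restriction to the local cyclotomic field. -/
abbrev resZero : H2 (LQ q) (muQ p q) →ₗ[ZMod p]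
    H2 ((LQ q).comap (stab q (Hm p 0) 1).subtype) (triv (ZMod p) ↥(stab q (Hm p 0) 1)) :=
  resTriv (muFix_stab q p 1 (Hm_muFix 0))

theorem resZero_injective : Function.Injective (resZero p q) :=
  resTriv_injective (stab_mem q 1 (Hm_mem 0)) _ (not_dvd_stab_index 1)

/-! ### A nonzero class -/

theorem cyX_chi_congr {m : ℕ} (u v : ↥(Hm p m))
    (h : cyK p (m + 1 + 1) (u : Gam) = cyK p (m + 1 + 1) (v : Gam)) :
    (cyX p m).χ u = (cyX p m).χ v := by
  have h0 : (cyX p m).χ (u⁻¹ * v) = 0 := by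
    rw [cyX_chi, kum_cyU_eq_zero_iff]
    show cyK p (m + 1 + 1) ((u : Gam)⁻¹ * v) = 1
    rw [map_mul, map_inv, h, inv_mul_cancel]
  rw [(cyX p m).map_mul, (cyX p m).map_inv, neg_add_eq_zero] at h0
  exact h0

variable {m : ℕ} (hexp : ∀ τ : GamQ q, localGaloisToGlobal q τ ^ (p - 1) ∈ Hm p m)

/-- The homomorphism extending the next cyclotomic character. -/
def chat (τ : GamQ q) : ZMod p :=
  (cyX p m).χ ⟨localGaloisToGlobal q τ ^ (p - 1), hexp τ⟩

theorem chat_mul (a b : GamQ q) : chat hexp (a * b) = chat hexp a + chat hexp b := by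
  rw [chat, chat, chat, ← (cyX p m).map_mul]
  refine cyX_chi_congr _ _ ?_
  simp only [Subgroup.coe_mul, map_pow, map_mul, mul_pow]

theorem chat_con : Con1 (LQ q) (chat hexp) := by
  refine ⟨_, compat_local q _ (Hm_mem (p := p) (m + 1)), fun g s hs => cyX_chi_congr _ _ ?_⟩
  have h : cyK p (m + 1 + 1) (localGaloisToGlobal q s) = 1 := hs
  simp only [map_pow, map_mul, h, mul_one]

include hexp in
/-- A bad cyclotomic symbol gives a nonzero class over `ℚ_q`. -/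
theorem exists_ne_zero_of_bad {r : Qbˣ} (hr : ∀ g : Gam, g • r ^ p = r ^ p)
    (hbad : locH2 q p (Hm p m) 1 (cyS m ⟨r, fun g => hr g⟩) ≠ 0) (hexp' : p - 1 ≠ 0) :
    ∃ η : H2 (LQ q) (muQ p q), η ≠ 0 := by
  let κ : GamQ q → ZMod p := fun τ =>
    (cyc p).kum ⊤ r ⟨localGaloisToGlobal q τ, Subgroup.mem_top _⟩
  have hrT : ∀ h : ↥(⊤ : Subgroup Gam), (h : Gam) • r ^ p = r ^ p := fun h => hr h
  have hκ : ∀ a b, κ (a * b) =
      κ a + ((cyc p).ω (localGaloisToGlobal q a) : ZMod p) * κ b := fun a b => by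
    apply (cyc p).mu_injective
    simp only [κ, (cyc p).mu_add, ← (cyc p).smul_mu, Cyc.mu_kum hrT, map_mul, mul_smul, smul_div']
    exact (div_mul_div_cancel _ _ _).symm.trans (mul_comm _ _)
  have hκc : Con1 (LQ q) κ := by
    obtain ⟨U, hU, hfix⟩ := exists_level_fixing_units (F := ℚ) r
    refine ⟨_, compat_local q U hU, fun g s hs => ?_⟩
    simp only [κ, Cyc.kum, map_mul, mul_smul, show localGaloisToGlobal q s • r = r from hfix _ hs]
  have hZ : (fun ab : GamQ q × GamQ q => κ ab.1 * chat hexp ab.2) ∈ Z2 (LQ q) (muQ p q) := by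
    rw [mem_Z2]
    refine ⟨?_, fun g h j => ?_⟩
    · obtain ⟨U₁, hU₁, h₁⟩ := hκc
      obtain ⟨U₂, hU₂, h₂⟩ := chat_con hexp
      exact ⟨U₁ ⊓ U₂, (LQ q).inf_mem hU₁ hU₂, fun g g' u hu u' hu' => by
        simp only [h₁ g u hu.1, h₂ g' u' hu'.2]⟩
    · show κ (g * h) * chat hexp j + κ g * chat hexp h =
        (cycLoc q p).rep g (κ h * chat hexp j) + κ g * chat hexp (h * j)
      rw [Cyc.rep_apply, hκ, chat_mul]
      show _ = ((cyc p).ω (localGaloisToGlobal q g) : ZMod p) * _ + _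
      ring
  refine ⟨mk2 (LQ q) (muQ p q) ⟨_, hZ⟩, fun h0 => hbad ?_⟩
  set S := stab q (Hm p m) 1
  have hμ := muFix_stab q p 1 (Hm_muFix (p := p) m)
  have h1 : resTriv hμ (mk2 (LQ q) (muQ p q) ⟨_, hZ⟩) =
      (((p - 1 : ℕ) : ZMod p)) • locH2 q p (Hm p m) 1 (cyS m ⟨r, fun g => hr g⟩) := by
    show (H2eq _ (muQ_comp hμ)) (res (LQ q) (muQ p q) S (mk2 (LQ q) (muQ p q) ⟨_, hZ⟩)) =
      _ • mk2 ((LQ q).comap S.subtype)
      (triv (ZMod p) ↥S) ⟨pp2 (locHom q (Hm p m) 1) (twist p 1)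
        ((cyc p).symC (Hm p m) r (cyU p m)), _⟩
    rw [res_mk2, H2eq_mk2, ← map_smul]
    refine mk2_congr (funext fun ⟨a, b⟩ => ?_)
    simp only [SetLike.val_smul, Pi.smul_apply, smul_eq_mul, pp2_apply, twist_apply, map_one,
      Units.val_one, one_mul, Cyc.symC, LinearMap.id_apply, Subgroup.coe_subtype]
    have hcj : ∀ σ : ↥S, (locHom q (Hm p m) 1 σ : Gam) = localGaloisToGlobal q (σ : GamQ q) :=
      fun σ => by rw [coe_locHom, cj_apply, inv_one, one_mul, mul_one]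
    have ea : κ a = (cyc p).kum (Hm p m) r (locHom q (Hm p m) 1 a) := by
      simp only [κ, Cyc.kum, hcj]
    have eb : chat hexp (b : GamQ q) =
        ((p - 1 : ℕ) : ZMod p) * (cyc p).kum (Hm p m) (cyU p m) (locHom q (Hm p m) 1 b) := by
      rw [chat, cyX_chi, ← Cyc.kum_pow (Hm_muFix m) (cyU p m).2]
      refine congrArg _ (Subtype.ext ?_)
      rw [SubgroupClass.coe_pow, hcj]
    rw [ea, eb]
    ring
  rw [h0, map_zero] at h1
  refine (smul_eq_zero.1 h1.symm).resolve_left ?_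
  rw [ZMod.natCast_eq_zero_iff]
  exact fun h => absurd (Nat.le_of_dvd (Nat.pos_of_ne_zero hexp') h)
    (not_le.2 (Nat.sub_lt (Fact.out : p.Prime).pos one_pos))

/-- For `q ≠ p` some cyclotomic layer is inert at `q`. -/
theorem exists_inert_exponent (hqp : q ≠ p) :
    ∃ m : ℕ, (q : ZMod (p ^ (m + 1))) ^ (p - 1) = 1 ∧
      (q : ZMod (p ^ (m + 2))) ^ (p - 1) ≠ 1 := by
  have hp : p.Prime := Fact.out
  have hq : 1 < q := (Fact.out : q.Prime).one_lt
  have h1 : 1 < q ^ (p - 1) := Nat.one_lt_pow (Nat.sub_ne_zero_of_lt hp.one_lt) hq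
  have hdvd : ∀ k, (q : ZMod (p ^ k)) ^ (p - 1) = 1 ↔ p ^ k ∣ q ^ (p - 1) - 1 := fun k => by
    rw [← ZMod.natCast_eq_zero_iff, Nat.cast_sub h1.le, sub_eq_zero]
    push_cast
    rfl
  have hne : q ^ (p - 1) - 1 ≠ 0 := by omega
  have hpos : 0 < padicValNat p (q ^ (p - 1) - 1) := by
    refine Nat.pos_of_ne_zero fun h0 => ?_
    have hq0 : (q : ZMod p) ≠ 0 := by
      rw [Ne, ZMod.natCast_eq_zero_iff]
      exact fun h => hqp ((Nat.prime_dvd_prime_iff_eq hp Fact.out).1 h).symm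
    have h2 : (p : ℕ) ∣ q ^ (p - 1) - 1 := by
      rw [← ZMod.natCast_eq_zero_iff, Nat.cast_sub h1.le, sub_eq_zero]
      push_cast
      exact ZMod.pow_card_sub_one_eq_one hq0
    have := one_le_padicValNat_of_dvd hne h2
    omega
  refine ⟨padicValNat p (q ^ (p - 1) - 1) - 1, (hdvd _).2 ?_, fun h => ?_⟩
  · rw [Nat.sub_add_cancel hpos]
    exact pow_padicValNat_dvd
  · refine pow_succ_padicValNat_not_dvd (p := p) hne ?_
    have := (hdvd _).1 h
    rwa [show padicValNat p (q ^ (p - 1) - 1) - 1 + 2 =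
      padicValNat p (q ^ (p - 1) - 1) + 1 by omega] at this

theorem pow_mem_Hm_of_inert (hqp : q ≠ p) {m : ℕ}
    (hq1 : (q : ZMod (p ^ (m + 1))) ^ (p - 1) = 1) (τ : GamQ q) :
    localGaloisToGlobal q τ ^ (p - 1) ∈ Hm p m := by
  obtain ⟨τ₁, hτ₁, hgen⟩ := exists_frob (p := p) hqp m
  obtain ⟨i, hi⟩ := hgen τ
  show cyK p (m + 1) _ = 1
  rw [map_pow, hi, ← pow_mul, mul_comm, pow_mul]
  have : cyK p (m + 1) (localGaloisToGlobal q τ₁) ^ (p - 1) = 1 :=
    Units.ext (by rw [Units.val_pow_eq_pow_val, hτ₁, hq1, Units.val_one])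
  rw [this, one_pow]

theorem exists_ratRoot (x : ℕ) (hx : x ≠ 0) : ∃ r : Qbˣ, (∀ g : Gam, g • r ^ p = r ^ p) ∧
    ((r ^ p : Qbˣ) : Qb) = ((x : ℚ) : Qb) := by
  have h0 : ((x : ℚ) : Qb) ≠ 0 := by exact_mod_cast hx
  obtain ⟨r, hr⟩ := Cyc.exists_root (Ω := Qb) (Fact.out : p.Prime).pos (Units.mk0 _ h0)
  refine ⟨r, fun g => ?_, by rw [hr]; rfl⟩
  rw [hr]
  exact Units.ext (by show g ((x : ℚ) : Qb) = _; rw [map_ratCast]; rfl)

/-- `q` is bad at the inert place above itself. -/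
theorem self_bad (hqp : q ≠ p) {m : ℕ} (hq1 : (q : ZMod (p ^ (m + 1))) ^ (p - 1) = 1)
    (hq2 : (q : ZMod (p ^ (m + 2))) ^ (p - 1) ≠ 1) {r : ↥(Cyc.rootU p (Hm p m))}
    (hr : (((r : Qbˣ) ^ p : Qbˣ) : Qb) = ((q : ℚ) : Qb)) :
    locH2 q p (Hm p m) 1 (cyS m r) ≠ 0 := by
  intro h
  obtain ⟨τ, hτ, -⟩ := exists_frob (p := p) hqp (m + 1)
  have hF : nq q 1 (((r : Qbˣ) ^ p : Qbˣ) : Qb) = (q : ℝ) ^ (-1 : ℤ) := by
    rw [hr, nq_ratCast, Rat.cast_natCast, Padic.norm_p, zpow_neg_one]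
  have h1 := dvd_of_good hτ hqp (psiNat_pow_ne_one hτ hqp hq1 hq2) 1 h hF
  rw [Int.dvd_neg, Int.natCast_dvd] at h1
  exact (Fact.out : p.Prime).not_dvd_one h1

theorem exists_muQ_ne_zero (hodd : p ≠ 2) : ∃ η : H2 (LQ q) (muQ p q), η ≠ 0 := by
  have hp : p.Prime := Fact.out
  have hp1 : p - 1 ≠ 0 := Nat.sub_ne_zero_of_lt hp.one_lt
  by_cases hqp : q = p
  · subst hqp
    obtain ⟨r, hr, hx⟩ := exists_ratRoot (p := q) (1 + q) (by omega)
    refine exists_ne_zero_of_bad (m := 0) (fun τ => ?_) hr (one_add_bad hodd hx) hp1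
    show cyK q 1 (localGaloisToGlobal q τ ^ (q - 1)) = 1
    rw [map_pow, show q - 1 = (q ^ 1).totient by rw [pow_one, Nat.totient_prime hp]]
    exact ZMod.pow_totient _
  · obtain ⟨m, hq1, hq2⟩ := exists_inert_exponent (p := p) hqp
    obtain ⟨r, hr, hx⟩ := exists_ratRoot (p := p) q (Fact.out : q.Prime).ne_zero
    exact exists_ne_zero_of_bad (pow_mem_Hm_of_inert hqp hq1) hr (self_bad hqp hq1 hq2 hx) hp1

/-- `H²(ℚ_q, μ_p)` is a line. -/
theorem exists_muQ_generator (hodd : p ≠ 2) :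
    ∃ c : H2 (LQ q) (muQ p q), c ≠ 0 ∧ ∀ a, ∃ z : ZMod p, a = z • c := by
  obtain ⟨η, hη⟩ := exists_muQ_ne_zero (q := q) hodd
  obtain ⟨c, -, hcgen⟩ := Local.exists_generator hodd (stab_mem q 1 (Hm_mem (p := p) 0))
    (muFix_stab q p 1 (Hm_muFix (p := p) 0))
  refine ⟨η, hη, fun a => ?_⟩
  obtain ⟨z₁, h₁⟩ := hcgen (resZero p q η)
  obtain ⟨z₂, h₂⟩ := hcgen (resZero p q a)
  have hz₁ : z₁ ≠ 0 := fun h => hη (resZero_injective (by rw [h₁, h, zero_smul, map_zero]))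
  exact ⟨z₂ * z₁⁻¹, resZero_injective (by
    rw [map_smul, h₁, h₂, smul_smul, inv_mul_cancel_right₀ hz₁])⟩

/-- Corestriction onto the local line is bijective. -/
theorem coresTriv_bijective (hodd : p ≠ 2) [Fintype (GamQ q ⧸ V)] (hV : V ∈ LQ q)
    (hμ : (cycLoc q p).MuFix V) : Function.Bijective (coresTriv hV hμ) := by
  have hsurj : Function.Surjective (coresTriv hV hμ) := by
    intro a
    obtain ⟨K, hK, hKle, hKn⟩ := (LQ q).exists_normal
      ((LQ q).inf_mem hV (stab_mem q 1 (Hm_mem (p := p) 0)))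
    have hμ₀ := muFix_stab q p 1 (Hm_muFix (p := p) 0)
    have hω : ∀ g ∈ K, (cycLoc q p).ω g = 1 := fun g hg => hμ₀ g (hKle hg).2
    have hρ : ∀ g ∈ K, muQ p q g = 1 := muQ_eq_one hω
    have hRE := rightExact (LQ q) K hKn hK (Local.coresSurj hodd (cycLoc q p) K hK hω)
    obtain ⟨B, hB⟩ := hRE.push_indSum_surjective (U := V) (hKle.trans inf_le_left) hρ a
    refine ⟨H2eq _ (muQ_comp hμ) (sh V (muQ p q) (LQ q) B), ?_⟩
    simp only [coresTriv, LinearMap.comp_apply, LinearEquiv.coe_coe, LinearEquiv.symm_apply_apply]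
    rw [cores_sh, hB]
  obtain ⟨c, -, hc⟩ := Local.exists_generator hodd hV hμ
  exact ⟨injective_of_line hc hsurj (exists_muQ_ne_zero hodd), hsurj⟩

end Fermat.Agent.PT
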