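import Fermat.Agent.PT.GlobalPerfect

/-!
# Local duality between invariants and `H²`

The pairing between equivariant functionals and local `H²(ℚ_q, M)` is perfect, by right
exactness of local `H²`.
-/

noncomputable section

namespace Fermat.Agent.PT

open Lv Module

variable {p : ℕ} [Fact p.Prime] {q : ℕ} [Fact q.Prime]
variable {M : Type} [AddCommGroup M] [Module (ZMod p) M]

/-- The equivariant functionals. -/
def invF (ρ : Representation (ZMod p) (GamQ q) M) : Submodule (ZMod p) (M →ₗ[ZMod p] ZMod p) where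
  carrier := {f | ∀ g m, f (ρ g m) = muQ p q g (f m)}
  add_mem' := fun {f f'} h h' g m => by simp only [LinearMap.add_apply, h g m, h' g m, map_add]
  zero_mem' := fun g m => by simp
  smul_mem' := fun c f h g m => by simp only [LinearMap.smul_apply, h g m, map_smul]

variable {ρ : Representation (ZMod p) (GamQ q) M}
variable (lam : H2 (LQ q) (muQ p q) →ₗ[ZMod p] ZMod p)

/-- The local pairing. -/
def locPair : ↥(invF ρ) →ₗ[ZMod p] H2 (LQ q) ρ →ₗ[ZMod p] ZMod p where
  toFun f := lam ∘ₗ H2push (LQ q) ρ (muQ p q) f.1 f.2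
  map_add' f f' := LinearMap.ext fun z => by
    obtain ⟨x, rfl⟩ := mk2_surjective z
    simp only [LinearMap.comp_apply, LinearMap.add_apply]
    rw [H2push_mk2, H2push_mk2, H2push_mk2, ← map_add, ← map_add]
    exact congrArg lam (mk2_congr (funext fun st => rfl))
  map_smul' c f := LinearMap.ext fun z => by
    obtain ⟨x, rfl⟩ := mk2_surjective z
    simp only [LinearMap.comp_apply, LinearMap.smul_apply, RingHom.id_apply]
    rw [H2push_mk2, H2push_mk2, ← map_smul, ← map_smul]
    exact congrArg lam (mk2_congr (funext fun st => rfl))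

theorem locPair_apply (f : ↥(invF ρ)) (z : H2 (LQ q) ρ) :
    locPair lam f z = lam (H2push (LQ q) ρ (muQ p q) f.1 f.2 z) := rfl

variable (hodd : p ≠ 2) (hlam : Function.Bijective lam) [Finite M]
variable {V : Subgroup (GamQ q)} [hVn : V.Normal] (hV : V ∈ LQ q) (hVμ : (cycLoc q p).MuFix V)
  (hρ : ∀ u ∈ V, ρ u = 1)

include hodd hV hVμ in
omit [Finite M] in
theorem rightExact_LQ : RightExact p (LQ q) V :=
  rightExact (LQ q) V hVn hV (Local.coresSurj hodd (cycLoc q p) V hV fun g hg => hVμ g hg)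

include hodd hV hVμ hρ in
theorem push_indSum_surjective_LQ [Fintype (GamQ q ⧸ V)] :
    Function.Surjective (H2push (LQ q) (indRep V ρ) ρ (indSum (k := ZMod p) V)
      (indSum_equivariant V ρ)) :=
  (rightExact_LQ hodd hV hVμ).push_indSum_surjective le_rfl hρ

include hodd hV hVμ in
omit [Finite M] hVn in
theorem push_indSum_injective [Fintype (GamQ q ⧸ V)] :
    Function.Injective (H2push (LQ q) (indRep V (muQ p q)) (muQ p q) (indSum (k := ZMod p) V)
      (indSum_equivariant V (muQ p q))) := by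
  rw [injective_iff_map_eq_zero]
  intro z hz
  have h1 : coresTriv hV hVμ (H2eq _ (muQ_comp hVμ) (sh V (muQ p q) (LQ q) z)) = 0 := by
    rw [coresTriv, LinearMap.comp_apply, LinearEquiv.coe_coe, LinearEquiv.symm_apply_apply,
      cores_sh, hz]
  have h2 := (coresTriv_bijective hodd hV hVμ).1 (h1.trans (map_zero _).symm)
  exact sh_injective hV (smooth_muQ p q)
    (((H2eq _ (muQ_comp hVμ)).map_eq_zero_iff.1 h2).trans (map_zero _).symm)

include hlam hodd hV hVμ hρ in
omit [Finite M] in
/-- The pairing is nondegenerate on the left. -/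
theorem locPair_left (f : ↥(invF ρ)) (h : locPair lam f = 0) : f = 0 := by
  classical
  have := (LQ q).finiteIndex hV
  let _ : Fintype (GamQ q ⧸ V) := Fintype.ofFinite _
  obtain ⟨c, hc, -⟩ := exists_muQ_generator (p := p) (q := q) hodd
  obtain ⟨z₀, hz₀⟩ := push_indSum_surjective_LQ (ρ := muQ p q) hodd hV hVμ (muQ_eq_one hVμ) c
  refine Subtype.ext (LinearMap.ext fun n => ?_)
  have h1 := LinearMap.congr_fun h (H2push (LQ q) (indRep V ρ) ρ (indSum (k := ZMod p) V)
    (indSum_equivariant V ρ) (H2push (LQ q) (indRep V (muQ p q)) (indRep V ρ)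
      (epsMap (U := V) (muQ p q) ρ n) (epsMap_equivariant hρ (muQ_eq_one hVμ) n) z₀))
  have hf : ∀ g m, f.1 (ρ g m) = muQ p q g (f.1 m) := f.2
  have hsum : (f.1 ∘ₗ indSum (k := ZMod p) V) ∘ₗ epsMap (U := V) (muQ p q) ρ n =
      f.1 n • indSum (k := ZMod p) V := by
    refine LinearMap.ext fun φ => ?_
    simp only [LinearMap.comp_apply, LinearMap.smul_apply, indSum_apply, map_sum, epsMap,
      LinearMap.coe_mk, AddHom.coe_mk, map_smul, hf, smul_eq_mul, Finset.mul_sum]
    refine Finset.sum_congr rfl fun x _ => ?_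
    rw [chr_apply_eq (muQ p q) (sec V x)⁻¹ (φ x), chr_apply_eq (muQ p q) (sec V x) (f.1 n),
      show φ x * muQ p q (sec V x)⁻¹ 1 * (f.1 n * muQ p q (sec V x) 1) =
        f.1 n * φ x * (muQ p q (sec V x) 1 * muQ p q (sec V x)⁻¹ 1) by ring,
      ← chr_mul, mul_one, ← Module.End.mul_apply, ← map_mul, inv_mul_cancel,
      map_one (muQ p q), Module.End.one_apply, mul_one]
  rw [LinearMap.zero_apply, locPair_apply, H2push_comp, H2push_comp,
    H2push_eq_of_eq _ (φ' := f.1 n • indSum (k := ZMod p) V)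
      (fun g m => by simp only [LinearMap.smul_apply, indSum_equivariant, map_smul]) hsum] at h1
  have h2 : H2push (LQ q) (indRep V (muQ p q)) (muQ p q) (f.1 n • indSum (k := ZMod p) V)
      (fun g m => by simp only [LinearMap.smul_apply, indSum_equivariant, map_smul]) z₀ =
      f.1 n • c := by
    rw [← hz₀]
    obtain ⟨x, rfl⟩ := mk2_surjective z₀
    simp only [H2push_mk2, ← map_smul]
    exact mk2_congr (funext fun st => rfl)
  rw [h2, map_smul, smul_eq_zero] at h1
  exact h1.resolve_right fun h0 => hc (hlam.1 (h0.trans (map_zero lam).symm))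

include hodd hV hVμ hρ in
omit hVn in
/-- Local duality for induced modules. -/
theorem ind_facts_LQ [Fintype (GamQ q ⧸ V)] (hlam : Function.Bijective lam) :
    FiniteDimensional (ZMod p) (H2 (LQ q) (indRep V ρ)) ∧
      ∀ z : H2 (LQ q) (indRep V ρ), (∀ f, locPair (ρ := indRep V ρ) lam f z = 0) → z = 0 := by
  classical
  have : Module.Finite (ZMod p) M := Module.Finite.of_finite
  let b := Module.finBasis (ZMod p) M
  have hχ := muQ_eq_one (p := p) hVμ
  let co := fun i => H2push (LQ q) (indRep V ρ) (indRep V (muQ p q))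
    (coordMap (U := V) (muQ p q) ρ (b.coord i)) (coordMap_equivariant hρ hχ _)
  let ep := fun i => H2push (LQ q) (indRep V (muQ p q)) (indRep V ρ)
    (epsMap (U := V) (muQ p q) ρ (b i)) (epsMap_equivariant hρ hχ _)
  have hsum : (∑ i, (epsMap (U := V) (muQ p q) ρ (b i)).comp
      (coordMap (U := V) (muQ p q) ρ (b.coord i))) = LinearMap.id := by
    refine LinearMap.ext fun φ => funext fun x => ?_
    simp only [LinearMap.sum_apply, Finset.sum_apply, LinearMap.comp_apply, LinearMap.id_apply,
      epsMap, coordMap, LinearMap.coe_mk, AddHom.coe_mk, Basis.coord_apply]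
    have hi : ∀ z, muQ p q (sec V x)⁻¹ (muQ p q (sec V x) z) = z := fun z => by
      rw [← Module.End.mul_apply, ← map_mul, inv_mul_cancel, map_one, Module.End.one_apply]
    simp only [hi, ← map_smul, ← map_sum, b.sum_repr]
    rw [← Module.End.mul_apply, ← map_mul, mul_inv_cancel, map_one, Module.End.one_apply]
  have hid : ∀ α, ∑ i, ep i (co i α) = α := fun α => by
    conv_rhs => rw [← H2push_id α]
    rw [H2push_sum (fun i => (epsMap (U := V) (muQ p q) ρ (b i)).comp
      (coordMap (U := V) (muQ p q) ρ (b.coord i))) (fun i g m => by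
        simp only [LinearMap.comp_apply]
        rw [coordMap_equivariant hρ hχ, epsMap_equivariant hρ hχ]) _ _ hsum α]
    exact Finset.sum_congr rfl fun i _ => H2push_comp _ _ _ _ α
  have hfdQ : Module.Finite (ZMod p) (H2 (LQ q) (muQ p q)) := by
    obtain ⟨c, -, hgen⟩ := exists_muQ_generator (p := p) (q := q) hodd
    exact Module.Finite.of_surjective (LinearMap.toSpanSingleton (ZMod p) _ c)
      fun a => (hgen a).elim fun z hz => ⟨z, by rw [LinearMap.toSpanSingleton_apply, hz]⟩
  have hfd : Module.Finite (ZMod p) (H2 (LQ q) (indRep V (muQ p q))) :=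
    Module.Finite.of_injective _ (push_indSum_injective hodd hV hVμ)
  refine ⟨Module.Finite.of_surjective (∑ i, ep i ∘ₗ LinearMap.proj i)
    (fun α => ⟨fun i => co i α, by simpa using hid α⟩), fun z hz => ?_⟩
  rw [← hid z]
  refine Finset.sum_eq_zero fun i _ => ?_
  suffices co i z = 0 by rw [this, map_zero]
  refine push_indSum_injective hodd hV hVμ (hlam.1 ?_)
  have hf : indSum (k := ZMod p) V ∘ₗ coordMap (U := V) (muQ p q) ρ (b.coord i) ∈
      invF (indRep V ρ) := fun g m => by
    simp only [LinearMap.comp_apply]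
    rw [coordMap_equivariant hρ hχ, indSum_equivariant]
  rw [map_zero, map_zero, H2push_comp]
  exact hz ⟨_, hf⟩

include hodd hV hVμ hρ hlam in
/-- The pairing is nondegenerate on the right. -/
theorem locPair_right (z : H2 (LQ q) ρ) (hz : ∀ f, locPair (ρ := ρ) lam f z = 0) : z = 0 := by
  classical
  have := (LQ q).finiteIndex hV
  let _ : Fintype (GamQ q ⧸ V) := Fintype.ofFinite _
  obtain ⟨hfd, hright⟩ := ind_facts_LQ lam hodd hV hVμ hρ hlam
  obtain ⟨z₀, rfl⟩ := push_indSum_surjective_LQ hodd hV hVμ hρ z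
  let ψ := indSum (k := ZMod p) (M := M) V
  let i := (LinearMap.ker ψ).subtype
  have hi : ∀ g n, i (kerRep V ρ g n) = indRep V ρ g (i n) := fun g n => coe_kerRep V ρ g n
  have hρN : ∀ u ∈ V, kerRep V ρ u = 1 := fun u hu => LinearMap.ext fun n => Subtype.ext (by
    rw [coe_kerRep, indRep_eq_one le_rfl hρ u hu]; rfl)
  let I := H2push (LQ q) (kerRep V ρ) (indRep V ρ) i hi
  suffices z₀ ∈ LinearMap.range I by
    obtain ⟨β, rfl⟩ := this
    obtain ⟨x, rfl⟩ := mk2_surjective β
    simp only [I, H2push_mk2]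
    rw [mk2_eq_zero]
    refine ⟨0, Lv.con1_const 0, funext fun st => ?_⟩
    rw [map_zero]
    exact (LinearMap.mem_ker.1 ((x : GamQ q × GamQ q → ↥(LinearMap.ker ψ)) st).2).symm
  refine (Subspace.forall_mem_dualAnnihilator_apply_eq_zero_iff _ z₀).1 fun φ hφ => ?_
  obtain ⟨f₀, rfl⟩ := exists_eq_of_right_nondegenerate (locPair (ρ := indRep V ρ) lam) hright φ
  rw [Submodule.mem_dualAnnihilator] at hφ
  have hfi : f₀.1 ∘ₗ i ∈ invF (kerRep V ρ) := fun g n => by
    simp only [LinearMap.comp_apply, hi]; exact f₀.2 g (i n)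
  have hN0 := locPair_left lam hodd hlam hV hVμ hρN ⟨_, hfi⟩ (LinearMap.ext fun β => by
    have h1 := hφ _ ⟨β, rfl⟩
    rwa [locPair_apply, H2push_comp] at h1)
  let s : M →ₗ[ZMod p] (GamQ q ⧸ V → M) :=
    LinearMap.single (ZMod p) (fun _ => M) ((1 : GamQ q) : GamQ q ⧸ V)
  have hs : ∀ m, ψ (s m) = m := fun m => by simp [ψ, s, indSum_apply]
  have hfac : (f₀.1 ∘ₗ s) ∘ₗ ψ = f₀.1 := LinearMap.ext fun φ => by
    have h1 := LinearMap.congr_fun (congrArg Subtype.val hN0)
      ⟨φ - s (ψ φ), by rw [LinearMap.mem_ker, map_sub, hs, sub_self]⟩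
    simp only [ZeroMemClass.coe_zero, LinearMap.zero_apply, LinearMap.comp_apply, i,
      Submodule.subtype_apply, map_sub, sub_eq_zero] at h1
    exact h1.symm
  have hmem : f₀.1 ∘ₗ s ∈ invF ρ := fun g m => by
    have h1 := LinearMap.congr_fun hfac (indRep V ρ g (s m))
    simp only [LinearMap.comp_apply] at h1
    rw [indSum_equivariant, hs, f₀.2] at h1
    exact h1
  have h2 := hz ⟨_, hmem⟩
  rw [locPair_apply, H2push_comp, H2push_eq_of_eq _ (φ' := f₀.1) f₀.2 hfac] at h2
  exact h2

include hodd hV hVμ hρ hlam in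
/-- Every functional on local `H²` is given by an invariant functional. -/
theorem exists_locPair_eq (φ : H2 (LQ q) ρ →ₗ[ZMod p] ZMod p) : ∃ f, locPair lam f = φ := by
  classical
  have := (LQ q).finiteIndex hV
  let _ : Fintype (GamQ q ⧸ V) := Fintype.ofFinite _
  have := (ind_facts_LQ lam hodd hV hVμ hρ hlam).1
  have : FiniteDimensional (ZMod p) (H2 (LQ q) ρ) :=
    Module.Finite.of_surjective _ (push_indSum_surjective_LQ hodd hV hVμ hρ)
  exact exists_eq_of_right_nondegenerate (locPair lam) (locPair_right lam hodd hlam hV hVμ hρ) φ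

end Fermat.Agent.PT
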