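import Fermat.Agent.PT.Setup

/-!
# The pairing between pairs and `H²(G_S, M)`

For `M` trivial on a level of `G_S` fixing `μ_p`, `phiA` is the Poitou–Tate pairing between
pairs and `H²(G_S, M)`, defined by lifting a class to an induced module.
-/

noncomputable section

namespace Fermat.Agent.PT

open Lv Module

variable (p : ℕ) [Fact p.Prime]

/-- Invariants for a finite set of primes containing `p`. -/
structure PTData (S : Finset Nat.Primes) where
  hodd : p ≠ 2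
  hpS : pP p ∈ S
  /-- The local invariant at each prime, bijective and summing to zero on global classes. -/
  lam : ∀ q : Nat.Primes, H2 (LQ (q : ℕ)) (muQ p (q : ℕ)) →ₗ[ZMod p] ZMod p
  hlam : ∀ q, Function.Bijective (lam q)
  hrec : ∀ (S : Finset Nat.Primes) (z : H2 LG (muG p)),
    (∀ q, q ∉ S → locQ p (q : ℕ) z = 0) → ∑ q ∈ S, lam q (locQ p (q : ℕ) z) = 0

theorem nonempty_ptData (hodd : p ≠ 2) {S : Finset Nat.Primes} (hpS : pP p ∈ S) :
    Nonempty (PTData p S) := by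
  obtain ⟨lam, hlam, hrec⟩ := exists_invariants p hodd
  exact ⟨⟨hodd, hpS, lam, hlam, hrec⟩⟩

variable {p} {S : Finset Nat.Primes}

theorem PTData.gi (D : PTData p S) : GlobalInputs p := CFT.Bridge.globalInputs p D.hodd

variable {M : Type} [AddCommGroup M] [Module (ZMod p) M]

/-- Trivial on a normal level of `G_S` fixing the roots of unity. -/
def Nice (S : Finset Nat.Primes) (ρ : Representation (ZMod p) Gam M) : Prop :=
  ∃ K : Subgroup Gam, K ∈ LS S ∧ K.Normal ∧ (cyc p).MuFix K ∧ ∀ u ∈ K, ρ u = 1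

variable {ρ : Representation (ZMod p) Gam M}

theorem Nice.smooth (hn : Nice S ρ) : Smooth (LS S) ρ := by
  obtain ⟨K, hK, -, -, hρ⟩ := hn
  exact smooth_of_le hK hρ

/-- A deep level inside a given one, adapted to a representation and a pair. -/
theorem exists_adm (D : PTData p S) (hn : Nice S ρ) (a : ↥(pairsA S ρ)) {V : Subgroup Gam}
    (hV : V ∈ LS S) :
    ∃ U, Deep p S U ∧ U ≤ V ∧ (∀ u ∈ U, ρ u = 1) ∧ ∀ g, ∀ u ∈ U, a.1.1 (g * u) = a.1.1 g := by
  obtain ⟨K, hK, -, -, hρ⟩ := hn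
  obtain ⟨W, hW, hWc⟩ := (mem_Z1.1 a.2.1).1
  obtain ⟨U, hD, hle⟩ := exists_deep D.hpS ((LS S).inf_mem ((LS S).inf_mem hV hK) hW)
  exact ⟨U, hD, hle.trans (inf_le_left.trans inf_le_left),
    fun u hu => hρ u (hle hu).1.2, fun g u hu => hWc g u (hle hu).2⟩

variable [Finite M]

/-- The pairing is independent of the level and of the lift. -/
theorem exists_phi (D : PTData p S) (hn : Nice S ρ) (a : ↥(pairsA S ρ)) :
    ∃ φ : H2 (LS S) ρ →ₗ[ZMod p] ZMod p, ∀ (U : Subgroup Gam) [Fintype (Gam ⧸ U)], U ∈ LS S →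
      ∀ (hU : ∀ g, ∀ u ∈ U, a.1.1 (g * u) = a.1.1 g) (B : H2 (LS S) (indRep U ρ)),
        rawF D.lam a hU B =
          φ (H2push (LS S) (indRep U ρ) ρ (indSum (k := ZMod p) U) (indSum_equivariant U ρ) B) := by
  classical
  obtain ⟨U₀, hD₀, -, hρ₀, hU₀⟩ := exists_adm D hn a (LS S).top_mem
  have := hD₀.normal
  have := (LS S).finiteIndex hD₀.mem
  let _ : Fintype (Gam ⧸ U₀) := Fintype.ofFinite _
  let ψ := H2push (LS S) (indRep U₀ ρ) ρ (indSum (k := ZMod p) U₀) (indSum_equivariant U₀ ρ)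
  have hψ : Function.Surjective ψ :=
    push_indSum_surjective D.gi D.hodd D.lam D.hlam D.hrec D.hpS hD₀.mem hρ₀ hD₀.muFix
  have hker : LinearMap.ker ψ ≤ LinearMap.ker (rawF D.lam a hU₀) := fun B hB => LinearMap.mem_ker.2
      (rawF_eq_zero_of_push D.lam D.hrec D.hpS hD₀.mem hn.smooth a hU₀ B hB)
  let φ : H2 (LS S) ρ →ₗ[ZMod p] ZMod p :=
    (LinearMap.ker ψ).liftQ (rawF D.lam a hU₀) hker ∘ₗ
      (ψ.quotKerEquivOfSurjective hψ).symm.toLinearMap
  have hφ : ∀ B, φ (ψ B) = rawF D.lam a hU₀ B := fun B => by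
    show (LinearMap.ker ψ).liftQ (rawF D.lam a hU₀) hker
        ((ψ.quotKerEquivOfSurjective hψ).symm (ψ B)) = _
    rw [show (ψ.quotKerEquivOfSurjective hψ).symm (ψ B) = Submodule.Quotient.mk B from by
      rw [LinearEquiv.symm_apply_eq]; rfl]
    rfl
  refine ⟨φ, fun U _ hUL hU B => ?_⟩
  obtain ⟨U₃, hD₃, hle, hρ₃, hU₃⟩ := exists_adm D hn a ((LS S).inf_mem hUL hD₀.mem)
  have := hD₃.normal
  have := (LS S).finiteIndex hD₃.mem
  let _ : Fintype (Gam ⧸ U₃) := Fintype.ofFinite _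
  obtain ⟨B₃, hB₃⟩ := push_indSum_surjective D.gi D.hodd D.lam D.hlam D.hrec D.hpS hD₃.mem hρ₃
    hD₃.muFix (H2push (LS S) (indRep U ρ) ρ (indSum (k := ZMod p) U) (indSum_equivariant U ρ) B)
  have hfib : ∀ (V : Subgroup Gam) [Fintype (Gam ⧸ V)] (h : U₃ ≤ V),
      H2push (LS S) (indRep V ρ) ρ (indSum (k := ZMod p) V) (indSum_equivariant V ρ)
        (H2push (LS S) (indRep U₃ ρ) (indRep V ρ) (fibSum (k := ZMod p) h)
          (fibSum_equivariant ρ h) B₃) =
      H2push (LS S) (indRep U ρ) ρ (indSum (k := ZMod p) U) (indSum_equivariant U ρ) B := by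
    intro V _ h
    rw [H2push_comp, ← hB₃]
    exact H2push_eq_of_eq _ _ (indSum_fibSum h) B₃
  have h1 : rawF D.lam a hU B = rawF D.lam a hU₃ B₃ := by
    rw [← rawF_fibSum D.lam (hle.trans inf_le_left) a hU hU₃ B₃, ← sub_eq_zero, ← map_sub]
    exact rawF_eq_zero_of_push D.lam D.hrec D.hpS hUL hn.smooth a hU _
      (by rw [map_sub, hfib U, sub_self])
  rw [h1, ← rawF_fibSum D.lam (hle.trans inf_le_right) a hU₀ hU₃ B₃, ← hφ]
  exact congrArg φ (hfib U₀ _)

/-- The pairing with a pair. -/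
def phiAux (D : PTData p S) (hn : Nice S ρ) (a : ↥(pairsA S ρ)) : H2 (LS S) ρ →ₗ[ZMod p] ZMod p :=
  (exists_phi D hn a).choose

theorem phiAux_spec (D : PTData p S) (hn : Nice S ρ) (a : ↥(pairsA S ρ)) (U : Subgroup Gam)
    [Fintype (Gam ⧸ U)] (hUL : U ∈ LS S) (hU : ∀ g, ∀ u ∈ U, a.1.1 (g * u) = a.1.1 g)
    (B : H2 (LS S) (indRep U ρ)) :
    phiAux D hn a
      (H2push (LS S) (indRep U ρ) ρ (indSum (k := ZMod p) U) (indSum_equivariant U ρ) B) =
      rawF D.lam a hU B :=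
  ((exists_phi D hn a).choose_spec U hUL hU B).symm

/-- Every class lifts to a deep level adapted to given pairs. -/
theorem exists_lift (D : PTData p S) (hn : Nice S ρ) (a a' : ↥(pairsA S ρ))
    (α : H2 (LS S) ρ) : ∃ U : Subgroup Gam, Deep p S U ∧
      (∀ u ∈ U, ρ u = 1) ∧ (∀ g, ∀ u ∈ U, a.1.1 (g * u) = a.1.1 g) ∧
      (∀ g, ∀ u ∈ U, a'.1.1 (g * u) = a'.1.1 g) ∧ ∀ [Fintype (Gam ⧸ U)],
        ∃ B : H2 (LS S) (indRep U ρ),
        H2push (LS S) (indRep U ρ) ρ (indSum (k := ZMod p) U) (indSum_equivariant U ρ) B = α := by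
  classical
  obtain ⟨W, hW, hWc⟩ := (mem_Z1.1 a'.2.1).1
  obtain ⟨U, hD, hle, hρ, hU⟩ := exists_adm D hn a hW
  have := hD.normal
  have := (LS S).finiteIndex hD.mem
  exact ⟨U, hD, hρ, hU, fun g u hu => hWc g u (hle hu), fun {_} =>
    push_indSum_surjective D.gi D.hodd D.lam D.hlam D.hrec D.hpS hD.mem hρ hD.muFix α⟩

/-- The pairing between pairs and `H²(G_S, M)`. -/
def phiA (D : PTData p S) (hn : Nice S ρ) :
    ↥(pairsA S ρ) →ₗ[ZMod p] H2 (LS S) ρ →ₗ[ZMod p] ZMod p where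
  toFun := phiAux D hn
  map_add' a a' := LinearMap.ext fun α => by
    obtain ⟨U, hD, -, hU, hU', hB⟩ := exists_lift D hn a a' α
    have := (LS S).finiteIndex hD.mem
    let _ : Fintype (Gam ⧸ U) := Fintype.ofFinite _
    obtain ⟨B, rfl⟩ := hB
    have hs : ∀ g, ∀ u ∈ U, (a + a').1.1 (g * u) = (a + a').1.1 g := fun g u hu =>
      congrArg₂ (· + ·) (hU g u hu) (hU' g u hu)
    rw [LinearMap.add_apply, phiAux_spec D hn _ U hD.mem hs, phiAux_spec D hn _ U hD.mem hU,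
      phiAux_spec D hn _ U hD.mem hU', rawF_add]
  map_smul' c a := LinearMap.ext fun α => by
    obtain ⟨U, hD, -, hU, -, hB⟩ := exists_lift D hn a a α
    have := (LS S).finiteIndex hD.mem
    let _ : Fintype (Gam ⧸ U) := Fintype.ofFinite _
    obtain ⟨B, rfl⟩ := hB
    have hs : ∀ g, ∀ u ∈ U, (c • a).1.1 (g * u) = (c • a).1.1 g := fun g u hu =>
      congrArg (c • ·) (hU g u hu)
    rw [RingHom.id_apply, LinearMap.smul_apply, phiAux_spec D hn _ U hD.mem hs,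
      phiAux_spec D hn _ U hD.mem hU, rawF_smul]

theorem phiA_spec (D : PTData p S) (hn : Nice S ρ) (a : ↥(pairsA S ρ)) (U : Subgroup Gam)
    [Fintype (Gam ⧸ U)] (hUL : U ∈ LS S) (hU : ∀ g, ∀ u ∈ U, a.1.1 (g * u) = a.1.1 g)
    (B : H2 (LS S) (indRep U ρ)) :
    phiA D hn a
      (H2push (LS S) (indRep U ρ) ρ (indSum (k := ZMod p) U) (indSum_equivariant U ρ) B) =
      rawF D.lam a hU B :=
  phiAux_spec D hn a U hUL hU B

end Fermat.Agent.PT
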