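import Fermat.Agent.PT.Unram

/-!
# Sets of places, `T`-units, full sets of places

The places `Plc H` of the fixed field of `H`, its `T`-units `eT`, the condition `SFull` that `T`
generates the class group, and local triviality `LocZero` of a class at a place.
-/

noncomputable section

namespace Fermat.Agent.PT

open Lv

local notation "Qb" => AlgebraicClosure ℚ

/-- The places of the fixed field of `H` over rational primes. -/
abbrev Plc (H : Subgroup Gam) : Type := Σ r : Nat.Primes, Pl (r : ℕ) H

variable {H : Subgroup Gam}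

/-- The place through `g` above `r`. -/
def Plc.mk (r : Nat.Primes) (g : Gam) : Plc H := ⟨r, Pl.mk g⟩

/-- The absolute value of a place. -/
def nP (v : Plc H) (x : Qb) : ℝ := nq (v.1 : ℕ) v.2.rep x

variable (H) in
/-- The places above a set of rational primes. -/
def placesOver (S : Finset Nat.Primes) : Set (Plc H) := {v | v.1 ∈ S}

/-- There are finitely many places over `S`. -/
theorem finite_placesOver (hH : H ∈ LG) (S : Finset Nat.Primes) : (placesOver H S).Finite := by
  have : ∀ r : Nat.Primes, Finite (Pl (r : ℕ) H) := fun r => finite_pl hH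
  have h : placesOver H S = ⋃ r ∈ S, Set.range fun w : Pl (r : ℕ) H => (⟨r, w⟩ : Plc H) := by
    ext ⟨r, w⟩
    simp only [placesOver, Set.mem_ofPred, Set.mem_iUnion, Set.mem_range]
    constructor
    · exact fun hr => ⟨r, hr, w, rfl⟩
    · rintro ⟨r', hr', w', e⟩
      obtain rfl : r' = r := congrArg Sigma.fst e
      exact hr'
  rw [h]
  exact S.finite_toSet.biUnion fun r _ => Set.finite_range _

theorem nP_mk (r : Nat.Primes) (g : Gam) {x : Qb} (hx : ∀ h ∈ H, h x = x) :
    nP (Plc.mk r g : Plc H) x = nq (r : ℕ) g x :=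
  nq_samePlace (Pl.samePlace_rep g) hx

variable (H) in
/-- The units of the fixed field that are units at every place outside `T`. -/
def eT (T : Set (Plc H)) : Subgroup Qbˣ where
  carrier := {x | x ∈ fixU H ∧ ∀ v ∉ T, nP v (x : Qb) = 1}
  one_mem' := ⟨one_mem _, fun v _ => nq_one _⟩
  mul_mem' := fun {a b} ha hb => ⟨mul_mem ha.1 hb.1, fun v hv => by
    rw [nP, Units.val_mul, nq_mul]
    have h1 := ha.2 v hv
    have h2 := hb.2 v hv
    rw [nP] at h1 h2
    rw [h1, h2, mul_one]⟩
  inv_mem' := fun {a} ha => ⟨inv_mem ha.1, fun v hv => by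
    rw [nP, Units.val_inv_eq_inv_val, nq_inv]
    have h1 := ha.2 v hv
    rw [nP] at h1
    rw [h1, inv_one]⟩

theorem mem_eT {T : Set (Plc H)} {x : Qbˣ} :
    x ∈ eT H T ↔ x ∈ fixU H ∧ ∀ v ∉ T, nP v (x : Qb) = 1 := Iff.rfl

variable (H) in
/-- The class group is generated by the places in `T`: every other place has a local uniformiser
which is a unit at all remaining places outside `T`. -/
def SFull (T : Set (Plc H)) : Prop :=
  ∀ v ∉ T, ∃ c ∈ fixU H, nP v (c : Qb) = ((v.1 : ℕ) : ℝ)⁻¹ ∧
    ∀ v' ∉ T, v' ≠ v → nP v' (c : Qb) = 1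

/-- A class is locally trivial at a place. -/
def LocZero {p : ℕ} [Fact p.Prime] (v : Plc H)
    (a : H2 (LG.comap H.subtype) (triv (ZMod p) ↥H)) : Prop :=
  locH2 (v.1 : ℕ) p H v.2.rep a = 0

end Fermat.Agent.PT
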