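import Fermat.Prelude.Def_GroupCohomology_ContinuousUnramified
import Fermat.Agent.PT.LocalPerfect

/-!
# The pairing between `Ш¹` and `Ш²`

The perfect pairing between `Ш¹` of the twisted dual and `Ш²` of a finite Galois module over
`G_S` (`exists_sha_pairing`), translated from `GlobalPerfect` to the cohomology used by the frozen
statements.  It is used for S55.
-/

noncomputable section

namespace Fermat.Agent.PT

open Lv Module CategoryTheory

variable {p : ℕ} [Fact p.Prime]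

theorem exists_eq_sum_comp {K V : Type*} [Field K] [AddCommGroup V] [Module K V] {ι : Type*}
    [Fintype ι] {W : ι → Type*} [∀ i, AddCommGroup (W i)] [∀ i, Module K (W i)]
    (f : ∀ i, V →ₗ[K] W i) (φ : V →ₗ[K] K) (h : ∀ v, (∀ i, f i v = 0) → φ v = 0) :
    ∃ g : ∀ i, W i →ₗ[K] K, ∀ v, φ v = ∑ i, g i (f i v) := by
  classical
  obtain ⟨L, hL⟩ : φ ∈ LinearMap.range (LinearMap.pi f).dualMap := by
    rw [LinearMap.range_dualMap_eq_dualAnnihilator_ker, Submodule.mem_dualAnnihilator]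
    exact fun v hv => h v fun i => congrFun (LinearMap.mem_ker.1 hv) i
  refine ⟨fun i => L ∘ₗ LinearMap.single K W i, fun v => ?_⟩
  rw [← hL, LinearMap.dualMap_apply]
  conv_lhs => rw [← Finset.univ_sum_single (LinearMap.pi f v), map_sum]
  rfl

/-! ### Finite groups of order prime to `p` -/

section Averaging

open groupCohomology

variable {G : Type} [Group G] [Fintype G]

theorem exists_d0_of_card (A : Rep.{0} (ZMod p) G) (hc : (Fintype.card G : ZMod p) ≠ 0)
    {c : G → A} (h : ∀ g g', c (g * g') = A.ρ g (c g') + c g) :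
    ∃ m : A, ∀ g, c g = A.ρ g m - m := by
  refine ⟨-((Fintype.card G : ZMod p)⁻¹ • ∑ x, c x), fun g => ?_⟩
  have h1 : A.ρ g (∑ x, c x) = (∑ x, c x) - (Fintype.card G : ZMod p) • c g := by
    rw [map_sum, Nat.cast_smul_eq_nsmul, ← Finset.card_univ, ← Finset.sum_const,
      ← Equiv.sum_comp (Equiv.mulLeft g) c, ← Finset.sum_sub_distrib]
    exact Finset.sum_congr rfl fun x _ => by rw [Equiv.coe_mulLeft, h, add_sub_cancel_right]
  rw [map_neg, map_smul, h1, smul_sub, smul_smul, inv_mul_cancel₀ hc, one_smul]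
  abel

theorem continuousH2π_eq_zero_of_card (r : G →* Gam) (A : Rep.{0} (ZMod p) G)
    (hc : (Fintype.card G : ZMod p) ≠ 0) (f : ↥(levelCocycles₂ r A)) :
    continuousH2π r A f = 0 := by
  obtain ⟨f, hf, F, hF, hlev⟩ := f
  rw [continuousH2π_eq_zero_iff, mem_levelCoboundaries₂_iff]
  refine ⟨fun g => (Fintype.card G : ZMod p)⁻¹ • ∑ x, f (g, x), ⟨F, hF, fun g s hs => ?_⟩,
    funext fun ⟨g, g'⟩ => ?_⟩
  · refine congrArg _ (Finset.sum_congr rfl fun x _ => ?_)
    have := hlev g x s 1 hs (by rw [map_one]; exact one_mem _)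
    rwa [mul_one] at this
  · have hcoc := (mem_cocycles₂_iff f).1 hf
    have h1 : A.ρ g (∑ x, f (g', x)) - (∑ x, f (g * g', x)) + ∑ x, f (g, x) =
        (Fintype.card G : ZMod p) • f (g, g') := by
      rw [map_sum, Nat.cast_smul_eq_nsmul, ← Finset.card_univ, ← Finset.sum_const,
        ← Equiv.sum_comp (Equiv.mulLeft g') (fun x => f (g, x)), ← Finset.sum_sub_distrib,
        ← Finset.sum_add_distrib]
      refine Finset.sum_congr rfl fun x _ => ?_
      have h2 := hcoc g g' x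
      rw [Equiv.coe_mulLeft, sub_add_eq_add_sub, ← h2, add_sub_cancel_left]
    rw [d₁₂_hom_apply]
    simp only [map_smul, ← smul_sub, ← smul_add, h1, smul_smul, inv_mul_cancel₀ hc, one_smul]

end Averaging

/-! ### The archimedean place -/

section Arch

open ExtCitation

theorem arch_cases (τ : ↥archimedeanDecomposition) :
    (τ : Gam) = 1 ∨ (τ : Gam) = complexConjugation := by
  obtain ⟨n, hn⟩ := Subgroup.mem_zpowers_iff.1 τ.2
  rcases Int.even_or_odd n with ⟨k, hk⟩ | ⟨k, hk⟩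
  · refine Or.inl ?_
    rw [← hn, hk, ← two_mul, zpow_mul, zpow_two, complexConjugation_mul_self, one_zpow]
  · refine Or.inr ?_
    rw [← hn, hk, zpow_add_one, zpow_mul, zpow_two, complexConjugation_mul_self, one_zpow, one_mul]

instance finite_archimedean : Finite ↥archimedeanDecomposition :=
  Finite.of_surjective
    (fun b : Bool => if b then (1 : ↥archimedeanDecomposition) else archimedeanGen)
    fun τ => (arch_cases τ).elim (fun h => ⟨true, Subtype.ext h.symm⟩)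
      fun h => ⟨false, Subtype.ext h.symm⟩

theorem card_arch_ne_zero (hodd : p ≠ 2) [Fintype ↥archimedeanDecomposition] :
    (Fintype.card ↥archimedeanDecomposition : ZMod p) ≠ 0 := fun h => by
  have h2 : Fintype.card ↥archimedeanDecomposition ≤ 2 :=
    (Fintype.card_le_of_surjective
      (fun b : Bool => if b then (1 : ↥archimedeanDecomposition) else archimedeanGen)
      fun τ => (arch_cases τ).elim (fun h => ⟨true, Subtype.ext h.symm⟩)
        fun h => ⟨false, Subtype.ext h.symm⟩).trans Fintype.card_bool.le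
  have h3 := (ZMod.natCast_eq_zero_iff _ _).1 h
  have h4 := Nat.le_of_dvd Fintype.card_pos h3
  have h5 := (Fact.out : p.Prime).two_le
  omega

end Arch

/-! ### The setting -/

variable {S : Finset Nat.Primes} (M : Rep.{0} (ZMod p) Gam)

open groupCohomology ExtCitation

/-- A finite smooth module unramified outside `S` is trivial on a suitable level. -/
theorem nice_of_unramified (hpS : pP p ∈ S) [FiniteDimensional (ZMod p) M]
    (hsm : ∀ m : M, ∃ F : IntermediateField ℚ (AlgebraicClosure ℚ), FiniteDimensional ℚ F ∧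
      ∀ s ∈ F.fixingSubgroup, M.ρ s m = m)
    (hMur : ∀ q : Nat.Primes, q ∉ S → ∀ A : ValuationSubring (AlgebraicClosure ℚ),
      A.LiesOverPrime (q : ℕ) → ∀ g ∈ A.inertiaSubgroupIn ℚ, M.ρ g = 1) :
    Nice S M.ρ := by
  let b := Module.finBasis (ZMod p) M
  choose F hF hfix using fun i => hsm (b i)
  have hU : (Finset.univ.inf fun i => (F i).fixingSubgroup) ∈ LG :=
    Finset.inf_induction LG.top_mem (fun a ha c hc => LG.inf_mem ha hc)
      fun i _ => ⟨F i, hF i, le_rfl⟩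
  have hker : MonoidHom.ker M.ρ ∈ LG := LG.mem_of_le hU fun g hg =>
    MonoidHom.mem_ker.2 (b.ext fun i => hfix i g ((Finset.inf_le (Finset.mem_univ i) :
      (Finset.univ.inf fun i => (F i).fixingSubgroup) ≤ (F i).fixingSubgroup) hg))
  have hLS : MonoidHom.ker M.ρ ∈ LS S :=
    mem_LS_of_inertia hker fun r hr A hA g hg => MonoidHom.mem_ker.2 (hMur r hr A hA g hg)
  exact ⟨MonoidHom.ker M.ρ ⊓ Hm p 0, (LS S).inf_mem hLS (Hm_mem_LS hpS 0), inferInstance,
    (Hm_muFix 0).anti inf_le_right, fun u hu => MonoidHom.mem_ker.1 hu.1⟩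

theorem dualTwist_eq (g : Gam) (f : M →ₗ[ZMod p] ZMod p) :
    (M.dualTwist (cycloChar p)).ρ g f = dualR (muG p) M.ρ g f := by
  refine LinearMap.ext fun m => ?_
  rw [dualR_apply]
  exact (Cyc.rep_apply (cyc p) g (f (M.ρ g⁻¹ m))).symm

/-- The cocycle of a pair. -/
def pairCocycle : ↥(pairsA S M.ρ) →ₗ[ZMod p] ↥(cocycles₁ (M.dualTwist (cycloChar p))) where
  toFun a := ⟨a.1.1, (mem_cocycles₁_iff (A := M.dualTwist (cycloChar p)) _).2 fun g h => by
    rw [dualTwist_eq]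
    exact (mem_Z1.1 a.2.1).2 g h⟩
  map_add' _ _ := rfl
  map_smul' _ _ := rfl

theorem locTotal_H1π_eq_zero_iff (A : Rep.{0} (ZMod p) Gam) (c : ↥(cocycles₁ A)) :
    locTotal (extArithLoc S) A ((H1π A).hom c) = 0 ↔
      ∀ v : extArithIndex S, ∃ m : A, ∀ τ,
        c (extArithLoc S v τ) = A.ρ (extArithLoc S v τ) m - m := by
  rw [funext_iff]
  refine forall_congr' fun v => ?_
  rw [locTotal_apply]
  have h1 : (locRes (extArithLoc S) A v).hom ((H1π A).hom c) =
      (H1π (Rep.res (extArithLoc S v) A)).hom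
        ((mapCocycles₁ (extArithLoc S v) (𝟙 (Rep.res (extArithLoc S v) A))).hom c) :=
    H1π_comp_map_apply _ _ c
  rw [h1]
  refine (H1π_eq_zero_iff _).trans ⟨fun ⟨m, hm⟩ => ⟨m, fun τ => ?_⟩, fun ⟨m, hm⟩ => ⟨m, ?_⟩⟩
  · have := congrFun hm τ
    rw [d₀₁_hom_apply] at this
    exact this.symm
  · refine funext fun τ => ?_
    rw [d₀₁_hom_apply]
    exact (hm τ).symm

theorem mem_sha₁_pairCocycle (hodd : p ≠ 2) (a : ↥(pairsA S M.ρ)) :
    (H1π (M.dualTwist (cycloChar p))).hom (pairCocycle M a) ∈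
      sha₁ S (M.dualTwist (cycloChar p)) := by
  refine Submodule.mem_inf.2 ⟨(mem_continuousH1S_iff _ _ _).2 ⟨_, ?_, rfl⟩,
    LinearMap.mem_ker.2 ((locTotal_H1π_eq_zero_iff _ _).2 ?_)⟩
  · obtain ⟨U, hU, hc⟩ := (mem_Z1.1 a.2.1).1
    obtain ⟨F, hF, hFU⟩ := mem_LS_iff_isUnramifiedOutside.1 hU
    exact ⟨F, hF, fun g s hs => hc g s (hFU hs)⟩
  · rintro (u | q)
    · let _ : Fintype ↥archimedeanDecomposition := Fintype.ofFinite _
      exact exists_d0_of_card (Rep.res archimedeanLoc (M.dualTwist (cycloChar p)))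
        (card_arch_ne_zero hodd) (c := fun τ => pairCocycle M a (archimedeanLoc τ)) fun g g' => by
          rw [map_mul]
          exact (mem_cocycles₁_iff _).1 (pairCocycle M a).2 _ _
    · refine ⟨a.1.2 q, fun τ => ?_⟩
      rw [dualTwist_eq]
      exact a.2.2 q τ

/-- The class of a pair. -/
def pairClass (hodd : p ≠ 2) :
    ↥(pairsA S M.ρ) →ₗ[ZMod p] ↥(sha₁ S (M.dualTwist (cycloChar p))) :=
  ((H1π (M.dualTwist (cycloChar p))).hom ∘ₗ pairCocycle M).codRestrict _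
    (mem_sha₁_pairCocycle M hodd)

theorem pairClass_surjective (hodd : p ≠ 2) :
    Function.Surjective (pairClass (S := S) M hodd) := by
  intro y
  obtain ⟨hy, hloc⟩ := Submodule.mem_inf.1 y.2
  obtain ⟨c, ⟨F, hF, hlev⟩, hc⟩ := (mem_continuousH1S_iff _ _ _).1 hy
  rw [LinearMap.mem_ker, ← hc, locTotal_H1π_eq_zero_iff] at hloc
  choose m hm using fun q : ↥S => hloc (Sum.inr q)
  refine ⟨⟨((c : Gam → M →ₗ[ZMod p] ZMod p), m), mem_Z1.2 ⟨⟨F.fixingSubgroup,
    mem_LS_iff_isUnramifiedOutside.2 ⟨F, hF, le_rfl⟩, hlev⟩, fun g h => ?_⟩, fun q τ => ?_⟩,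
    Subtype.ext ((congrArg _ (Subtype.ext rfl)).trans hc)⟩
  · rw [← dualTwist_eq]
    exact (mem_cocycles₁_iff (A := M.dualTwist (cycloChar p)) _).1 c.2 g h
  · rw [← dualTwist_eq]
    exact hm q τ

theorem exists_fst_eq_of_pairClass_eq_zero (hodd : p ≠ 2) (a : ↥(pairsA S M.ρ))
    (h : pairClass M hodd a = 0) :
    ∃ m₀, ∀ g, a.1.1 g = dualR (muG p) M.ρ g m₀ - m₀ := by
  obtain ⟨m₀, hm₀⟩ := (H1π_eq_zero_iff _).1 (congrArg Subtype.val h)
  refine ⟨m₀, fun g => ?_⟩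
  rw [← dualTwist_eq]
  have := congrFun hm₀ g
  rw [d₀₁_hom_apply] at this
  exact this.symm

theorem pairClass_constA (hodd : p ≠ 2) (hn : Nice S M.ρ) (m₀ : M →ₗ[ZMod p] ZMod p) :
    pairClass M hodd (constA hn m₀) = 0 := by
  refine Subtype.ext ((H1π_eq_zero_iff _).2 ⟨m₀, funext fun g => ?_⟩)
  rw [d₀₁_hom_apply, dualTwist_eq]
  rfl

/-! ### `H²` -/

/-- From classes of `G_S` in the prelude to `H²`. -/
def toH2 : continuousH2S S M →ₗ[ZMod p] H2 (LS S) M.ρ :=
  Submodule.mapQ _ _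
    { toFun := fun f => ⟨(f : Gam × Gam → M), by
        obtain ⟨hf, F, hF, hlev⟩ := f.2
        exact mem_Z2.2 ⟨⟨F.fixingSubgroup, mem_LS_iff_isUnramifiedOutside.2 ⟨F, hF, le_rfl⟩,
          fun g g' s hs s' hs' => hlev g g' s s' hs hs'⟩, (mem_cocycles₂_iff _).1 hf⟩⟩
      map_add' := fun _ _ => rfl
      map_smul' := fun _ _ => rfl }
    (by
      intro f hf
      obtain ⟨y, ⟨F, hF, hlev⟩, hy⟩ := (mem_levelCoboundariesS₂_iff S M _).1 hf
      refine ⟨y, ⟨F.fixingSubgroup, mem_LS_iff_isUnramifiedOutside.2 ⟨F, hF, le_rfl⟩, hlev⟩, ?_⟩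
      refine funext fun ⟨g, h⟩ => ?_
      rw [d1_apply]
      exact (d₁₂_hom_apply M y (g, h)).symm.trans (congrFun hy (g, h)))

theorem toH2_injective : Function.Injective (toH2 (S := S) M) := by
  rw [injective_iff_map_eq_zero]
  intro z hz
  obtain ⟨f, rfl⟩ := Submodule.mkQ_surjective _ z
  obtain ⟨y, ⟨U, hU, hlev⟩, hy⟩ := mk2_eq_zero.1 hz
  obtain ⟨F, hF, hFU⟩ := mem_LS_iff_isUnramifiedOutside.1 hU
  refine (continuousH2Sπ_eq_zero_iff S M f).2 ((mem_levelCoboundariesS₂_iff S M _).2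
    ⟨y, ⟨F, hF, fun g s hs => hlev g s (hFU hs)⟩, ?_⟩)
  refine funext fun ⟨g, h⟩ => ?_
  rw [d₁₂_hom_apply]
  exact congrFun hy (g, h)

theorem toH2_surjective : Function.Surjective (toH2 (S := S) M) := by
  intro z
  obtain ⟨f, rfl⟩ := mk2_surjective z
  obtain ⟨⟨U, hU, hlev⟩, hcoc⟩ := mem_Z2.1 f.2
  obtain ⟨F, hF, hFU⟩ := mem_LS_iff_isUnramifiedOutside.1 hU
  exact ⟨continuousH2Sπ S M ⟨(f : Gam × Gam → M), (mem_cocycles₂_iff _).2 hcoc, F, hF,
    fun g g' s s' hs hs' => hlev g g' s (hFU hs) s' (hFU hs')⟩, rfl⟩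

/-- Localisation at a finite place. -/
def locM (ρ : Representation (ZMod p) Gam M) (q : Nat.Primes) :
    H2 (LS S) ρ →ₗ[ZMod p] H2 (LQ (q : ℕ)) (repQ (q : ℕ) ρ) :=
  H2map (compat_LS q) (φ := (LinearMap.id : M →ₗ[ZMod p] M)) fun _ _ => rfl

theorem mem_sha₂_iff (hodd : p ≠ 2) (x : continuousH2S S M) :
    x ∈ sha₂ S M ↔ ∀ q : ↥S, locM M M.ρ (q : Nat.Primes) (toH2 M x) = 0 := by
  obtain ⟨f, rfl⟩ := Submodule.mkQ_surjective _ x
  rw [sha₂, LinearMap.mem_ker, funext_iff]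
  refine ⟨fun h q => ?_, fun h => ?_⟩
  · have h1 := h (Sum.inr q)
    rw [locTotal₂S_apply] at h1
    obtain ⟨y, ⟨F, hF, hlev⟩, hy⟩ := (mem_levelCoboundaries₂_iff _ _ _).1
      ((continuousH2π_eq_zero_iff _ _ _).1 h1)
    refine mk2_eq_zero.2 ⟨y, ?_, funext fun ⟨σ, τ⟩ => ?_⟩
    · exact ⟨F.fixingSubgroup.comap (localGaloisToGlobal ((q : Nat.Primes) : ℕ)),
        compat_local _ _ ⟨F, hF, le_rfl⟩, fun g s hs => hlev g s hs⟩
    · rw [d1_apply]
      exact (d₁₂_hom_apply _ y (σ, τ)).symm.trans (congrFun hy (σ, τ))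
  · rintro (u | q) <;> rw [locTotal₂S_apply]
    · let _ : Fintype ↥archimedeanDecomposition := Fintype.ofFinite _
      exact continuousH2π_eq_zero_of_card (G := ↥archimedeanDecomposition) archimedeanLoc
        (Rep.res archimedeanLoc M) (card_arch_ne_zero hodd) _
    · obtain ⟨y, ⟨W, hW, hlev⟩, hy⟩ := mk2_eq_zero.1 (h q)
      rw [LQ_eq_comap] at hW
      obtain ⟨V, ⟨F, hF, hFV⟩, hVW⟩ := hW
      refine (continuousH2π_eq_zero_iff _ _ _).2 ((mem_levelCoboundaries₂_iff _ _ _).2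
        ⟨y, ⟨F, hF, fun g s hs => hlev g s (hVW (hFV hs))⟩, funext fun ⟨σ, τ⟩ => ?_⟩)
      rw [d₁₂_hom_apply]
      exact congrFun hy (σ, τ)

/-! ### The pairing -/

variable {M}

theorem mem_invF_of_dualR {ρ : Representation (ZMod p) Gam M} {q : Nat.Primes}
    (t : M →ₗ[ZMod p] ZMod p)
    (ht : ∀ τ : GamQ (q : ℕ), dualR (muG p) ρ (localGaloisToGlobal (q : ℕ) τ) t = t) :
    t ∈ invF (repQ (q : ℕ) ρ) := fun τ m => by
  conv_lhs => rw [← ht τ]
  exact dualR_smul_apply (muG p) ρ _ t m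

theorem phiA_eq_sum_locPair [Finite M] (D : PTData p S) (hn : Nice S M.ρ)
    (a : ↥(pairsA S M.ρ)) (ha : a.1.1 = 0)
    (hinv : ∀ q : ↥S, a.1.2 q ∈ invF (repQ ((q : Nat.Primes) : ℕ) M.ρ)) (α : H2 (LS S) M.ρ) :
    phiA D hn a α = ∑ q : ↥S, locPair (D.lam q) ⟨a.1.2 q, hinv q⟩ (locM M M.ρ q α) := by
  rw [phiA_of_fst_eq_zero D hn a ha (fun q => hinv q) α]
  refine Finset.sum_congr rfl fun q _ => congrArg (D.lam q) ?_
  obtain ⟨x, rfl⟩ := mk2_surjective α
  rfl

theorem phiA_eq_zero_of_pairClass_eq_zero [Finite M] (D : PTData p S) (hn : Nice S M.ρ)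
    (a : ↥(pairsA S M.ρ)) (h : pairClass M D.hodd a = 0) (α : H2 (LS S) M.ρ)
    (hα : ∀ q : ↥S, locM M M.ρ (q : Nat.Primes) α = 0) : phiA D hn a α = 0 := by
  obtain ⟨m₀, hm₀⟩ := exists_fst_eq_of_pairClass_eq_zero M D.hodd a h
  have h0 : (a - constA hn m₀).1.1 = 0 := funext fun g => sub_eq_zero.2 (hm₀ g)
  have hinv : ∀ q : ↥S, (a - constA hn m₀).1.2 q ∈ invF (repQ ((q : Nat.Primes) : ℕ) M.ρ) :=
    fun q => mem_invF_of_dualR _ fun τ => by
      have := (a - constA hn m₀).2.2 q τ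
      rw [h0, Pi.zero_apply] at this
      exact sub_eq_zero.1 this.symm
  have h1 : phiA D hn (a - constA hn m₀) α = 0 := by
    rw [phiA_eq_sum_locPair D hn _ h0 hinv α]
    exact Finset.sum_eq_zero fun q _ => by rw [hα q, map_zero]
  rwa [(phiA D hn).map_sub, LinearMap.sub_apply, phiA_constA, sub_zero] at h1

theorem pairClass_eq_zero_of_phiA [Finite M] (D : PTData p S) (hn : Nice S M.ρ)
    (a : ↥(pairsA S M.ρ))
    (h : ∀ α : H2 (LS S) M.ρ, (∀ q : ↥S, locM M M.ρ (q : Nat.Primes) α = 0) → phiA D hn a α = 0) :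
    pairClass M D.hodd a = 0 := by
  classical
  obtain ⟨L, hL⟩ := exists_eq_sum_comp
    (W := fun q : ↥S => H2 (LQ ((q : Nat.Primes) : ℕ)) (repQ ((q : Nat.Primes) : ℕ) M.ρ))
    (fun q => locM M M.ρ (q : Nat.Primes)) (phiA D hn a) h
  obtain ⟨K, hK, hKn, hKμ, hKρ⟩ := id hn
  have hex := fun q : ↥S =>
    exists_locPair_eq (ρ := repQ ((q : Nat.Primes) : ℕ) M.ρ) (D.lam q) D.hodd (D.hlam q)
      (V := K.comap (localGaloisToGlobal ((q : Nat.Primes) : ℕ))) (compat_LS _ K hK)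
      (fun τ hτ => hKμ _ hτ) (fun τ hτ => hKρ _ hτ)
      (L q)
  choose t ht using hex
  let a₀ : ↥(pairsA S M.ρ) := ⟨(0, fun q => (t q).1), zero_mem _, fun q τ => by
    refine (sub_eq_zero.2 (LinearMap.ext fun m => ?_)).symm
    show dualR (muG p) M.ρ _ (t q).1 m = (t q).1 m
    have h1 : (t q).1 (M.ρ (localGaloisToGlobal _ τ⁻¹) m) =
        muG p (localGaloisToGlobal _ τ⁻¹) ((t q).1 m) := (t q).2 τ⁻¹ m
    rw [dualR_apply, ← map_inv, h1]
    rw [← Module.End.mul_apply, ← map_mul, ← map_mul, mul_inv_cancel, map_one, map_one,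
      Module.End.one_apply]⟩
  have h0 : phiA D hn (a - a₀) = 0 := by
    rw [(phiA D hn).map_sub, sub_eq_zero]
    refine LinearMap.ext fun α => ?_
    rw [phiA_eq_sum_locPair D hn a₀ rfl (fun q => (t q).2) α, hL α]
    exact Finset.sum_congr rfl fun q _ => (LinearMap.congr_fun (ht q) _).symm
  obtain ⟨m₀, hm₀⟩ := eq_constA_of_phiA_eq_zero D hn _ h0
  have h1 := pairClass_constA M D.hodd hn m₀
  rw [← hm₀] at h1
  refine Subtype.ext (Eq.trans ?_ (congrArg Subtype.val h1))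
  exact congrArg (H1π _).hom (Subtype.ext (funext fun g => (sub_zero _).symm))

variable (M)

/-- Perfect pairing of `Ш¹` and `Ш²`. -/
theorem exists_sha_pairing (hodd : p ≠ 2) (hpS : pP p ∈ S) [FiniteDimensional (ZMod p) M]
    (hn : Nice S M.ρ) :
    ∃ B : sha₁ S (M.dualTwist (cycloChar p)) →ₗ[ZMod p] sha₂ S M →ₗ[ZMod p] ZMod p,
      (∀ y, (∀ x, B y x = 0) → y = 0) ∧ (∀ x, (∀ y, B y x = 0) → x = 0) := by
  have : Finite M := Module.finite_of_finite (ZMod p)
  obtain ⟨D⟩ := nonempty_ptData p hodd hpS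
  obtain ⟨σ, hσ⟩ := LinearMap.exists_rightInverse_of_surjective (pairClass M D.hodd)
    (LinearMap.range_eq_top.2 (pairClass_surjective M D.hodd))
  let e : ↥(sha₂ S M) →ₗ[ZMod p] H2 (LS S) M.ρ := toH2 M ∘ₗ (sha₂ S M).subtype
  let B := (phiA D hn ∘ₗ σ).compl₂ e
  have he : ∀ x (q : ↥S), locM M M.ρ (q : Nat.Primes) (e x) = 0 := fun x q =>
    (mem_sha₂_iff M hodd _).1 x.2 q
  have hB : ∀ a x, B (pairClass M D.hodd a) x = phiA D hn a (e x) := fun a x => by
    refine sub_eq_zero.1 ?_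
    show phiA D hn (σ (pairClass M D.hodd a)) (e x) - phiA D hn a (e x) = 0
    rw [← LinearMap.sub_apply, ← (phiA D hn).map_sub]
    refine phiA_eq_zero_of_pairClass_eq_zero D hn _ ?_ _ (he x)
    rw [(pairClass M D.hodd).map_sub, sub_eq_zero]
    exact LinearMap.congr_fun hσ _
  refine ⟨B, fun y hy => ?_, fun x hx => ?_⟩
  · rw [← show pairClass M D.hodd (σ y) = y from LinearMap.congr_fun hσ y]
    refine pairClass_eq_zero_of_phiA D hn _ fun α hα => ?_
    obtain ⟨z, rfl⟩ := toH2_surjective M α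
    exact hy ⟨z, (mem_sha₂_iff M hodd z).2 hα⟩
  · refine Subtype.ext (toH2_injective M ((phiA_right D hn (e x) fun a => ?_).trans
      (map_zero _).symm))
    rw [← hB]
    exact hx _

end Fermat.Agent.PT
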