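import Mathlib.FieldTheory.Finite.Basic
import Mathlib.LinearAlgebra.FreeModule.IdealQuotient
import Mathlib.NumberTheory.NumberField.Ideal.Basic
import Fermat.Prelude.Def_GroupCohomology_ContinuousUnramified
import Fermat.Agent.PT.Places

/-!
# Unramified levels: value groups, and the levels of `G_S`

The family `LS S` of levels unramified outside a finite set `S` of primes, which defines `G_S`;
values of absolute values at unramified primes, roots of units fixed by inertia, and the fact that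
every level is unramified outside some finite set.
-/

noncomputable section

namespace Fermat.Agent.PT

open Lv Polynomial IntermediateField

open scoped Pointwise

local notation "Qb" => AlgebraicClosure ℚ
local notation "OZ" => integralClosure ℤ (AlgebraicClosure ℚ)

variable {q : ℕ} [Fact q.Prime]

theorem padicPlace_mem_nonunits {x : Qb} :
    x ∈ (padicPlace q).nonunits ↔ ‖padicEmbedding q x‖ < 1 := by
  rw [ValuationSubring.mem_nonunits_iff_or]
  by_cases hx : x = 0
  · simp [hx]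
  · simp only [hx, false_or, mem_padicPlace_iff, map_inv₀, not_le, nnnorm_inv]
    have h : 0 < ‖padicEmbedding q x‖₊ :=
      nnnorm_pos.2 fun h => hx ((padicEmbedding q).toRingHom.injective (h.trans (map_zero _).symm))
    rw [one_lt_inv₀ h]
    exact Iff.rfl

theorem padicPlace_liesOverPrime : (padicPlace q).LiesOverPrime q := by
  rw [ValuationSubring.LiesOverPrime, padicPlace_mem_nonunits, map_natCast,
    ← map_natCast (algebraMap ℚ_[q] (PadicAlgCl q)), norm_algebraMap', Padic.norm_p]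
  exact inv_lt_one_of_one_lt₀ (by exact_mod_cast (Fact.out : q.Prime).one_lt)

variable (q) in
/-- All inertia groups at `q` are contained in `N`. -/
def InN (N : Subgroup Gam) : Prop :=
  ∀ A : ValuationSubring Qb, A.LiesOverPrime q → A.inertiaSubgroupIn ℚ ≤ N

omit [Fact q.Prime] in
theorem InN.mono {N N' : Subgroup Gam} (h : InN q N) (hle : N ≤ N') : InN q N' :=
  fun A hA => (h A hA).trans hle

theorem isClosed_of_mem {N : Subgroup Gam} (hN : N ∈ LG) : IsClosed (N : Set Gam) := by
  obtain ⟨E, hE, hEN⟩ := hN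
  exact Subgroup.isClosed_of_isOpen N (Subgroup.isOpen_mono hEN E.fixingSubgroup_isOpen)

/-- The conjugates of an element fixed by a normal subgroup are fixed by it. -/
theorem apply_fixed_of_normal {N : Subgroup Gam} [hn : N.Normal] {x : Qb} (hx : ∀ n ∈ N, n x = x)
    (g : Gam) : ∀ n ∈ N, n (g x) = g x := fun n hn' => by
  have h1 : (g⁻¹ * n * g) x = x := hx _ (by simpa using hn.conj_mem n hn' g⁻¹)
  rw [AlgEquiv.mul_apply, AlgEquiv.mul_apply] at h1
  have := congrArg g h1
  rwa [show g (g⁻¹ (n (g x))) = n (g x) from AlgEquiv.apply_symm_apply g _] at this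

/-- The action of an automorphism on the integers of the fixed field of a normal subgroup. -/
def fixedFieldIntMap (N : Subgroup Gam) [N.Normal] (τ : Gam) :
    NumberField.RingOfIntegers (fixedField N) →+* NumberField.RingOfIntegers (fixedField N) where
  toFun x := ⟨⟨τ ((x : fixedField N) : Qb),
      mem_fixedField_iff.2 (apply_fixed_of_normal (mem_fixedField_iff.1 (x : fixedField N).2) τ)⟩,
    (isIntegral_algHom_iff (fixedField N).val.toRingHom.toIntAlgHom
      (fixedField N).val.injective).1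
      ((x.2.map ((fixedField N).val.toRingHom.toIntAlgHom)).map (τ : Qb →+* Qb).toIntAlgHom)⟩
  map_one' := Subtype.ext (Subtype.ext (map_one τ))
  map_mul' _ _ := Subtype.ext (Subtype.ext (map_mul τ _ _))
  map_zero' := Subtype.ext (Subtype.ext (map_zero τ))
  map_add' _ _ := Subtype.ext (Subtype.ext (map_add τ _ _))

/-- A comap has index at most `d` when `d` left translates cover the image. -/
theorem index_comap_le_of_cover {G G' : Type*} [Group G] [Group G'] (f : G' →* G) (N : Subgroup G)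
    {d : ℕ} (s : Fin d → G) (h : ∀ τ, ∃ i, (s i)⁻¹ * f τ ∈ N) : (N.comap f).index ≤ d := by
  rw [Subgroup.index_eq_card, ← Fintype.card_fin d, ← Nat.card_eq_fintype_card]
  have hex : ∀ y : G' ⧸ N.comap f, ∃ i, (s i)⁻¹ * f y.out ∈ N := fun y => h y.out
  choose i hi using hex
  refine Nat.card_le_card_of_injective i fun a b hab => ?_
  rw [← a.out_eq, ← b.out_eq]
  refine QuotientGroup.eq.2 ?_
  show f (a.out⁻¹ * b.out) ∈ N
  rw [map_mul, map_inv]
  have := N.mul_mem (N.inv_mem (hi a)) (hi b)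
  rw [hab] at this
  simpa [mul_assoc] using this

section Values

variable {N : Subgroup Gam} (hN : N ∈ LG) [hn : N.Normal]
include hN

omit hn hN in
/-- A decomposition element acting trivially on the residues of `N`-fixed integers is in `N`. -/
theorem mem_of_residue_trivial (hI : InN q N) {τ : Gam}
    (hτ : τ ∈ (padicPlace q).decompositionSubgroup ℚ) (hN : N ∈ LG)
    (h : ∀ x : Qb, IsIntegral ℤ x → (∀ n ∈ N, n x = x) →
      τ x - x ∈ (padicPlace q).nonunits) : τ ∈ N := by
  set A := padicPlace q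
  have hP : Gal.idealAt A = (Gal.idealAt A).map
      (MulSemiringAction.toRingEquiv Gam OZ τ : OZ →+* OZ) := by
    conv_lhs => rw [← MulAction.mem_stabilizer_iff.1 hτ, Gal.idealAt_smul]
    rfl
  let φ : (OZ ⧸ Gal.idealAt A) ≃+* (OZ ⧸ Gal.idealAt A) :=
    Ideal.quotientEquiv _ _ (MulSemiringAction.toRingEquiv Gam OZ τ) hP
  obtain ⟨η, hηN, hηD, hηφ⟩ := Gal.exists_mem_residue_eq N (isClosed_of_mem hN)
    (Fact.out : q.Prime) padicPlace_liesOverPrime φ fun x hx => by
      rw [Ideal.quotientEquiv_mk, Ideal.Quotient.eq, Gal.mem_idealAt]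
      exact h x x.2 fun n hn => congrArg Subtype.val (hx ⟨n, hn⟩)
  have hI' : η⁻¹ * τ ∈ A.inertiaSubgroupIn ℚ := by
    refine Gal.mem_inertia_of_isIntegral (Fact.out : q.Prime) padicPlace_liesOverPrime
      (mul_mem (inv_mem hηD) hτ) fun x hx => ?_
    have h1 := hηφ ⟨x, hx⟩
    rw [Ideal.quotientEquiv_mk, Ideal.Quotient.eq, Gal.mem_idealAt] at h1
    have h2 : -(η x - τ x) ∈ A.nonunits := neg_mem h1
    rw [neg_sub] at h2
    rw [← Gal.decomposition_mem_nonunits_iff hηD, map_sub, AlgEquiv.mul_apply, AlgEquiv.aut_inv,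
      AlgEquiv.apply_symm_apply]
    exact h2
  have := N.mul_mem hηN (hI A padicPlace_liesOverPrime hI')
  rwa [mul_inv_cancel_left] at this

/-- At an unramified prime the decomposition group maps to `Gam ⧸ N` onto the powers of a
Frobenius, with at most `d` values, where `q ^ d` is at most the number of residues of `N`-fixed
integers. -/
theorem exists_residue_count (hI : InN q N) {σ : Gam}
    (hσ : (padicPlace q).IsFrobeniusAt σ q) :
    ∃ d : ℕ, (∀ τ : GamQ q, ∃ i : ℕ, (σ ^ i)⁻¹ * localGaloisToGlobal q τ ∈ N) ∧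
      (N.comap (localGaloisToGlobal q)).index ≤ d ∧
      ∃ s : Finset Qb, q ^ d ≤ s.card ∧ (∀ x ∈ s, (∀ n ∈ N, n x = x) ∧ IsIntegral ℤ x) ∧
        ∀ x ∈ s, ∀ y ∈ s, x ≠ y → x - y ∉ (padicPlace q).nonunits := by
  classical
  have := finiteDimensional_fixedField hN
  let k := fixedField N
  have : NumberField k := { }
  set A := padicPlace q
  let ψ : NumberField.RingOfIntegers k →+* OZ :=
    { toFun := fun x => ⟨((x : k) : Qb), x.2.map (k.val.toRingHom.toIntAlgHom)⟩
      map_one' := rfl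
      map_mul' := fun _ _ => rfl
      map_zero' := rfl
      map_add' := fun _ _ => rfl }
  let I : Ideal (NumberField.RingOfIntegers k) := (Gal.idealAt A).comap ψ
  have hmem : ∀ x : NumberField.RingOfIntegers k, x ∈ I ↔ ((x : k) : Qb) ∈ A.nonunits := fun x => by
    rw [Ideal.mem_comap, Gal.mem_idealAt]
    rfl
  have hqI : (q : NumberField.RingOfIntegers k) ∈ I := by
    rw [hmem]
    have : (((q : NumberField.RingOfIntegers k) : k) : Qb) = (q : Qb) := by norm_cast
    rw [this]
    exact padicPlace_liesOverPrime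
  have hI0 : I ≠ ⊥ := fun h => by
    rw [h, Ideal.mem_bot] at hqI
    exact (Fact.out : q.Prime).ne_zero (Nat.cast_eq_zero.1 hqI)
  have hprime : I.IsPrime := Ideal.comap_isPrime _ _
  have hmax : I.IsMaximal := hprime.isMaximal hI0
  let _ : Field (NumberField.RingOfIntegers k ⧸ I) := Ideal.Quotient.field I
  have : Finite (NumberField.RingOfIntegers k ⧸ I) := Ideal.finiteQuotientOfFreeOfNeBot I hI0
  let _ : Fintype (NumberField.RingOfIntegers k ⧸ I) := Fintype.ofFinite _
  have : CharP (NumberField.RingOfIntegers k ⧸ I) q :=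
    (CharP.charP_iff_prime_eq_zero (Fact.out : q.Prime)).2
      (by rw [← map_natCast (Ideal.Quotient.mk I), Ideal.Quotient.eq_zero_iff_mem]; exact hqI)
  let _ : Algebra (ZMod q) (NumberField.RingOfIntegers k ⧸ I) := ZMod.algebra _ q
  set d := Module.finrank (ZMod q) (NumberField.RingOfIntegers k ⧸ I)
  obtain ⟨hσD, -⟩ := Gal.isFrobeniusAt_iff.1 hσ
  let act := fixedFieldIntMap N
  -- every decomposition element is a Frobenius power modulo `N`
  have hpow : ∀ τ ∈ A.decompositionSubgroup ℚ, ∃ i : Fin d, (σ ^ (i : ℕ))⁻¹ * τ ∈ N := by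
    intro τ hτ
    have hker : ∀ x ∈ I, (Ideal.Quotient.mk I).comp (act τ) x = 0 := fun x hx => by
      rw [RingHom.comp_apply, Ideal.Quotient.eq_zero_iff_mem, hmem]
      exact (Gal.decomposition_mem_nonunits_iff hτ).2 ((hmem x).1 hx)
    let e : (NumberField.RingOfIntegers k ⧸ I) →ₐ[ZMod q] (NumberField.RingOfIntegers k ⧸ I) :=
      { toRingHom := Ideal.Quotient.lift I ((Ideal.Quotient.mk I).comp (act τ)) hker
        commutes' := fun r => DFunLike.congr_fun (Subsingleton.elim
          ((Ideal.Quotient.lift I ((Ideal.Quotient.mk I).comp (act τ)) hker).comp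
            (algebraMap (ZMod q) _)) (algebraMap (ZMod q) _)) r }
    obtain ⟨i, hi⟩ := (FiniteField.bijective_frobeniusAlgHom_pow (ZMod q)
      (NumberField.RingOfIntegers k ⧸ I)).2 e
    refine ⟨i, mem_of_residue_trivial hI (mul_mem (inv_mem (pow_mem hσD _)) hτ) hN
      fun x hx hxN => ?_⟩
    let xk : NumberField.RingOfIntegers k := ⟨⟨x, mem_fixedField_iff.2 hxN⟩,
      (isIntegral_algHom_iff k.val.toRingHom.toIntAlgHom k.val.injective).1 hx⟩
    have h1 : τ x - x ^ q ^ (i : ℕ) ∈ A.nonunits := by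
      have h := DFunLike.congr_fun hi (Ideal.Quotient.mk I xk)
      have hf : ∀ (j : ℕ) y, (FiniteField.frobeniusAlgHom (ZMod q)
          (NumberField.RingOfIntegers k ⧸ I) ^ j) y = y ^ q ^ j := by
        intro j y
        simp [AlgHom.coe_pow, FiniteField.coe_frobeniusAlgHom, pow_iterate]
      rw [hf, ← map_pow] at h
      have h' := (hmem _).1 (Ideal.Quotient.eq.1 h.symm)
      exact h'
    have h2 : ∀ j : ℕ, (σ ^ j) x - x ^ q ^ j ∈ A.nonunits :=
      Gal.frobenius_pow_sub_mem_nonunits hσ (Gal.mem_of_isIntegral hx)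
    rw [← Gal.decomposition_mem_nonunits_iff (pow_mem hσD (i : ℕ)), map_sub, AlgEquiv.mul_apply,
      AlgEquiv.aut_inv, AlgEquiv.apply_symm_apply]
    have := sub_mem h1 (h2 i)
    rwa [sub_sub_sub_cancel_right] at this
  refine ⟨d, fun τ => (hpow _ (localGaloisToGlobal_mem_decompositionSubgroup q τ)).elim
    fun i hi => ⟨i, hi⟩, ?_, Finset.univ.image fun y : NumberField.RingOfIntegers k ⧸ I =>
    ((y.out : k) : Qb), ?_, ?_, ?_⟩
  · exact index_comap_le_of_cover _ N (fun i : Fin d => σ ^ (i : ℕ))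
      fun τ => hpow _ (localGaloisToGlobal_mem_decompositionSubgroup q τ)
  · rw [Finset.card_image_of_injective, Finset.card_univ,
      Module.card_eq_pow_finrank (K := ZMod q), ZMod.card]
    intro a b hab
    rw [← a.out_eq, ← b.out_eq]
    exact congrArg _ (Subtype.ext (Subtype.ext hab))
  · intro x hx
    obtain ⟨y, -, rfl⟩ := Finset.mem_image.1 hx
    exact ⟨mem_fixedField_iff.1 (y.out : k).2, (y.out).2.map k.val.toRingHom.toIntAlgHom⟩
  · intro x hx y hy hxy
    obtain ⟨a, -, rfl⟩ := Finset.mem_image.1 hx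
    obtain ⟨b, -, rfl⟩ := Finset.mem_image.1 hy
    intro hmem'
    refine hxy (congrArg (fun y : NumberField.RingOfIntegers k ⧸ I => ((y.out : k) : Qb)) ?_)
    rw [← a.out_eq, ← b.out_eq]
    exact Ideal.Quotient.eq.2 ((hmem _).2 hmem')

/-- At an unramified prime the values of a level are powers of `q`. -/
theorem exists_nq_eq_zpow (hI : InN q N) {x : Qb} (hx : ∀ n ∈ N, n x = x) (hx0 : x ≠ 0)
    (g : Gam) : ∃ m : ℤ, nq q g x = (q : ℝ) ^ m := by
  classical
  have hNL : N.comap (localGaloisToGlobal q) ∈ LQ q := compat_local q N hN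
  have := finiteDimensional_fixedField hNL
  set E := fixedField (N.comap (localGaloisToGlobal q))
  set O := intBall E
  have hpd : ((mulHom q O).range.index : ℚ) =
      (q : ℚ) ^ (N.comap (localGaloisToGlobal q)).index := by
    rw [index_mulHom_intBall (p := q), degreeFactor, if_pos rfl, finrank_fixedField hNL]
  let m : AddSubgroup O :=
    { carrier := {y | ‖(y : E)‖ < 1}
      zero_mem' := by simp
      add_mem' := fun {a b} ha hb =>
        (IsUltrametricDist.norm_add_le_max (a : E) (b : E)).trans_lt (max_lt ha hb)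
      neg_mem' := fun {a} ha => by simpa using ha }
  have hqle : (mulHom q O).range ≤ m := by
    rintro _ ⟨y, rfl⟩
    show ‖q • (y : E)‖ < 1
    rw [nsmul_eq_mul, norm_mul, natCast_norm, Padic.norm_p]
    exact mul_lt_one_of_nonneg_of_lt_one_left (by positivity)
      (inv_lt_one_of_one_lt₀ (by exact_mod_cast (Fact.out : q.Prime).one_lt)) y.2
  obtain ⟨σ, hσ⟩ := Gal.exists_isFrobeniusAt (A := padicPlace q) (Fact.out : q.Prime)
    padicPlace_liesOverPrime
  obtain ⟨d, -, hd, s, hs, hsN, hsep⟩ := exists_residue_count hN hI hσ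
  have hfix : ∀ y : Qb, (∀ n ∈ N, n y = y) → padicEmbedding q y ∈ E := fun y hy τ => by
    show (τ : GamQ q) (padicEmbedding q y) = padicEmbedding q y
    rw [← padicEmbedding_localGaloisToGlobal, hy _ τ.2]
  have hidx0 : (mulHom q O).range.index ≠ 0 := fun h => by
    rw [h, Nat.cast_zero] at hpd
    exact pow_ne_zero _ (Nat.cast_ne_zero.2 (Fact.out : q.Prime).ne_zero) hpd.symm
  have hfi : (mulHom q O).range.FiniteIndex := ⟨hidx0⟩
  have : m.FiniteIndex := AddSubgroup.finiteIndex_of_le hqle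
  have hidx : q ^ (N.comap (localGaloisToGlobal q)).index ≤ m.index := by
    refine (Nat.pow_le_pow_right (Fact.out : q.Prime).pos hd).trans (hs.trans ?_)
    rw [AddSubgroup.index_eq_card, ← Fintype.card_coe, ← Nat.card_eq_fintype_card]
    let f : s → O ⧸ m := fun y => QuotientAddGroup.mk
      ⟨⟨padicEmbedding q y, hfix y (hsN y y.2).1⟩, by
        rw [mem_intBall]; exact nq_le_one_of_isIntegral 1 (hsN y y.2).2⟩
    refine Nat.card_le_card_of_injective f fun a b hab => ?_
    by_contra hne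
    refine hsep b b.2 a a.2 (fun h => hne (Subtype.ext h).symm) (padicPlace_mem_nonunits.2 ?_)
    have h := QuotientAddGroup.eq.1 hab
    rw [map_sub, sub_eq_neg_add]
    exact h
  have hm : m ≤ (mulHom q O).range := by
    rw [← AddSubgroup.relIndex_eq_one]
    have h1 := AddSubgroup.relIndex_mul_index hqle
    have h2 : (mulHom q O).range.index = q ^ (N.comap (localGaloisToGlobal q)).index := by
      exact_mod_cast hpd
    rcases Nat.eq_zero_or_pos ((mulHom q O).range.relIndex m) with h0 | h0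
    · rw [h0, zero_mul] at h1; exact absurd h1.symm hidx0
    · have := pow_pos (Fact.out : q.Prime).pos (N.comap (localGaloisToGlobal q)).index
      rw [h2] at h1
      nlinarith
  -- normalise
  have hq1 : 1 < (q : ℝ) := by exact_mod_cast (Fact.out : q.Prime).one_lt
  set t := nq q g x with ht
  have ht0 : 0 < t := nq_pos g hx0
  obtain ⟨j, hj1, hj2⟩ := exists_mem_Ioc_zpow (K := ℝ) ht0 hq1
  refine ⟨j + 1, ?_⟩
  have hgx : ∀ n ∈ N, n (g x) = g x := apply_fixed_of_normal hx g
  set z : E := ⟨padicEmbedding q (g x), hfix _ hgx⟩ * (q : E) ^ (j + 1)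
  have hz : ‖z‖ = t / (q : ℝ) ^ (j + 1) := by
    rw [norm_mul, norm_zpow, natCast_norm, Padic.norm_p, inv_zpow, div_eq_mul_inv]
    rfl
  have hle : ‖z‖ ≤ 1 := by rw [hz, div_le_one (by positivity)]; exact hj2
  have hgt : (q : ℝ)⁻¹ < ‖z‖ := by
    rw [hz, lt_div_iff₀ (by positivity), zpow_add₀ (by positivity), zpow_one, mul_comm,
      mul_inv_cancel_right₀ (by positivity)]
    exact hj1
  rcases hle.lt_or_eq with hlt | heq
  · obtain ⟨y, hy⟩ := hm (show (⟨z, hle⟩ : O) ∈ m from hlt)
    have : ‖z‖ ≤ (q : ℝ)⁻¹ := by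
      have e : z = q • (y : E) := (congrArg Subtype.val hy).symm
      rw [e, nsmul_eq_mul, norm_mul, natCast_norm, Padic.norm_p]
      exact mul_le_of_le_one_right (by positivity) y.2
    exact absurd this hgt.not_ge
  · rw [hz, div_eq_one_iff_eq (by positivity)] at heq
    exact heq

end Values

/-- Values of local fields unramified over `ℚ_q`. -/
theorem exists_norm_zpow_of_fixed {N H : Subgroup Gam} (hN : N ∈ LG) [N.Normal] (hI : InN q N)
    (hNH : N ≤ H) (g : Gam) {a : (PadicAlgCl q)ˣ} (ha : a ∈ fixU (stab q H g)) :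
    ∃ k : ℤ, ‖(a : PadicAlgCl q)‖ = (q : ℝ) ^ k := by
  have ha0 : 0 < ‖(a : PadicAlgCl q)‖ := norm_pos_iff.2 a.ne_zero
  obtain ⟨z, hz, hze⟩ := dense_local (LG.mem_of_le hN hNH) g (a := (a : PadicAlgCl q))
    (fun τ hτ => congrArg Units.val (ha ⟨τ, hτ⟩)) ha0
  have hzn : ‖padicEmbedding q (g z)‖ = ‖(a : PadicAlgCl q)‖ := norm_eq_of_norm_sub_lt hze
  have hz0 : z ≠ 0 := fun h => by
    rw [h, map_zero, map_zero, norm_zero] at hzn
    exact ha0.ne hzn
  obtain ⟨k, hk⟩ := exists_nq_eq_zpow hN hI (fun n hn => hz n (hNH hn)) hz0 g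
  exact ⟨k, hzn.symm.trans hk⟩

/-! ### The levels of `G_S` -/

variable (S : Finset Nat.Primes)

/-- Levels unramified outside `S`. -/
def LS : Lv Gam where
  sets := {U | ∃ N ∈ LG, N.Normal ∧ N ≤ U ∧ ∀ r : Nat.Primes, r ∉ S → InN (r : ℕ) N}
  top_mem := ⟨⊤, LG.top_mem, inferInstance, le_rfl, fun _r _ _A _ => le_top⟩
  inf_mem := fun ⟨N, hN, _hn, hU, hI⟩ ⟨N', hN', _hn', hV, hI'⟩ =>
    ⟨N ⊓ N', LG.inf_mem hN hN', inferInstance, inf_le_inf hU hV,
      fun r hr A hA => le_inf (hI r hr A hA) (hI' r hr A hA)⟩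
  mem_of_le := fun ⟨N, hN, hn, hU, hI⟩ h => ⟨N, hN, hn, hU.trans h, hI⟩
  exists_normal := fun ⟨N, hN, hn, hU, hI⟩ => ⟨N, ⟨N, hN, hn, le_rfl, hI⟩, hU, hn⟩
  finiteIndex := fun ⟨_, hN, _, hU, _⟩ => LG.finiteIndex (LG.mem_of_le hN hU)

variable {S}

theorem mem_LS {U : Subgroup Gam} :
    U ∈ LS S ↔ ∃ N ∈ LG, N.Normal ∧ N ≤ U ∧ ∀ r : Nat.Primes, r ∉ S → InN (r : ℕ) N := Iff.rfl

theorem LS_le_LG {U : Subgroup Gam} (h : U ∈ LS S) : U ∈ LG := by
  obtain ⟨N, hN, -, hU, -⟩ := mem_LS.1 h
  exact LG.mem_of_le hN hU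

theorem InN_of_mem_LS {U : Subgroup Gam} (h : U ∈ LS S) {r : Nat.Primes} (hr : r ∉ S) :
    InN (r : ℕ) U := by
  obtain ⟨N, -, -, hU, hI⟩ := mem_LS.1 h
  exact (hI r hr).mono hU

theorem mem_LS_of_inertia {U : Subgroup Gam} (hU : U ∈ LG)
    (h : ∀ r : Nat.Primes, r ∉ S → InN (r : ℕ) U) : U ∈ LS S := by
  refine mem_LS.2 ⟨U.normalCore, ?_, Subgroup.normalCore_normal U, U.normalCore_le, ?_⟩
  · obtain ⟨V, hV, hVU, hn⟩ := LG.exists_normal hU
    exact LG.mem_of_le hV (Subgroup.normal_le_normalCore.2 hVU)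
  · intro r hr A hA σ hσ τ
    exact h r hr (τ • A) (Gal.liesOverPrime_smul τ hA) (Gal.conj_mem_inertia hσ τ)

theorem mem_LS_iff_isUnramifiedOutside {U : Subgroup Gam} :
    U ∈ LS S ↔ ∃ F : IntermediateField ℚ Qb, F.IsUnramifiedOutside S ∧ F.fixingSubgroup ≤ U := by
  constructor
  · intro h
    obtain ⟨N, hN, -, hU, hI⟩ := mem_LS.1 h
    refine ⟨fixedField N, ⟨finiteDimensional_fixedField hN, fun r hr A hA => ?_⟩, ?_⟩
    · rw [fixingSubgroup_fixedField_of_mem hN]; exact hI r hr A hA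
    · rw [fixingSubgroup_fixedField_of_mem hN]; exact hU
  · rintro ⟨F, ⟨hF, hI⟩, hFU⟩
    have := hF
    exact (LS S).mem_of_le (mem_LS_of_inertia (fixingSubgroup_mem_krull F)
      fun r hr A hA => hI r hr A hA)
      hFU

/-- Every algebraic number has a nonzero integral multiple. -/
theorem exists_zsmul_isIntegral (x : Qb) : ∃ c : ℤ, c ≠ 0 ∧ IsIntegral ℤ (c • x) := by
  obtain ⟨c, hc⟩ := (Algebra.IsAlgebraic.isAlgebraic (R := ℚ) x).isIntegral
    |>.exists_multiple_integral_of_isLocalization (nonZeroDivisors ℤ)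
  exact ⟨c, nonZeroDivisors.ne_zero c.2, hc⟩

/-- Every level is a level of `G_S` for some finite `S`. -/
theorem exists_mem_LS {U : Subgroup Gam} (hU : U ∈ LG) :
    ∃ T : Finset Nat.Primes, U ∈ LS T := by
  classical
  obtain ⟨α₀, hα₀, hαU⟩ := exists_primitive hU
  obtain ⟨c, hc, hint⟩ := exists_zsmul_isIntegral α₀
  set α := c • α₀ with hαdef
  set f := minpoly ℤ α
  have hf0 : aeval α f = 0 := minpoly.aeval ℤ α
  have hder : aeval α f.derivative ≠ 0 := by
    have e : f.map (algebraMap ℤ ℚ) = minpoly ℚ α :=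
      (minpoly.isIntegrallyClosed_eq_field_fractions' ℚ hint).symm
    have h := Polynomial.Separable.aeval_derivative_ne_zero
      (Algebra.IsSeparable.isSeparable ℚ α) (minpoly.aeval ℚ α)
    rwa [← e, derivative_map, aeval_map_algebraMap] at h
  set b := (aeval α f.derivative)⁻¹
  obtain ⟨D, hD, hDb⟩ := exists_zsmul_isIntegral b
  refine ⟨(D.natAbs.divisors.filter Nat.Prime).subtype Nat.Prime, mem_LS_of_inertia hU
    fun r hr A hA σ hσ => ?_⟩
  have hnu : aeval α f.derivative ∉ A.nonunits := by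
    intro h
    refine hr (Finset.mem_subtype.2 (Finset.mem_filter.2 ⟨Nat.mem_divisors.2 ⟨?_, ?_⟩, r.2⟩))
    · have h1 : (D • b) * aeval α f.derivative ∈ A.nonunits := by
        rw [A.mem_nonunits_iff, map_mul]
        exact mul_lt_one_of_nonneg_of_lt_one_right
          ((A.valuation_le_one_iff _).2 (Gal.mem_of_isIntegral hDb)) zero_le h
      rw [smul_mul_assoc, inv_mul_cancel₀ hder, zsmul_one] at h1
      exact Int.natCast_dvd.1 ((Gal.intCast_mem_nonunits_iff r.2 hA D).1 h1)
    · simpa using hD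
  have hfix := Gal.inertia_fixes_of_separable hσ (minpoly.monic hint) hf0 hnu
  refine hαU σ ?_
  rw [hαdef, zsmul_eq_mul, map_mul, map_intCast] at hfix
  exact mul_left_cancel₀ (Int.cast_ne_zero.2 hc) hfix

theorem LS_mono {S' : Finset Nat.Primes} (h : S ⊆ S') {U : Subgroup Gam} (hU : U ∈ LS S) :
    U ∈ LS S' := by
  obtain ⟨N, hN, hn, hNU, hI⟩ := mem_LS.1 hU
  exact mem_LS.2 ⟨N, hN, hn, hNU, fun r hr => hI r fun hrS => hr (h hrS)⟩

/-- Roots of units at `q ≠ p` are fixed by inertia. -/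
theorem inertia_fixes_root {p : ℕ} [Fact p.Prime] (hqp : q ≠ p) {A : ValuationSubring Qb}
    (hA : A.LiesOverPrime q) {σ : Gam} (hσ : σ ∈ A.inertiaSubgroupIn ℚ) {r : Qb}
    (hrA : r ∈ A) (hrA' : r⁻¹ ∈ A) (hfix : σ (r ^ p) = r ^ p) : σ r = r := by
  by_cases hr : r = 0
  · simp [hr]
  obtain ⟨hD, hI⟩ := Gal.mem_inertia_iff.1 hσ
  set ε := σ r * r⁻¹ with hε
  have hεp : ε ^ p = 1 := by
    rw [hε, mul_pow, ← map_pow, hfix, inv_pow, mul_inv_cancel₀ (pow_ne_zero _ hr)]
  have hεA : ε ∈ A := mul_mem ((Gal.mem_decomposition_iff.1 hD r).2 hrA) hrA'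
  have h1 : ε - 1 ∈ A.nonunits := by
    have h : r⁻¹ * (σ r - r) ∈ A.nonunits := by
      rw [A.mem_nonunits_iff, map_mul]
      exact mul_lt_one_of_nonneg_of_lt_one_right ((A.valuation_le_one_iff _).2 hrA') zero_le
        (hI r hrA)
    rwa [mul_sub, inv_mul_cancel₀ hr, mul_comm] at h
  have hndvd : ¬ q ∣ p := fun h => hqp ((Nat.prime_dvd_prime_iff_eq Fact.out Fact.out).1 h)
  have := Gal.eq_of_congruent_roots (f := (X ^ p - 1 : ℤ[X]))
    (fun z : ℤ => by simp) (one_mem A) hεA (by simp) (by simp [hεp])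
    (Gal.natCast_mul_pow_ne_zero (Fact.out : q.Prime) hA hndvd (one_pow p)) h1
  rw [hε, mul_inv_eq_one₀ hr] at this
  exact this

end Fermat.Agent.PT
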